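import Mathlib
import Fermat.Prelude.Def_EllipticCurve_FrobeniusTrace
import Fermat.Prelude.Def_FLTPrelim_Ramification

/-!
# Frobenius and inertia on roots of unity of order prime to the residue characteristic
-/

set_option autoImplicit false

namespace FermatLib.Galois

variable {L : Type*} [Field L]

/-- The image of `n` in a valuation subring over `ℓ ∤ n` is a unit. -/
theorem isUnit_natCast_of_liesOverPrime (A : ValuationSubring L) {ℓ n : ℕ} (hℓ : ℓ.Prime)
    (hA : A.LiesOverPrime ℓ) (hn : ¬ ℓ ∣ n) : IsUnit (n : A) := by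
  by_contra hu
  obtain ⟨u, hu'⟩ : IsCoprime (ℓ : ℤ) (n : ℤ) :=
    Int.isCoprime_iff_gcd_eq_one.mpr (by simpa using (hℓ.coprime_iff_not_dvd.mpr hn))
  obtain ⟨v, huv⟩ := hu'
  have hℓm : (ℓ : A) ∈ IsLocalRing.maximalIdeal A := by
    obtain ⟨h1, h2⟩ := ValuationSubring.mem_nonunits_iff_exists_mem_maximalIdeal.mp hA
    exact h2
  have h1 : (1 : A) ∈ IsLocalRing.maximalIdeal A := by
    have e : (u : A) * (ℓ : A) + (v : A) * (n : A) = 1 := by exact_mod_cast congrArg (Int.cast : ℤ → A) huv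
    rw [← e]
    exact Ideal.add_mem _ (Ideal.mul_mem_left _ _ hℓm)
      (Ideal.mul_mem_left _ _ ((IsLocalRing.mem_maximalIdeal _).mpr hu))
  exact (IsLocalRing.maximalIdeal.isMaximal A).ne_top ((Ideal.eq_top_iff_one _).mpr h1)

/-- A root of unity of order prime to the residue characteristic is determined by its residue. -/
theorem residue_pow_injOn (A : ValuationSubring L) {ℓ n : ℕ} (hℓ : ℓ.Prime)
    (hA : A.LiesOverPrime ℓ) (hn : ¬ ℓ ∣ n) {ζ : A} (hζ : IsPrimitiveRoot ζ n) (a b : ℕ)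
    (h : IsLocalRing.residue A ζ ^ a = IsLocalRing.residue A ζ ^ b) : ζ ^ a = ζ ^ b := by
  obtain ⟨m, rfl⟩ : ∃ m, n = m + 1 :=
    ⟨n - 1, (Nat.succ_pred_eq_of_ne_zero (by rintro rfl; exact hn (dvd_zero ℓ))).symm⟩
  wlog hab : b ≤ a generalizing a b
  · exact (this b a h.symm (le_of_not_ge hab)).symm
  obtain ⟨j, rfl⟩ := Nat.exists_eq_add_of_le hab
  by_cases hj : (m + 1) ∣ j
  · rw [pow_add, hζ.pow_eq_one_iff_dvd j |>.mpr hj, mul_one]
  exfalso
  have hu : IsUnit (1 - ζ ^ (j % (m + 1))) := by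
    have hprod := hζ.prod_one_sub_pow_eq_order
    have hn' : IsUnit (((m + 1 : ℕ)) : A) := isUnit_natCast_of_liesOverPrime A hℓ hA hn
    push_cast at hn'
    rw [← hprod] at hn'
    have h0 : j % (m + 1) ≠ 0 := fun h0 => hj (Nat.dvd_of_mod_eq_zero h0)
    have hm : j % (m + 1) - 1 ∈ Finset.range m :=
      Finset.mem_range.mpr (by have := Nat.mod_lt j (y := m + 1) (by omega); omega)
    have h' := isUnit_of_dvd_unit (Finset.dvd_prod_of_mem _ hm) hn'
    rwa [Nat.sub_add_cancel (Nat.one_le_iff_ne_zero.mpr h0)] at h'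
  have hz : IsUnit (IsLocalRing.residue A ζ) := (hζ.isUnit (Nat.succ_ne_zero m)).map _
  rw [pow_add] at h
  have h1 : IsLocalRing.residue A ζ ^ j = 1 := (hz.pow b).mul_eq_left.mp h
  have h2 : IsLocalRing.residue A (1 - ζ ^ (j % (m + 1))) = 0 := by
    have e : ζ ^ (j % (m + 1)) = ζ ^ j := by
      conv_rhs => rw [← Nat.mod_add_div j (m + 1)]
      rw [pow_add, pow_mul, hζ.pow_eq_one, one_pow, mul_one]
    rw [e, map_sub, map_one, map_pow, h1, sub_self]
  exact (hu.map (IsLocalRing.residue A)).ne_zero h2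

variable {K : Type*} [Field K] [Algebra K L]

theorem isPrimitiveRoot_valuationSubring (A : ValuationSubring L) {n : ℕ} {ζ : L} (hn : n ≠ 0)
    (hζ : IsPrimitiveRoot ζ n) : ∃ z : A, (z : L) = ζ ∧ IsPrimitiveRoot z n := by
  have hmem : ζ ∈ A := by
    rcases A.mem_or_inv_mem ζ with h | h
    · exact h
    · have e : ζ = ζ⁻¹ ^ (n - 1) := by
        rw [inv_pow]
        refine eq_inv_of_mul_eq_one_left ?_
        rw [← pow_succ', Nat.sub_add_cancel (Nat.one_le_iff_ne_zero.mpr hn), hζ.pow_eq_one]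
      rw [e]; exact pow_mem h _
  exact ⟨⟨ζ, hmem⟩, rfl, IsPrimitiveRoot.of_map_of_injective (f := A.subtype) hζ
    Subtype.val_injective⟩

/-- An element of the decomposition group acting as `x ↦ x ^ q` on the residue field raises roots
of unity of order prime to the residue characteristic to the power `q`. -/
theorem apply_eq_pow_of_residue_smul_eq (A : ValuationSubring L) {ℓ n q : ℕ} (hℓ : ℓ.Prime)
    (hA : A.LiesOverPrime ℓ) (hn : ¬ ℓ ∣ n) {σ : L ≃ₐ[K] L}
    (hσ : σ ∈ A.decompositionSubgroup K)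
    (hres : ∀ x : IsLocalRing.ResidueField A,
      (⟨σ, hσ⟩ : A.decompositionSubgroup K) • x = x ^ q)
    {ζ : L} (hζ : IsPrimitiveRoot ζ n) : σ ζ = ζ ^ q := by
  have hn0 : n ≠ 0 := by rintro rfl; exact hn (dvd_zero ℓ)
  have : NeZero n := ⟨hn0⟩
  obtain ⟨z, rfl, hz⟩ := isPrimitiveRoot_valuationSubring A hn0 hζ
  set z' : A := (⟨σ, hσ⟩ : A.decompositionSubgroup K) • z
  have hz' : z' ^ n = 1 := by
    rw [← smul_pow', hz.pow_eq_one, smul_one]
  obtain ⟨j, -, hj⟩ := hz.eq_pow_of_pow_eq_one hz'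
  have h : IsLocalRing.residue A z ^ j = IsLocalRing.residue A z ^ q := by
    rw [← map_pow, hj, ← hres, IsLocalRing.ResidueField.residue_smul]
  have h' := residue_pow_injOn A hℓ hA hn hz j q h
  rw [h'] at hj
  exact (congrArg Subtype.val hj).symm

theorem apply_eq_pow_of_isFrobeniusAt (A : ValuationSubring L) {ℓ n : ℕ} (hℓ : ℓ.Prime)
    (hA : A.LiesOverPrime ℓ) (hn : ¬ ℓ ∣ n) {σ : L ≃ₐ[K] L} (hσ : A.IsFrobeniusAt σ ℓ)
    {ζ : L} (hζ : IsPrimitiveRoot ζ n) : σ ζ = ζ ^ ℓ :=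
  apply_eq_pow_of_residue_smul_eq A hℓ hA hn _ hσ.smul_residue_eq hζ

theorem apply_eq_self_of_mem_inertia (A : ValuationSubring L) {ℓ n : ℕ} (hℓ : ℓ.Prime)
    (hA : A.LiesOverPrime ℓ) (hn : ¬ ℓ ∣ n) {σ : L ≃ₐ[K] L} (hσ : σ ∈ A.inertiaSubgroupIn K)
    {ζ : L} (hζ : IsPrimitiveRoot ζ n) : σ ζ = ζ := by
  obtain ⟨τ, hτ, rfl⟩ := hσ
  have h : ∀ x : IsLocalRing.ResidueField A, τ • x = x ^ 1 := fun x => by
    rw [pow_one]
    exact DFunLike.congr_fun (MonoidHom.mem_ker.mp hτ) x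
  simpa using apply_eq_pow_of_residue_smul_eq A hℓ hA hn τ.2 h hζ

end FermatLib.Galois
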