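import Fermat.Agent.Galois.PlaceFiniteLevel
import Fermat.Agent.Galois.TransferCyclo
import Fermat.Agent.EC.InertiaMinkowski
import Fermat.Prelude.Def_ExtCitation_KummerBridge
import Fermat.Prelude.Def_GaloisRep_CompletionBridge
import Fermat.Prelude.Def_GaloisRep_ComplexConjugation
import Mathlib.NumberTheory.Cyclotomic.Gal

/-!
# Cyclotomic characters at Frobenius and inertia

Frobenius at `ℓ` acts on roots of unity of order prime to `ℓ` by `ℓ`, inertia trivially; inertia
at `p` has full image in `(ℤ/p^k)ˣ`; complex conjugation acts by `-1`; the place attached to the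
chosen embedding into the completion lies over the prime.
-/

set_option autoImplicit false

open scoped Pointwise

namespace FermatLib.Galois

local notation "Qbar" => AlgebraicClosure ℚ
local notation "Γℚ" => (AlgebraicClosure ℚ ≃ₐ[ℚ] AlgebraicClosure ℚ)

local instance cyclotomicFrobenius_isAlgebraic : Algebra.IsAlgebraic ℚ Qbar :=
  AlgebraicClosure.isAlgebraic ℚ

local instance cyclotomicFrobenius_isGalois : IsGalois ℚ Qbar :=
  haveI : IsAlgClosure ℚ Qbar := ⟨inferInstance, inferInstance⟩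
  haveI : Normal ℚ Qbar := IsAlgClosure.normal ℚ Qbar
  ⟨⟩

section Modular

variable {L : Type*} [Field L] {K : Type*} [Field K] [Algebra K L]
variable {n : ℕ} [NeZero n] (hn : Nat.card (rootsOfUnity n L) = n)

/-- The cyclotomic character is determined by the action on one primitive root. -/
theorem modularCyclotomicCharacter_eq_natCast_of_apply {ζ : L} (hζ : IsPrimitiveRoot ζ n)
    (g : L ≃+* L) {m : ℕ} (h : g ζ = ζ ^ m) :
    (modularCyclotomicCharacter L hn g : ZMod n) = m := by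
  refine (modularCyclotomicCharacter.unique L hn g fun t ht => ?_).symm
  have ht' : (t : L) ^ n = 1 := by
    rw [← Units.val_pow_eq_pow_val, (mem_rootsOfUnity n t).mp ht, Units.val_one]
  obtain ⟨i, -, hi⟩ := hζ.eq_pow_of_pow_eq_one ht'
  rw [← hi, map_pow, h, ZMod.val_natCast, ← pow_mul, ← pow_mul,
    mul_comm i, pow_mul, pow_mul]
  congr 1
  conv_lhs => rw [← Nat.mod_add_div m n, pow_add, pow_mul, hζ.pow_eq_one, one_pow, mul_one]

variable {ℓ : ℕ} {A : ValuationSubring L} [IsAlgClosed L] [CharZero L]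

/-- The cyclotomic character of a Frobenius at `ℓ ∤ n` is `ℓ`. -/
theorem modularCyclotomicCharacter_frobenius (hℓ : ℓ.Prime) (hA : A.LiesOverPrime ℓ)
    (hℓn : ¬ ℓ ∣ n) {σ : L ≃ₐ[K] L} (hσ : A.IsFrobeniusAt σ ℓ) :
    (modularCyclotomicCharacter L hn (σ : L ≃+* L) : ZMod n) = ℓ := by
  haveI : NeZero (n : L) := ⟨Nat.cast_ne_zero.mpr (NeZero.ne n)⟩
  obtain ⟨ζ, hζ⟩ := HasEnoughRootsOfUnity.exists_primitiveRoot L n
  exact modularCyclotomicCharacter_eq_natCast_of_apply hn hζ _
    (apply_eq_pow_of_isFrobeniusAt A hℓ hA hℓn hσ hζ)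

/-- The cyclotomic character is trivial on inertia at `ℓ ∤ n`. -/
theorem modularCyclotomicCharacter_inertia (hℓ : ℓ.Prime) (hA : A.LiesOverPrime ℓ)
    (hℓn : ¬ ℓ ∣ n) {σ : L ≃ₐ[K] L} (hσ : σ ∈ A.inertiaSubgroupIn K) :
    modularCyclotomicCharacter L hn (σ : L ≃+* L) = 1 := by
  haveI : NeZero (n : L) := ⟨Nat.cast_ne_zero.mpr (NeZero.ne n)⟩
  obtain ⟨ζ, hζ⟩ := HasEnoughRootsOfUnity.exists_primitiveRoot L n
  have h := modularCyclotomicCharacter_eq_natCast_of_apply hn hζ (σ : L ≃+* L) (m := 1)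
    (by rw [pow_one]; exact apply_eq_self_of_mem_inertia A hℓ hA hℓn hσ hζ)
  exact Units.ext (by rw [h, Nat.cast_one, Units.val_one])

end Modular

/-- The cyclotomic character modulo `n` on the absolute Galois group of `ℚ`. -/
noncomputable def modCycloChar (n : ℕ) [NeZero n] : Γℚ →* (ZMod n)ˣ :=
  MonoidHom.mk'
    (fun σ => modularCyclotomicCharacter Qbar (IsAlgClosed.card_rootsOfUnity_eq Qbar n)
      (σ : Qbar ≃+* Qbar))
    (fun a b => by rw [← map_mul]; congr 1)

lemma modCycloChar_apply (n : ℕ) [NeZero n] (σ : Γℚ) :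
    modCycloChar n σ = modularCyclotomicCharacter Qbar (IsAlgClosed.card_rootsOfUnity_eq Qbar n)
      (σ : Qbar ≃+* Qbar) := rfl

lemma apply_eq_pow_modCycloChar (n : ℕ) [NeZero n] (σ : Γℚ) {ζ : Qbar} (hζ : ζ ^ n = 1) :
    σ ζ = ζ ^ ((modCycloChar n σ : ZMod n)).val := by
  simpa [modCycloChar_apply] using modularCyclotomicCharacter.spec Qbar (IsAlgClosed.card_rootsOfUnity_eq Qbar n)
    (σ : Qbar ≃+* Qbar) (rootsOfUnity.mkOfPowEq ζ hζ).2

lemma modCycloChar_eq_cycloChar (p : ℕ) [Fact p.Prime] :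
    haveI : NeZero p := ⟨(Fact.out : p.Prime).ne_zero⟩
    modCycloChar p = ExtCitation.cycloChar p := rfl

theorem modCycloChar_frobenius {n : ℕ} [NeZero n] {ℓ : ℕ} (hℓ : ℓ.Prime) (hℓn : ¬ ℓ ∣ n)
    {A : ValuationSubring Qbar} (hA : A.LiesOverPrime ℓ) {σ : Γℚ} (hσ : A.IsFrobeniusAt σ ℓ) :
    (modCycloChar n σ : ZMod n) = ℓ :=
  modularCyclotomicCharacter_frobenius _ hℓ hA hℓn hσ

theorem modCycloChar_inertia {n : ℕ} [NeZero n] {ℓ : ℕ} (hℓ : ℓ.Prime) (hℓn : ¬ ℓ ∣ n)
    {A : ValuationSubring Qbar} (hA : A.LiesOverPrime ℓ) {σ : Γℚ}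
    (hσ : σ ∈ A.inertiaSubgroupIn ℚ) : modCycloChar n σ = 1 :=
  modularCyclotomicCharacter_inertia _ hℓ hA hℓn hσ

/-- The cyclotomic character factors through the field of a primitive root. -/
theorem modCycloChar_eq_one_of_mem_fixingSubgroup {n : ℕ} [NeZero n] {ζ : Qbar}
    (hζ : IsPrimitiveRoot ζ n) {σ : Γℚ}
    (hσ : σ ∈ (IntermediateField.adjoin ℚ {ζ}).fixingSubgroup) : modCycloChar n σ = 1 := by
  have h : σ ζ = ζ :=
    (IntermediateField.mem_fixingSubgroup_iff _ σ).mp hσ ζ
      (IntermediateField.mem_adjoin_simple_self ℚ ζ)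
  have h1 := modularCyclotomicCharacter_eq_natCast_of_apply
    (IsAlgClosed.card_rootsOfUnity_eq Qbar n) hζ (σ : Qbar ≃+* Qbar) (m := 1) (by rwa [pow_one])
  exact Units.ext (by rw [modCycloChar_apply, h1, Nat.cast_one, Units.val_one])

/-- The cyclotomic character is continuous: it is trivial on an open subgroup. -/
theorem exists_finite_level_modCycloChar (n : ℕ) [NeZero n] :
    ∃ F : IntermediateField ℚ Qbar, FiniteDimensional ℚ F ∧
      ∀ σ ∈ F.fixingSubgroup, modCycloChar n σ = 1 := by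
  obtain ⟨ζ, hζ⟩ := HasEnoughRootsOfUnity.exists_primitiveRoot Qbar n
  exact ⟨_, IntermediateField.adjoin.finiteDimensional
    ((hζ.isIntegral (NeZero.pos n)).tower_top), fun σ hσ =>
      modCycloChar_eq_one_of_mem_fixingSubgroup hζ hσ⟩

/-- The cyclotomic character is surjective (irreducibility of cyclotomic polynomials). -/
theorem modCycloChar_surjective (n : ℕ) [NeZero n] : Function.Surjective (modCycloChar n) := by
  intro u
  obtain ⟨ζ, hζ⟩ := HasEnoughRootsOfUnity.exists_primitiveRoot Qbar n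
  have hmin : minpoly ℚ ζ = Polynomial.cyclotomic n ℚ :=
    (Polynomial.cyclotomic_eq_minpoly_rat hζ (NeZero.pos n)).symm
  have hu : IsPrimitiveRoot (ζ ^ (u : ZMod n).val) n :=
    hζ.pow_of_coprime _ (ZMod.val_coe_unit_coprime u)
  obtain ⟨σ, hσ⟩ : ∃ σ : Γℚ, σ ζ = ζ ^ (u : ZMod n).val := by
    refine minpoly.exists_algEquiv_of_root' (Algebra.IsAlgebraic.isAlgebraic ζ) ?_
    rw [hmin, Polynomial.aeval_def, ← Polynomial.eval_map,
      Polynomial.map_cyclotomic]
    exact hu.isRoot_cyclotomic (NeZero.pos n)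
  refine ⟨σ, Units.ext ?_⟩
  rw [modCycloChar_apply, modularCyclotomicCharacter_eq_natCast_of_apply _ hζ _ hσ,
    ZMod.natCast_zmod_val]

/-- Inertia at `p` has full image under the cyclotomic character modulo a power of `p`. -/
theorem exists_inertia_modCycloChar_eq {p : ℕ} (hp : p.Prime) (k : ℕ) [NeZero (p ^ k)]
    {A : ValuationSubring Qbar} (hA : A.LiesOverPrime p) (u : (ZMod (p ^ k))ˣ) :
    ∃ σ ∈ A.inertiaSubgroupIn ℚ, modCycloChar (p ^ k) σ = u := by
  let H : Subgroup Γℚ := ((A.inertiaSubgroupIn ℚ).map (modCycloChar (p ^ k))).comap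
    (modCycloChar (p ^ k))
  obtain ⟨F, hF, hFker⟩ := exists_finite_level_modCycloChar (p ^ k)
  haveI := hF
  have htop : H = ⊤ := by
    refine FermatLib.EC.eq_top_of_forall_inertia_le H F (fun σ hσ => ?_) fun q hq B hB σ hσ => ?_
    · rw [Subgroup.mem_comap, hFker σ hσ]
      exact one_mem _
    · rcases eq_or_ne q p with rfl | hqp
      · obtain ⟨g, rfl⟩ := exists_smul_place_eq hq hA hB
        refine ⟨g⁻¹ * σ * g, mem_inertiaSubgroupIn_smul.mp hσ, ?_⟩
        rw [map_mul, map_mul, map_inv, mul_comm ((modCycloChar _) g)⁻¹, inv_mul_cancel_right]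
      · have hdvd : ¬ q ∣ p ^ k := fun h =>
          hqp ((Nat.prime_dvd_prime_iff_eq hq hp).mp (hq.dvd_of_dvd_pow h))
        rw [Subgroup.mem_comap, modCycloChar_inertia hq hdvd hB hσ]
        exact one_mem _
  obtain ⟨τ, hτ⟩ := modCycloChar_surjective (p ^ k) u
  have : τ ∈ H := htop ▸ Subgroup.mem_top τ
  rw [Subgroup.mem_comap, hτ] at this
  exact this

/-- Inertia at `p` has full image under the mod `p` cyclotomic character. -/
theorem exists_inertia_cycloChar_eq {p : ℕ} [Fact p.Prime]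
    {A : ValuationSubring Qbar} (hA : A.LiesOverPrime p) (u : (ZMod p)ˣ) :
    ∃ σ ∈ A.inertiaSubgroupIn ℚ, ExtCitation.cycloChar p σ = u := by
  haveI : NeZero p := ⟨(Fact.out : p.Prime).ne_zero⟩
  have key : ∀ (m : ℕ) (_ : m = p ^ 1) [NeZero m] (v : (ZMod m)ˣ),
      ∃ σ ∈ A.inertiaSubgroupIn ℚ, modCycloChar m σ = v := by
    intro m hm _ v
    subst hm
    exact exists_inertia_modCycloChar_eq Fact.out 1 hA v
  rw [← modCycloChar_eq_cycloChar p]
  exact key p (pow_one p).symm u

section Padic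

variable {p : ℕ} [Fact p.Prime]

local instance hasEnoughPPowRoots (i : ℕ) : HasEnoughRootsOfUnity Qbar (p ^ i) :=
  haveI : NeZero ((p ^ i : ℕ) : Qbar) :=
    ⟨Nat.cast_ne_zero.mpr (pow_ne_zero _ (Fact.out : p.Prime).ne_zero)⟩
  inferInstance

end Padic

/-- Complex conjugation inverts roots of unity. -/
theorem complexConjugation_apply_of_pow_eq_one {n : ℕ} (hn : n ≠ 0) {ζ : Qbar}
    (hζ : ζ ^ n = 1) : complexConjugation ζ = ζ⁻¹ := by
  apply complexEmbedding.injective
  change complexEmbedding (complexConjugation ζ) = complexEmbedding ζ⁻¹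
  rw [complexEmbedding_complexConjugation, map_inv₀,
    Complex.inv_eq_conj (Complex.norm_eq_one_of_pow_eq_one (by rw [← map_pow, hζ, map_one]) hn)]

/-- Complex conjugation has cyclotomic character `-1`. -/
theorem modCycloChar_complexConjugation (n : ℕ) [NeZero n] :
    modCycloChar n complexConjugation = -1 := by
  obtain ⟨ζ, hζ⟩ := HasEnoughRootsOfUnity.exists_primitiveRoot Qbar n
  refine Units.ext ?_
  rw [modCycloChar_apply, modularCyclotomicCharacter_eq_natCast_of_apply _ hζ
    (complexConjugation : Qbar ≃+* Qbar) (m := n - 1) ?_, Nat.cast_sub (NeZero.pos n),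
    ZMod.natCast_self, Nat.cast_one, zero_sub, Units.val_neg, Units.val_one]
  change complexConjugation ζ = _
  rw [complexConjugation_apply_of_pow_eq_one (NeZero.ne n) hζ.pow_eq_one]
  refine inv_eq_of_mul_eq_one_right ?_
  rw [← pow_succ', Nat.sub_add_cancel (NeZero.pos n), hζ.pow_eq_one]

/-- The place of the chosen embedding into the completion lies over `q`. -/
theorem padicPlace_liesOverPrime (q : ℕ) [Fact q.Prime] : (padicPlace q).LiesOverPrime q := by
  rw [ValuationSubring.LiesOverPrime, ValuationSubring.mem_nonunits_iff_or]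
  refine Or.inr ?_
  rw [mem_padicPlace_iff, map_inv₀, map_natCast, not_le, nnnorm_inv]
  have h : ‖(q : PadicAlgCl q)‖₊ < 1 := by
    rw [← NNReal.coe_lt_coe, coe_nnnorm, ← map_natCast (algebraMap ℚ_[q] (PadicAlgCl q)),
      PadicAlgCl.norm_extends, NNReal.coe_one]
    exact Padic.norm_p_lt_one
  exact (one_lt_inv₀ (by simp [(Fact.out : q.Prime).ne_zero])).mpr h

/-- Every place over `q` is a translate of the place of the chosen embedding. -/
theorem exists_smul_padicPlace_eq {q : ℕ} [Fact q.Prime] {A : ValuationSubring Qbar}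
    (hA : A.LiesOverPrime q) : ∃ g : Γℚ, g • padicPlace q = A :=
  exists_smul_place_eq Fact.out (padicPlace_liesOverPrime q) hA

end FermatLib.Galois
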