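import Fermat.Agent.Galois.FrobeniusElement
import Mathlib.RingTheory.Frobenius
import Mathlib.RingTheory.IntegralClosure.IntegralRestrict
import Mathlib.FieldTheory.KrullTopology

/-!
# Places of `ℚ̄` and primes of number fields

Only finitely many primes ramify in a number field (in terms of inertia subgroups of `ℚ̄`), every
prime of a number field lies below a place of `ℚ̄`, and Frobenius and inertia elements correspond
to `IsArithFrobAt` and `Ideal.inertia` at finite Galois level.
-/

set_option autoImplicit false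

open scoped Pointwise NumberField

namespace FermatLib.Galois

open FermatLib.Basic

local notation "Qbar" => AlgebraicClosure ℚ
local notation "Γℚ" => (AlgebraicClosure ℚ ≃ₐ[ℚ] AlgebraicClosure ℚ)
local notation "Zbar" => integralClosure ℤ (AlgebraicClosure ℚ)

local instance finiteLevel_isAlgebraic : Algebra.IsAlgebraic ℚ Qbar :=
  AlgebraicClosure.isAlgebraic ℚ

local instance finiteLevel_isGalois : IsGalois ℚ Qbar :=
  haveI : IsAlgClosure ℚ Qbar := ⟨inferInstance, inferInstance⟩
  haveI : Normal ℚ Qbar := IsAlgClosure.normal ℚ Qbar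
  ⟨⟩

/-- A nonzero algebraic number is in the maximal ideal only of places over finitely many primes. -/
theorem exists_finset_primes_not_mem_nonunits {y : Qbar} (hy : y ≠ 0) :
    ∃ S : Finset ℕ, ∀ q : ℕ, q.Prime → q ∉ S → ∀ A : ValuationSubring Qbar,
      A.LiesOverPrime q → y ∉ A.nonunits := by
  obtain ⟨f, hf, hfy⟩ := (IsFractionRing.isAlgebraic_iff ℤ ℚ Qbar).mpr
    (Algebra.IsAlgebraic.isAlgebraic y)
  obtain ⟨g, hg, hgX⟩ := f.exists_eq_pow_rootMultiplicity_mul_and_not_dvd hf 0
  rw [map_zero, sub_zero] at hg hgX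
  have hgy : Polynomial.aeval y g = 0 := by
    have h := hfy
    rw [hg, map_mul, map_pow, Polynomial.aeval_X] at h
    exact (mul_eq_zero.mp h).resolve_left (pow_ne_zero _ hy)
  have hc : g.coeff 0 ≠ 0 := fun h => hgX (Polynomial.X_dvd_iff.mpr h)
  refine ⟨(g.coeff 0).natAbs.primeFactors, fun q hq hqS A hA hyA => hqS ?_⟩
  refine Nat.mem_primeFactors.mpr ⟨hq, ?_, Int.natAbs_ne_zero.mpr hc⟩
  rw [← Int.natCast_dvd, ← intCast_mem_nonunits_iff hq hA]
  have h := congrArg (Polynomial.aeval y) g.X_mul_divX_add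
  rw [hgy, map_add, map_mul, Polynomial.aeval_X, Polynomial.aeval_C, eq_intCast] at h
  rw [eq_neg_of_add_eq_zero_right h]
  have hyA' : y ∈ A := A.nonunits_subset hyA
  have hw : Polynomial.aeval y g.divX ∈ A := by
    generalize g.divX = u
    induction u using Polynomial.induction_on' with
    | add a b ha hb => rw [map_add]; exact add_mem ha hb
    | monomial n c =>
      rw [Polynomial.aeval_monomial, eq_intCast]
      exact mul_mem (intCast_mem A c) (pow_mem hyA' n)
  refine (ValuationSubring.coe_mem_nonunits_iff (a := -(⟨y, hyA'⟩ * ⟨_, hw⟩ : A))).mpr ?_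
  exact neg_mem (Ideal.mul_mem_right _ _ (A.coe_mem_nonunits_iff.mp hyA))

/-- An algebraic number is integral at all places outside finitely many primes. -/
theorem exists_finset_primes_mem_place (x : Qbar) :
    ∃ S : Finset ℕ, ∀ q : ℕ, q.Prime → q ∉ S → ∀ A : ValuationSubring Qbar,
      A.LiesOverPrime q → x ∈ A := by
  rcases eq_or_ne x 0 with rfl | hx
  · exact ⟨∅, fun _ _ _ A _ => zero_mem A⟩
  · obtain ⟨S, hS⟩ := exists_finset_primes_not_mem_nonunits (inv_ne_zero hx)
    refine ⟨S, fun q hq hqS A hA => ?_⟩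
    have h := hS q hq hqS A hA
    rw [ValuationSubring.inv_mem_nonunits_iff, not_or, not_not] at h
    exact h.2

/-- Inertia outside finitely many primes fixes a given algebraic number. -/
theorem exists_finset_inertia_fix (x : Qbar) :
    ∃ S : Finset ℕ, ∀ q : ℕ, q.Prime → q ∉ S → ∀ A : ValuationSubring Qbar,
      A.LiesOverPrime q → ∀ σ ∈ A.inertiaSubgroupIn ℚ, σ x = x := by
  classical
  obtain ⟨S₀, hS₀⟩ := exists_finset_primes_mem_place x
  have hx := (Algebra.IsAlgebraic.isAlgebraic (R := ℚ) x).isIntegral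
  let R := ((minpoly ℚ x).aroots Qbar).toFinset
  let D := (R.image fun r => r - x).erase 0
  choose S hS using fun y : D =>
    exists_finset_primes_not_mem_nonunits (Finset.ne_of_mem_erase y.2)
  refine ⟨S₀ ∪ Finset.univ.biUnion S, fun q hq hqS A hA σ hσ => ?_⟩
  rw [Finset.mem_union, not_or] at hqS
  by_contra hne
  have hmem : σ x - x ∈ D := by
    refine Finset.mem_erase.mpr ⟨sub_ne_zero.mpr hne, Finset.mem_image.mpr ⟨σ x, ?_, rfl⟩⟩
    rw [Multiset.mem_toFinset, Polynomial.mem_aroots, Polynomial.aeval_algHom_apply, minpoly.aeval,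
      map_zero]
    exact ⟨minpoly.ne_zero hx, rfl⟩
  exact hS ⟨_, hmem⟩ q hq
    (fun h => hqS.2 (Finset.mem_biUnion.mpr ⟨⟨_, hmem⟩, Finset.mem_univ _, h⟩)) A hA
    ((mem_inertiaSubgroupIn_iff_forall_mem.mp hσ).2 x (hS₀ q hq hqS.1 A hA))

/-- Only finitely many primes ramify in a number field. -/
theorem exists_finset_inertia_le_fixingSubgroup (L : IntermediateField ℚ Qbar)
    [FiniteDimensional ℚ L] :
    ∃ S : Finset ℕ, ∀ q : ℕ, q.Prime → q ∉ S → ∀ A : ValuationSubring Qbar,
      A.LiesOverPrime q → A.inertiaSubgroupIn ℚ ≤ L.fixingSubgroup := by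
  classical
  let b := Module.finBasis ℚ L
  choose S hS using fun i => exists_finset_inertia_fix (b i : Qbar)
  refine ⟨Finset.univ.biUnion S, fun q hq hqS A hA σ hσ => ?_⟩
  rw [IntermediateField.mem_fixingSubgroup_iff]
  intro x hx
  have h : σ.toAlgHom.comp L.val = L.val := by
    have h' : (σ.toAlgHom.comp L.val).toLinearMap = L.val.toLinearMap :=
      b.ext fun i => hS i q hq
        (fun h => hqS (Finset.mem_biUnion.mpr ⟨i, Finset.mem_univ _, h⟩)) A hA σ hσ
    exact AlgHom.toLinearMap_injective h'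
  exact DFunLike.congr_fun h ⟨x, hx⟩

section FiniteLevel

variable (L : IntermediateField ℚ Qbar) [FiniteDimensional ℚ L]

/-- The algebraic integer given by an integer of `L`. -/
noncomputable def levelIntegers : 𝓞 L →+* Zbar :=
  ((algebraMap L Qbar).comp (algebraMap (𝓞 L) L)).codRestrict
    (integralClosure ℤ Qbar).toSubring fun a =>
      (NumberField.RingOfIntegers.isIntegral_coe a).map (algebraMap L Qbar).toIntAlgHom

lemma exists_levelIntegers_eq {x : Zbar} (hx : (x : Qbar) ∈ L) :
    ∃ a : 𝓞 L, levelIntegers L a = x :=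
  ⟨⟨⟨(x : Qbar), hx⟩,
    (isIntegral_algHom_iff (algebraMap L Qbar).toIntAlgHom (algebraMap L Qbar).injective).mp x.2⟩,
    Subtype.ext rfl⟩

/-- The prime of `L` below a place. -/
noncomputable def placePrime (A : ValuationSubring Qbar) : Ideal (𝓞 L) :=
  (centerIdeal A).comap (levelIntegers L)

lemma mem_placePrime_iff {A : ValuationSubring Qbar} {a : 𝓞 L} :
    a ∈ placePrime L A ↔ ((a : L) : Qbar) ∈ A.nonunits :=
  mem_centerIdeal_iff (x := levelIntegers L a)

instance placePrime_isPrime (A : ValuationSubring Qbar) : (placePrime L A).IsPrime :=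
  Ideal.comap_isPrime _ _

lemma natCast_mem_placePrime {A : ValuationSubring Qbar} {p : ℕ} (hA : A.LiesOverPrime p) :
    (p : 𝓞 L) ∈ placePrime L A := by
  rw [placePrime, Ideal.mem_comap, map_natCast, mem_centerIdeal_iff]
  simpa [ValuationSubring.LiesOverPrime] using hA

/-- Every prime of `L` over `p` lies below a place over `p`. -/
theorem exists_place_placePrime_eq {p : ℕ} (hp : p.Prime) (Q : Ideal (𝓞 L)) [Q.IsPrime]
    (hQ : (p : 𝓞 L) ∈ Q) :
    ∃ A : ValuationSubring Qbar, A.LiesOverPrime p ∧ placePrime L A = Q := by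
  haveI : NumberField L := ⟨⟩
  let ι : 𝓞 L →+* Qbar := (algebraMap L Qbar).comp (algebraMap (𝓞 L) L)
  have hι : Function.Injective ι :=
    (algebraMap L Qbar).injective.comp (IsFractionRing.injective (𝓞 L) L)
  let e : 𝓞 L ≃+* ι.range :=
    RingEquiv.ofBijective ι.rangeRestrict
      ⟨fun a b h => hι (congrArg (fun z : ι.range => (z : Qbar)) h), ι.rangeRestrict_surjective⟩
  have hne : Q.map (e : 𝓞 L →+* ι.range) ≠ ⊤ := by
    intro h
    have h2 := congrArg (Ideal.comap (e : 𝓞 L →+* ι.range)) h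
    rw [Ideal.comap_top, Ideal.comap_map_of_bijective (e : 𝓞 L →+* ι.range) e.bijective] at h2
    exact Ideal.IsPrime.ne_top ‹_› h2
  obtain ⟨A, -, hQA⟩ := Ideal.image_subset_nonunits_valuationSubring _ hne
  have hle : Q ≤ placePrime L A := fun a ha =>
    (mem_placePrime_iff L).mpr (hQA ⟨(e : 𝓞 L →+* ι.range) a, Ideal.mem_map_of_mem _ ha, rfl⟩)
  have hA : A.LiesOverPrime p := by
    have := (mem_placePrime_iff L).mp (hle hQ)
    simpa [ValuationSubring.LiesOverPrime] using this
  have hQ0 : Q ≠ ⊥ := fun h => hp.ne_zero (by simpa [h] using hQ)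
  have hQmax : Q.IsMaximal := Ideal.IsPrime.isMaximal ‹_› hQ0
  exact ⟨A, hA, (hQmax.eq_of_le (Ideal.IsPrime.ne_top inferInstance) hle).symm⟩

variable [IsGalois ℚ L]

/-- The restriction of an automorphism acts on integers of `L` as the automorphism. -/
lemma coe_restrictNormal_smul (τ : Γℚ) (a : 𝓞 L) :
    (((τ.restrictNormal L • a : 𝓞 L) : L) : Qbar) = τ ((a : L) : Qbar) := by
  have h : ((τ.restrictNormal L • a : 𝓞 L) : L) = τ.restrictNormal L (a : L) := rfl
  rw [h]
  exact AlgEquiv.restrictNormal_commutes τ L (a : L)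

lemma natCard_quotient_under {p : ℕ} (hp : p.Prime) (Q : Ideal (𝓞 L)) [Q.IsPrime]
    (hQ : (p : 𝓞 L) ∈ Q) : Nat.card (ℤ ⧸ Q.under ℤ) = p := by
  have h : Q.under ℤ = Ideal.span {(p : ℤ)} := by
    refine ((PrincipalIdealRing.isMaximal_of_irreducible
      (Nat.prime_iff_prime_int.mp hp).irreducible).eq_of_le
      (Ideal.comap_ne_top _ Ideal.IsPrime.ne_top') ?_).symm
    rw [Ideal.span_singleton_le_iff_mem, Ideal.mem_comap, map_natCast]
    exact hQ
  rw [h, Nat.card_congr (Int.quotientSpanNatEquivZMod p).toEquiv, Nat.card_zmod]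

/-- An arithmetic Frobenius at finite level lifts to a Frobenius at any place above. -/
theorem exists_isFrobeniusAt_lift {A : ValuationSubring Qbar} {p : ℕ} (hp : p.Prime)
    (hA : A.LiesOverPrime p) {s : L ≃ₐ[ℚ] L} (hs : IsArithFrobAt ℤ s (placePrime L A)) :
    ∃ τ : Γℚ, A.IsFrobeniusAt τ p ∧ τ.restrictNormal L = s := by
  haveI : Fact p.Prime := ⟨hp⟩
  haveI := charP_residueField hp hA
  haveI := isAlgClosed_residueField A
  obtain ⟨σ₀, hσ₀⟩ := AlgEquiv.restrictNormalHom_surjective (F := ℚ) (K₁ := L) Qbar s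
  have hσL : ∀ x : L, σ₀ x = s x := fun x => by
    rw [← hσ₀]; exact (AlgEquiv.restrictNormal_commutes σ₀ L x).symm
  obtain ⟨g, hgL, hg⟩ := exists_decomposition_lift L hp hA σ₀
    (frobeniusEquiv (IsLocalRing.ResidueField A) p) fun x hx => by
      obtain ⟨a, rfl⟩ := exists_levelIntegers_eq L hx
      have h := hs a
      rw [natCard_quotient_under L hp _ (natCast_mem_placePrime L hA)] at h
      have h' : residueIntegers A (levelIntegers L (s • a - a ^ p)) = 0 := by
        rw [← RingHom.mem_ker, ker_residueIntegers]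
        exact h
      rw [map_sub, map_sub, map_pow, map_pow, sub_eq_zero] at h'
      rw [frobeniusEquiv_apply, frobenius_def, ← h']
      exact congrArg _ (Subtype.ext (hσL (a : L)))
  refine ⟨g.1, ⟨g.2, fun r => ?_⟩, AlgEquiv.ext fun x => Subtype.ext ?_⟩
  · rw [Subtype.coe_eta, hg, frobeniusEquiv_apply, frobenius_def]
  · rw [show ((g.1.restrictNormal L x : L) : Qbar) = g.1 x from
      AlgEquiv.restrictNormal_commutes g.1 L x, hgL x x.2, hσL]

/-- An inertia element at finite level lifts to inertia at any place above. -/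
theorem exists_inertia_restrictNormal_eq {A : ValuationSubring Qbar} {p : ℕ} (hp : p.Prime)
    (hA : A.LiesOverPrime p) {s : L ≃ₐ[ℚ] L}
    (hs : s ∈ (placePrime L A).inertia (L ≃ₐ[ℚ] L)) :
    ∃ τ ∈ A.inertiaSubgroupIn ℚ, τ.restrictNormal L = s := by
  obtain ⟨σ₀, hσ₀⟩ := AlgEquiv.restrictNormalHom_surjective (F := ℚ) (K₁ := L) Qbar s
  have hσL : ∀ x : L, σ₀ x = s x := fun x => by
    rw [← hσ₀]; exact (AlgEquiv.restrictNormal_commutes σ₀ L x).symm
  obtain ⟨g, hgL, hg⟩ := exists_decomposition_lift L hp hA σ₀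
    (RingEquiv.refl _) fun x hx => by
      obtain ⟨a, rfl⟩ := exists_levelIntegers_eq L hx
      have h' : residueIntegers A (levelIntegers L (s • a - a)) = 0 := by
        rw [← RingHom.mem_ker, ker_residueIntegers]
        exact hs a
      rw [map_sub, map_sub, sub_eq_zero] at h'
      rw [RingEquiv.refl_apply, ← h']
      exact congrArg _ (Subtype.ext (hσL (a : L)))
  refine ⟨g.1, mem_inertiaSubgroupIn_iff_smul.mpr ⟨g.2, fun r => ?_⟩,
    AlgEquiv.ext fun x => Subtype.ext ?_⟩
  · rw [Subtype.coe_eta, hg, RingEquiv.refl_apply]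
  · rw [show ((g.1.restrictNormal L x : L) : Qbar) = g.1 x from
      AlgEquiv.restrictNormal_commutes g.1 L x, hgL x x.2, hσL]

/-- A prime of a finite Galois extension with an arithmetic Frobenius gives a place of `ℚ̄` with a
Frobenius restricting to it. -/
theorem exists_isFrobeniusAt_of_isArithFrobAt {p : ℕ} (hp : p.Prime) (Q : Ideal (𝓞 L)) [Q.IsPrime]
    (hQ : (p : 𝓞 L) ∈ Q) {s : L ≃ₐ[ℚ] L} (hs : IsArithFrobAt ℤ s Q) :
    ∃ A : ValuationSubring Qbar, A.LiesOverPrime p ∧
      ∃ τ : Γℚ, A.IsFrobeniusAt τ p ∧ ∀ x : L, τ x = s x := by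
  obtain ⟨A, hA, rfl⟩ := exists_place_placePrime_eq L hp Q hQ
  obtain ⟨τ, hτ, hτs⟩ := exists_isFrobeniusAt_lift L hp hA hs
  exact ⟨A, hA, τ, hτ, fun x => by
    rw [← hτs]; exact (AlgEquiv.restrictNormal_commutes τ L x).symm⟩

end FiniteLevel

end FermatLib.Galois
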