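import Fermat.Agent.Galois.PlaceBasic
import Mathlib.FieldTheory.Finite.Extension
import Mathlib.NumberTheory.NumberField.Basic

/-!
# Frobenius and inertia elements at places of `ℚ̄`

Element-wise criteria for `IsFrobeniusAt` and `inertiaSubgroupIn`, conjugation, uniqueness of the
Frobenius modulo inertia, and the fact that on finitely many elements every decomposition element
is a Frobenius power times an inertia element.
-/

set_option autoImplicit false

open scoped Pointwise

namespace FermatLib.Galois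

open FermatLib.Basic

local notation "Qbar" => AlgebraicClosure ℚ
local notation "Γℚ" => (AlgebraicClosure ℚ ≃ₐ[ℚ] AlgebraicClosure ℚ)
local notation "Zbar" => integralClosure ℤ (AlgebraicClosure ℚ)

section General

variable {L : Type*} [Field L] {K : Type*} [Field K] [Algebra K L]
variable {A : ValuationSubring L} {σ τ : L ≃ₐ[K] L} {q : ℕ}

/-- The action of the decomposition group on the residue field, element-wise. -/
lemma decomposition_smul_residue_eq_iff (g : A.decompositionSubgroup K) {x y : L} (hx : x ∈ A)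
    (hy : y ∈ A) :
    g • IsLocalRing.residue A ⟨x, hx⟩ = IsLocalRing.residue A ⟨y, hy⟩ ↔
      g.1 x - y ∈ A.nonunits := by
  rw [decomposition_smul_residue, ← sub_eq_zero, ← map_sub, residue_eq_zero_iff_nonunits]
  rfl

/-- Element-wise description of Frobenius elements. -/
theorem isFrobeniusAt_iff_forall_mem :
    A.IsFrobeniusAt σ q ↔
      σ ∈ A.decompositionSubgroup K ∧ ∀ x ∈ A, σ x - x ^ q ∈ A.nonunits := by
  constructor
  · rintro ⟨hσ, h⟩
    refine ⟨hσ, fun x hx => ?_⟩
    have := h (IsLocalRing.residue A ⟨x, hx⟩)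
    rwa [← map_pow, SubmonoidClass.mk_pow, decomposition_smul_residue_eq_iff] at this
  · rintro ⟨hσ, h⟩
    refine ⟨hσ, fun r => ?_⟩
    obtain ⟨⟨x, hx⟩, rfl⟩ := IsLocalRing.residue_surjective r
    rw [← map_pow, SubmonoidClass.mk_pow, decomposition_smul_residue_eq_iff]
    exact h x hx

/-- A Frobenius is congruent to the `q`-th power map. -/
theorem frobenius_sub_pow_mem_nonunits (hσ : A.IsFrobeniusAt σ q) {x : L} (hx : x ∈ A) :
    σ x - x ^ q ∈ A.nonunits :=
  (isFrobeniusAt_iff_forall_mem.mp hσ).2 x hx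

/-- Inertia elements are those acting trivially on residues. -/
theorem mem_inertiaSubgroupIn_iff_smul :
    σ ∈ A.inertiaSubgroupIn K ↔ ∃ h : σ ∈ A.decompositionSubgroup K,
      ∀ r : IsLocalRing.ResidueField A, (⟨σ, h⟩ : A.decompositionSubgroup K) • r = r := by
  constructor
  · rintro ⟨⟨s, hs⟩, hker, rfl⟩
    exact ⟨hs, fun r => DFunLike.congr_fun (MonoidHom.mem_ker.mp hker) r⟩
  · rintro ⟨h, h'⟩
    exact ⟨⟨σ, h⟩, MonoidHom.mem_ker.mpr (RingEquiv.ext h'), rfl⟩

/-- Element-wise description of inertia elements. -/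
theorem mem_inertiaSubgroupIn_iff_forall_mem :
    σ ∈ A.inertiaSubgroupIn K ↔
      σ ∈ A.decompositionSubgroup K ∧ ∀ x ∈ A, σ x - x ∈ A.nonunits := by
  rw [mem_inertiaSubgroupIn_iff_smul]
  constructor
  · rintro ⟨hσ, h⟩
    exact ⟨hσ, fun x hx => (decomposition_smul_residue_eq_iff ⟨σ, hσ⟩ hx hx).mp (h _)⟩
  · rintro ⟨hσ, h⟩
    refine ⟨hσ, fun r => ?_⟩
    obtain ⟨⟨x, hx⟩, rfl⟩ := IsLocalRing.residue_surjective r
    exact (decomposition_smul_residue_eq_iff ⟨σ, hσ⟩ hx hx).mpr (h x hx)

lemma inertiaSubgroupIn_le_decompositionSubgroup :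
    A.inertiaSubgroupIn K ≤ A.decompositionSubgroup K :=
  fun _ h => (mem_inertiaSubgroupIn_iff_forall_mem.mp h).1

/-- Frobenius times inertia is a Frobenius. -/
theorem isFrobeniusAt_mul_inertia (hσ : A.IsFrobeniusAt σ q) (hτ : τ ∈ A.inertiaSubgroupIn K) :
    A.IsFrobeniusAt (σ * τ) q := by
  obtain ⟨hτd, hτr⟩ := mem_inertiaSubgroupIn_iff_smul.mp hτ
  refine ⟨mul_mem hσ.mem_decompositionSubgroup hτd, fun r => ?_⟩
  change ((⟨σ, hσ.mem_decompositionSubgroup⟩ : A.decompositionSubgroup K) * ⟨τ, hτd⟩) • r = r ^ q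
  rw [mul_smul, hτr, hσ.smul_residue_eq]

/-- Inertia times Frobenius is a Frobenius. -/
theorem isFrobeniusAt_inertia_mul (hσ : A.IsFrobeniusAt σ q) (hτ : τ ∈ A.inertiaSubgroupIn K) :
    A.IsFrobeniusAt (τ * σ) q := by
  obtain ⟨hτd, hτr⟩ := mem_inertiaSubgroupIn_iff_smul.mp hτ
  refine ⟨mul_mem hτd hσ.mem_decompositionSubgroup, fun r => ?_⟩
  change ((⟨τ, hτd⟩ : A.decompositionSubgroup K) * ⟨σ, hσ.mem_decompositionSubgroup⟩) • r = r ^ q
  rw [mul_smul, hσ.smul_residue_eq, hτr]

/-- Two Frobenius elements at the same place differ by inertia. -/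
theorem frobenius_inv_mul_mem_inertia {σ' : L ≃ₐ[K] L} (hσ : A.IsFrobeniusAt σ q)
    (hσ' : A.IsFrobeniusAt σ' q) : σ⁻¹ * σ' ∈ A.inertiaSubgroupIn K := by
  let d : A.decompositionSubgroup K := ⟨σ, hσ.mem_decompositionSubgroup⟩
  let d' : A.decompositionSubgroup K := ⟨σ', hσ'.mem_decompositionSubgroup⟩
  refine mem_inertiaSubgroupIn_iff_smul.mpr ⟨(d⁻¹ * d').2, fun r => ?_⟩
  change (d⁻¹ * d') • r = r
  rw [mul_smul, show d' • r = d • r from (hσ'.smul_residue_eq r).trans (hσ.smul_residue_eq r).symm,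
    inv_smul_smul]

/-- Inertia is normal in the decomposition group. -/
theorem conj_mem_inertia_of_mem_decomposition (hσ : σ ∈ A.decompositionSubgroup K)
    (hτ : τ ∈ A.inertiaSubgroupIn K) : σ * τ * σ⁻¹ ∈ A.inertiaSubgroupIn K := by
  obtain ⟨hτd, hτr⟩ := mem_inertiaSubgroupIn_iff_smul.mp hτ
  let d : A.decompositionSubgroup K := ⟨σ, hσ⟩
  let t : A.decompositionSubgroup K := ⟨τ, hτd⟩
  refine mem_inertiaSubgroupIn_iff_smul.mpr ⟨(d * t * d⁻¹).2, fun r => ?_⟩
  change (d * t * d⁻¹) • r = r
  rw [mul_smul, mul_smul, hτr, smul_inv_smul]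

/-- Powers of a Frobenius act on residues as iterated power maps. -/
theorem frobenius_pow_smul_residue (hσ : A.IsFrobeniusAt σ q) (k : ℕ)
    (r : IsLocalRing.ResidueField A) :
    ((⟨σ, hσ.mem_decompositionSubgroup⟩ : A.decompositionSubgroup K) ^ k) • r = r ^ q ^ k := by
  induction k with
  | zero => simp
  | succ k ih =>
    rw [pow_succ', mul_smul, ih, smul_pow', hσ.smul_residue_eq, ← pow_mul, pow_succ']

/-- Inertia at a translate is the conjugate. -/
theorem mem_inertiaSubgroupIn_smul {g : L ≃ₐ[K] L} :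
    σ ∈ (g • A).inertiaSubgroupIn K ↔ g⁻¹ * σ * g ∈ A.inertiaSubgroupIn K := by
  rw [mem_inertiaSubgroupIn_iff_forall_mem, mem_inertiaSubgroupIn_iff_forall_mem,
    mem_decompositionSubgroup_smul]
  refine and_congr_right fun _ => ⟨fun h x hx => ?_, fun h x hx => ?_⟩
  · have := h (g x) (by rwa [mem_smul_place, ← AlgEquiv.mul_apply, inv_mul_cancel,
      AlgEquiv.one_apply])
    rw [mem_nonunits_smul_place, map_sub] at this
    simpa [AlgEquiv.mul_apply, AlgEquiv.aut_inv] using this
  · rw [mem_nonunits_smul_place, map_sub]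
    simpa [AlgEquiv.mul_apply, AlgEquiv.aut_inv] using h _ (mem_smul_place.mp hx)

/-- Frobenius elements at a translate are the conjugates. -/
theorem isFrobeniusAt_smul_iff {g : L ≃ₐ[K] L} :
    (g • A).IsFrobeniusAt σ q ↔ A.IsFrobeniusAt (g⁻¹ * σ * g) q := by
  rw [isFrobeniusAt_iff_forall_mem, isFrobeniusAt_iff_forall_mem, mem_decompositionSubgroup_smul]
  refine and_congr_right fun _ => ⟨fun h x hx => ?_, fun h x hx => ?_⟩
  · have := h (g x) (by rwa [mem_smul_place, ← AlgEquiv.mul_apply, inv_mul_cancel,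
      AlgEquiv.one_apply])
    rw [mem_nonunits_smul_place, map_sub] at this
    simpa [AlgEquiv.mul_apply, AlgEquiv.aut_inv] using this
  · rw [mem_nonunits_smul_place, map_sub]
    simpa [AlgEquiv.mul_apply, AlgEquiv.aut_inv] using h _ (mem_smul_place.mp hx)

/-- Conjugating a Frobenius gives a Frobenius at the translated place. -/
theorem isFrobeniusAt_conj (g : L ≃ₐ[K] L) (hσ : A.IsFrobeniusAt σ q) :
    (g • A).IsFrobeniusAt (g * σ * g⁻¹) q := by
  rw [isFrobeniusAt_smul_iff]
  simpa [mul_assoc] using hσ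

/-- Conjugating an inertia element gives an inertia element at the translated place. -/
theorem inertia_conj_mem (g : L ≃ₐ[K] L) (hσ : σ ∈ A.inertiaSubgroupIn K) :
    g * σ * g⁻¹ ∈ (g • A).inertiaSubgroupIn K := by
  rw [mem_inertiaSubgroupIn_smul]
  simpa [mul_assoc] using hσ

end General

/-! ## Criteria on algebraic integers -/

section Places

variable {A : ValuationSubring (AlgebraicClosure ℚ)} {q : ℕ}

/-- An element of the decomposition group whose residue action is prescribed by another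
automorphism on a subfield can be corrected to agree with it there. -/
theorem exists_decomposition_lift (K : IntermediateField ℚ Qbar) (hq : q.Prime)
    (hA : A.LiesOverPrime q) (σ₀ : Γℚ)
    (e : IsLocalRing.ResidueField A ≃+* IsLocalRing.ResidueField A)
    (h : ∀ (x : Zbar), (x : Qbar) ∈ K → residueIntegers A (σ₀ • x) = e (residueIntegers A x)) :
    ∃ g : A.decompositionSubgroup ℚ, (∀ x ∈ K, g.1 x = σ₀ x) ∧ ∀ r, g • r = e r := by
  let K' : IntermediateField ℚ Qbar := K.map σ₀.toAlgHom
  obtain ⟨g₁, hg₁, hg₁A⟩ := exists_fixing_smul_place_eq K' (σ₀ • A) A fun y hy hyint => by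
    obtain ⟨x, hx, rfl⟩ := hy
    have hxint : IsIntegral ℤ x :=
      (isIntegral_algHom_iff (σ₀.toAlgHom.restrictScalars ℤ) σ₀.injective).mp hyint
    rw [mem_nonunits_smul_place]
    change σ₀⁻¹ (σ₀ x) ∈ A.nonunits ↔ σ₀ x ∈ A.nonunits
    rw [← AlgEquiv.mul_apply, inv_mul_cancel, AlgEquiv.one_apply,
      ← mem_centerIdeal_iff (x := ⟨x, hxint⟩), ← ker_residueIntegers, RingHom.mem_ker,
      ← EmbeddingLike.map_eq_zero_iff (f := e), ← h ⟨x, hxint⟩ hx, ← RingHom.mem_ker,
      ker_residueIntegers, mem_centerIdeal_iff]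
    rfl
  let d : A.decompositionSubgroup ℚ := ⟨g₁ * σ₀, by rw [MulAction.mem_stabilizer_iff, mul_smul, hg₁A]⟩
  have hd : ∀ x ∈ K, d.1 x = σ₀ x := fun x hx =>
    (IntermediateField.mem_fixingSubgroup_iff K' g₁).mp hg₁ (σ₀ x) ⟨x, hx, rfl⟩
  let a := MulSemiringAction.toRingAut (A.decompositionSubgroup ℚ)
    (IsLocalRing.ResidueField A) d
  obtain ⟨g, hgK, hg⟩ := exists_decomposition_residue_eq K hq hA (e.trans a.symm) fun x hx => by
    have h1 : a (residueIntegers A x) = residueIntegers A (σ₀ • x) := by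
      change d • IsLocalRing.residue A ⟨(x : Qbar), integral_mem_place A x.2⟩ = _
      rw [decomposition_smul_residue]
      exact congrArg _ (Subtype.ext (hd _ hx))
    rw [RingEquiv.trans_apply, RingEquiv.symm_apply_eq, h1, h x hx]
  refine ⟨d * g, fun x hx => ?_, fun r => ?_⟩
  · change d.1 (g.1 x) = σ₀ x
    rw [(IntermediateField.mem_fixingSubgroup_iff K _).mp hgK x hx, hd x hx]
  · rw [mul_smul, hg]
    exact a.apply_symm_apply (e r)

/-- The residues of the algebraic integers of a number field lie in a finite field. -/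
theorem exists_residue_pow_eq (hq : q.Prime) (hA : A.LiesOverPrime q)
    (K : IntermediateField ℚ Qbar) [FiniteDimensional ℚ K] :
    ∃ n : ℕ, 0 < n ∧ ∀ x : Zbar, (x : Qbar) ∈ K →
      residueIntegers A x ^ q ^ n = residueIntegers A x := by
  haveI : NumberField K := ⟨⟩
  let ι : NumberField.RingOfIntegers K →+* Zbar :=
    ((algebraMap K Qbar).comp (algebraMap (NumberField.RingOfIntegers K) K)).codRestrict
      (integralClosure ℤ Qbar).toSubring fun a =>
        (NumberField.RingOfIntegers.isIntegral_coe a).map (algebraMap K Qbar).toIntAlgHom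
  haveI := charP_residueField hq hA
  haveI : Fact q.Prime := ⟨hq⟩
  choose n hn hn' using residue_pow_card_eq hq hA
  obtain ⟨s, hs⟩ := (inferInstance : Module.Finite ℤ (NumberField.RingOfIntegers K))
  let N := ∏ a ∈ s, n (residueIntegers A (ι a))
  refine ⟨N, Finset.prod_pos fun a _ => hn _, fun x hx => ?_⟩
  let S : Subring (IsLocalRing.ResidueField A) :=
    RingHom.eqLocus (iterateFrobenius (IsLocalRing.ResidueField A) q N) (RingHom.id _)
  have hmem : ∀ a : NumberField.RingOfIntegers K, residueIntegers A (ι a) ∈ S := by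
    intro a
    have ha : a ∈ Submodule.span ℤ (s : Set (NumberField.RingOfIntegers K)) := hs ▸ Submodule.mem_top
    induction ha using Submodule.span_induction with
    | mem a ha =>
      change iterateFrobenius _ q N _ = _
      rw [iterateFrobenius_def]
      obtain ⟨k, hk⟩ : n (residueIntegers A (ι a)) ∣ N := Finset.dvd_prod_of_mem _ ha
      rw [hk, pow_mul]
      have key : ∀ j : ℕ, residueIntegers A (ι a) ^ (q ^ n (residueIntegers A (ι a))) ^ j =
          residueIntegers A (ι a) := by
        intro j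
        induction j with
        | zero => simp
        | succ j ih => rw [pow_succ, pow_mul, ih, hn']
      exact key k
    | zero => simp only [map_zero]; exact zero_mem S
    | add a b _ _ ha hb => simp only [map_add]; exact add_mem ha hb
    | smul c a _ ha => simp only [map_zsmul]; exact zsmul_mem ha c
  have hint : IsIntegral ℤ (⟨(x : Qbar), hx⟩ : K) :=
    (isIntegral_algHom_iff (algebraMap K Qbar).toIntAlgHom (algebraMap K Qbar).injective).mp x.2
  have := hmem ⟨_, hint⟩
  rw [show ι ⟨_, hint⟩ = x from Subtype.ext rfl] at this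
  exact (iterateFrobenius_def ..).symm.trans this

/-- On a number field, every decomposition element is a Frobenius power times inertia. -/
theorem exists_frobenius_pow_mul_inertia (hq : q.Prime) (hA : A.LiesOverPrime q)
    (K : IntermediateField ℚ Qbar) [FiniteDimensional ℚ K] {φ : Γℚ} (hφ : A.IsFrobeniusAt φ q)
    {σ : Γℚ} (hσ : σ ∈ A.decompositionSubgroup ℚ) :
    ∃ (k : ℕ) (τ : Γℚ), τ ∈ A.inertiaSubgroupIn ℚ ∧ ∀ x ∈ K, σ x = (φ ^ k * τ) x := by
  haveI := charP_residueField hq hA
  haveI : Fact q.Prime := ⟨hq⟩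
  haveI := isAlgClosed_residueField A
  obtain ⟨N, hN, hKN⟩ := exists_residue_pow_eq hq hA K
  let _ : Algebra (ZMod q) (IsLocalRing.ResidueField A) := ZMod.algebra _ q
  let F : Subfield (IsLocalRing.ResidueField A) :=
    { RingHom.eqLocus (iterateFrobenius (IsLocalRing.ResidueField A) q N) (RingHom.id _) with
      inv_mem' := fun r hr => by
        change iterateFrobenius _ q N r⁻¹ = r⁻¹
        rw [map_inv₀, show iterateFrobenius _ q N r = r from hr] }
  have hF : ∀ r, r ∈ F ↔ r ^ q ^ N = r := fun r => by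
    change iterateFrobenius _ q N r = r ↔ _
    rw [iterateFrobenius_def]
  have hfin : Finite F := by
    have hne : (Polynomial.X ^ q ^ N - Polynomial.X :
        Polynomial (IsLocalRing.ResidueField A)) ≠ 0 :=
      FiniteField.X_pow_card_pow_sub_X_ne_zero _ hN.ne' hq.one_lt
    refine Set.Finite.to_subtype ((Polynomial.finite_setOfPred_isRoot hne).subset fun r hr => ?_)
    change Polynomial.eval r _ = 0
    simp [(hF r).mp hr]
  let d : A.decompositionSubgroup ℚ := ⟨σ, hσ⟩
  have hdF : ∀ r, r ∈ F → d • r ∈ F := fun r hr => by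
    rw [hF, ← smul_pow', (hF r).mp hr]
  let f : F →+* F :=
    ((MulSemiringAction.toRingHom (A.decompositionSubgroup ℚ) _ d).comp F.subtype).codRestrict F
      fun r => hdF r r.2
  haveI : CharP F q := (F.subtype.charP_iff_charP q).mpr inferInstance
  let _ : Algebra (ZMod q) F := ZMod.algebra _ q
  let f' : F →ₐ[ZMod q] F :=
    { f with
      commutes' := fun r => by
        exact DFunLike.congr_fun
          (RingHom.ext_zmod (f.comp (algebraMap (ZMod q) F)) (algebraMap (ZMod q) F)) r }
  let g : F ≃ₐ[ZMod q] F := AlgEquiv.ofBijective f' (Finite.injective_iff_bijective.mp f.injective)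
  obtain ⟨k, hk⟩ := FiniteField.exists_forall_apply_eq_pow (ZMod q) q F g
  rw [Nat.card_zmod] at hk
  let p : A.decompositionSubgroup ℚ := ⟨φ, hφ.mem_decompositionSubgroup⟩
  let e : IsLocalRing.ResidueField A ≃+* IsLocalRing.ResidueField A :=
    MulSemiringAction.toRingAut (A.decompositionSubgroup ℚ) _ (p ^ k)
  obtain ⟨d', hd'K, hd'⟩ := exists_decomposition_lift K hq hA σ e fun x hx => by
    change _ = (p ^ k) • residueIntegers A x
    rw [frobenius_pow_smul_residue hφ]
    have h1 := congrArg Subtype.val (hk ⟨_, (hF _).mpr (hKN x hx)⟩)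
    rw [show residueIntegers A (σ • x) = d • residueIntegers A x from
      (decomposition_smul_residue d (integral_mem_place A x.2)).symm]
    exact h1
  refine ⟨k, ((p ^ k)⁻¹ * d').1, mem_inertiaSubgroupIn_iff_smul.mpr
    ⟨((p ^ k)⁻¹ * d').2, fun r => ?_⟩, fun x hx => ?_⟩
  · change ((p ^ k)⁻¹ * d') • r = r
    rw [mul_smul, hd']
    exact inv_smul_smul (p ^ k) r
  · rw [← hd'K x hx]
    simp [p]

end Places

end FermatLib.Galois
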