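import Fermat.Agent.Galois.RepField
import Fermat.Prelude.Def_GaloisRep_Adic
import Mathlib.LinearAlgebra.Matrix.Charpoly.LinearMap
import Mathlib.LinearAlgebra.Matrix.BaseChange

/-!
# Two-dimensional Galois representations: equivalence from traces, Schur, irreducibility
-/

set_option autoImplicit false

open Matrix Module
open scoped TensorProduct

namespace FermatLib.Galois

local notation "Γℚ" => (AlgebraicClosure ℚ ≃ₐ[ℚ] AlgebraicClosure ℚ)
local notation "M₂" R:max => Matrix (Fin 2) (Fin 2) R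

section General

variable {G : Type*} [Monoid G] {A : Type*} [CommRing A] {V W : Type*}
  [AddCommGroup V] [Module A V] [AddCommGroup W] [Module A W]

/-- Matrices of a representation in a basis. -/
noncomputable def repMatrix (b : Basis (Fin 2) A V) (ρ : G →* Module.End A V) : G →* M₂ A :=
  (LinearMap.toMatrixAlgEquiv b).toMonoidHom.comp ρ

lemma repMatrix_apply (b : Basis (Fin 2) A V) (ρ : G →* Module.End A V) (σ : G) :
    repMatrix b ρ σ = LinearMap.toMatrix b b (ρ σ) := rfl

lemma repMatrix_mulVec (b : Basis (Fin 2) A V) (ρ : G →* Module.End A V) (σ : G) (x : V) :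
    repMatrix b ρ σ *ᵥ b.repr x = b.repr (ρ σ x) :=
  LinearMap.toMatrix_mulVec_repr b b (ρ σ) x

lemma trace_repMatrix [Module.Free A V] [Module.Finite A V] (b : Basis (Fin 2) A V)
    (ρ : G →* Module.End A V) (σ : G) :
    (repMatrix b ρ σ).trace = LinearMap.trace A V (ρ σ) :=
  (LinearMap.trace_eq_matrix_trace A b (ρ σ)).symm

lemma det_repMatrix (b : Basis (Fin 2) A V) (ρ : G →* Module.End A V) (σ : G) :
    (repMatrix b ρ σ).det = LinearMap.det (ρ σ) :=
  LinearMap.det_toMatrix b (ρ σ)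

lemma charpoly_repMatrix [Nontrivial A] [Module.Free A V] [Module.Finite A V]
    (b : Basis (Fin 2) A V) (ρ : G →* Module.End A V) (σ : G) :
    (repMatrix b ρ σ).charpoly = LinearMap.charpoly (ρ σ) :=
  LinearMap.charpoly_toMatrix (ρ σ) b

lemma repMatrix_eq_repMap {B : Type*} [CommRing B] [Algebra A B]
    (b : Basis (Fin 2) A V) (ρ : G →* Module.End A V) (ρ' : G →* Module.End B (B ⊗[A] V))
    (h : ∀ σ, ρ' σ = (ρ σ).baseChange B) :
    repMatrix (Algebra.TensorProduct.basis B b) ρ' =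
      repMap (algebraMap A B) (repMatrix b ρ) := by
  ext σ : 1
  rw [repMatrix_apply, h, LinearMap.toMatrix_baseChange]
  rfl

/-- A conjugation of matrices gives an equivariant equivalence. -/
lemma exists_equiv_of_conj (b : Basis (Fin 2) A V) (c : Basis (Fin 2) A W)
    (ρ : G →* Module.End A V) (ρ' : G →* Module.End A W) (P : GL (Fin 2) A)
    (h : ∀ σ, repMatrix c ρ' σ = P.1 * repMatrix b ρ σ * (P⁻¹ : GL (Fin 2) A).1) :
    ∃ e : V ≃ₗ[A] W, ∀ σ x, e (ρ σ x) = ρ' σ (e x) := by
  let e : V ≃ₗ[A] W := (b.equivFun.trans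
    (Matrix.toLinearEquiv' P.1 (Units.invertible P))).trans c.equivFun.symm
  have he : ∀ x, c.equivFun (e x) = P.1 *ᵥ b.equivFun x := fun x => by
    simp only [e, LinearEquiv.trans_apply, LinearEquiv.apply_symm_apply]
    rfl
  refine ⟨e, fun σ x => c.equivFun.injective ?_⟩
  rw [he]
  simp only [Basis.equivFun_apply] at he ⊢
  rw [← repMatrix_mulVec, ← repMatrix_mulVec, he, h, Matrix.mulVec_mulVec, Matrix.mulVec_mulVec,
    mul_assoc, Units.inv_mul, mul_one]

lemma noStableLine_repMatrix_iff {k : Type*} [Field k] {U : Type*} [AddCommGroup U] [Module k U]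
    (b : Basis (Fin 2) k U) (ρ : G →* Module.End k U) :
    NoStableLine (repMatrix b ρ) ↔
      ∀ W : Submodule k U, (∀ σ, ∀ x ∈ W, ρ σ x ∈ W) → W = ⊥ ∨ W = ⊤ := by
  constructor
  · intro h W hW
    refine or_iff_not_imp_left.mpr fun hbot => ?_
    obtain ⟨x, hx, hx0⟩ := W.exists_mem_ne_zero_of_ne_bot hbot
    obtain ⟨σ, hσ⟩ := h (b.equivFun x) (by simpa using hx0)
    have := eq_top_of_mem_of_ne_smul (W := W.map b.equivFun.toLinearMap)
      (Submodule.mem_map_of_mem hx) (Submodule.mem_map_of_mem (hW σ x hx))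
      (by simpa using hx0) fun a ha => hσ a (by
        rw [Basis.equivFun_apply, repMatrix_mulVec]; exact ha)
    simpa using this
  · intro h v hv
    by_contra hs
    push Not at hs
    set x := b.equivFun.symm v
    have hx : ⇑(b.repr x) = v := by rw [← Basis.equivFun_apply]; exact b.equivFun.apply_symm_apply v
    rcases h (k ∙ x) fun σ y hy => by
      obtain ⟨c, rfl⟩ := Submodule.mem_span_singleton.mp hy
      obtain ⟨a, ha⟩ := hs σ
      rw [← hx, repMatrix_mulVec] at ha
      refine Submodule.mem_span_singleton.mpr ⟨c * a, ?_⟩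
      apply b.equivFun.injective
      simp [ha, smul_smul] with h0 | h0
    · simp at h0
      exact hv (by rw [← hx, h0]; simp)
    · have := finrank_eq_card_basis b
      rw [← finrank_top, ← h0, finrank_span_singleton (K := k) (v := x)
        (fun h0' => hv (by rw [← hx, h0']; simp))] at this
      simp at this

end General

section Residual

variable {k : Type} [Field k]

/-- A basis of the space of a residual representation. -/
noncomputable def residualBasis (ρ : ResidualGaloisRep k) : Basis (Fin 2) k ρ.V :=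
  (Module.finBasisOfFinrankEq k ρ.V ρ.finrank_eq)

/-- The matrices of a residual representation. -/
noncomputable def residualMat (ρ : ResidualGaloisRep k) : Γℚ →* M₂ k :=
  repMatrix (residualBasis ρ) ρ.ρ

lemma isIrreducible_iff_noStableLine (ρ : ResidualGaloisRep k) :
    ρ.IsIrreducible ↔ NoStableLine (residualMat ρ) :=
  (noStableLine_repMatrix_iff _ _).symm

lemma isAbsolutelyIrreducible_iff_hasFullSpan_repMatrix (ρ : ResidualGaloisRep k)
    (b : Basis (Fin 2) k ρ.V) :
    ρ.IsAbsolutelyIrreducible ↔ HasFullSpan (repMatrix b ρ.ρ) := by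
  rw [hasFullSpan_iff_noStableLine_map (algebraMap k (AlgebraicClosure k))]
  have : repMatrix (Algebra.TensorProduct.basis (AlgebraicClosure k) b)
      (ρ.baseChange (AlgebraicClosure k)).ρ =
      repMap (algebraMap k (AlgebraicClosure k)) (repMatrix b ρ.ρ) :=
    repMatrix_eq_repMap b ρ.ρ _ fun _ => rfl
  rw [← this]
  exact (noStableLine_repMatrix_iff _ _).symm

lemma isAbsolutelyIrreducible_iff_hasFullSpan (ρ : ResidualGaloisRep k) :
    ρ.IsAbsolutelyIrreducible ↔ HasFullSpan (residualMat ρ) :=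
  isAbsolutelyIrreducible_iff_hasFullSpan_repMatrix ρ _

/-- Absolute irreducibility only depends on the trace function. -/
lemma isAbsolutelyIrreducible_of_trace_eq {ρ ρ' : ResidualGaloisRep k}
    (h : ρ.IsAbsolutelyIrreducible)
    (ht : ∀ σ, LinearMap.trace k ρ.V (ρ.ρ σ) = LinearMap.trace k ρ'.V (ρ'.ρ σ)) :
    ρ'.IsAbsolutelyIrreducible := by
  rw [isAbsolutelyIrreducible_iff_hasFullSpan] at h ⊢
  exact h.of_trace_eq fun σ => by rw [residualMat, residualMat, trace_repMatrix, trace_repMatrix, ht]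

lemma isAbsolutelyIrreducible_baseChangeAlong_iff {k' : Type} [Field k'] (φ : k →+* k')
    (ρ : ResidualGaloisRep k) :
    (ρ.baseChangeAlong φ).IsAbsolutelyIrreducible ↔ ρ.IsAbsolutelyIrreducible := by
  letI : Algebra k k' := φ.toAlgebra
  show (ρ.baseChange k').IsAbsolutelyIrreducible ↔ _
  rw [isAbsolutelyIrreducible_iff_hasFullSpan_repMatrix (ρ.baseChange k')
    (Algebra.TensorProduct.basis k' (residualBasis ρ)), isAbsolutelyIrreducible_iff_hasFullSpan]
  have : repMatrix (Algebra.TensorProduct.basis k' (residualBasis ρ)) (ρ.baseChange k').ρ =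
      repMap (algebraMap k k') (residualMat ρ) :=
    repMatrix_eq_repMap (residualBasis ρ) ρ.ρ _ fun _ => rfl
  rw [this]
  exact ⟨HasFullSpan.of_repMap _, fun h => h.repMap _⟩

/-- Residual representations with equal traces, one absolutely irreducible, are equivalent. -/
theorem residual_isEquiv_of_trace_eq {ρ ρ' : ResidualGaloisRep k}
    (h : ρ.IsAbsolutelyIrreducible)
    (ht : ∀ σ, LinearMap.trace k ρ.V (ρ.ρ σ) = LinearMap.trace k ρ'.V (ρ'.ρ σ)) :
    ρ.IsEquiv ρ' := by
  obtain ⟨P, hP⟩ := exists_conj_of_trace_eq ((isAbsolutelyIrreducible_iff_hasFullSpan ρ).mp h)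
    (ρ₂ := residualMat ρ') fun σ => by
      rw [residualMat, residualMat, trace_repMatrix, trace_repMatrix, ht]
  obtain ⟨e, he⟩ := exists_equiv_of_conj _ _ ρ.ρ ρ'.ρ P hP
  exact ⟨⟨e, he⟩⟩

lemma trace_eq_of_charpoly_eq {ρ ρ' : ResidualGaloisRep k} {σ : Γℚ}
    (h : LinearMap.charpoly (ρ.ρ σ) = LinearMap.charpoly (ρ'.ρ σ)) :
    LinearMap.trace k ρ.V (ρ.ρ σ) = LinearMap.trace k ρ'.V (ρ'.ρ σ) := by
  rw [← trace_repMatrix (residualBasis ρ), ← trace_repMatrix (residualBasis ρ'),
    Matrix.trace_eq_neg_charpoly_coeff, Matrix.trace_eq_neg_charpoly_coeff, charpoly_repMatrix,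
    charpoly_repMatrix, h]

theorem residual_isEquiv_of_charpoly_eq {ρ ρ' : ResidualGaloisRep k}
    (h : ρ.IsAbsolutelyIrreducible)
    (hc : ∀ σ, LinearMap.charpoly (ρ.ρ σ) = LinearMap.charpoly (ρ'.ρ σ)) : ρ.IsEquiv ρ' :=
  residual_isEquiv_of_trace_eq h fun σ => trace_eq_of_charpoly_eq (hc σ)

/-- An irreducible representation with an involution of determinant `-1` is absolutely
irreducible when `2 ≠ 0`. -/
theorem isAbsolutelyIrreducible_of_isIrreducible_of_det_eq_neg_one {ρ : ResidualGaloisRep k}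
    (h : ρ.IsIrreducible) (h2 : (2 : k) ≠ 0) {c : Γℚ} (hc : c * c = 1)
    (hdet : LinearMap.det (ρ.ρ c) = -1) : ρ.IsAbsolutelyIrreducible := by
  rw [isAbsolutelyIrreducible_iff_hasFullSpan]
  rw [isIrreducible_iff_noStableLine] at h
  by_contra hfull
  obtain ⟨lam, f, hf, hfe, -⟩ :=
    exists_linearMap_of_not_hasFullSpan (K := AlgebraicClosure k) h hfull
  set e : Fin 2 → k := Pi.single 0 1 with he
  have he0 : f e ≠ 0 := fun h0 => by
    simpa [he] using congrFun (hf (h0.trans (map_zero f).symm)) 0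
  have hsq : lam c * lam c = 1 := by
    apply mul_right_cancel₀ he0
    rw [mul_assoc, ← hfe, ← hfe, Matrix.mulVec_mulVec, ← map_mul, hc, map_one, Matrix.one_mulVec,
      one_mul]
  obtain ⟨a, ha, ha2⟩ : ∃ a : k, lam c = algebraMap k _ a ∧ a * a = 1 := by
    rcases mul_self_eq_one_iff.mp hsq with h | h
    · exact ⟨1, by simp [h], by simp⟩
    · exact ⟨-1, by simp [h], by simp⟩
  have hscal : residualMat ρ c = a • (1 : M₂ k) := Matrix.ext_of_mulVec_single fun i => hf (by
    rw [hfe, ha, Matrix.smul_mulVec, Matrix.one_mulVec, map_smul, Algebra.smul_def])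
  have : (residualMat ρ c).det = -1 := by rw [residualMat, det_repMatrix, hdet]
  rw [hscal, Matrix.det_smul, Matrix.det_one, mul_one, Fintype.card_fin, sq, ha2] at this
  exact h2 (by linear_combination this)

end Residual

section Adic

variable {A : Type} [CommRing A] [IsLocalRing A]

/-- A basis of the space of an adic representation. -/
noncomputable def adicBasis (ρ : GaloisRepAdic A) : Basis (Fin 2) A ρ.V :=
  Module.finBasisOfFinrankEq A ρ.V ρ.finrank_eq

/-- The matrices of an adic representation. -/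
noncomputable def adicMat (ρ : GaloisRepAdic A) : Γℚ →* M₂ A :=
  repMatrix (adicBasis ρ) ρ.ρ

lemma hasFullSpan_adicMat_iff (ρ : GaloisRepAdic A) :
    HasFullSpan (adicMat ρ) ↔ ρ.residual.IsAbsolutelyIrreducible := by
  have h1 := isAbsolutelyIrreducible_iff_hasFullSpan_repMatrix ρ.residual
    (Algebra.TensorProduct.basis (IsLocalRing.ResidueField A) (adicBasis ρ))
  have h2 : HasFullSpan (repMatrix (Algebra.TensorProduct.basis (IsLocalRing.ResidueField A)
      (adicBasis ρ)) ρ.residual.ρ) ↔ HasFullSpan (repMap (IsLocalRing.residue A) (adicMat ρ)) :=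
    Iff.of_eq (congrArg HasFullSpan (repMatrix_eq_repMap (adicBasis ρ) ρ.ρ ρ.residual.ρ fun _ => rfl))
  exact Iff.symm (h1.trans (h2.trans ⟨HasFullSpan.of_repMap _, fun h => h.repMap _⟩))

lemma charpoly_baseChangeAlong {B : Type} [CommRing B] [IsLocalRing B] (φ : A →+* B)
    (hφ : IsLocalHom φ) (ρ : GaloisRepAdic A) (σ : Γℚ) :
    LinearMap.charpoly ((ρ.baseChangeAlong φ hφ).ρ σ) = (LinearMap.charpoly (ρ.ρ σ)).map φ := by
  letI : Algebra A B := φ.toAlgebra
  show LinearMap.charpoly ((ρ.ρ σ).baseChange B) = _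
  rw [LinearMap.charpoly_baseChange]; rfl

lemma trace_baseChangeAlong {B : Type} [CommRing B] [IsLocalRing B] (φ : A →+* B)
    (hφ : IsLocalHom φ) (ρ : GaloisRepAdic A) (σ : Γℚ) :
    (ρ.baseChangeAlong φ hφ).trace σ = φ (ρ.trace σ) := by
  letI : Algebra A B := φ.toAlgebra
  show LinearMap.trace B _ ((ρ.ρ σ).baseChange B) = _
  rw [LinearMap.trace_baseChange]; rfl

lemma trace_residual (ρ : GaloisRepAdic A) (σ : Γℚ) :
    LinearMap.trace _ ρ.residual.V (ρ.residual.ρ σ) = IsLocalRing.residue A (ρ.trace σ) := by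
  show LinearMap.trace _ _ ((ρ.ρ σ).baseChange (IsLocalRing.ResidueField A)) = _
  rw [LinearMap.trace_baseChange]; rfl

lemma det_residual (ρ : GaloisRepAdic A) (σ : Γℚ) :
    LinearMap.det (ρ.residual.ρ σ) = IsLocalRing.residue A (LinearMap.det (ρ.ρ σ)) := by
  show LinearMap.det ((ρ.ρ σ).baseChange (IsLocalRing.ResidueField A)) = _
  rw [LinearMap.det_baseChange]; rfl

lemma adic_charpoly_eq (ρ : GaloisRepAdic A) (σ : Γℚ) :
    LinearMap.charpoly (ρ.ρ σ) = Polynomial.X ^ 2 - Polynomial.C (ρ.trace σ) * Polynomial.X +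
      Polynomial.C (LinearMap.det (ρ.ρ σ)) := by
  rw [← charpoly_repMatrix (adicBasis ρ), Matrix.charpoly_fin_two, trace_repMatrix, det_repMatrix]
  rfl

lemma adic_trace_eq_of_charpoly_eq {ρ ρ' : GaloisRepAdic A} {σ : Γℚ}
    (h : LinearMap.charpoly (ρ.ρ σ) = LinearMap.charpoly (ρ'.ρ σ)) :
    ρ.trace σ = ρ'.trace σ := by
  rw [GaloisRepAdic.trace, GaloisRepAdic.trace, ← trace_repMatrix (adicBasis ρ),
    ← trace_repMatrix (adicBasis ρ'), Matrix.trace_eq_neg_charpoly_coeff,
    Matrix.trace_eq_neg_charpoly_coeff, charpoly_repMatrix, charpoly_repMatrix, h]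

lemma charpoly_eq_of_equiv {ρ ρ' : GaloisRepAdic A} (e : GaloisRepAdic.Equiv ρ ρ') (σ : Γℚ) :
    LinearMap.charpoly (ρ.ρ σ) = LinearMap.charpoly (ρ'.ρ σ) := by
  rw [← LinearEquiv.charpoly_conj e.toLinearEquiv (ρ.ρ σ)]
  congr 1
  ext x
  simp [LinearEquiv.conj_apply, e.map_apply]

/-- Carayol: residually absolutely irreducible representations with equal traces are
equivalent. -/
theorem adic_isEquiv_of_trace_eq {ρ ρ' : GaloisRepAdic A}
    (h : ρ.residual.IsAbsolutelyIrreducible) (ht : ∀ σ, ρ.trace σ = ρ'.trace σ) :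
    ρ.IsEquiv ρ' := by
  obtain ⟨P, hP⟩ := exists_conj_of_trace_eq ((hasFullSpan_adicMat_iff ρ).mpr h)
    (ρ₂ := adicMat ρ') fun σ => by
      rw [adicMat, adicMat, trace_repMatrix, trace_repMatrix]; exact ht σ
  obtain ⟨e, he⟩ := exists_equiv_of_conj _ _ ρ.ρ ρ'.ρ P hP
  exact ⟨⟨e, he⟩⟩

theorem adic_isEquiv_of_charpoly_eq {ρ ρ' : GaloisRepAdic A}
    (h : ρ.residual.IsAbsolutelyIrreducible)
    (hc : ∀ σ, LinearMap.charpoly (ρ.ρ σ) = LinearMap.charpoly (ρ'.ρ σ)) : ρ.IsEquiv ρ' :=
  adic_isEquiv_of_trace_eq h fun σ => adic_trace_eq_of_charpoly_eq (hc σ)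

end Adic

end FermatLib.Galois
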