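import Fermat.Agent.Galois.FlatModelCriterion

/-!
Closure properties of finite Galois modules with a finite flat model: stable subgroups, quotients,
finite products.
-/

noncomputable section

open scoped TensorProduct
open WithConv Algebra.TensorProduct

namespace FermatLib.Galois.FlatModel

variable {R : Type} {k K : Type*} [CommRing R] [Field k] [Field K]
  [Algebra R k] [Algebra R K] [Algebra k K] [IsScalarTower R k K]
  [IsFractionRing R k] [IsGalois k K] [IsDomain R] [IsPrincipalIdealRing R]
  {M : Type*} [AddCommGroup M] {act : (K ≃ₐ[k] K) → M → M}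
  {M' : Type*} [AddCommGroup M'] {act' : (K ≃ₐ[k] K) → M' → M'}

/-- An algebra of functions on `M`, closed under the co-operations (not nec. separated). -/
structure IsPointFamily {A : Type} [CommRing A] [Algebra R A] (act : (K ≃ₐ[k] K) → M → M)
    (φ : M → A →ₐ[R] K) : Prop where
  injective : Function.Injective φ
  gal : ∀ σ m, φ (act σ m) = galComp k σ (φ m)
  comul : ∀ a, ∃ x : A ⊗[R] A, ∀ m n, productMap (φ m) (φ n) x = φ (m + n) a
  counit : ∀ a, φ 0 a ∈ Set.range (algebraMap R K)
  neg : ∀ a, ∃ b, ∀ m, φ m b = φ (-m) a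

section
variable {A : Type} [CommRing A] [Algebra R A]

omit [IsFractionRing R k] [IsGalois k K] [IsDomain R] [IsPrincipalIdealRing R] in
/-- Dividing out by the common kernel makes a point family separating. -/
theorem IsPointFamily.exists_separates [Module.Finite R A] {φ : M → A →ₐ[R] K}
    (h : IsPointFamily act φ) :
    ∃ (B : Type) (_ : CommRing B) (_ : Algebra R B) (_ : Module.Finite R B)
      (ψ : M → B →ₐ[R] K), IsPointFamily act ψ ∧ Separates ψ := by
  let J : Ideal A := ⨅ m, RingHom.ker (φ m)
  have hJ : ∀ a, a ∈ J ↔ ∀ m, φ m a = 0 := fun a => by simp [J, RingHom.mem_ker]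
  let ψ : M → (A ⧸ J) →ₐ[R] K := fun m => Ideal.Quotient.liftₐ J (φ m) fun a ha => (hJ a).1 ha m
  have hψ : ∀ m a, ψ m (Ideal.Quotient.mk J a) = φ m a := fun m a => rfl
  refine ⟨A ⧸ J, inferInstance, inferInstance, inferInstance, ψ, ⟨?_, ?_, ?_, ?_, ?_⟩, ?_⟩
  · intro m n hmn
    exact h.injective (AlgHom.ext fun a => AlgHom.congr_fun hmn (Ideal.Quotient.mk J a))
  · intro σ m
    refine AlgHom.ext fun b => ?_
    obtain ⟨a, rfl⟩ := Ideal.Quotient.mk_surjective b
    exact AlgHom.congr_fun (h.gal σ m) a
  · intro b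
    obtain ⟨a, rfl⟩ := Ideal.Quotient.mk_surjective b
    obtain ⟨x, hx⟩ := h.comul a
    refine ⟨Algebra.TensorProduct.map (Ideal.Quotient.mkₐ R J) (Ideal.Quotient.mkₐ R J) x,
      fun m n => ?_⟩
    have : (productMap (ψ m) (ψ n)).comp
        (Algebra.TensorProduct.map (Ideal.Quotient.mkₐ R J) (Ideal.Quotient.mkₐ R J)) =
          productMap (φ m) (φ n) :=
      Algebra.TensorProduct.ext' fun y z => by simp [hψ]
    exact (AlgHom.congr_fun this x).trans (hx m n)
  · intro b
    obtain ⟨a, rfl⟩ := Ideal.Quotient.mk_surjective b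
    exact h.counit a
  · intro b
    obtain ⟨a, rfl⟩ := Ideal.Quotient.mk_surjective b
    obtain ⟨c, hc⟩ := h.neg a
    exact ⟨Ideal.Quotient.mk J c, hc⟩
  · intro b hb
    obtain ⟨a, rfl⟩ := Ideal.Quotient.mk_surjective b
    exact Ideal.Quotient.eq_zero_iff_mem.2 ((hJ a).2 hb)

omit [IsFractionRing R k] [IsGalois k K] [IsDomain R] [IsPrincipalIdealRing R] in
theorem IsPointFamily.finite [Module.Finite R A] {φ : M → A →ₐ[R] K} (h : IsPointFamily act φ) :
    Finite M :=
  have := finite_algHom_field (R := R) (A := A) (K := K)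
  Finite.of_injective φ h.injective

/-- A point family gives a finite flat model. -/
theorem IsPointFamily.hasModel [Module.Finite R A] {φ : M → A →ₐ[R] K}
    (h : IsPointFamily act φ) : HasModel R k K M act := by
  have := h.finite
  obtain ⟨B, _, _, _, ψ, hψ, hsep⟩ := h.exists_separates
  exact HasModel.of_evaluation ψ hψ.injective hsep hψ.gal hψ.comul hψ.counit hψ.neg

end

omit [IsFractionRing R k] [IsGalois k K] [IsDomain R] [IsPrincipalIdealRing R] in
/-- A model gives a point family. -/
theorem HasModel.exists_pointFamily (h : HasModel R k K M act) :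
    ∃ (A : Type) (_ : CommRing A) (_ : Algebra R A) (_ : Module.Finite R A)
      (φ : M → A →ₐ[R] K), IsPointFamily act φ := by
  obtain ⟨H, _, hH, hfin, -, hco, e, hmul, hgal⟩ := h
  have he1 : e 1 = 0 := by
    have := hmul 1 1
    rwa [one_mul, left_eq_add] at this
  refine ⟨H, inferInstance, inferInstance, hfin, fun m => (e.symm m).ofConv, ?_, ?_, ?_, ?_, ?_⟩
  · exact WithConv.ofConv_injective.comp e.symm.injective
  · intro σ m
    have := hgal σ (e.symm m) (toConv (galComp k σ (e.symm m).ofConv)) fun a => rfl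
    rw [e.apply_symm_apply, ← Equiv.eq_symm_apply] at this
    show (e.symm (act σ m)).ofConv = _
    rw [← this]
  · intro a
    refine ⟨CoalgebraStruct.comul a, fun m n => ?_⟩
    have : e.symm m * e.symm n = e.symm (m + n) := by
      apply e.injective
      simp [hmul]
    rw [← convMul_apply_productMap, this]
  · intro a
    have : e.symm 0 = 1 := by rw [Equiv.symm_apply_eq, he1]
    exact ⟨CoalgebraStruct.counit a, by simp [this]⟩
  · intro a
    refine ⟨HopfAlgebraStruct.antipode R a, fun m => ?_⟩
    set f := e.symm m with hf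
    set u : WithConv (H →ₐ[R] K) := toConv (f.ofConv.comp (HopfAlgebra.antipodeAlgHom R H))
    have hu : u * f = 1 := by
      refine WithConv.ext (AlgHom.ext fun c => ?_)
      rw [convMul_apply_productMap, AlgHom.convOne_apply]
      have : (productMap u.ofConv f.ofConv).toLinearMap =
          f.ofConv.toLinearMap ∘ₗ LinearMap.mul' R H ∘ₗ
            (HopfAlgebraStruct.antipode R).rTensor H :=
        TensorProduct.ext' fun x y => by simp [u]
      refine (LinearMap.congr_fun this (CoalgebraStruct.comul c)).trans ?_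
      simp [f.ofConv.commutes]
    have : e.symm (-m) = u := by
      rw [Equiv.symm_apply_eq]
      have := hmul u f
      rw [hu, he1, hf, e.apply_symm_apply] at this
      exact (eq_neg_of_add_eq_zero_left this.symm).symm
    rw [this]
    rfl

theorem HasModel.finite_carrier (h : HasModel R k K M act) : Finite M := by
  obtain ⟨A, _, _, _, φ, hφ⟩ := h.exists_pointFamily
  exact hφ.finite

/-- Stable subgroups (and isomorphic modules) have models. -/
theorem HasModel.of_injective (h : HasModel R k K M act) (ι : M' →+ M)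
    (hι : Function.Injective ι) (hact : ∀ σ m, ι (act' σ m) = act σ (ι m)) :
    HasModel R k K M' act' := by
  obtain ⟨A, _, _, _, φ, hφ⟩ := h.exists_pointFamily
  refine IsPointFamily.hasModel (φ := fun m => φ (ι m))
    ⟨hφ.injective.comp hι, fun σ m => ?_, fun a => ?_, fun a => ?_, fun a => ?_⟩
  · rw [hact]
    exact hφ.gal σ _
  · obtain ⟨x, hx⟩ := hφ.comul a
    exact ⟨x, fun m n => by rw [hx, map_add]⟩
  · simpa using hφ.counit a
  · obtain ⟨b, hb⟩ := hφ.neg a
    exact ⟨b, fun m => by rw [hb, map_neg]⟩

/-- Transfer of a model along an equivariant isomorphism. -/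
theorem HasModel.congr (h : HasModel R k K M act) (e : M ≃+ M')
    (hact : ∀ σ m, e (act σ m) = act' σ (e m)) : HasModel R k K M' act' :=
  h.of_injective e.symm.toAddMonoidHom e.symm.injective fun σ m => e.injective (by
    show e (e.symm _) = e _
    rw [hact]
    simp)

/-- The trivial module has a model. -/
theorem HasModel.of_subsingleton [Subsingleton M] : HasModel R k K M act := by
  refine IsPointFamily.hasModel (A := R) (φ := fun _ => Algebra.ofId R K)
    ⟨fun a b _ => Subsingleton.elim a b, fun σ m => Subsingleton.elim _ _,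
      fun a => ⟨a ⊗ₜ 1, fun m n => ?_⟩, fun a => ⟨a, rfl⟩, fun a => ⟨a, fun _ => rfl⟩⟩
  simp

/-- Products of modules with models have models. -/
theorem HasModel.prod (h : HasModel R k K M act) (h' : HasModel R k K M' act') :
    HasModel R k K (M × M') fun σ x => (act σ x.1, act' σ x.2) := by
  obtain ⟨A, _, _, _, φ, hφ⟩ := h.exists_pointFamily
  obtain ⟨B, _, _, _, ψ, hψ⟩ := h'.exists_pointFamily
  refine IsPointFamily.hasModel (A := A ⊗[R] B) (φ := fun x => productMap (φ x.1) (ψ x.2))
    ⟨fun x y hxy => Prod.ext (hφ.injective ?_) (hψ.injective ?_), fun σ x => ?_, fun a => ?_,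
      fun a => ?_, fun a => ?_⟩
  · exact AlgHom.ext fun a => by simpa using AlgHom.congr_fun hxy (a ⊗ₜ 1)
  · exact AlgHom.ext fun b => by simpa using AlgHom.congr_fun hxy (1 ⊗ₜ b)
  · exact Algebra.TensorProduct.ext' fun a b => by simp [hφ.gal, hψ.gal]
  · induction a with
    | zero => exact ⟨0, by simp⟩
    | tmul a b =>
      obtain ⟨x, hx⟩ := hφ.comul a
      obtain ⟨y, hy⟩ := hψ.comul b
      refine ⟨tensorTensorTensorComm R R R R A A B B (x ⊗ₜ y), fun m n => ?_⟩
      have : (productMap (productMap (φ m.1) (ψ m.2)) (productMap (φ n.1) (ψ n.2))).comp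
          (tensorTensorTensorComm R R R R A A B B).toAlgHom =
            productMap (productMap (φ m.1) (φ n.1)) (productMap (ψ m.2) (ψ n.2)) := by
        ext z <;> simp [Algebra.TensorProduct.one_def]
      refine (AlgHom.congr_fun this (x ⊗ₜ y)).trans ?_
      simp [hx, hy]
    | add a b ha hb =>
      obtain ⟨x, hx⟩ := ha
      obtain ⟨y, hy⟩ := hb
      exact ⟨x + y, fun m n => by simp only [map_add, hx, hy]⟩
  · induction a with
    | zero => exact ⟨0, by simp⟩
    | tmul a b =>
      obtain ⟨r, hr⟩ := hφ.counit a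
      obtain ⟨s, hs⟩ := hψ.counit b
      exact ⟨r * s, by simp [hr, hs]⟩
    | add a b ha hb =>
      obtain ⟨r, hr⟩ := ha
      obtain ⟨s, hs⟩ := hb
      exact ⟨r + s, by simp [hr, hs]⟩
  · induction a with
    | zero => exact ⟨0, by simp⟩
    | tmul a b =>
      obtain ⟨r, hr⟩ := hφ.neg a
      obtain ⟨s, hs⟩ := hψ.neg b
      exact ⟨r ⊗ₜ s, by simp [hr, hs]⟩
    | add a b ha hb =>
      obtain ⟨r, hr⟩ := ha
      obtain ⟨s, hs⟩ := hb
      exact ⟨r + s, fun m => by simp only [map_add, hr, hs]⟩

/-- Powers of a module with a model have models. -/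
theorem HasModel.pi_fin (h : HasModel R k K M act) (r : ℕ) :
    HasModel R k K (Fin r → M) fun σ x i => act σ (x i) := by
  induction r with
  | zero => exact HasModel.of_subsingleton
  | succ r ih =>
    let e : M × (Fin r → M) ≃+ (Fin (r + 1) → M) :=
      { Fin.consEquiv (fun _ => M) with
        map_add' := fun x y => by
          funext i
          refine Fin.cases ?_ (fun j => ?_) i <;> simp }
    refine (h.prod ih).congr e fun σ x => ?_
    funext i
    refine Fin.cases ?_ (fun j => ?_) i <;> simp [e]

/-- Quotients by stable subgroups have models. -/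
theorem HasModel.of_surjective (h : HasModel R k K M act) (π : M →+ M')
    (hπ : Function.Surjective π) (hact : ∀ σ m, π (act σ m) = act' σ (π m)) :
    HasModel R k K M' act' := by
  obtain ⟨A₀, _, _, _, φ₀, hφ₀⟩ := h.exists_pointFamily
  have := hφ₀.finite
  obtain ⟨A, _, _, _, φ, hφ, hsep⟩ := hφ₀.exists_separates
  have hs : IsGalStable k φ := fun σ m => ⟨act σ m, hφ.gal σ m⟩
  have := hsep.isTorsionFree (k := k)
  have hR : Function.Injective (algebraMap R K) := algebraMap_injective_of_tower (k := k)
  let A' : Subalgebra R A :=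
    { carrier := {a | ∀ m n, π m = π n → φ m a = φ n a}
      mul_mem' := fun ha hb m n e => by simp [ha m n e, hb m n e]
      add_mem' := fun ha hb m n e => by simp [ha m n e, hb m n e]
      algebraMap_mem' := fun r m n _ => by simp }
  have hA' : ∀ {a}, a ∈ A' ↔ ∀ m n, π m = π n → φ m a = φ n a := Iff.rfl
  have : Module.Finite R A' :=
    inferInstanceAs (Module.Finite R (Subalgebra.toSubmodule A'))
  choose s hs' using hπ
  let b := Module.Free.chooseBasis R A
  obtain ⟨r, hr⟩ : ∃ r : A →ₗ[R] Subalgebra.toSubmodule A', ∀ a : A', r a = a := by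
    have : Module.IsTorsionFree R (A ⧸ Subalgebra.toSubmodule A') := by
      refine Module.IsTorsionFree.mk fun c hc x y hxy => ?_
      obtain ⟨x, rfl⟩ := Submodule.Quotient.mk_surjective _ x
      obtain ⟨y, rfl⟩ := Submodule.Quotient.mk_surjective _ y
      simp only [← Submodule.Quotient.mk_smul, Submodule.Quotient.eq] at hxy ⊢
      rw [← smul_sub] at hxy
      refine fun m n e => mul_left_cancel₀
        ((map_ne_zero_iff _ hR).2 (IsRegular.ne_zero hc)) ?_
      simpa [Algebra.smul_def] using hA'.1 hxy m n e
    obtain ⟨t, ht⟩ := Module.projective_lifting_property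
      (Subalgebra.toSubmodule A').mkQ LinearMap.id (Submodule.mkQ_surjective _)
    have hcod : ∀ a : A, ((LinearMap.id : A →ₗ[R] A) - t.comp (Subalgebra.toSubmodule A').mkQ) a ∈
        Subalgebra.toSubmodule A' := fun a => by
      rw [← Submodule.Quotient.mk_eq_zero]
      have := LinearMap.congr_fun ht (Submodule.Quotient.mk a)
      simp only [LinearMap.comp_apply, Submodule.mkQ_apply, LinearMap.id_apply] at this
      simp [this]
    refine ⟨(LinearMap.id - t.comp (Subalgebra.toSubmodule A').mkQ).codRestrict _ hcod,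
      fun a => Subtype.ext ?_⟩
    have : Submodule.Quotient.mk (p := Subalgebra.toSubmodule A') (a : A) = 0 :=
      (Submodule.Quotient.mk_eq_zero _).2 a.2
    simp [this]
  refine IsPointFamily.hasModel (φ := fun m' => (φ (s m')).comp A'.val)
    ⟨fun m₁ m₂ he => ?_, fun σ m' => ?_, fun a => ?_, fun a => ?_, fun a => ?_⟩
  · -- injectivity: invariant elements separate the fibres of `π`
    classical
    have he' : ∀ a ∈ A', φ (s m₁) a = φ (s m₂) a := fun a ha => AlgHom.congr_fun he ⟨a, ha⟩
    let L : M → (Module.Free.ChooseBasisIndex R A → K) →ₗ[K] K := fun m =>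
      Fintype.linearCombination K fun i => φ m (b i)
    have hL : ∀ m c, L m c = ∑ i, c i * φ m (b i) := fun m c => by
      simp [L, Fintype.linearCombination_apply]
    let W : Submodule K (Module.Free.ChooseBasisIndex R A → K) :=
      { carrier := {c | ∀ m n, π m = π n → L m c = L n c}
        zero_mem' := by simp
        add_mem' := fun hc hd m n e => by simp [hc m n e, hd m n e]
        smul_mem' := fun t c hc m n e => by simp [hc m n e] }
    have hWmem : ∀ {c}, c ∈ W ↔ ∀ m n, π m = π n → L m c = L n c := Iff.rfl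
    have hW : ∀ σ : K ≃ₐ[k] K, ∀ c ∈ W, (fun i => σ (c i)) ∈ W := by
      intro σ c hc
      rw [hWmem] at hc ⊢
      intro m n e
      have hkey : ∀ m, L m (fun i => σ (c i)) = σ (L (act σ.symm m) c) := fun m => by
        simp [hL, hφ.gal, map_sum]
      rw [hkey, hkey, hc (act σ.symm m) (act σ.symm n) (by simp [hact, e])]
    obtain ⟨c, hc⟩ := (Submodule.mem_span_range_iff_exists_fun K).1
      ((hsep.span_eq_top hs hφ.injective b).ge
        (Submodule.mem_top (x := fun m => if π m = m₁ then (1 : K) else 0)))
    have hc' : ∀ m, L m c = if π m = m₁ then 1 else 0 := fun m => by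
      simpa [hL] using congr_fun hc m
    have hcW : c ∈ W := hWmem.2 fun m n e => by simp [hc', e]
    have hsub : W ≤ LinearMap.ker (L (s m₁) - L (s m₂)) := by
      refine (le_span_integral_of_stable (R := R) W hW).trans (Submodule.span_le.2 ?_)
      rintro d ⟨hdW, hdr⟩
      choose q hq using hdr
      have hq' : ∀ m, L m d = φ m (∑ i, q i • b i) := fun m => by
        simp [hL, map_sum, Algebra.smul_def, ← hq]
      have hmem : ∑ i, q i • b i ∈ A' := hA'.2 fun m n e => by
        rw [← hq', ← hq']
        exact hWmem.1 hdW m n e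
      simpa [sub_eq_zero, hq'] using he' _ hmem
    have h2 := hsub hcW
    simp only [LinearMap.mem_ker, LinearMap.sub_apply, hc', hs', if_true] at h2
    by_contra hne
    simp [Ne.symm hne] at h2
  · refine AlgHom.ext fun a => ?_
    simp only [AlgHom.comp_apply, galComp_apply, Subalgebra.coe_val]
    rw [hA'.1 a.2 (s (act' σ m')) (act σ (s m')) (by rw [hs', hact, hs'])]
    exact AlgHom.congr_fun (hφ.gal σ (s m')) a
  · obtain ⟨x, hx⟩ := hφ.comul a
    refine ⟨TensorProduct.map r r x, fun m' n' => ?_⟩
    have key : ∀ x : A ⊗[R] A, (∀ m m₁ n, π m = π m₁ →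
        productMap (φ m) (φ n) x = productMap (φ m₁) (φ n) x) →
        TensorProduct.map ((Subalgebra.toSubmodule A').subtype ∘ₗ r) LinearMap.id x = x := by
      intro x hinv
      obtain ⟨y, rfl⟩ := TensorProduct.eq_repr_basis_right b x
      rw [Finsupp.sum_fintype _ _ (fun _ => by simp)] at hinv ⊢
      have hLI := hsep.linearIndependent hs b
      rw [Fintype.linearIndependent_iff] at hLI
      have hy : ∀ i, y i ∈ A' := fun i => hA'.2 fun m m₁ e => sub_eq_zero.1 <|
        hLI (fun i => φ m (y i) - φ m₁ (y i)) (by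
          funext n
          have := hinv m m₁ n e
          simpa [map_sum, sub_mul, Finset.sum_sub_distrib, sub_eq_zero] using this) i
      simp only [map_sum, TensorProduct.map_tmul, LinearMap.comp_apply, LinearMap.id_apply]
      refine Finset.sum_congr rfl fun i _ => ?_
      rw [show r (y i) = ⟨y i, hy i⟩ from hr ⟨y i, hy i⟩]
      rfl
    have hxinv : ∀ m m₁ n, π m = π m₁ →
        productMap (φ m) (φ n) x = productMap (φ m₁) (φ n) x := fun m m₁ n e => by
      rw [hx, hx]
      exact hA'.1 a.2 _ _ (by rw [map_add, map_add, e])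
    have hcomm : TensorProduct.comm R A A x = x := (hsep.tensor hsep hs).eq fun ⟨m, n⟩ => by
      have : (productMap (φ m) (φ n)).toLinearMap ∘ₗ (TensorProduct.comm R A A).toLinearMap =
          (productMap (φ n) (φ m)).toLinearMap :=
        TensorProduct.ext' fun u v => by simp [mul_comm]
      refine (LinearMap.congr_fun this x).trans ((hx n m).trans ?_)
      rw [add_comm]
      exact (hx m n).symm
    set P := (Subalgebra.toSubmodule A').subtype ∘ₗ r with hP
    have h1 : TensorProduct.map P LinearMap.id x = x := key x hxinv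
    have h2 : TensorProduct.map LinearMap.id P x = x := by
      conv_lhs => rw [← hcomm, TensorProduct.map_comm]
      rw [h1, hcomm]
    have h3 : TensorProduct.map P P x = x := by
      have := LinearMap.congr_fun (TensorProduct.map_comp P LinearMap.id LinearMap.id P) x
      simp only [LinearMap.comp_id, LinearMap.id_comp, LinearMap.comp_apply] at this
      rw [this, h2, h1]
    have h4 : (productMap ((φ (s m')).comp A'.val) ((φ (s n')).comp A'.val)).toLinearMap ∘ₗ
        TensorProduct.map r r = (productMap (φ (s m')) (φ (s n'))).toLinearMap ∘ₗ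
          TensorProduct.map P P :=
      TensorProduct.ext' fun u v => rfl
    refine (LinearMap.congr_fun h4 x).trans ?_
    simp only [LinearMap.comp_apply, AlgHom.toLinearMap_apply, h3, hx]
    exact hA'.1 a.2 _ _ (by simp [hs'])
  · obtain ⟨q, hq⟩ := hφ.counit a
    exact ⟨q, hq.trans (hA'.1 a.2 _ _ (by simp [hs']))⟩
  · obtain ⟨c, hc⟩ := hφ.neg a
    refine ⟨⟨c, hA'.2 fun m n e => ?_⟩, fun m' => ?_⟩
    · rw [hc, hc]
      exact hA'.1 a.2 _ _ (by simp [e])
    · exact (hc (s m')).trans (hA'.1 a.2 _ _ (by simp [hs']))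

end FermatLib.Galois.FlatModel
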