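import Mathlib.FieldTheory.IsAlgClosed.AlgebraicClosure
import Mathlib.FieldTheory.IsSepClosed
import Mathlib.FieldTheory.Perfect
import Mathlib.FieldTheory.Galois.Basic
import Fermat.Prelude.Def_GaloisRep_Flat
import Fermat.Agent.Galois.FlatModelOps

/-!
Finite flat models over `ℤ_(p)`, and the flatness criterion for adic Galois representations.
-/

noncomputable section

namespace FermatLib.Galois.FlatModel

instance ratLocalizedAt_isFractionRing (p : ℕ) :
    IsFractionRing (GaloisRep.ratLocalizedAt p) ℚ where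
  map_units y := by
    refine isUnit_iff_ne_zero.2 fun h => nonZeroDivisors.coe_ne_zero y (Subtype.ext ?_)
    simp at h
  surj x := by
    refine ⟨⟨⟨(x.num : ℚ), ?_⟩, ⟨⟨(x.den : ℚ), ?_⟩, ?_⟩⟩, ?_⟩
    · show ((x.num : ℚ).den).Coprime p
      simp
    · show ((x.den : ℚ).den).Coprime p
      simp
    · refine mem_nonZeroDivisors_of_ne_zero fun h => x.den_nz ?_
      simpa using congrArg Subtype.val h
    · exact Rat.mul_den_eq_num x
  exists_of_eq {x y} h := ⟨1, by rw [show x = y from Subtype.ext h]⟩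

instance ratLocalizedAt_isPrincipalIdealRing (p : ℕ) :
    IsPrincipalIdealRing (GaloisRep.ratLocalizedAt p) := by
  refine ⟨fun I => ?_⟩
  obtain ⟨g, hg⟩ := (IsPrincipalIdealRing.principal
    (I.comap (Int.castRingHom (GaloisRep.ratLocalizedAt p)))).principal
  have hgI : (g : GaloisRep.ratLocalizedAt p) ∈ I := by
    have : g ∈ I.comap (Int.castRingHom (GaloisRep.ratLocalizedAt p)) :=
      hg ▸ Submodule.mem_span_singleton_self g
    simpa using this
  refine ⟨(g : GaloisRep.ratLocalizedAt p), le_antisymm (fun x hx => ?_) ?_⟩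
  · have hden : ((x : ℚ).den : ℚ)⁻¹ ∈ GaloisRep.ratLocalizedAt p := by
      show ((x : ℚ).den : ℚ)⁻¹.den.Coprime p
      rw [Rat.inv_natCast_den, if_neg (x : ℚ).den_nz]
      exact x.2
    have hmul : ((x : ℚ).num : GaloisRep.ratLocalizedAt p) = x * ((x : ℚ).den : ℕ) :=
      Subtype.ext (by simpa using (Rat.mul_den_eq_num (x : ℚ)).symm)
    have hnum : (x : ℚ).num ∈ I.comap (Int.castRingHom (GaloisRep.ratLocalizedAt p)) := by
      rw [Ideal.mem_comap]
      show ((x : ℚ).num : GaloisRep.ratLocalizedAt p) ∈ I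
      rw [hmul]
      exact I.mul_mem_right _ hx
    rw [hg, Submodule.mem_span_singleton] at hnum
    obtain ⟨c, hc⟩ := hnum
    refine Submodule.mem_span_singleton.2 ⟨(c : GaloisRep.ratLocalizedAt p) * ⟨_, hden⟩,
      Subtype.ext ?_⟩
    have hcq : (c : ℚ) * (g : ℚ) = ((x : ℚ).num : ℚ) := by
      exact_mod_cast (by simpa using hc : c * g = (x : ℚ).num)
    simp only [smul_eq_mul, Subring.coe_mul, Subring.coe_intCast]
    rw [mul_right_comm, hcq, ← div_eq_mul_inv, Rat.num_div_den]
  · rw [Submodule.span_le, Set.singleton_subset_iff]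
    exact hgI

instance rat_algebraicClosure_isGalois : IsGalois ℚ (AlgebraicClosure ℚ) := by
  have : Algebra.IsAlgebraic ℚ (AlgebraicClosure ℚ) := AlgebraicClosure.isAlgebraic ℚ
  have : Algebra.IsSeparable ℚ (AlgebraicClosure ℚ) :=
    Algebra.IsAlgebraic.isSeparable_of_perfectField
  have : IsAlgClosure ℚ (AlgebraicClosure ℚ) := ⟨inferInstance, inferInstance⟩
  have : Normal ℚ (AlgebraicClosure ℚ) := IsAlgClosure.normal ℚ _
  exact ⟨⟩

/-- `M` is the group of `ℚ̄`-points of a finite flat commutative group scheme over `ℤ_(p)`. -/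
abbrev HasModelAt (p : ℕ) (M : Type*) [AddCommGroup M]
    (act : (AlgebraicClosure ℚ ≃ₐ[ℚ] AlgebraicClosure ℚ) → M → M) : Prop :=
  HasModel (GaloisRep.ratLocalizedAt p) ℚ (AlgebraicClosure ℚ) M act

variable {A : Type} [CommRing A] [IsLocalRing A]

/-- Flatness at `p` of an adic representation, in terms of models of its finite levels. -/
theorem isFlatAt_iff_hasModelAt (ρ : GaloisRepAdic A) (p : ℕ) :
    ρ.IsFlatAt p ↔ Finite (IsLocalRing.ResidueField A) ∧ ∀ I : Ideal A, Finite (A ⧸ I) →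
      HasModelAt p (ρ.V ⧸ (I • (⊤ : Submodule A ρ.V))) fun σ => ρ.levelAction I σ :=
  Iff.rfl

/-- Closure properties, packaged over `ℤ_(p)`: a stable subquotient of a module with a model. -/
theorem HasModelAt.subquotient {p : ℕ} {M N P : Type*} [AddCommGroup M] [AddCommGroup N]
    [AddCommGroup P] {actM : (AlgebraicClosure ℚ ≃ₐ[ℚ] AlgebraicClosure ℚ) → M → M}
    {actN : (AlgebraicClosure ℚ ≃ₐ[ℚ] AlgebraicClosure ℚ) → N → N}
    {actP : (AlgebraicClosure ℚ ≃ₐ[ℚ] AlgebraicClosure ℚ) → P → P}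
    (h : HasModelAt p M actM) (ι : N →+ M) (hι : Function.Injective ι)
    (hιact : ∀ σ n, ι (actN σ n) = actM σ (ι n)) (π : N →+ P) (hπ : Function.Surjective π)
    (hπact : ∀ σ n, π (actN σ n) = actP σ (π n)) : HasModelAt p P actP :=
  (h.of_injective ι hι hιact).of_surjective π hπ hπact

end FermatLib.Galois.FlatModel
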