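import Mathlib.LinearAlgebra.Quotient.Basic
import Fermat.Agent.Galois.FlatModelRat

/-!
Flatness from a transfer of Galois relations: if every relation `∑ tᵢ • gᵢ = 0` valid on a finite
Galois module `M` with a finite flat model holds on `V / I V`, then `V / I V` has a finite flat
model, being a subquotient of a power of `M`.
-/

noncomputable section

namespace FermatLib.Galois.FlatModel

local notation "Qbar" => AlgebraicClosure ℚ
local notation "Γℚ" => (AlgebraicClosure ℚ ≃ₐ[ℚ] AlgebraicClosure ℚ)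

section
variable {J P W : Type*} [AddCommGroup J] [DistribMulAction Γℚ J] [CommRing P] [Module P J]
  [SMulCommClass Γℚ P J] [AddCommGroup W] (M : AddSubgroup J)

/-- If the relations on `M` hold on the orbit of `w` under `π`, then the submodule generated by `w`
is an equivariant image of a subgroup of `M → M`. -/
theorem hasModelAt_of_transfer (hMg : ∀ (σ : Γℚ), ∀ x ∈ M, σ • x ∈ M)
    (hMP : ∀ (t : P), ∀ x ∈ M, t • x ∈ M) {p : ℕ} {actM : Γℚ → M → M}
    (hactM : ∀ σ (x : M), ((actM σ x : M) : J) = σ • (x : J))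
    (hmodel : HasModelAt p M actM) (hMfin : Finite M) [Finite W]
    (actW : Γℚ →* AddMonoid.End W) (π : P → AddMonoid.End W)
    (hπadd : ∀ s t, π (s + t) = π s + π t) (hπ1 : π 1 = 1)
    (hπcomm : ∀ t σ w, actW σ (π t w) = π t (actW σ w))
    (htransfer : ∀ (n : ℕ) (t : Fin n → P) (g : Fin n → Γℚ),
      (∀ x ∈ M, ∑ i, t i • g i • x = 0) → ∀ w, ∑ i, π (t i) (actW (g i) w) = 0) :
    HasModelAt p W fun σ w => actW σ w := by
  classical
  have : Fintype M := Fintype.ofFinite M
  have : Fintype W := Fintype.ofFinite W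
  let eM := (Fintype.equivFin M)
  -- the pairs `(x ↦ t • g • x, π t (g w))`
  let op : P → Γℚ → (Fin (Fintype.card M) → M) := fun t g i =>
    ⟨t • g • (eM.symm i : J), hMP t _ (hMg g _ (eM.symm i).2)⟩
  let rel : W → Set ((Fin (Fintype.card M) → M) × W) := fun w =>
    Set.range fun x : P × Γℚ => (op x.1 x.2, π x.1 (actW x.2 w))
  let N : W → AddSubgroup ((Fin (Fintype.card M) → M) × W) := fun w =>
    AddSubgroup.closure (rel w)
  have hform : ∀ w, ∀ z ∈ N w, ∃ (n : ℕ) (t : Fin n → P) (g : Fin n → Γℚ),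
      z.1 = ∑ i, op (t i) (g i) ∧ z.2 = ∑ i, π (t i) (actW (g i) w) := by
    intro w z hz
    refine AddSubgroup.closure_induction (p := fun z _ => ∃ (n : ℕ) (t : Fin n → P)
      (g : Fin n → Γℚ), z.1 = ∑ i, op (t i) (g i) ∧ z.2 = ∑ i, π (t i) (actW (g i) w))
      ?_ ?_ ?_ ?_ hz
    · rintro _ ⟨⟨t, g⟩, rfl⟩
      exact ⟨1, fun _ => t, fun _ => g, by simp, by simp⟩
    · exact ⟨0, Fin.elim0, Fin.elim0, by simp, by simp⟩
    · rintro a b _ _ ⟨n, t, g, h1, h2⟩ ⟨n', t', g', h1', h2'⟩
      exact ⟨n + n', Fin.append t t', Fin.append g g', by simp [Fin.sum_univ_add, h1, h1'],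
        by simp [Fin.sum_univ_add, h2, h2']⟩
    · rintro a _ ⟨n, t, g, h1, h2⟩
      refine ⟨n, fun i => -t i, g, ?_, ?_⟩
      · rw [Prod.fst_neg, h1, ← Finset.sum_neg_distrib]
        exact Finset.sum_congr rfl fun i _ => funext fun j => Subtype.ext (by simp [op])
      · have hneg : ∀ s, π (-s) = -π s := fun s => map_neg (AddMonoidHom.mk' π hπadd) s
        rw [Prod.snd_neg, h2, ← Finset.sum_neg_distrib]
        exact Finset.sum_congr rfl fun i _ => by rw [hneg]; rfl
  have hinj : ∀ w, ∀ z ∈ N w, z.1 = 0 → z.2 = 0 := by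
    intro w z hz h0
    obtain ⟨n, t, g, h1, h2⟩ := hform w z hz
    rw [h2]
    refine htransfer n t g (fun x hx => ?_) w
    have := congrArg (fun f => ((f (eM ⟨x, hx⟩) : M) : J)) (h1.symm.trans h0)
    simpa [op] using this
  -- Galois stability
  let actN : Γℚ → ((Fin (Fintype.card M) → M) × W) → ((Fin (Fintype.card M) → M) × W) :=
    fun σ z => (fun i => actM σ (z.1 i), actW σ z.2)
  have hactMadd : ∀ σ (x y : M), actM σ (x + y) = actM σ x + actM σ y := fun σ x y =>
    Subtype.ext (by simp [hactM, smul_add])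
  let actN' : Γℚ → (((Fin (Fintype.card M) → M) × W) →+ ((Fin (Fintype.card M) → M) × W)) :=
    fun σ => AddMonoidHom.mk' (actN σ) fun a b =>
      Prod.ext (funext fun i => hactMadd σ _ _) (map_add (actW σ) _ _)
  have hstab : ∀ w σ, ∀ z ∈ N w, actN σ z ∈ N w := by
    intro w σ z hz
    have hle : N w ≤ (N w).comap (actN' σ) := by
      refine (AddSubgroup.closure_le _).2 ?_
      rintro _ ⟨⟨t, g⟩, rfl⟩
      refine AddSubgroup.subset_closure ⟨(t, σ * g), ?_⟩
      refine Prod.ext (funext fun i => Subtype.ext ?_) ?_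
      · show t • (σ * g) • ((eM.symm i : M) : J) = ((actM σ (op t g i) : M) : J)
        rw [hactM, mul_smul, ← smul_comm σ t]
      · show π t (actW (σ * g) w) = actW σ (π t (actW g w))
        rw [hπcomm, map_mul]
        rfl
    exact hle hz
  have hpi : HasModelAt p (Fin (Fintype.card M) → M) fun σ x i => actM σ (x i) :=
    hmodel.pi_fin _
  have hN : ∀ w, HasModelAt p (N w) fun σ z => ⟨actN σ z, hstab w σ z z.2⟩ := by
    intro w
    refine hpi.of_injective
      ((AddMonoidHom.fst _ _).comp (N w).subtype) ?_ fun σ z => rfl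
    rw [injective_iff_map_eq_zero]
    intro z hz
    exact Subtype.ext (Prod.ext hz (hinj w z z.2 hz))
  -- the sum over all `w`
  have hprod : ∀ m : ℕ, ∀ w : Fin m → W,
      HasModelAt p (∀ i, N (w i)) fun σ z i => ⟨actN σ (z i), hstab _ σ _ (z i).2⟩ := by
    intro m
    induction m with
    | zero => exact fun w => HasModel.of_subsingleton
    | succ m ih =>
      intro w
      let e : (N (w 0) × ∀ i, N (w (Fin.succ i))) ≃+ (∀ i, N (w i)) :=
        { toFun := fun x => Fin.cons (α := fun i => N (w i)) x.1 x.2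
          invFun := fun f => (f 0, fun i => f i.succ)
          left_inv := fun x => by simp
          right_inv := fun f => funext fun i => Fin.cases (by simp) (fun j => by simp) i
          map_add' := fun x y => funext fun i => Fin.cases (by simp) (fun j => by simp) i }
      refine ((hN (w 0)).prod (ih fun i => w i.succ)).congr e fun σ x => ?_
      funext i
      refine Fin.cases ?_ (fun j => ?_) i <;> simp [e]
  let eW := Fintype.equivFin W
  let sumHom : (∀ i, N (eW.symm i)) →+ W :=
    { toFun := fun z => ∑ i, (z i : (Fin (Fintype.card M) → M) × W).2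
      map_zero' := by simp
      map_add' := fun a b => by simp [Finset.sum_add_distrib] }
  refine (hprod _ fun i => eW.symm i).of_surjective sumHom (fun v => ?_) fun σ z => ?_
  · have hv : ((op 1 1, v) : (Fin (Fintype.card M) → M) × W) ∈ N (eW.symm (eW v)) :=
      AddSubgroup.subset_closure ⟨(1, 1), by simp [hπ1]⟩
    refine ⟨Pi.single (eW v) ⟨_, hv⟩, ?_⟩
    show ∑ i, ((Pi.single (eW v) ⟨_, hv⟩ : ∀ i, N (eW.symm i)) i :
      (Fin (Fintype.card M) → M) × W).2 = v
    rw [Finset.sum_eq_single (eW v) (fun i _ hi => by simp [Pi.single_eq_of_ne hi]) (by simp)]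
    simp
  · simp [sumHom, actN, map_sum]

end

end FermatLib.Galois.FlatModel
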