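import Mathlib.RingTheory.Finiteness.Cardinality
import Mathlib.Algebra.Module.Torsion.Basic
import Mathlib.RingTheory.Ideal.Quotient.Operations
import Fermat.Agent.Galois.FlatTransfer

/-!
Flatness at `p` of an adic Galois representation from a transfer of relations from the
`p`-power torsion of a Galois module with finite flat models (used for S32).
-/

noncomputable section

namespace FermatLib.Galois.FlatModel

local notation "Qbar" => AlgebraicClosure ℚ
local notation "Γℚ" => (AlgebraicClosure ℚ ≃ₐ[ℚ] AlgebraicClosure ℚ)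

variable {J : Type*} [AddCommGroup J] [DistribMulAction Γℚ J]

theorem galois_smul_mem_torsionBy (n : ℤ) (σ : Γℚ) {x : J}
    (hx : x ∈ Submodule.torsionBy ℤ J n) : σ • x ∈ Submodule.torsionBy ℤ J n := by
  rw [Submodule.mem_torsionBy_iff] at hx ⊢
  have := map_zsmul (DistribSMul.toAddMonoidHom J σ) n x
  rw [hx, map_zero] at this
  exact this.symm

/-- The Galois action on the `n`-torsion. -/
def torsionAct (n : ℤ) (σ : Γℚ) (x : (Submodule.torsionBy ℤ J n).toAddSubgroup) :
    (Submodule.torsionBy ℤ J n).toAddSubgroup :=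
  ⟨σ • (x : J), galois_smul_mem_torsionBy n σ x.2⟩

/-- A finite flat model in the shape of the frozen statement S19 gives `HasModelAt`. -/
theorem hasModelAt_torsion_of_model {p : ℕ} (n : ℤ)
    (h : ∃ (H : Type) (_ : CommRing H) (_ : HopfAlgebra (GaloisRep.ratLocalizedAt p) H),
      Module.Finite (GaloisRep.ratLocalizedAt p) H ∧ Module.Flat (GaloisRep.ratLocalizedAt p) H ∧
      Coalgebra.IsCocomm (GaloisRep.ratLocalizedAt p) H ∧
      ∃ e : WithConv (H →ₐ[GaloisRep.ratLocalizedAt p] Qbar) ≃ ↥(Submodule.torsionBy ℤ J n),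
        (∀ f g, e (f * g) = e f + e g) ∧
        ∀ (σ : Γℚ) (f g : WithConv (H →ₐ[GaloisRep.ratLocalizedAt p] Qbar)),
          (∀ h : H, g h = σ (f h)) → ((e g : J)) = σ • (e f : J)) :
    HasModelAt p (Submodule.torsionBy ℤ J n).toAddSubgroup (torsionAct n) := by
  obtain ⟨H, i1, i2, h1, h2, h3, e, he, hgal⟩ := h
  exact ⟨H, i1, i2, h1, h2, h3, e, he, fun σ f g hfg => Subtype.ext (hgal σ f g hfg)⟩

variable {P : Type*} [CommRing P] [Module P J] [SMulCommClass Γℚ P J]
  {T : Type} [CommRing T] [IsLocalRing T]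

/-- Flatness at `p` from models of `J[p^k]` and a transfer of relations. -/
theorem isFlatAt_of_transfer (ρ : GaloisRepAdic T) (π : P →+* T) (p : ℕ)
    [Finite (IsLocalRing.ResidueField T)]
    (hmodel : ∀ k : ℕ, HasModelAt p
      (Submodule.torsionBy ℤ J ((p : ℤ) ^ k)).toAddSubgroup (torsionAct _))
    (htransfer : ∀ I : Ideal T, Finite (T ⧸ I) → ∃ k : ℕ,
      ∀ (n : ℕ) (t : Fin n → P) (g : Fin n → Γℚ),
        (∀ x : J, p ^ k • x = 0 → ∑ i, t i • g i • x = 0) →
          ∀ v : ρ.V, ∑ i, π (t i) • ρ.ρ (g i) v ∈ I • (⊤ : Submodule T ρ.V)) :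
    ρ.IsFlatAt p := by
  refine (isFlatAt_iff_hasModelAt ρ p).2 ⟨inferInstance, fun I hI => ?_⟩
  have : Finite (ρ.V ⧸ (I • ⊤ : Submodule T ρ.V)) := Module.finite_of_finite (T ⧸ I)
  obtain ⟨k, hk⟩ := htransfer I hI
  have hmemM : ∀ x : J, x ∈ (Submodule.torsionBy ℤ J ((p : ℤ) ^ k)).toAddSubgroup ↔
      p ^ k • x = 0 := fun x => by
    rw [Submodule.mem_toAddSubgroup, Submodule.mem_torsionBy_iff,
      show ((p : ℤ) ^ k) = ((p ^ k : ℕ) : ℤ) by push_cast; ring, natCast_zsmul]
  let actW : Γℚ →* AddMonoid.End (ρ.V ⧸ (I • ⊤ : Submodule T ρ.V)) :=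
    { toFun := fun σ => (ρ.levelAction I σ).toAddMonoidHom
      map_one' := by
        refine AddMonoidHom.ext fun w => ?_
        obtain ⟨v, rfl⟩ := Submodule.Quotient.mk_surjective _ w
        show Submodule.Quotient.mk (ρ.ρ 1 v) = Submodule.Quotient.mk v
        rw [map_one, Module.End.one_apply]
      map_mul' := fun σ τ => by
        refine AddMonoidHom.ext fun w => ?_
        obtain ⟨v, rfl⟩ := Submodule.Quotient.mk_surjective _ w
        show Submodule.Quotient.mk (ρ.ρ (σ * τ) v) = Submodule.Quotient.mk (ρ.ρ σ (ρ.ρ τ v))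
        rw [map_mul, Module.End.mul_apply] }
  refine hasModelAt_of_transfer (P := P) _ (fun σ x hx => galois_smul_mem_torsionBy _ σ hx)
    (fun t x hx => ?_) (actM := torsionAct _) (fun σ x => rfl) (hmodel k)
    (hmodel k).finite_carrier actW
    (fun t => (LinearMap.lsmul T (ρ.V ⧸ (I • ⊤ : Submodule T ρ.V)) (π t)).toAddMonoidHom)
    (fun s t => AddMonoidHom.ext fun w => by simp; rfl)
    (AddMonoidHom.ext fun w => by simp; rfl)
    (fun t σ w => map_smul (ρ.levelAction I σ) (π t) w) fun n t g hx w => ?_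
  · rw [hmemM] at hx ⊢
    rw [← smul_comm, hx, smul_zero]
  · obtain ⟨v, rfl⟩ := Submodule.Quotient.mk_surjective _ w
    have h := hk n t g (fun x hx' => hx x ((hmemM x).2 hx')) v
    rw [← Submodule.Quotient.mk_eq_zero] at h
    refine Eq.trans ?_ ((map_sum (Submodule.mkQ _) _ _).symm.trans h)
    rfl

end FermatLib.Galois.FlatModel
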