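import Mathlib.RingTheory.HopkinsLevitzki
import Mathlib.RingTheory.LocalRing.Quotient
import Mathlib.LinearAlgebra.TensorProduct.Basis
import Fermat.Agent.Galois.FlatTransferRep

/-!
Flatness at `p` under change of coefficients.
-/

noncomputable section

open scoped TensorProduct

namespace FermatLib.Galois.FlatModel

local notation "Qbar" => AlgebraicClosure ℚ
local notation "Γℚ" => (AlgebraicClosure ℚ ≃ₐ[ℚ] AlgebraicClosure ℚ)

variable {A B C : Type} [CommRing A] [IsLocalRing A] [CommRing B] [IsLocalRing B]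
  [CommRing C] [IsLocalRing C]

/-- A coordinate-wise criterion for membership in `I V`. -/
theorem mem_ker_smul_top_of_repr_mem (ρ : GaloisRepAdic A) {ι : Type*} [Fintype ι]
    (b : Module.Basis ι A ρ.V) (I : Ideal A) {v : ρ.V} (h : ∀ i, b.repr v i ∈ I) :
    v ∈ I • (⊤ : Submodule A ρ.V) := by
  rw [← b.sum_repr v]
  exact Submodule.sum_mem _ fun i _ => Submodule.smul_mem_smul (h i) Submodule.mem_top

/-- The map `V → B ⊗ V` of a change of coefficients. -/
def toBaseChange (φ : A →+* B) (hφ : IsLocalHom φ) (ρ : GaloisRepAdic A) :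
    ρ.V →+ (ρ.baseChangeAlong φ hφ).V :=
  let _ : Algebra A B := φ.toAlgebra
  ((TensorProduct.mk A B ρ.V) 1).toAddMonoidHom

theorem toBaseChange_galois (φ : A →+* B) (hφ : IsLocalHom φ) (ρ : GaloisRepAdic A) (σ : Γℚ)
    (v : ρ.V) :
    toBaseChange φ hφ ρ (ρ.ρ σ v) = (ρ.baseChangeAlong φ hφ).ρ σ (toBaseChange φ hφ ρ v) := rfl

theorem toBaseChange_smul (φ : A →+* B) (hφ : IsLocalHom φ) (ρ : GaloisRepAdic A) (a : A)
    (v : ρ.V) : toBaseChange φ hφ ρ (a • v) = φ a • toBaseChange φ hφ ρ v := by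
  let _ : Algebra A B := φ.toAlgebra
  show (1 : B) ⊗ₜ[A] (a • v) = φ a • ((1 : B) ⊗ₜ[A] v)
  rw [TensorProduct.smul_tmul', TensorProduct.tmul_smul, TensorProduct.smul_tmul', Algebra.smul_def,
    smul_eq_mul]
  rfl

theorem toBaseChange_eq_zero_of_mem (φ : A →+* B) (hφ : IsLocalHom φ) (ρ : GaloisRepAdic A)
    {v : ρ.V} (hv : v ∈ (RingHom.ker φ) • (⊤ : Submodule A ρ.V)) :
    toBaseChange φ hφ ρ v = 0 := by
  refine Submodule.smul_induction_on hv (fun a ha w _ => ?_) fun x y hx hy => ?_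
  · rw [toBaseChange_smul, RingHom.mem_ker.1 ha, zero_smul]
  · rw [map_add, hx, hy, add_zero]

theorem mem_of_toBaseChange_eq_zero (φ : A →+* B) (hφ : IsLocalHom φ) (ρ : GaloisRepAdic A)
    {v : ρ.V} (hv : toBaseChange φ hφ ρ v = 0) {ι : Type*} (b : Module.Basis ι A ρ.V) (i : ι) :
    φ (b.repr v i) = 0 := by
  let _ : Algebra A B := φ.toAlgebra
  have h : ((Algebra.TensorProduct.basis B b).repr ((1 : B) ⊗ₜ[A] v)) i = 0 := by
    rw [show ((1 : B) ⊗ₜ[A] v) = 0 from hv]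
    simp
  rw [Algebra.TensorProduct.basis_repr_tmul] at h
  simpa [Algebra.smul_def, RingHom.algebraMap_toAlgebra] using h

/-- If `V/(ker φ)V` has a model and `B` is finite, so does `B ⊗ V`. -/
theorem hasModelAt_baseChange {p : ℕ} (φ : A →+* B) (hφ : IsLocalHom φ) [Finite B]
    (ρ : GaloisRepAdic A)
    (h : HasModelAt p (ρ.V ⧸ (RingHom.ker φ • (⊤ : Submodule A ρ.V)))
      fun σ => ρ.levelAction (RingHom.ker φ) σ) :
    HasModelAt p (ρ.baseChangeAlong φ hφ).V fun σ => (ρ.baseChangeAlong φ hφ).ρ σ := by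
  cases nonempty_fintype B
  let eB := Fintype.equivFin B
  let f : ρ.V ⧸ (RingHom.ker φ • (⊤ : Submodule A ρ.V)) →+ (ρ.baseChangeAlong φ hφ).V :=
    QuotientAddGroup.lift _ (toBaseChange φ hφ ρ) fun v hv =>
      toBaseChange_eq_zero_of_mem φ hφ ρ hv
  let π : (Fin (Fintype.card B) → ρ.V ⧸ (RingHom.ker φ • (⊤ : Submodule A ρ.V))) →+
      (ρ.baseChangeAlong φ hφ).V :=
    { toFun := fun v => ∑ i, eB.symm i • f (v i)
      map_zero' := by simp
      map_add' := fun v w => by simp [Finset.sum_add_distrib, smul_add] }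
  refine (h.pi_fin _).of_surjective π (fun y => ?_) fun σ v => ?_
  · letI : Algebra A B := φ.toAlgebra
    refine TensorProduct.induction_on (motive := fun y : B ⊗[A] ρ.V => ∃ v, π v = y) y
      ⟨0, map_zero π⟩ (fun c v => ?_) (fun y z ⟨v, hv⟩ ⟨w, hw⟩ => ⟨v + w, (map_add π v w).trans (congrArg₂ _ hv hw)⟩)
    refine ⟨Pi.single (eB c) (Submodule.Quotient.mk v), ?_⟩
    show ∑ i, eB.symm i • f _ = _
    rw [Finset.sum_eq_single (eB c) (fun i _ hi => by simp [Pi.single_eq_of_ne hi]) (by simp),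
      Pi.single_eq_same, Equiv.symm_apply_apply]
    show c • ((1 : B) ⊗ₜ[A] v) = c ⊗ₜ[A] v
    rw [TensorProduct.smul_tmul', smul_eq_mul, mul_one]
  · show ∑ i, eB.symm i • f (ρ.levelAction _ σ (v i)) =
      (ρ.baseChangeAlong φ hφ).ρ σ (∑ i, eB.symm i • f (v i))
    rw [map_sum]
    refine Finset.sum_congr rfl fun i _ => ?_
    rw [map_smul]
    congr 1
    obtain ⟨w, hw⟩ := Submodule.Quotient.mk_surjective _ (v i)
    rw [← hw]
    rfl

/-- If `B ⊗ V` has a model, so does `V/(ker φ)V`. -/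
theorem hasModelAt_level_of_baseChange {p : ℕ} (φ : A →+* B) (hφ : IsLocalHom φ)
    (ρ : GaloisRepAdic A)
    (h : HasModelAt p (ρ.baseChangeAlong φ hφ).V fun σ => (ρ.baseChangeAlong φ hφ).ρ σ) :
    HasModelAt p (ρ.V ⧸ (RingHom.ker φ • (⊤ : Submodule A ρ.V)))
      fun σ => ρ.levelAction (RingHom.ker φ) σ := by
  let f : ρ.V ⧸ (RingHom.ker φ • (⊤ : Submodule A ρ.V)) →+ (ρ.baseChangeAlong φ hφ).V :=
    QuotientAddGroup.lift _ (toBaseChange φ hφ ρ) fun v hv =>
      toBaseChange_eq_zero_of_mem φ hφ ρ hv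
  refine h.of_injective f ((injective_iff_map_eq_zero f).2 fun x hx => ?_) fun σ x => ?_
  · obtain ⟨v, rfl⟩ := Submodule.Quotient.mk_surjective _ x
    rw [Submodule.Quotient.mk_eq_zero]
    exact mem_ker_smul_top_of_repr_mem ρ (Module.finBasis A ρ.V) _ fun i =>
      RingHom.mem_ker.2 (mem_of_toBaseChange_eq_zero φ hφ ρ hx _ i)
  · obtain ⟨v, rfl⟩ := Submodule.Quotient.mk_surjective _ x
    rfl

/-- Over a finite ring, flatness is the existence of a model of `V` itself. -/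
theorem isFlatAt_iff_of_finite [Finite A] (ρ : GaloisRepAdic A) (p : ℕ) :
    ρ.IsFlatAt p ↔ HasModelAt p ρ.V fun σ => ρ.ρ σ := by
  have hbot : (⊥ : Ideal A) • (⊤ : Submodule A ρ.V) = ⊥ := Submodule.bot_smul _
  rw [isFlatAt_iff_hasModelAt]
  constructor
  · rintro ⟨-, h⟩
    refine (h ⊥ (Finite.of_surjective (Ideal.Quotient.mk ⊥) Ideal.Quotient.mk_surjective)).congr
      (Submodule.quotEquivOfEqBot _ hbot).toAddEquiv fun σ x => ?_
    obtain ⟨v, rfl⟩ := Submodule.Quotient.mk_surjective _ x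
    rfl
  · intro h
    refine ⟨Finite.of_surjective _ (IsLocalRing.residue_surjective (R := A)), fun I _ => ?_⟩
    exact h.of_surjective (Submodule.mkQ (I • (⊤ : Submodule A ρ.V))).toAddMonoidHom
      (Submodule.mkQ_surjective _) fun σ v => rfl

/-- Flatness is preserved by local maps to finite rings. -/
theorem isFlatAt_baseChange {p : ℕ} (φ : A →+* B) (hφ : IsLocalHom φ) [Finite B]
    {ρ : GaloisRepAdic A} (h : ρ.IsFlatAt p) : (ρ.baseChangeAlong φ hφ).IsFlatAt p := by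
  have : Finite (A ⧸ RingHom.ker φ) := Finite.of_injective _ (RingHom.kerLift_injective φ)
  exact (isFlatAt_iff_of_finite _ p).2
    (hasModelAt_baseChange φ hφ ρ (((isFlatAt_iff_hasModelAt ρ p).1 h).2 _ this))

/-- A finite ring embedded jointly in two rings: flatness of both base changes gives flatness. -/
theorem isFlatAt_of_jointly_injective {p : ℕ} [Finite A] [Finite B] [Finite C] (φ : A →+* B)
    (hφ : IsLocalHom φ) (ψ : A →+* C) (hψ : IsLocalHom ψ)
    (hinj : ∀ a, φ a = 0 → ψ a = 0 → a = 0) {ρ : GaloisRepAdic A}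
    (h₁ : (ρ.baseChangeAlong φ hφ).IsFlatAt p) (h₂ : (ρ.baseChangeAlong ψ hψ).IsFlatAt p) :
    ρ.IsFlatAt p := by
  rw [isFlatAt_iff_of_finite] at h₁ h₂ ⊢
  refine (h₁.prod h₂).of_injective
    (AddMonoidHom.prod (toBaseChange φ hφ ρ) (toBaseChange ψ hψ ρ)) ?_ fun σ v => rfl
  rw [injective_iff_map_eq_zero]
  intro v hv
  rw [AddMonoidHom.prod_apply, Prod.mk_eq_zero] at hv
  refine (Module.finBasis A ρ.V).ext_elem fun i => ?_
  rw [map_zero, Finsupp.zero_apply]
  exact hinj _ (mem_of_toBaseChange_eq_zero φ hφ ρ hv.1 _ i)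
    (mem_of_toBaseChange_eq_zero ψ hψ ρ hv.2 _ i)

/-- Descent of flatness along an injective map of finite rings. -/
theorem isFlatAt_of_baseChange_injective {p : ℕ} [Finite A] [Finite B] (φ : A →+* B)
    (hφ : IsLocalHom φ) (hinj : Function.Injective φ) {ρ : GaloisRepAdic A}
    (h : (ρ.baseChangeAlong φ hφ).IsFlatAt p) : ρ.IsFlatAt p :=
  isFlatAt_of_jointly_injective φ hφ φ hφ (fun _ ha _ => hinj (ha.trans (map_zero φ).symm)) h h

/-- Flatness is invariant under equivalence. -/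
theorem isFlatAt_of_isEquiv {p : ℕ} {ρ ρ' : GaloisRepAdic A} (e : ρ.IsEquiv ρ')
    (h : ρ.IsFlatAt p) : ρ'.IsFlatAt p := by
  obtain ⟨e⟩ := e
  rw [isFlatAt_iff_hasModelAt] at h ⊢
  refine ⟨h.1, fun I hI => ?_⟩
  have hmap : (I • (⊤ : Submodule A ρ.V)).map (e.toLinearEquiv : ρ.V →ₗ[A] ρ'.V) = I • ⊤ := by
    rw [Submodule.map_smul'', Submodule.map_top,
      LinearMap.range_eq_top.2 e.toLinearEquiv.surjective]
  refine (h.2 I hI).congr
    (Submodule.Quotient.equiv _ _ e.toLinearEquiv hmap).toAddEquiv fun σ x => ?_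
  obtain ⟨v, rfl⟩ := Submodule.Quotient.mk_surjective _ x
  exact congrArg Submodule.Quotient.mk (e.map_apply σ v)

/-- Flatness can be checked on the Artinian quotients. -/
theorem isFlatAt_of_forall_quotient {p : ℕ} (ρ : GaloisRepAdic A)
    [Finite (IsLocalRing.ResidueField A)]
    (h : ∀ I : Ideal A, Finite (A ⧸ I) → I ≠ ⊤ → ∀ (_ : IsLocalRing (A ⧸ I))
      (hq : IsLocalHom (Ideal.Quotient.mk I)),
      (ρ.baseChangeAlong (Ideal.Quotient.mk I) hq).IsFlatAt p) :
    ρ.IsFlatAt p := by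
  refine (isFlatAt_iff_hasModelAt ρ p).2 ⟨inferInstance, fun I hI => ?_⟩
  by_cases hI0 : I = ⊤
  · subst hI0
    have : Subsingleton (ρ.V ⧸ ((⊤ : Ideal A) • (⊤ : Submodule A ρ.V))) :=
      Submodule.Quotient.subsingleton_iff.2 (by simp)
    exact HasModel.of_subsingleton
  · have : Nontrivial (A ⧸ I) := Ideal.Quotient.nontrivial_iff.mpr hI0
    have hloc : IsLocalRing (A ⧸ I) :=
      IsLocalRing.of_surjective' (Ideal.Quotient.mk I) Ideal.Quotient.mk_surjective
    have hq := IsLocalHom.of_surjective (Ideal.Quotient.mk I) Ideal.Quotient.mk_surjective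
    have hmk := (isFlatAt_iff_of_finite _ p).1 (h I hI hI0 hloc hq)
    have := hasModelAt_level_of_baseChange (Ideal.Quotient.mk I) hq ρ hmk
    rwa [Ideal.mk_ker] at this

end FermatLib.Galois.FlatModel
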