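import Fermat.Agent.Galois.LocalDescentGlobal

/-!
# Finite flat models over `ℤ_(p)` from functions at one place

If, at one place `V ∣ p`, a finite Galois module `M` carries a finitely generated, separating
algebra `B` of integral functions, closed under the co-operations, stable under decomposition and
spanned by inertia-invariant functions, then `M` is the group of points of a finite flat
commutative group scheme over `ℤ_(p)`.
-/

set_option autoImplicit false

noncomputable section

open scoped TensorProduct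

namespace FermatLib.Galois.LocalDescent

local notation "Qbar" => AlgebraicClosure ℚ
local notation "Γℚ" => (AlgebraicClosure ℚ ≃ₐ[ℚ] AlgebraicClosure ℚ)

variable {V : ValuationSubring (AlgebraicClosure ℚ)} {M : Type} [AddCommGroup M]

/-- Products of functions of two variables. -/
def pairMul (V : ValuationSubring Qbar) (M : Type) :
    (M → Qbar) →ₗ[V] (M → Qbar) →ₗ[V] (M × M → Qbar) :=
  LinearMap.mk₂ V (fun f g q => f q.1 * g q.2)
    (fun f f' g => by funext q; simp [add_mul])
    (fun c f g => by funext q; simp [Algebra.smul_def, mul_assoc])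
    (fun f g g' => by funext q; simp [mul_add])
    (fun c f g => by funext q; simp [Algebra.smul_def, mul_left_comm])

omit [AddCommGroup M] in
@[simp] theorem pairMul_apply (f g : M → Qbar) (q : M × M) :
    pairMul V M f g q = f q.1 * g q.2 := rfl

variable [DistribMulAction Γℚ M]

/-- The data at one place giving a finite flat model. -/
structure IsLocalAlgebra (B : Subalgebra V (M → Qbar)) : Prop where
  fg : (Subalgebra.toSubmodule B).FG
  integral : ∀ f ∈ B, ∀ m, f m ∈ V
  separates : ∀ z w : M, (∀ f ∈ B, f z = f w) → z = w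
  add_mem : ∀ f ∈ B, (fun q : M × M => f (q.1 + q.2)) ∈
    Submodule.map₂ (pairMul V M) (Subalgebra.toSubmodule B) (Subalgebra.toSubmodule B)
  neg_mem : ∀ f ∈ B, (fun m => f (-m)) ∈ B
  stable : ∀ σ ∈ V.decompositionSubgroup ℚ, ∀ f ∈ B, twist σ f ∈ B
  unramified : Subalgebra.toSubmodule B ≤
    Submodule.span V {f | f ∈ B ∧ ∀ τ ∈ V.inertiaSubgroupIn ℚ, twist τ f = f}

/-- A rational number lies in `V` iff its denominator is prime to `p`. -/
theorem ratCast_mem_iff {p : ℕ} (hp : p.Prime) (hV : V.LiesOverPrime p) (q : ℚ) :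
    algebraMap ℚ Qbar q ∈ V ↔ q.den.Coprime p := by
  have hd0 : (q.den : Qbar) ≠ 0 := Nat.cast_ne_zero.mpr q.den_nz
  have hq : algebraMap ℚ Qbar q * (q.den : Qbar) = (q.num : Qbar) := by
    have := congrArg (algebraMap ℚ Qbar) (Rat.mul_den_eq_num q)
    simpa only [map_mul, map_natCast, map_intCast] using this
  constructor
  · intro hmem
    rw [Nat.coprime_comm, hp.coprime_iff_not_dvd]
    intro hdvd
    have hden : (q.den : Qbar) ∈ V.nonunits := by
      obtain ⟨c, hc⟩ := hdvd
      have h2 : (q.den : V) ∈ IsLocalRing.maximalIdeal V := by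
        rw [hc, Nat.cast_mul]
        exact Ideal.mul_mem_right _ _
          ((V.coe_mem_nonunits_iff (a := (p : V))).mp (by push_cast; exact hV))
      have := (V.coe_mem_nonunits_iff).mpr h2
      simpa using this
    have hnum : (q.num.natAbs : Qbar) ∈ V.nonunits := by
      have h2 : (q.num : Qbar) ∈ V.nonunits := by
        rw [← hq]
        obtain ⟨h3, h4⟩ := V.mem_nonunits_iff_exists_mem_maximalIdeal.mp hden
        exact V.mem_nonunits_iff_exists_mem_maximalIdeal.mpr
          ⟨mul_mem hmem h3, Ideal.mul_mem_left _ (⟨_, hmem⟩ : V) h4⟩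
      rcases Int.natAbs_eq q.num with h | h
      · rw [h] at h2; simpa using h2
      · have h0 : (0 : Qbar) ∈ V.nonunits := by
          simp
        rw [h] at h2; simpa using sub_mem_nonunits' V h0 h2
    refine Mazur.natCast_notMem_nonunits hV ?_ hnum
    exact Nat.Coprime.coprime_dvd_right hdvd q.reduced
  · intro hco
    rw [eq_div_iff hd0 |>.mpr hq, div_eq_mul_inv]
    exact mul_mem (intCast_mem V _) (inv_mem_of_notMem_nonunits V (natCast_mem V _)
      (Mazur.natCast_notMem_nonunits hV hco))

/-- **Local-to-global criterion** for finite flat models. -/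
theorem IsLocalAlgebra.hasModelAt {p : ℕ} (hp : p.Prime) (hV : V.LiesOverPrime p) [Finite M]
    (hM : HasLevel M) {B : Subalgebra V (M → Qbar)} (hB : IsLocalAlgebra B) :
    FlatModel.HasModelAt p M (fun (σ : Γℚ) (m : M) => σ • m) := by
  classical
  let R := GaloisRep.ratLocalizedAt p
  let Heq : Set (M → Qbar) := {h | h ∈ B ∧ ∀ σ : Γℚ, twist σ h = h}
  have hHB := le_span_equivariant hp hV hM B hB.fg hB.separates hB.stable hB.unramified
  -- a minimal equivariant spanning set
  have hex : ∃ n, ∃ T : Finset (M → Qbar), T.card = n ∧ ↑T ⊆ Heq ∧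
      Subalgebra.toSubmodule B ≤ Submodule.span V (T : Set (M → Qbar)) := by
    obtain ⟨G, hG⟩ := hB.fg
    have hfin : ∀ g ∈ G, ∃ t : Finset (M → Qbar), ↑t ⊆ Heq ∧ g ∈ Submodule.span V (t : Set _) :=
      fun g hg => Submodule.mem_span_finite_of_mem_span
        (hHB (by rw [← hG]; exact Submodule.subset_span hg))
    choose! t htH htg using hfin
    refine ⟨_, G.biUnion t, rfl, ?_, ?_⟩
    · intro x hx
      obtain ⟨g, hg, hxg⟩ := Finset.mem_biUnion.mp (Finset.mem_coe.mp hx)
      exact htH g hg hxg
    · rw [← hG, Submodule.span_le]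
      intro g hg
      exact Submodule.span_mono (Finset.coe_subset.mpr (Finset.subset_biUnion_of_mem t hg))
        (htg g hg)
  obtain ⟨T, hTcard, hTH, hTspan⟩ := Nat.find_spec hex
  have hTB : ∀ f ∈ T, f ∈ B := fun f hf => (hTH hf).1
  have hTeq : ∀ f ∈ T, ∀ (σ : Γℚ) (m : M), f (σ • m) = σ (f m) := fun f hf σ =>
    (twist_eq_self_iff σ f).mp ((hTH hf).2 σ)
  -- it is linearly independent over `ℚ̄`
  have hind : ∀ c : (M → Qbar) → Qbar, ∑ t ∈ T, c t • t = 0 → ∀ t ∈ T, c t = 0 := by
    intro c hc
    by_contra hne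
    push Not at hne
    obtain ⟨t₀, ht₀, ht₀max⟩ := (T.filter fun t => c t ≠ 0).exists_max_image
      (fun t => V.valuation (c t)) (by
        obtain ⟨t, ht, htc⟩ := hne
        exact ⟨t, Finset.mem_filter.mpr ⟨ht, htc⟩⟩)
    rw [Finset.mem_filter] at ht₀
    have hratio : ∀ t ∈ T, c t / c t₀ ∈ V := by
      intro t ht
      by_cases h0 : c t = 0
      · simp [h0]
      rw [← V.valuation_le_one_iff, map_div₀]
      exact div_le_one_of_le₀ (ht₀max t (Finset.mem_filter.mpr ⟨ht, h0⟩)) zero_le
    have hlt : (T.erase t₀).card < Nat.find hex := by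
      rw [← hTcard]; exact Finset.card_erase_lt_of_mem ht₀.1
    refine Nat.find_min hex hlt
      ⟨T.erase t₀, rfl, (Finset.coe_subset.mpr (Finset.erase_subset _ _)).trans hTH,
        hTspan.trans (Submodule.span_le.mpr fun t ht => ?_)⟩
    rcases eq_or_ne t t₀ with rfl | htne
    · have h1 : t = -∑ u ∈ T.erase t, (c u / c t) • u := by
        have h2 : (c t)⁻¹ • ∑ u ∈ T, c u • u = 0 := by rw [hc, smul_zero]
        rw [← Finset.add_sum_erase _ _ ht, smul_add, smul_smul, inv_mul_cancel₀ ht₀.2, one_smul,
          Finset.smul_sum] at h2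
        refine (eq_neg_of_add_eq_zero_left h2).trans
          (congrArg _ (Finset.sum_congr rfl fun u _ => ?_))
        rw [smul_smul, div_eq_inv_mul]
      suffices hsum : -∑ u ∈ T.erase t, (c u / c t) • u ∈
          Submodule.span V ((T.erase t : Finset (M → Qbar)) : Set (M → Qbar)) from
        (congrArg (· ∈ Submodule.span V ((T.erase t : Finset (M → Qbar)) : Set (M → Qbar)))
          h1).mpr hsum
      refine Submodule.neg_mem _ (Submodule.sum_mem _ fun u hu => ?_)
      exact Submodule.smul_mem _ (⟨_, hratio u (Finset.mem_of_mem_erase hu)⟩ : V)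
        (Submodule.subset_span hu)
    · exact Submodule.subset_span (Finset.mem_erase.mpr ⟨htne, ht⟩)
  -- rationality of coefficients of equivariant elements
  have hrat : ∀ c : Qbar, c ∈ V → (∀ σ : Γℚ, σ c = c) → ∃ r : R, algebraMap R Qbar r = c := by
    intro c hc hfix
    have : IsGalois ℚ Qbar := FlatModel.rat_algebraicClosure_isGalois
    obtain ⟨q, rfl⟩ := (InfiniteGalois.mem_range_algebraMap_iff_fixed c).mpr hfix
    exact ⟨⟨q, (ratCast_mem_iff hp hV q).mp hc⟩, rfl⟩
  have hRV : ∀ r : R, algebraMap R Qbar r ∈ V := fun r => (ratCast_mem_iff hp hV r).mpr r.2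
  -- the algebra of equivariant functions in `B`
  let A : Subalgebra R (M → Qbar) :=
    { carrier := Heq
      mul_mem' := fun {a b} ha hb => ⟨B.mul_mem ha.1 hb.1, fun σ => by
        rw [twist_prod_mul, ha.2 σ, hb.2 σ]⟩
      add_mem' := fun {a b} ha hb => ⟨B.add_mem ha.1 hb.1, fun σ => by
        rw [twist_add, ha.2 σ, hb.2 σ]⟩
      algebraMap_mem' := fun r => ⟨B.algebraMap_mem (⟨_, hRV r⟩ : V), fun σ => by
        rw [twist_eq_self_iff]
        intro m
        exact (AlgEquiv.commutes σ (r : ℚ)).symm⟩ }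
  -- coordinates in the basis `T`
  have hcoord : ∀ f ∈ A, ∃ r : (M → Qbar) → R, f = ∑ t ∈ T, r t • t := by
    rintro f ⟨hfB, hfix⟩
    obtain ⟨c, -, hc⟩ := Submodule.mem_span_finset.mp (hTspan hfB)
    have hσ : ∀ σ : Γℚ, ∀ t ∈ T, σ (c t : Qbar) = c t := by
      intro σ t ht
      have h1 : f = ∑ t ∈ T, σ (c t : Qbar) • t := by
        conv_lhs => rw [← hfix σ, ← hc, twist_sum]
        refine Finset.sum_congr rfl fun u hu => ?_
        rw [show c u • u = (c u : Qbar) • u from rfl, twist_smul, (hTH hu).2 σ]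
      have h2 := hind (fun t => σ (c t : Qbar) - c t) (by
        simp only [sub_smul, Finset.sum_sub_distrib, ← h1, ← hc]
        exact sub_self _) t ht
      exact sub_eq_zero.mp h2
    choose! r hr using fun t (ht : t ∈ T) => hrat _ (c t).2 (fun σ => hσ σ t ht)
    refine ⟨r, hc.symm.trans (Finset.sum_congr rfl fun t ht => ?_)⟩
    rw [← algebraMap_smul Qbar (r t) t, hr t ht]
    rfl
  have hfinA : Module.Finite R A := by
    show Module.Finite R (Subalgebra.toSubmodule A)
    refine Module.Finite.iff_fg.mpr ⟨T, le_antisymm (Submodule.span_le.mpr fun t ht => hTH ht)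
      fun f hf => ?_⟩
    obtain ⟨r, hr⟩ := hcoord f hf
    rw [hr]
    exact Submodule.sum_mem _ fun t ht => Submodule.smul_mem _ _ (Submodule.subset_span ht)
  let φ : M → A →ₐ[R] Qbar := fun m => (Pi.evalAlgHom R (fun _ => Qbar) m).comp A.val
  refine FlatModel.IsPointFamily.hasModel (A := A) (φ := φ) ⟨fun z w hzw => ?_, fun σ m => ?_,
    fun a => ?_, fun a => ?_, fun a => ?_⟩
  · refine hB.separates z w fun f hf => ?_
    have h : f ∈ Submodule.span V (T : Set (M → Qbar)) := hTspan hf
    clear hf
    induction h using Submodule.span_induction with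
    | mem x hx => exact AlgHom.congr_fun hzw (⟨x, hTH hx⟩ : A)
    | zero => rfl
    | add x y _ _ hx hy => simp [hx, hy]
    | smul c x _ hx => simp [hx]
  · exact AlgHom.ext fun a => (twist_eq_self_iff σ _).mp (a.2.2 σ) m
  · -- comultiplication
    have hmem : (fun q : M × M => (a : M → Qbar) (q.1 + q.2)) ∈ Submodule.span V
        (Set.range fun i : T × T => pairMul V M (i.1 : M → Qbar) (i.2 : M → Qbar)) := by
      have h := Submodule.map₂_le_map₂ hTspan hTspan (hB.add_mem _ a.2.1)
      rw [Submodule.map₂_span_span] at h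
      refine Submodule.span_mono ?_ h
      rintro _ ⟨u, hu, v, hv, rfl⟩
      exact ⟨(⟨u, hu⟩, ⟨v, hv⟩), rfl⟩
    obtain ⟨c, hc⟩ := (Submodule.mem_span_range_iff_exists_fun V).mp hmem
    have hc' : ∀ q : M × M, (a : M → Qbar) (q.1 + q.2) =
        ∑ i : T × T, (c i : Qbar) * ((i.1 : M → Qbar) q.1 * (i.2 : M → Qbar) q.2) := by
      intro q
      have := congr_fun hc q
      rw [Finset.sum_apply] at this
      exact this.symm
    have hσ : ∀ (σ : Γℚ) (i : T × T), σ (c i : Qbar) = c i := by
      intro σ
      have h1 : ∀ q : M × M, ∑ i : T × T, (σ (c i : Qbar) - c i) *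
          ((i.1 : M → Qbar) q.1 * (i.2 : M → Qbar) q.2) = 0 := by
        intro q
        have h2 : (a : M → Qbar) (q.1 + q.2) = ∑ i : T × T, σ (c i : Qbar) *
            ((i.1 : M → Qbar) q.1 * (i.2 : M → Qbar) q.2) := by
          have h3 := congrArg σ (hc' (σ⁻¹ • q.1, σ⁻¹ • q.2))
          rw [map_sum] at h3
          simp only [map_mul, ← (twist_eq_self_iff σ _).mp (a.2.2 σ), smul_add, smul_inv_smul,
            ← hTeq _ (Subtype.coe_prop _) σ] at h3
          exact h3
        simp only [sub_mul, Finset.sum_sub_distrib, ← h2, ← hc' q, sub_self]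
      intro i
      obtain ⟨⟨u, hu⟩, ⟨v, hv⟩⟩ := i
      set e : T × T → Qbar := fun i => σ (c i : Qbar) - c i
      have step : ∀ (m : M) (u' : T),
          ∑ v' : T, e (u', v') * (v' : M → Qbar) m = 0 := by
        intro m u'
        let cc : (M → Qbar) → Qbar := fun w =>
          if hw : w ∈ T then ∑ v' : T, e (⟨w, hw⟩, v') * (v' : M → Qbar) m else 0
        have h4 := hind cc (by
          funext m₁
          rw [Finset.sum_apply, Pi.zero_apply, ← Finset.sum_attach, ← h1 (m₁, m),
            Fintype.sum_prod_type]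
          refine Finset.sum_congr rfl fun w _ => ?_
          simp only [cc, dif_pos w.2, Pi.smul_apply, smul_eq_mul, Finset.sum_mul, e]
          refine Finset.sum_congr rfl fun v' _ => by ring) u' u'.2
        simpa [cc] using h4
      let cc : (M → Qbar) → Qbar := fun w => if hw : w ∈ T then e (⟨u, hu⟩, ⟨w, hw⟩) else 0
      have h5 := hind cc (by
        funext m
        rw [Finset.sum_apply, Pi.zero_apply, ← Finset.sum_attach, ← step m ⟨u, hu⟩]
        refine Finset.sum_congr rfl fun w _ => ?_
        simp [cc]) v hv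
      simp only [cc, dif_pos hv, e, sub_eq_zero] at h5
      exact h5
    choose r hr using fun i => hrat _ (c i).2 (fun σ => hσ σ i)
    refine ⟨∑ i : T × T, r i • ((⟨i.1, hTH i.1.2⟩ : A) ⊗ₜ[R] (⟨i.2, hTH i.2.2⟩ : A)),
      fun m n => ?_⟩
    rw [map_sum]
    refine ((hc' (m, n)).trans (Finset.sum_congr rfl fun i _ => ?_)).symm
    rw [map_smul, Algebra.TensorProduct.productMap_apply_tmul, Algebra.smul_def, hr i]
    rfl
  · refine (hrat _ (hB.integral _ a.2.1 0) fun σ => ?_)
    have := (twist_eq_self_iff σ _).mp (a.2.2 σ) 0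
    rw [smul_zero] at this
    exact this.symm
  · refine ⟨⟨fun m => (a : M → Qbar) (-m), hB.neg_mem _ a.2.1, fun σ => ?_⟩, fun m => rfl⟩
    rw [twist_eq_self_iff]
    intro m
    have := (twist_eq_self_iff σ _).mp (a.2.2 σ) (-m)
    rwa [smul_neg] at this

end FermatLib.Galois.LocalDescent
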