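import Fermat.Agent.Galois.AttachFinal

/-!
# From Kummer equivalences to the inputs of the Galois representation machinery

An isomorphism `J₀(N)[p^n] ≅ Hom_cusp(Γ₀(N), A)` with `A` cyclic of order `p^n`, compatible with
all the Hecke operators, gives `KummerHeckeIso` and the inputs used by the transfer to
Hecke–Galois data.
-/

set_option autoImplicit false

noncomputable section

namespace FermatLib.Galois.Attach

open ModularCurve CongruenceSubgroup FermatLib.Modular AlgebraicCurve Module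

local notation "Qbar" => AlgebraicClosure ℚ

variable (N : ℕ) [NeZero N] (p : ℕ)

/-- The Kummer description of `J₀(N)[p^n]` for some coefficient group `A ≅ ℤ/p^n`, compatible
with every Hecke operator. -/
def KummerHeckeEquiv : Prop :=
  ∀ n : ℕ, ∃ (A : Type) (_ : AddCommGroup A) (_ : A ≃+ ZMod (p ^ n))
    (e : Pic0.torsion Qbar (modularFunctionFieldBar N) (p ^ n) ≃+ cuspidalHoms ℤ (Gamma0 N) A),
    ∀ (ℓ : Nat.Primes) (x y : Pic0.torsion Qbar (modularFunctionFieldBar N) (p ^ n)),
      (y : JZero N) = heckeOperatorBar N ℓ (x : JZero N) →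
        (e y : Additive (Gamma0 N) →+ A) = heckeHomOp N ℤ A ℓ (e x).1

variable {N p}

/-- The Kummer map to `ℤ/p^n` on all of `J₀(N)[p^n]`, for all Hecke operators. -/
theorem exists_kummer_zmod (h : KummerHeckeEquiv N p) (n : ℕ) :
    ∃ ψ : Pic0.torsion Qbar (modularFunctionFieldBar N) (p ^ n) ≃+
        cuspidalHoms ℤ (Gamma0 N) (ZMod (p ^ n)),
      ∀ (ℓ : Nat.Primes) (x y : Pic0.torsion Qbar (modularFunctionFieldBar N) (p ^ n)),
        (y : JZero N) = heckeOperatorBar N ℓ (x : JZero N) →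
          (ψ y : Additive (Gamma0 N) →+ ZMod (p ^ n)) =
            heckeHomOp N ℤ (ZMod (p ^ n)) ℓ (ψ x).1 := by
  obtain ⟨A, _, a, e, he⟩ := h n
  let c : cuspidalHoms ℤ (Gamma0 N) A ≃+ cuspidalHoms ℤ (Gamma0 N) (ZMod (p ^ n)) :=
    { toFun := fun φ => ⟨a.toAddMonoidHom.comp φ.1, φ.2.comp _⟩
      invFun := fun φ => ⟨a.symm.toAddMonoidHom.comp φ.1, φ.2.comp _⟩
      left_inv := fun φ => Subtype.ext (AddMonoidHom.ext fun g => a.symm_apply_apply _)
      right_inv := fun φ => Subtype.ext (AddMonoidHom.ext fun g => a.apply_symm_apply _)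
      map_add' := fun φ φ' => Subtype.ext (AddMonoidHom.ext fun g => map_add a _ _) }
  refine ⟨e.trans c, fun ℓ x y hy => ?_⟩
  show a.toAddMonoidHom.comp (e y).1 = heckeHomOp N ℤ _ ℓ (a.toAddMonoidHom.comp (e x).1)
  rw [he ℓ x y hy, heckeHomOp_comp_left]

/-- The good-prime Kummer description. -/
theorem kummerHeckeIso_of_equiv (h : KummerHeckeEquiv N p) : KummerHeckeIso N p := fun n => by
  obtain ⟨ψ, hψ⟩ := exists_kummer_zmod h n
  exact ⟨ψ, fun ℓ _ => hψ ℓ⟩

theorem natCard_torsion_pow (h : KummerHeckeEquiv N p) (n : ℕ) :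
    Nat.card {x : JZero N // p ^ n • x = 0} = (p ^ n) ^ cuspRank N := by
  obtain ⟨ψ, -⟩ := exists_kummer_zmod h n
  rw [Nat.card_congr ((Equiv.subtypeEquivRight fun x => (mem_torsion_iff_pow n x).symm).trans
    ψ.toEquiv), natCard_cuspidalHoms_gamma0, Nat.card_zmod]

/-- A Hecke polynomial killing `J₀(N)[p^k]` is, for large `k`, divisible by `p^j` on cusp forms. -/
theorem torsionFaithful_of_equiv (h : KummerHeckeEquiv N p) : TorsionFaithful N p := by
  let e := cuspidalHomsEquiv N ℤ ℤ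
  let act : CuspForm.heckeAlgebra N 2 ∅ →ₗ[ℤ] Matrix (Fin (cuspRank N)) (Fin (cuspRank N)) ℤ :=
    ((LinearMap.toMatrix' (R := ℤ)).toAddMonoidHom.comp
      (e.conj.toAddMonoidHom.comp (heckeCuspAct N ℤ ℤ).toAddMonoidHom)).toIntLinearMap
  have hact : Function.Injective act :=
    LinearMap.toMatrix'.injective.comp (e.conj.injective.comp (heckeCuspAct_injective N ℤ ℤ))
  obtain ⟨c, hc⟩ := Ideal.exists_pow_inf_eq_pow_smul (Ideal.span {(p : ℤ)}) (LinearMap.range act)
  intro m
  refine ⟨m + c, fun t _ ht => ?_⟩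
  obtain ⟨ψ, hψ⟩ := exists_kummer_zmod h (m + c)
  have hcomm := FermatLib.Modular.heckeOperatorsCommuteBar N
  let u := act (formsHeckeEval N t)
  have htop : t ∈ awayHeckeAlg (∅ : Set ℕ) := by
    rw [awayHeckeAlg]
    have hu : ∀ q : Nat.Primes → Prop, (∀ ℓ, q ℓ) → {ℓ : Nat.Primes | q ℓ} = Set.univ :=
      fun q hq => Set.eq_univ_of_forall hq
    simp only [Set.mem_empty_iff_false, not_false_eq_true, hu _ (fun _ => trivial), Set.image_univ,
      adjoin_range_heckeGen, Algebra.mem_top]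
  have hdiv : ∀ i k, (p : ℤ) ^ (m + c) ∣ u i k := by
    intro i k
    let cz : ℤ →+ ZMod (p ^ (m + c)) := Int.castAddHom _
    let φ : cuspidalHoms ℤ (Gamma0 N) ℤ := e.symm (Pi.single k 1)
    obtain ⟨x, hxφ⟩ := ψ.surjective ⟨cz.comp φ.1, φ.2.comp cz⟩
    have h0 : heckeEvalBar hcomm t (x : JZero N) = 0 := by
      rw [← heckeModuleBar_smul_def hcomm]
      exact ht _ ((mem_torsion_iff_pow _ _).mp x.2)
    have h1 := kummer_heckeEvalBar hcomm ψ (fun ℓ _ => hψ ℓ) htop x 0 h0.symm
    rw [map_zero, ZeroMemClass.coe_zero, hxφ, heckeHomEval_comp_left] at h1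
    have hu : u i k = heckeHomEval N ℤ ℤ t φ.1 (Additive.ofMul (cuspBasisElt N i)) := by
      show LinearMap.toMatrix' (e.conj (heckeCuspAct N ℤ ℤ (formsHeckeEval N t))) i k = _
      rw [LinearMap.toMatrix'_apply, LinearEquiv.conj_apply_apply,
        RingHom.congr_fun formsHeckeEval_eq_heckeEvalForms t, heckeCuspAct_heckeEvalForms]
      congr
    have h2 := DFunLike.congr_fun h1 (Additive.ofMul (cuspBasisElt N i))
    rw [AddMonoidHom.zero_apply, AddMonoidHom.comp_apply] at h2
    rw [hu, ← Nat.cast_pow]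
    exact (ZMod.intCast_zmod_eq_zero_iff_dvd _ _).mp h2.symm
  have hmem : u ∈ Ideal.span {(p : ℤ)} ^ (m + c) • (⊤ : Submodule ℤ _) := by
    rw [Ideal.span_singleton_pow, Submodule.ideal_span_singleton_smul,
      Submodule.mem_smul_pointwise_iff_exists]
    choose d hd using hdiv
    refine ⟨Matrix.of d, Submodule.mem_top, Matrix.ext fun i k => ?_⟩
    rw [Matrix.smul_apply, smul_eq_mul, Matrix.of_apply, hd]
  have hinf : u ∈ Ideal.span {(p : ℤ)} ^ (m + c) • (⊤ : Submodule ℤ _) ⊓ LinearMap.range act :=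
    ⟨hmem, _, rfl⟩
  rw [hc _ (Nat.le_add_left c m), Nat.add_sub_cancel, Ideal.span_singleton_pow,
    Submodule.ideal_span_singleton_smul, Submodule.mem_smul_pointwise_iff_exists] at hinf
  obtain ⟨_, ⟨-, w, rfl⟩, hw⟩ := hinf
  refine ⟨w, hact (hw.symm.trans ?_)⟩
  rw [map_nsmul, ← natCast_zsmul, Nat.cast_pow]

/-- All the inputs of the transfer to Hecke–Galois data. -/
theorem torsionGaloisInputs_of_equiv (hp : p.Prime) (h : KummerHeckeEquiv N p)
    (hS37 : SpecializationInput N p) : TorsionGaloisInputs N p where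
  heckeCommute := FermatLib.Modular.heckeOperatorsCommuteBar N
  galoisCommute := galois_smul_heckeAlg
  finite_torsion k := Set.finite_coe_iff.mp (Nat.finite_of_card_ne_zero
    (α := {x : JZero N // p ^ k • x = 0})
    (by rw [natCard_torsion_pow h]; exact pow_ne_zero _ (pow_ne_zero _ hp.ne_zero)))
  holdsNearOne := holdsNearOne_smul_jzero
  frobQuadratic := frobQuadratic_of_specialization hS37
  unramified ℓ hℓ hℓN A hA σ hσ x hx :=
    unramified_of_specialization hS37 ℓ hℓ hℓN A hA σ hσ x hx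
  faithful := torsionFaithful_of_equiv h

/-- S30 from the Kummer equivalences and the congruence relation. -/
theorem padicAttachment_of_equiv
    (hK : ∀ (N p : ℕ) [NeZero N], p.Prime → KummerHeckeEquiv N p)
    (hS37 : ∀ (N p : ℕ) [NeZero N], p.Prime → SpecializationInput N p) :
    FermatLib.Galois.PadicAttachment :=
  padicAttachment_of_inputs (fun N p _ hp => kummerHeckeIso_of_equiv (hK N p hp)) hS37

end FermatLib.Galois.Attach
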