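import Fermat.Agent.Galois.AttachKummer
import Fermat.Agent.Modular.KummerHecke
import Fermat.Agent.S37

/-!
# The attachment of `p`-adic representations, unconditionally

The Kummer description of `J₀(N)[p^∞]` and the congruence relation discharge the inputs of the
attachment and of the transfer to Hecke–Galois data.
-/

set_option autoImplicit false

namespace FermatLib.Galois

theorem specializationInput (N p : ℕ) [NeZero N] : Attach.SpecializationInput N p :=
  Fermat.Agent.S37.result N p (FermatLib.Modular.heckeOperatorsCommuteBar N)

/-- `p`-adic representations are attached to points of Hecke algebras. -/
theorem padicAttachment : PadicAttachment :=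
  Attach.padicAttachment_of_equiv (fun N p _ hp => FermatLib.Modular.kummerHeckeEquiv N p hp)
    (fun N p _ _ => specializationInput N p)

/-- The inputs of the transfer to Hecke–Galois data. -/
theorem torsionGaloisInputs (N p : ℕ) [NeZero N] (hp : p.Prime) : TorsionGaloisInputs N p :=
  Attach.torsionGaloisInputs_of_equiv hp (FermatLib.Modular.kummerHeckeEquiv N p hp)
    (specializationInput N p)

end FermatLib.Galois
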