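import Mathlib.NumberTheory.NumberField.Basic
import Mathlib.RingTheory.Frobenius
import Mathlib.FieldTheory.KrullTopology
import Fermat.Prelude.Def_EllipticCurve_FrobeniusTrace
import Fermat.Agent.Galois.Density.Qbar

/-!
# The Frobenius density theorem

For a finite Galois extension `L/ℚ` and `g` in its Galois group there are infinitely many primes
`p` with a Frobenius element generating the same cyclic subgroup as `g`.  In the language of `ℚ̄`:
every element of the Galois group is, on a given finite extension, a power of a Frobenius at a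
place over a prime outside a given finite set.
-/

set_option autoImplicit false

open scoped NumberField

namespace FermatLib.Galois

local notation "Qbar" => AlgebraicClosure ℚ
local notation "Γℚ" => (AlgebraicClosure ℚ ≃ₐ[ℚ] AlgebraicClosure ℚ)

/-- Frobenius density in `ℚ̄`: on a finite extension `L`, some power of `g` is a Frobenius at a
prime outside `S`, of which `g` is again a power. -/
theorem exists_isFrobeniusAt_agreeOn (L : IntermediateField ℚ Qbar) [FiniteDimensional ℚ L]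
    (g : Γℚ) (S : Finset ℕ) :
    ∃ ℓ : ℕ, ℓ.Prime ∧ ℓ ∉ S ∧ ∃ A : ValuationSubring Qbar, A.LiesOverPrime ℓ ∧
      ∃ σ : Γℚ, A.IsFrobeniusAt σ ℓ ∧
        ∃ a b : ℕ, (∀ x ∈ L, σ x = (g ^ a) x) ∧ ∀ x ∈ L, (σ ^ b) x = g x := by
  obtain ⟨F, hLF, hnum, hgal⟩ := Density.exists_galois_level L
  obtain ⟨ℓ, hℓ, hℓS, A, hA, σ, hσ, a, b, ha, hb⟩ := Density.exists_frobenius_of_level (F := F) g S
  have key : ∀ u v : Γℚ, AlgEquiv.restrictNormalHom F u = AlgEquiv.restrictNormalHom F v →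
      ∀ x ∈ L, u x = v x := by
    intro u v h x hx
    have hu := AlgEquiv.restrictNormal_commutes u F ⟨x, hLF hx⟩
    have hv := AlgEquiv.restrictNormal_commutes v F ⟨x, hLF hx⟩
    exact hu.symm.trans ((congrArg (fun e : F ≃ₐ[ℚ] F => algebraMap F Qbar (e ⟨x, hLF hx⟩)) h).trans hv)
  exact ⟨ℓ, hℓ, hℓS, A, hA, σ, hσ, a, b, key _ _ ha, key _ _ hb⟩

/-- Frobenius density in `ℚ̄`, for an open subgroup. -/
theorem exists_isFrobeniusAt_pow_mem (H : Subgroup Γℚ) (hH : IsOpen (H : Set Γℚ)) (g : Γℚ)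
    (S : Finset ℕ) :
    ∃ ℓ : ℕ, ℓ.Prime ∧ ℓ ∉ S ∧ ∃ A : ValuationSubring Qbar, A.LiesOverPrime ℓ ∧
      ∃ σ : Γℚ, A.IsFrobeniusAt σ ℓ ∧ ∃ a b : ℕ, σ⁻¹ * g ^ a ∈ H ∧ g⁻¹ * σ ^ b ∈ H := by
  obtain ⟨E, hE, hEH⟩ := (krullTopology_mem_nhds_one_iff ℚ Qbar (H : Set Γℚ)).mp
    (hH.mem_nhds H.one_mem)
  obtain ⟨ℓ, hℓ, hℓS, A, hA, σ, hσ, a, b, ha, hb⟩ := exists_isFrobeniusAt_agreeOn E g S
  have key : ∀ u v : Γℚ, (∀ x ∈ E, u x = v x) → u⁻¹ * v ∈ H := by
    intro u v h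
    refine hEH ((IntermediateField.mem_fixingSubgroup_iff _ _).mpr fun x hx => ?_)
    rw [AlgEquiv.mul_apply, ← h x hx, ← AlgEquiv.mul_apply, inv_mul_cancel, AlgEquiv.one_apply]
  exact ⟨ℓ, hℓ, hℓS, A, hA, σ, hσ, a, b, key σ _ ha, key g _ fun x hx => (hb x hx).symm⟩

/-- A property of Galois elements that only depends on the restriction to a finite extension `L`
and passes to powers holds everywhere as soon as it holds at all Frobenius elements outside a
finite set of primes. -/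
theorem forall_of_forall_isFrobeniusAt {P : Γℚ → Prop} (S : Finset ℕ)
    (L : IntermediateField ℚ Qbar) [FiniteDimensional ℚ L]
    (hL : ∀ g h : Γℚ, (∀ x ∈ L, g x = h x) → P g → P h)
    (hpow : ∀ (σ : Γℚ) (b : ℕ), P σ → P (σ ^ b))
    (hfrob : ∀ ℓ : ℕ, ℓ.Prime → ℓ ∉ S → ∀ A : ValuationSubring Qbar, A.LiesOverPrime ℓ →
      ∀ σ : Γℚ, A.IsFrobeniusAt σ ℓ → P σ) (g : Γℚ) : P g := by
  obtain ⟨ℓ, hℓ, hℓS, A, hA, σ, hσ, -, b, -, hb⟩ := exists_isFrobeniusAt_agreeOn L g S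
  exact hL _ _ hb (hpow σ b (hfrob ℓ hℓ hℓS A hA σ hσ))

end FermatLib.Galois
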