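import Mathlib.FieldTheory.KrullTopology
import Mathlib.Analysis.SpecialFunctions.Log.Basic
import Fermat.Prelude.Def_EllipticCurve_FrobeniusTrace
import Fermat.Agent.Galois.Chebotarev.Defs
import Fermat.Agent.Galois.FrobeniusDensity
import Fermat.Agent.Galois.Chebotarev.Crossing

/-!
# The Chebotarev density theorem over `ℚ`
-/

set_option autoImplicit false

open scoped NumberField Topology Pointwise Classical
open Filter

namespace FermatLib.Galois

open Chebotarev

local notation "Qbar" => AlgebraicClosure ℚ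
local notation "Γℚ" => (AlgebraicClosure ℚ ≃ₐ[ℚ] AlgebraicClosure ℚ)

/-- **Chebotarev density theorem**: the primes with Frobenius in a conjugation stable set `X`
have Dirichlet density `#X / #G`. -/
theorem chebotarev_tendsto (L : Type*) [Field L] [NumberField L] [IsGalois ℚ L]
    (X : Set (L ≃ₐ[ℚ] L)) (hX : ∀ g ∈ X, ∀ γ : L ≃ₐ[ℚ] L, γ * g * γ⁻¹ ∈ X) :
    Tendsto (fun s : ℝ => Chebotarev.primeSum (Chebotarev.frobeniusPrimes L X) s /
        Real.log (1 / (s - 1))) (𝓝[>] 1)
      (𝓝 ((Nat.card X : ℝ) / Nat.card (L ≃ₐ[ℚ] L))) := by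
  obtain ⟨N, hN, hinN⟩ := Density.exists_ne_zero_inertia_eq_bot L
  let U : Finset Nat.Primes := N.primeFactors.subtype Nat.Prime
  set n : ℕ := Nat.card (L ≃ₐ[ℚ] L)
  have hn : (0 : ℝ) < n := Nat.cast_pos.mpr Nat.card_pos
  set B : ℝ := ∑ p ∈ U, |(∑ g ∈ X.toFinset, (frobWeight L g p : ℝ)) -
    (n : ℝ) * (if p ∈ frobeniusPrimes L X then 1 else 0)|
  set R : ℝ → ℝ := fun s =>
    (∑ g ∈ X.toFinset, frobSum L g s) - n * primeSum (frobeniusPrimes L X) s
  have hR : ∀ᶠ s in 𝓝[>] (1 : ℝ), |R s| ≤ B := by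
    filter_upwards [self_mem_nhdsWithin] with s (hs : 1 < s)
    have h2 : (n : ℝ) * primeSum (frobeniusPrimes L X) s = ∑' p : Nat.Primes,
        ((n : ℝ) * (if p ∈ frobeniusPrimes L X then 1 else 0)) * ((p : ℕ) : ℝ) ^ (-s) := by
      rw [primeSum, tsum_subtype (frobeniusPrimes L X) (fun p : Nat.Primes => ((p : ℕ) : ℝ) ^ (-s)),
        ← tsum_mul_left]
      refine tsum_congr fun p => ?_
      simp only [Set.indicator_apply]
      split_ifs <;> simp
    simp only [R]
    rw [h2]
    simp only [frobSum]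
    rw [← Summable.tsum_finsetSum fun g _ => summable_frobTerm g hs]
    simp only [← Finset.sum_mul]
    refine abs_primeTsum_sub_le U (fun p hp => ?_) (by linarith) ?_ ?_
    · have hin := hinN p p.2 fun h => hp (Finset.mem_subtype.mpr
        (Nat.mem_primeFactors.mpr ⟨p.2, h, hN⟩))
      rw [← Nat.cast_sum, sum_frobWeight_eq_ite hin X hX]
      split_ifs <;> simp [n]
    · exact (summable_sum fun g (_ : g ∈ X.toFinset) => summable_frobTerm (M := L) g hs).congr
        fun p => (Finset.sum_mul _ _ _).symm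
    · refine Summable.of_nonneg_of_le (fun p => by split_ifs <;> positivity) (fun p => ?_)
        ((Nat.Primes.summable_rpow.mpr (by linarith : -s < -1)).mul_left (n : ℝ))
      refine mul_le_mul_of_nonneg_right ?_ (Real.rpow_nonneg (Nat.cast_nonneg _) _)
      split_ifs <;> simp
  have hR0 : Tendsto (fun s => R s / -Real.log (s - 1)) (𝓝[>] 1) (𝓝 0) := by
    refine squeeze_zero_norm' ?_ (tendsto_const_nhds.div_atTop tendsto_neg_log_sub_one (a := B))
    filter_upwards [hR, tendsto_neg_log_sub_one.eventually_gt_atTop 0] with s hs hΛ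
    rw [Real.norm_eq_abs, abs_div, abs_of_pos hΛ]
    exact div_le_div_of_nonneg_right hs hΛ.le
  have hsum := ((tendsto_finsetSum X.toFinset fun g _ => tendsto_frobSum_div_log L g).sub hR0).div_const (n : ℝ)
  have hval : (∑ _g ∈ X.toFinset, (1 : ℝ)) = (Nat.card X : ℝ) := by
    simp [Nat.card_eq_fintype_card, Set.toFinset_card]
  rw [hval, sub_zero] at hsum
  refine hsum.congr' ?_
  filter_upwards [tendsto_neg_log_sub_one.eventually_gt_atTop 0] with s hΛ
  rw [← Finset.sum_div, ← sub_div, one_div (s - 1), Real.log_inv]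
  simp only [R]
  field_simp
  ring

/-- Every element is a Frobenius element at infinitely many primes. -/
theorem exists_isFrobeniusPrime (L : Type*) [Field L] [NumberField L] [IsGalois ℚ L]
    (g : L ≃ₐ[ℚ] L) (S : Finset ℕ) :
    ∃ p : ℕ, p.Prime ∧ p ∉ S ∧ Chebotarev.IsFrobeniusPrime L g p := by
  by_contra! hno
  let T : Finset Nat.Primes := S.subtype Nat.Prime
  set c : ℝ := ∑ p ∈ T, |(frobWeight L g p : ℝ) - 0|
  have hlim := tendsto_frobSum_div_log L g
  have h0 : Tendsto (fun s => frobSum L g s / -Real.log (s - 1)) (𝓝[>] 1) (𝓝 0) := by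
    refine squeeze_zero_norm' ?_ (tendsto_const_nhds.div_atTop tendsto_neg_log_sub_one (a := c))
    filter_upwards [self_mem_nhdsWithin, tendsto_neg_log_sub_one.eventually_gt_atTop 0]
      with s (hs : 1 < s) hΛ
    rw [Real.norm_eq_abs, abs_div, abs_of_pos hΛ]
    refine div_le_div_of_nonneg_right ?_ hΛ.le
    have h := abs_primeTsum_sub_le (a := fun p => (frobWeight L g p : ℝ)) (b := fun _ => 0) T
      (fun p hp => ?_) (by linarith : (0 : ℝ) ≤ s) (summable_frobTerm g hs)
      (by simpa using summable_zero)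
    · simpa [frobSum, c] using h
    · exact_mod_cast by_contra fun h0 => hno p p.2 (fun hS => hp (Finset.mem_subtype.mpr hS))
        (isFrobeniusPrime_of_frobWeight_ne_zero h0)
  exact one_ne_zero (tendsto_nhds_unique hlim h0)

/-- Chebotarev in `ℚ̄`: every element agrees on a given finite extension with a Frobenius at a
place over a prime outside `S`. -/
theorem exists_isFrobeniusAt_eqOn (L : IntermediateField ℚ Qbar) [FiniteDimensional ℚ L]
    (g : Γℚ) (S : Finset ℕ) :
    ∃ ℓ : ℕ, ℓ.Prime ∧ ℓ ∉ S ∧ ∃ A : ValuationSubring Qbar, A.LiesOverPrime ℓ ∧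
      ∃ σ : Γℚ, A.IsFrobeniusAt σ ℓ ∧ ∀ x ∈ L, σ x = g x := by
  obtain ⟨F, hLF, hnum, hgal⟩ := Density.exists_galois_level L
  obtain ⟨p, hp, hpS, Q, hQ, hpQ, hin, hf⟩ :=
    exists_isFrobeniusPrime F (AlgEquiv.restrictNormalHom F g) S
  obtain ⟨A, hA⟩ := FermatLib.Basic.exists_liesOverPrime hp
  obtain ⟨τ, hτ⟩ := FermatLib.Basic.exists_isFrobeniusAt hp A hA
  have : IsGaloisGroup (F ≃ₐ[ℚ] F) ℤ (𝓞 F) := inferInstance
  obtain ⟨γ₀, hγ₀⟩ := Algebra.IsInvariant.exists_smul_of_under_eq ℤ (𝓞 F) (F ≃ₐ[ℚ] F)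
    (Density.placePrime F A) Q
    ((Density.under_int_eq_span hp (Density.natCast_mem_placePrime hA)).trans
      (Density.under_int_eq_span hp hpQ).symm)
  have : Normal ℚ Qbar := normal_iff.mpr fun x =>
    ⟨((AlgebraicClosure.isAlgebraic ℚ).isAlgebraic x).isIntegral, IsAlgClosed.splits _⟩
  obtain ⟨γ, rfl⟩ := AlgEquiv.restrictNormalHom_surjective (F := ℚ) (K₁ := F) Qbar γ₀
  have hσ : AlgEquiv.restrictNormalHom F (γ * τ * γ⁻¹) = AlgEquiv.restrictNormalHom F g := by
    refine Density.isArithFrobAt_unique F hin ?_ hf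
    rw [map_mul, map_mul, map_inv, hγ₀]
    exact (Density.isArithFrobAt_restrictNormalHom hp hA hτ).conj _
  refine ⟨p, hp, hpS, γ • A, ?_, γ * τ * γ⁻¹, Density.isFrobeniusAt_conj hτ γ, fun x hx => ?_⟩
  · have h2 := Density.smul_mem_nonunits γ _ hA
    rw [map_natCast] at h2
    exact h2
  · have hu := AlgEquiv.restrictNormal_commutes (γ * τ * γ⁻¹) F ⟨x, hLF hx⟩
    have hv := AlgEquiv.restrictNormal_commutes g F ⟨x, hLF hx⟩
    exact hu.symm.trans ((congrArg (fun e : F ≃ₐ[ℚ] F => algebraMap F Qbar (e ⟨x, hLF hx⟩)) hσ).trans hv)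

end FermatLib.Galois
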