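/-
Functoriality in the coefficients of the local conditions on adic Galois representations:
cyclotomic determinant, unramified, unipotent inertia.
-/
import Mathlib.RingTheory.Filtration
import Mathlib.RingTheory.RootsOfUnity.AlgebraicallyClosed
import Mathlib.RingTheory.RootsOfUnity.PrimitiveRoots
import Mathlib.NumberTheory.Cyclotomic.CyclotomicCharacter
import Fermat.Agent.Galois.FlatBaseChange

noncomputable section

open Polynomial

namespace FermatLib.Galois.DeformLocal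

open FlatModel

local notation "Qbar" => AlgebraicClosure ℚ
local notation "Γℚ" => (AlgebraicClosure ℚ ≃ₐ[ℚ] AlgebraicClosure ℚ)

variable {A B C : Type} [CommRing A] [IsLocalRing A] [CommRing B] [IsLocalRing B]
  [CommRing C] [IsLocalRing C]

theorem det_baseChange_apply (φ : A →+* B) (hφ : IsLocalHom φ) (ρ : GaloisRepAdic A) (σ : Γℚ) :
    LinearMap.det ((ρ.baseChangeAlong φ hφ).ρ σ) = φ (LinearMap.det (ρ.ρ σ)) := by
  let _ : Algebra A B := φ.toAlgebra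
  exact LinearMap.det_baseChange (A := B) (ρ.ρ σ)

theorem charpoly_baseChange_apply (φ : A →+* B) (hφ : IsLocalHom φ) (ρ : GaloisRepAdic A)
    (σ : Γℚ) :
    LinearMap.charpoly ((ρ.baseChangeAlong φ hφ).ρ σ) = (LinearMap.charpoly (ρ.ρ σ)).map φ := by
  let _ : Algebra A B := φ.toAlgebra
  exact LinearMap.charpoly_baseChange (A := B) (ρ.ρ σ)

/-! ### Cyclotomic determinant -/

theorem detIsCyclotomic_baseChange {p : ℕ} (φ : A →+* B) (hφ : IsLocalHom φ)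
    {ρ : GaloisRepAdic A} (h : ρ.DetIsCyclotomic p) :
    (ρ.baseChangeAlong φ hφ).DetIsCyclotomic p := by
  refine ⟨?_, fun n σ a ha => ?_⟩
  · rw [← map_natCast φ p]
    exact map_nonunit φ _ h.1
  · rw [det_baseChange_apply, ← map_natCast φ a, ← map_natCast φ (p ^ n), ← map_sub,
      ← Set.image_singleton, ← Ideal.map_span]
    exact Ideal.mem_map_of_mem φ (h.2 n σ a ha)

/-- A single exponent describes the action on the `p^n`-th roots of unity. -/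
theorem exists_cyclotomic_exponent {p : ℕ} (hp : p ≠ 0) (n : ℕ) (σ : Γℚ) :
    ∃ a : ℕ, ∀ μ : Qbar, μ ^ p ^ n = 1 → σ μ = μ ^ a := by
  have hn : NeZero (p ^ n) := ⟨pow_ne_zero _ hp⟩
  obtain ⟨ζ, hζ⟩ := HasEnoughRootsOfUnity.exists_primitiveRoot Qbar (p ^ n)
  refine ⟨((hζ.autToPow ℚ σ : (ZMod (p ^ n))ˣ) : ZMod (p ^ n)).val, fun μ hμ => ?_⟩
  obtain ⟨i, -, rfl⟩ := hζ.eq_pow_of_pow_eq_one hμ
  rw [map_pow, ← hζ.autToPow_spec ℚ σ, ← pow_mul, ← pow_mul, mul_comm]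

theorem exponent_modEq {p : ℕ} (hp : p ≠ 0) {n m : ℕ} (hnm : n ≤ m) {σ : Γℚ} {a a' : ℕ}
    (ha : ∀ μ : Qbar, μ ^ p ^ n = 1 → σ μ = μ ^ a)
    (ha' : ∀ μ : Qbar, μ ^ p ^ m = 1 → σ μ = μ ^ a') : a ≡ a' [MOD p ^ n] := by
  have hn : NeZero (p ^ n) := ⟨pow_ne_zero _ hp⟩
  obtain ⟨ζ, hζ⟩ := HasEnoughRootsOfUnity.exists_primitiveRoot Qbar (p ^ n)
  have h1 := ha ζ hζ.pow_eq_one
  have h2 := ha' ζ (by
    rw [← Nat.add_sub_cancel' hnm, pow_add, pow_mul, hζ.pow_eq_one, one_pow])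
  have hu := hζ.isUnit_unit (NeZero.ne (p ^ n))
  rw [hu.eq_orderOf, ← pow_eq_pow_iff_modEq]
  exact Units.ext (by simpa using h1.symm.trans h2)

omit [IsLocalRing A] in
theorem natCast_sub_mem_span_of_modEq {p n a a' : ℕ} (h : a ≡ a' [MOD p ^ n]) :
    (a' : A) - (a : A) ∈ Ideal.span {((p ^ n : ℕ) : A)} := by
  obtain ⟨c, hc⟩ := h.dvd
  refine Ideal.mem_span_singleton.2 ⟨(c : A), ?_⟩
  have := congrArg (fun z : ℤ => (z : A)) hc
  simpa using this

/-! ### Unramified and unipotent inertia -/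

theorem isUnramifiedAt_baseChange {q : ℕ} (φ : A →+* B) (hφ : IsLocalHom φ) {ρ : GaloisRepAdic A}
    (h : ρ.IsUnramifiedAt q) : (ρ.baseChangeAlong φ hφ).IsUnramifiedAt q := by
  intro P hP σ hσ
  let _ : Algebra A B := φ.toAlgebra
  show (ρ.ρ σ).baseChange B = 1
  rw [h P hP σ hσ, LinearMap.baseChange_one]

theorem isUnramifiedAt_of_jointly_injective {q : ℕ} (φ : A →+* B) (hφ : IsLocalHom φ)
    (ψ : A →+* C) (hψ : IsLocalHom ψ) (hinj : ∀ a, φ a = 0 → ψ a = 0 → a = 0)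
    {ρ : GaloisRepAdic A} (h₁ : (ρ.baseChangeAlong φ hφ).IsUnramifiedAt q)
    (h₂ : (ρ.baseChangeAlong ψ hψ).IsUnramifiedAt q) : ρ.IsUnramifiedAt q := by
  intro P hP σ hσ
  refine LinearMap.ext fun v => ?_
  rw [Module.End.one_apply, ← sub_eq_zero]
  refine (Module.finBasis A ρ.V).ext_elem fun i => ?_
  rw [map_zero, Finsupp.zero_apply]
  refine hinj _ (mem_of_toBaseChange_eq_zero φ hφ ρ ?_ _ i)
    (mem_of_toBaseChange_eq_zero ψ hψ ρ ?_ _ i)
  · rw [map_sub, toBaseChange_galois, h₁ P hP σ hσ, Module.End.one_apply, sub_self]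
  · rw [map_sub, toBaseChange_galois, h₂ P hP σ hσ, Module.End.one_apply, sub_self]

theorem isUnipotentOnInertiaAt_baseChange {q : ℕ} (φ : A →+* B) (hφ : IsLocalHom φ)
    {ρ : GaloisRepAdic A} (h : ρ.IsUnipotentOnInertiaAt q) :
    (ρ.baseChangeAlong φ hφ).IsUnipotentOnInertiaAt q := by
  intro P hP σ hσ
  rw [charpoly_baseChange_apply, h P hP σ hσ]
  simp

theorem isUnipotentOnInertiaAt_of_jointly_injective {q : ℕ} (φ : A →+* B) (hφ : IsLocalHom φ)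
    (ψ : A →+* C) (hψ : IsLocalHom ψ) (hinj : ∀ a, φ a = 0 → ψ a = 0 → a = 0)
    {ρ : GaloisRepAdic A} (h₁ : (ρ.baseChangeAlong φ hφ).IsUnipotentOnInertiaAt q)
    (h₂ : (ρ.baseChangeAlong ψ hψ).IsUnipotentOnInertiaAt q) : ρ.IsUnipotentOnInertiaAt q := by
  intro P hP σ hσ
  have e₁ := h₁ P hP σ hσ
  have e₂ := h₂ P hP σ hσ
  rw [charpoly_baseChange_apply] at e₁ e₂
  rw [← sub_eq_zero]
  ext i
  rw [coeff_zero]
  refine hinj _ ?_ ?_
  · rw [← coeff_map, Polynomial.map_sub, e₁]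
    simp
  · rw [← coeff_map, Polynomial.map_sub, e₂]
    simp

/-! ### Equivalences -/

theorem det_eq_of_equiv {ρ ρ' : GaloisRepAdic A} (e : GaloisRepAdic.Equiv ρ ρ') (σ : Γℚ) :
    LinearMap.det (ρ'.ρ σ) = LinearMap.det (ρ.ρ σ) := by
  have : ρ'.ρ σ = (e.toLinearEquiv : ρ.V →ₗ[A] ρ'.V) ∘ₗ ρ.ρ σ ∘ₗ
      (e.toLinearEquiv.symm : ρ'.V →ₗ[A] ρ.V) :=
    LinearMap.ext fun v => by simp [e.map_apply]
  rw [this, LinearMap.det_conj]

theorem charpoly_eq_of_equiv {ρ ρ' : GaloisRepAdic A} (e : GaloisRepAdic.Equiv ρ ρ') (σ : Γℚ) :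
    LinearMap.charpoly (ρ'.ρ σ) = LinearMap.charpoly (ρ.ρ σ) := by
  rw [← LinearEquiv.charpoly_conj e.toLinearEquiv (ρ.ρ σ)]
  congr 1
  exact LinearMap.ext fun v => by simp [LinearEquiv.conj_apply, e.map_apply]

theorem detIsCyclotomic_of_isEquiv {p : ℕ} {ρ ρ' : GaloisRepAdic A} (e : ρ.IsEquiv ρ')
    (h : ρ.DetIsCyclotomic p) : ρ'.DetIsCyclotomic p := by
  obtain ⟨e⟩ := e
  exact ⟨h.1, fun n σ a ha => det_eq_of_equiv e σ ▸ h.2 n σ a ha⟩

theorem isUnramifiedAt_of_isEquiv {q : ℕ} {ρ ρ' : GaloisRepAdic A} (e : ρ.IsEquiv ρ')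
    (h : ρ.IsUnramifiedAt q) : ρ'.IsUnramifiedAt q := by
  obtain ⟨e⟩ := e
  intro P hP σ hσ
  refine LinearMap.ext fun v => ?_
  have := e.map_apply σ (e.toLinearEquiv.symm v)
  rw [h P hP σ hσ] at this
  simpa using this.symm

theorem isUnipotentOnInertiaAt_of_isEquiv {q : ℕ} {ρ ρ' : GaloisRepAdic A} (e : ρ.IsEquiv ρ')
    (h : ρ.IsUnipotentOnInertiaAt q) : ρ'.IsUnipotentOnInertiaAt q := by
  obtain ⟨e⟩ := e
  exact fun P hP σ hσ => (charpoly_eq_of_equiv e σ).trans (h P hP σ hσ)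

/-! ### Passage to the limit -/

instance isLocalRing_quotient_maximalIdeal_pow (j : ℕ) :
    IsLocalRing (A ⧸ IsLocalRing.maximalIdeal A ^ (j + 1)) :=
  have : Nontrivial (A ⧸ IsLocalRing.maximalIdeal A ^ (j + 1)) :=
    Ideal.Quotient.nontrivial_iff.mpr fun h => IsLocalRing.maximalIdeal.isMaximal A |>.ne_top
      (top_le_iff.1 (h ▸ Ideal.pow_le_self j.succ_ne_zero))
  IsLocalRing.of_surjective' (Ideal.Quotient.mk _) Ideal.Quotient.mk_surjective

theorem eq_zero_of_forall_mem_pow [IsNoetherianRing A] {a : A}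
    (h : ∀ j : ℕ, a ∈ IsLocalRing.maximalIdeal A ^ (j + 1)) : a = 0 := by
  have := Ideal.iInf_pow_eq_bot_of_isLocalRing (IsLocalRing.maximalIdeal A)
    (IsLocalRing.maximalIdeal.isMaximal A).ne_top
  rw [← Ideal.mem_bot, ← this, Ideal.mem_iInf]
  rintro (_ | j)
  · simp
  · exact h j

/-- `∩ⱼ (I + mʲ) = I`. -/
theorem mem_of_forall_mem_sup_pow [IsNoetherianRing A] {I : Ideal A} {a : A}
    (h : ∀ j : ℕ, Ideal.Quotient.mk (IsLocalRing.maximalIdeal A ^ (j + 1)) a ∈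
      I.map (Ideal.Quotient.mk (IsLocalRing.maximalIdeal A ^ (j + 1)))) : a ∈ I := by
  by_cases hI : I = ⊤
  · simp [hI]
  have h' : Ideal.Quotient.mk I a ∈
      ⨅ i : ℕ, IsLocalRing.maximalIdeal A ^ i • (⊤ : Submodule A (A ⧸ I)) := by
    rw [Submodule.mem_iInf]
    rintro (_ | j)
    · simp
    · have hj := h j
      rw [← Ideal.mem_comap, Ideal.comap_map_of_surjective _ Ideal.Quotient.mk_surjective,
        ← RingHom.ker_eq_comap_bot, Ideal.mk_ker] at hj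
      obtain ⟨x, hx, y, hy, rfl⟩ := Submodule.mem_sup.1 hj
      rw [map_add, Ideal.Quotient.eq_zero_iff_mem.2 hx, zero_add,
        show Ideal.Quotient.mk I y = y • (1 : A ⧸ I) from (Algebra.algebraMap_eq_smul_one y)]
      exact Submodule.smul_mem_smul hy Submodule.mem_top
  rw [Ideal.iInf_pow_smul_eq_bot_of_isLocalRing _
    (IsLocalRing.maximalIdeal.isMaximal A).ne_top, Submodule.mem_bot] at h'
  exact Ideal.Quotient.eq_zero_iff_mem.1 h'

end FermatLib.Galois.DeformLocal
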