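import Fermat.Agent.Basic.EigenformLift
import Fermat.Prelude.Def_FLTPrelim_ModularRep

/-!
# The Hecke character of a normalised eigenform

A normalised weight-two eigenform is an eigenvector of every Hecke operator, so it defines a
character of every Hecke algebra with values in the algebraic integers.
-/

set_option autoImplicit false

noncomputable section

open CongruenceSubgroup ModularFormClass

namespace FermatLib.Galois

variable {N : ℕ} {g : CuspForm (Gamma0 N) 2}

/-- The Hecke recursion for the coefficients of a normalised eigenform. -/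
theorem qCoeff_eigenform_mul_prime (hg : g.IsNormalizedEigenform) {p : ℕ} (hp : p.Prime) (n : ℕ) :
    qCoeff ⇑g (n * p)
        + (if p ∣ N then (0 : ℂ) else p) * (if p ∣ n then qCoeff ⇑g (n / p) else 0)
      = qCoeff ⇑g p * qCoeff ⇑g n := by
  rcases eq_or_ne n 0 with rfl | hn
  · simp [FermatLib.Basic.qCoeff_cusp_zero_index]
  obtain ⟨r, m, hpm, rfl⟩ := Nat.exists_eq_pow_mul_and_not_dvd hn p hp.ne_one
  have hcop : ∀ i, (p ^ i).Coprime m := fun i =>
    ((Nat.Prime.coprime_iff_not_dvd hp).mpr hpm).pow_left i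
  cases r with
  | zero =>
    rw [pow_zero, one_mul, if_neg hpm, mul_zero, add_zero,
      hg.qCoeff_mul_of_coprime m p ((Nat.Prime.coprime_iff_not_dvd hp).mpr hpm).symm, mul_comm]
  | succ r =>
    have hdvd : p ∣ p ^ (r + 1) * m := (dvd_pow_self p r.succ_ne_zero).mul_right m
    have hdiv : p ^ (r + 1) * m / p = p ^ r * m := by
      rw [pow_succ', mul_assoc, Nat.mul_div_cancel_left _ hp.pos]
    have hmul : p ^ (r + 1) * m * p = p ^ (r + 2) * m := by ring
    rw [if_pos hdvd, hdiv, hmul, hg.qCoeff_mul_of_coprime _ _ (hcop (r + 2)),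
      hg.qCoeff_mul_of_coprime _ _ (hcop (r + 1)), hg.qCoeff_mul_of_coprime _ _ (hcop r)]
    by_cases hN : p ∣ N
    · rw [if_pos hN, hg.qCoeff_prime_pow_of_dvd p r hp hN]; ring
    · rw [if_neg hN, hg.qCoeff_prime_pow_of_not_dvd p r hp hN]; ring

variable [NeZero N]

theorem eigenform_ext {f f' : CuspForm (Gamma0 N) 2}
    (h : ∀ n, qCoeff ⇑f n = qCoeff ⇑f' n) : f = f' :=
  sub_eq_zero.mp <| FermatLib.Basic.cusp_eq_zero_of_qCoeff_eq_zero _ fun n => by
    rw [FermatLib.Basic.qCoeff_cusp_sub, h n, sub_self]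

theorem heckeTLin_apply_eigenform (hg : g.IsNormalizedEigenform) {ℓ : ℕ} (hℓ : ℓ.Prime)
    (hℓN : ¬ ℓ ∣ N) : CuspForm.heckeTLin 2 hℓ hℓN g = qCoeff ⇑g ℓ • g := by
  refine eigenform_ext fun n => ?_
  rw [FermatLib.Basic.qCoeff_heckeTLin_two, FermatLib.Basic.qCoeff_cusp_smul,
    ← qCoeff_eigenform_mul_prime hg hℓ, if_neg hℓN, mul_ite, mul_zero]

theorem heckeULin_apply_eigenform (hg : g.IsNormalizedEigenform) {q : ℕ} (hq : q.Prime)
    (hqN : q ∣ N) : CuspForm.heckeULin 2 hqN g = qCoeff ⇑g q • g := by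
  refine eigenform_ext fun n => ?_
  rw [FermatLib.Basic.qCoeff_heckeULin_apply hq hqN, FermatLib.Basic.qCoeff_cusp_smul,
    ← qCoeff_eigenform_mul_prime hg hq, if_pos hqN, zero_mul, add_zero]

variable (S : Set ℕ)

theorem exists_smul_of_mem_heckeAlgebra (hg : g.IsNormalizedEigenform)
    {t : Module.End ℂ (CuspForm (Gamma0 N) 2)} (ht : t ∈ CuspForm.heckeAlgebra N 2 S) :
    ∃ c : ℂ, t g = c • g := by
  induction ht using Algebra.adjoin_induction with
  | mem x hx =>
    rcases hx with ⟨ℓ, hℓ, hℓN, -, rfl⟩ | ⟨q, hqN, hq, -, rfl⟩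
    · exact ⟨_, heckeTLin_apply_eigenform hg hℓ hℓN⟩
    · exact ⟨_, heckeULin_apply_eigenform hg hq hqN⟩
  | algebraMap r =>
    exact ⟨r, by
      rw [Algebra.algebraMap_eq_smul_one, LinearMap.smul_apply, Module.End.one_apply,
        Int.cast_smul_eq_zsmul]⟩
  | add x y _ _ hx hy =>
    obtain ⟨a, ha⟩ := hx; obtain ⟨b, hb⟩ := hy
    exact ⟨a + b, by rw [LinearMap.add_apply, ha, hb, add_smul]⟩
  | mul x y _ _ hx hy =>
    obtain ⟨a, ha⟩ := hx; obtain ⟨b, hb⟩ := hy
    exact ⟨b * a, by rw [Module.End.mul_apply, hb, map_smul, ha, smul_smul]⟩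

variable {S}

/-- The eigencharacter of a normalised eigenform, with values in the algebraic integers. -/
theorem exists_eigenformCharacter (hg : g.IsNormalizedEigenform)
    [Module.Finite ℤ ↥(CuspForm.heckeAlgebra N 2 S)] :
    ∃ ξ : ↥(CuspForm.heckeAlgebra N 2 S) →+* integralClosure ℤ ℂ,
      (∀ t : ↥(CuspForm.heckeAlgebra N 2 S),
        (t : Module.End ℂ (CuspForm (Gamma0 N) 2)) g = (ξ t : ℂ) • g) ∧
      (∀ (ℓ : ℕ) (hℓ : ℓ.Prime) (hℓN : ¬ ℓ ∣ N) (hℓS : ℓ ∉ S),
        (ξ (CuspForm.heckeAlgebra.T hℓ hℓN hℓS) : ℂ) = qCoeff ⇑g ℓ) ∧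
      (∀ (q : ℕ) (hq : q.Prime) (hqN : q ∣ N) (hqS : q ∉ S),
        (ξ (CuspForm.heckeAlgebra.U hq hqN hqS) : ℂ) = qCoeff ⇑g q) := by
  choose c hc using fun t : ↥(CuspForm.heckeAlgebra N 2 S) =>
    exists_smul_of_mem_heckeAlgebra S hg t.2
  have hinj : Function.Injective fun a : ℂ => a • g := smul_left_injective ℂ hg.ne_zero
  let χ : ↥(CuspForm.heckeAlgebra N 2 S) →+* ℂ :=
    { toFun := c
      map_one' := hinj (by simp only [← hc, OneMemClass.coe_one, Module.End.one_apply, one_smul])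
      map_mul' := fun s t => hinj (by
        simp only [← hc, MulMemClass.coe_mul, Module.End.mul_apply]
        rw [hc t, map_smul, hc s, smul_smul, mul_comm])
      map_zero' := hinj (by simp only [← hc, ZeroMemClass.coe_zero, LinearMap.zero_apply, zero_smul])
      map_add' := fun s t => hinj (by
        simp only [← hc, AddMemClass.coe_add, LinearMap.add_apply, add_smul]) }
  have hint : ∀ t, χ t ∈ integralClosure ℤ ℂ := fun t =>
    (Algebra.IsIntegral.isIntegral (R := ℤ) t).map χ.toIntAlgHom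
  refine ⟨χ.codRestrict (integralClosure ℤ ℂ) hint, hc, fun ℓ hℓ hℓN hℓS => ?_,
    fun q hq hqN hqS => ?_⟩
  · exact hinj ((hc _).symm.trans (heckeTLin_apply_eigenform hg hℓ hℓN))
  · exact hinj ((hc _).symm.trans (heckeULin_apply_eigenform hg hq hqN))

end FermatLib.Galois
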