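import Mathlib

/-!
# Traces of powers from trace and determinant

`lucasTrace t d n` is the polynomial in `t, d` equal to `x ^ n + y ^ n` whenever `x + y = t` and
`x * y = d`.  It computes the trace of the `n`-th power of a `2 × 2` matrix, and turns a quadratic
relation `F² - t F + d = 0` into the one satisfied by `F ^ n`.
-/

set_option autoImplicit false

open Polynomial

namespace FermatLib.Galois

variable {R S : Type*} [CommRing R] [CommRing S]

/-- `x ^ n + y ^ n` as a polynomial in `t = x + y` and `d = x * y`. -/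
def lucasTrace (t d : R) : ℕ → R
  | 0 => 2
  | 1 => t
  | n + 2 => t * lucasTrace t d (n + 1) - d * lucasTrace t d n

theorem map_lucasTrace (f : R →+* S) (t d : R) :
    ∀ n, f (lucasTrace t d n) = lucasTrace (f t) (f d) n
  | 0 => by simp [lucasTrace, map_ofNat]
  | 1 => by simp [lucasTrace]
  | n + 2 => by
    simp only [lucasTrace, map_sub, map_mul, map_lucasTrace f t d n,
      map_lucasTrace f t d (n + 1)]

/-- If `F` commutes with the scalars and satisfies `F² - t F + d = 0`, then `F ^ n` satisfies
`X² - lucasTrace t d n X + d ^ n = 0`. -/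
theorem lucasTrace_quadratic {A : Type*} [Ring A] (ψ : R →+* A) (F : A) (t d : R)
    (hc : ∀ r, Commute (ψ r) F) (hq : F * F - ψ t * F + ψ d = 0) (n : ℕ) :
    F ^ n * F ^ n - ψ (lucasTrace t d n) * F ^ n + ψ (d ^ n) = 0 := by
  set y : A := ψ t - F with hy
  have hFy : F * y = ψ d := by
    rw [hy, mul_sub, ← (hc t).eq, sub_eq_iff_eq_add, eq_comm, ← sub_eq_zero]
    rw [← hq]; abel
  have hyF : Commute F y := (hc t).symm.sub_right (Commute.refl F)
  have key : ∀ m, ψ (lucasTrace t d m) = F ^ m + y ^ m := by
    intro m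
    induction m using lucasTrace.induct with
    | case1 => simp [lucasTrace, map_ofNat, one_add_one_eq_two]
    | case2 => simp [lucasTrace, hy]
    | case3 m ih1 ih2 =>
      have ht : ψ t = F + y := by rw [hy]; abel
      simp only [lucasTrace, map_sub, map_mul, ih1, ih2, ht, ← hFy]
      have e1 : y * F ^ (m + 1) = F * y * F ^ m := by
        rw [pow_succ', ← mul_assoc, hyF.eq]
      have e2 : F * y ^ (m + 1) = F * y * y ^ m := by rw [pow_succ', ← mul_assoc]
      rw [add_mul, mul_add, mul_add, mul_add, e1, e2, pow_succ' F (m + 1), pow_succ' y (m + 1)]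
      abel
  rw [key, map_pow, ← hFy, hyF.mul_pow, add_mul, (hyF.symm.pow_pow n n).eq]
  abel

/-- The trace of a power of a `2 × 2` matrix. -/
theorem trace_pow_eq_lucasTrace (M : Matrix (Fin 2) (Fin 2) R) :
    ∀ n, (M ^ n).trace = lucasTrace M.trace M.det n
  | 0 => by simp [lucasTrace]
  | 1 => by simp [lucasTrace]
  | n + 2 => by
    have hCH : M * M = M.trace • M - M.det • (1 : Matrix (Fin 2) (Fin 2) R) := by
      ext i j
      fin_cases i <;> fin_cases j <;>
        simp [Matrix.mul_apply, Fin.sum_univ_two, Matrix.trace_fin_two, Matrix.det_fin_two] <;>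
        ring
    have hp : M ^ (n + 2) = M.trace • M ^ (n + 1) - M.det • M ^ n := by
      rw [pow_succ, pow_succ, mul_assoc, hCH, mul_sub, mul_smul_comm, mul_smul_comm, mul_one,
        ← pow_succ]
    rw [hp, Matrix.trace_sub, Matrix.trace_smul, Matrix.trace_smul, trace_pow_eq_lucasTrace M n,
      trace_pow_eq_lucasTrace M (n + 1), lucasTrace, smul_eq_mul, smul_eq_mul]

end FermatLib.Galois
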