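import Mathlib.LinearAlgebra.Charpoly.Basic
import Mathlib.LinearAlgebra.Determinant
import Fermat.Prelude.Def_GaloisRep_Adic
import Fermat.Prelude.Def_FLTPrelim_Ramification

/-!
Algebraic and local lemmas for the assembly of the statement S35:
characteristic polynomial of a rank two endomorphism from determinant and one root,
and the action of a Frobenius element on roots of unity of order prime to the residue
characteristic.
-/

set_option autoImplicit false

open Polynomial

namespace FermatLib.Galois

/-- Characteristic polynomial in rank two in terms of trace and determinant. -/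
theorem s35_charpoly_eq_of_finrank_eq_two {R V : Type*} [CommRing R] [Nontrivial R]
    [AddCommGroup V] [Module R V] [Module.Free R V] [Module.Finite R V]
    (h2 : Module.finrank R V = 2) (f : Module.End R V) :
    LinearMap.charpoly f = X ^ 2 - C (LinearMap.trace R V f) * X + C (LinearMap.det f) := by
  have b : Module.Basis (Fin 2) R V := Module.finBasisOfFinrankEq R V h2
  rw [← LinearMap.charpoly_toMatrix f b, Matrix.charpoly_fin_two,
    LinearMap.trace_eq_matrix_trace R b f, LinearMap.det_toMatrix b f]

/-- In rank two, determinant `c` and root `e * c` with `e * e = 1` determine the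
characteristic polynomial to be `(X - e) * (X - e * c)`. -/
theorem s35_charpoly_eq_of_isRoot {R V : Type*} [CommRing R] [IsDomain R]
    [AddCommGroup V] [Module R V] [Module.Free R V] [Module.Finite R V]
    (h2 : Module.finrank R V = 2) (f : Module.End R V) {c : R} (hc : c ≠ 0)
    (hdet : LinearMap.det f = c)
    (h : (LinearMap.charpoly f).IsRoot c ∨ (LinearMap.charpoly f).IsRoot (-c)) :
    LinearMap.charpoly f = X ^ 2 - C (c + 1) * X + C c ∨
      LinearMap.charpoly f = X ^ 2 + C (c + 1) * X + C c := by
  rw [s35_charpoly_eq_of_finrank_eq_two h2 f, hdet] at h ⊢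
  simp only [IsRoot.def, eval_add, eval_sub, eval_pow, eval_mul, eval_C, eval_X] at h
  rcases h with h | h
  · left
    have h' : c * (c + 1 - LinearMap.trace R V f) = 0 := by linear_combination h
    rw [← sub_eq_zero.mp ((mul_eq_zero.mp h').resolve_left hc)]
  · right
    have h' : c * (c + 1 + LinearMap.trace R V f) = 0 := by linear_combination h
    have ht : LinearMap.trace R V f = -(c + 1) := by
      linear_combination ((mul_eq_zero.mp h').resolve_left hc)
    rw [ht, map_neg, neg_mul, sub_neg_eq_add]

/-- A Frobenius element at a place over `q` raises to the `q`-th power every root of unity of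
order prime to `q`. -/
theorem s35_frobenius_apply_rootOfUnity {L : Type*} [Field L] {K : Type*} [Field K] [Algebra K L]
    (A : ValuationSubring L) {q : ℕ} (hq : q.Prime) (hA : A.LiesOverPrime q)
    {σ : L ≃ₐ[K] L} (hσ : A.IsFrobeniusAt σ q)
    {n : ℕ} (hqn : ¬ q ∣ n) {μ : L} (hμ : μ ^ n = 1) : σ μ = μ ^ q := by
  have hn0 : n ≠ 0 := fun h => hqn (h ▸ dvd_zero q)
  have mem_of_root : ∀ x : L, x ^ n = 1 → x ∈ A := by
    intro x hx
    rw [← A.valuation_le_one_iff]
    have h1 : A.valuation x ^ n = 1 := by rw [← map_pow, hx, map_one]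
    exact ((pow_eq_one_iff_left hn0).mp h1).le
  have hσd := hσ.mem_decompositionSubgroup
  have hσμ : (σ μ) ^ n = 1 := by rw [← map_pow, hμ, map_one]
  let a : A := ⟨μ, mem_of_root μ hμ⟩
  let b : A := ⟨σ μ, mem_of_root _ hσμ⟩
  have hres : IsLocalRing.residue A b = IsLocalRing.residue A a ^ q := by
    rw [← hσ.smul_residue_eq (IsLocalRing.residue A a)]
    rfl
  have hμ0 : μ ≠ 0 := fun h => by simp [h, zero_pow hn0] at hμ
  by_contra hne
  have hzn : (σ μ / μ ^ q) ^ n = 1 := by
    rw [div_pow, hσμ, ← pow_mul, mul_comm, pow_mul, hμ, one_pow, div_one]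
  let z : A := ⟨σ μ / μ ^ q, mem_of_root _ hzn⟩
  have hz1 : z ≠ 1 := fun h => hne ((div_eq_one_iff_eq (pow_ne_zero q hμ0)).mp
    (congrArg Subtype.val h))
  have hzb : z * a ^ q = b := Subtype.ext (div_mul_cancel₀ _ (pow_ne_zero q hμ0))
  have haunit : IsLocalRing.residue A a ≠ 0 := by
    intro h
    have h' : IsLocalRing.residue A (a ^ n) = 0 := by rw [map_pow, h, zero_pow hn0]
    rw [show a ^ n = 1 from Subtype.ext hμ, map_one] at h'
    exact one_ne_zero h'
  have hzres : IsLocalRing.residue A z = 1 := by
    have h := congrArg (IsLocalRing.residue A) hzb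
    rw [map_mul, map_pow, hres] at h
    exact (mul_eq_right₀ (pow_ne_zero q haunit)).mp h
  have hsum : ∑ i ∈ Finset.range n, z ^ i = 0 := by
    have h := geom_sum_mul z n
    rw [show z ^ n = 1 from Subtype.ext hzn, sub_self] at h
    exact (mul_eq_zero.mp h).resolve_right (sub_ne_zero.mpr hz1)
  have hnres : (n : IsLocalRing.ResidueField A) = 0 := by
    have h := congrArg (IsLocalRing.residue A) hsum
    simpa [hzres] using h
  have hqres : (q : IsLocalRing.ResidueField A) = 0 := by
    have h : ((q : A) : L) ∈ A.nonunits := by simpa [ValuationSubring.LiesOverPrime] using hA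
    rw [ValuationSubring.coe_mem_nonunits_iff] at h
    simpa using (IsLocalRing.residue_eq_zero_iff _).mpr h
  have hcop : Nat.Coprime q n := hq.coprime_iff_not_dvd.mpr hqn
  have hbez := congrArg (fun m : ℤ => (m : IsLocalRing.ResidueField A))
    (Int.gcd_eq_gcd_ab (q : ℤ) (n : ℤ))
  simp only [Int.gcd_natCast_natCast, hcop.gcd_eq_one, Int.cast_add, Int.cast_mul,
    Int.cast_natCast, hnres, hqres, zero_mul, add_zero, Nat.cast_one, Int.cast_one] at hbez
  exact one_ne_zero hbez

end FermatLib.Galois
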