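import Mathlib
import Fermat.Agent.Galois.NewformRepCore

/-!
The determinant of an adic representation with the Frobenius characteristic polynomials of a
weight two eigen-system is `q` at a Frobenius element over any prime `q` different from the
residual characteristic, given a Frobenius density input.
-/

set_option autoImplicit false

open Polynomial

namespace FermatLib.Galois

/-- The Frobenius density input used for the assembly of S35: on every finite level every
automorphism is conjugate to a power of a Frobenius element at a prime outside a given finite set. -/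
def S35FrobeniusDense : Prop :=
  ∀ (T : Finset ℕ) (L : IntermediateField ℚ (AlgebraicClosure ℚ)), FiniteDimensional ℚ L →
    ∀ σ : AlgebraicClosure ℚ ≃ₐ[ℚ] AlgebraicClosure ℚ, ∃ ℓ : ℕ, ℓ.Prime ∧ ℓ ∉ T ∧
      ∃ (A : ValuationSubring (AlgebraicClosure ℚ))
        (τ g : AlgebraicClosure ℚ ≃ₐ[ℚ] AlgebraicClosure ℚ) (a : ℕ),
        A.LiesOverPrime ℓ ∧ A.IsFrobeniusAt τ ℓ ∧ ∀ x ∈ L, σ x = (g * τ ^ a * g⁻¹) x

variable {O : Type} [CommRing O] [IsLocalRing O]

omit [IsLocalRing O] in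
/-- An endomorphism congruent to the identity modulo `I` has determinant congruent to one. -/
theorem s35_det_sub_one_mem {V : Type} [AddCommGroup V] [Module O V] [Module.Free O V]
    [Module.Finite O V] (I : Ideal O) (f : Module.End O V)
    (h : ∀ v : V, f v - v ∈ I • (⊤ : Submodule O V)) : LinearMap.det f - 1 ∈ I := by
  classical
  let b := Module.Free.chooseBasis O V
  have hM : (LinearMap.toMatrix b b f).map (Ideal.Quotient.mk I) = 1 := by
    ext i j
    rw [Matrix.map_apply, LinearMap.toMatrix_apply, Matrix.one_apply]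
    have hmem : b.repr (f (b j) - b j) i ∈ I := by
      refine Submodule.smul_induction_on (p := fun v => b.repr v i ∈ I) (h (b j)) ?_ ?_
      · intro a ha v _
        simpa using I.mul_mem_right _ ha
      · intro x y hx hy
        simpa using I.add_mem hx hy
    rw [map_sub, Finsupp.sub_apply, ← Ideal.Quotient.eq, b.repr_self, Finsupp.single_apply] at hmem
    rw [hmem]
    rcases eq_or_ne i j with rfl | hij
    · simp
    · simp [hij, Ne.symm hij]
  rw [← Ideal.Quotient.eq, map_one, ← LinearMap.det_toMatrix b f, RingHom.map_det,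
    RingHom.mapMatrix_apply, hM, Matrix.det_one]

/-- The determinant at a Frobenius element over `q ≠ lam` is `q`. -/
theorem s35_det_frobenius_eq [IsDomain O] [IsNoetherianRing O] (hdens : S35FrobeniusDense)
    {lam : ℕ} (hlam : lam.Prime) (hlamO : (lam : O) ∈ IsLocalRing.maximalIdeal O)
    (ρ : GaloisRepAdic O) (T : Finset ℕ)
    (hgood : ∀ ℓ : ℕ, ℓ.Prime → ℓ ∉ T →
      ∀ A : ValuationSubring (AlgebraicClosure ℚ), A.LiesOverPrime ℓ →
        ∀ σ : AlgebraicClosure ℚ ≃ₐ[ℚ] AlgebraicClosure ℚ, A.IsFrobeniusAt σ ℓ →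
          LinearMap.det (ρ.ρ σ) = (ℓ : O))
    {q : ℕ} (hq : q.Prime) (hqlam : q ≠ lam)
    {A : ValuationSubring (AlgebraicClosure ℚ)} (hA : A.LiesOverPrime q)
    {σ : AlgebraicClosure ℚ ≃ₐ[ℚ] AlgebraicClosure ℚ} (hσ : A.IsFrobeniusAt σ q) :
    LinearMap.det (ρ.ρ σ) = (q : O) := by
  rw [← sub_eq_zero]
  have key : ∀ n : ℕ, LinearMap.det (ρ.ρ σ) - (q : O) ∈ IsLocalRing.maximalIdeal O ^ n := by
    intro n
    obtain ⟨L, hL, hcont⟩ := ρ.isAdicContinuous n
    have : NeZero (lam ^ n) := ⟨pow_ne_zero n hlam.ne_zero⟩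
    have : NeZero ((lam ^ n : ℕ) : AlgebraicClosure ℚ) :=
      ⟨Nat.cast_ne_zero.mpr (pow_ne_zero n hlam.ne_zero)⟩
    obtain ⟨ζ, hζ⟩ : ∃ ζ : AlgebraicClosure ℚ, IsPrimitiveRoot ζ (lam ^ n) :=
      HasEnoughRootsOfUnity.exists_primitiveRoot _ _
    let L' : IntermediateField ℚ (AlgebraicClosure ℚ) := L ⊔ IntermediateField.adjoin ℚ {ζ}
    have := hL
    have : FiniteDimensional ℚ (IntermediateField.adjoin ℚ {ζ}) :=
      IntermediateField.adjoin.finiteDimensional ((AlgebraicClosure.isAlgebraic ℚ).isAlgebraic ζ).isIntegral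
    have hL' : FiniteDimensional ℚ L' := IntermediateField.finiteDimensional_sup _ _
    obtain ⟨ℓ, hℓ, hℓT, B, τ, g, a, hB, hτ, hagree⟩ := hdens (insert lam T) L' hL' σ
    rw [Finset.mem_insert, not_or] at hℓT
    have hndvd : ∀ r : ℕ, r.Prime → r ≠ lam → ¬ r ∣ lam ^ n := fun r hr hne hdvd =>
      hne ((Nat.prime_dvd_prime_iff_eq hr hlam).mp (hr.dvd_of_dvd_pow hdvd))
    have hτpow : ∀ (k : ℕ) (μ : AlgebraicClosure ℚ), μ ^ lam ^ n = 1 →
        (τ ^ k) μ = μ ^ ℓ ^ k := by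
      intro k
      induction k with
      | zero => intro μ _; simp
      | succ k ih =>
        intro μ hμ
        rw [pow_succ', AlgEquiv.mul_apply, ih μ hμ, map_pow,
          s35_frobenius_apply_rootOfUnity B hℓ hB hτ (hndvd ℓ hℓ hℓT.1) hμ, ← pow_mul, pow_succ']
    have hcong : (q : O) - ((ℓ ^ a : ℕ) : O) ∈ IsLocalRing.maximalIdeal O ^ n := by
      have h1 := hagree ζ (le_sup_right (a := L)
        (IntermediateField.mem_adjoin_simple_self ℚ ζ))
      have hg : (g⁻¹ ζ) ^ lam ^ n = 1 := by rw [← map_pow, hζ.pow_eq_one, map_one]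
      rw [s35_frobenius_apply_rootOfUnity A hq hA hσ (hndvd q hq hqlam) hζ.pow_eq_one,
        AlgEquiv.mul_apply, AlgEquiv.mul_apply, hτpow a _ hg, map_pow, ← AlgEquiv.mul_apply,
        mul_inv_cancel, AlgEquiv.one_apply, (hζ.isOfFinOrder (pow_ne_zero n hlam.ne_zero)).pow_eq_pow_iff_modEq, ← hζ.eq_orderOf] at h1
      obtain ⟨c, hc⟩ := Nat.modEq_iff_dvd.mp h1.symm
      have hcO := congrArg (Int.cast : ℤ → O) hc
      simp only [Int.cast_sub, Int.cast_natCast, Int.cast_mul, Nat.cast_pow, Int.cast_pow] at hcO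
      rw [Nat.cast_pow, hcO]
      exact Ideal.mul_mem_right _ _ (Ideal.pow_mem_pow hlamO n)
    have hfix : ∀ x ∈ L, ((g * τ ^ a * g⁻¹)⁻¹ * σ) x = x := by
      intro x hx
      rw [AlgEquiv.mul_apply, hagree x (le_sup_left (b := IntermediateField.adjoin ℚ {ζ}) hx),
        ← AlgEquiv.mul_apply, inv_mul_cancel, AlgEquiv.one_apply]
    have hdet1 : LinearMap.det (ρ.ρ ((g * τ ^ a * g⁻¹)⁻¹ * σ)) - 1
        ∈ IsLocalRing.maximalIdeal O ^ n := s35_det_sub_one_mem _ _ (hcont _ hfix)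
    have hconj : LinearMap.det (ρ.ρ (g * τ ^ a * g⁻¹)) = ((ℓ ^ a : ℕ) : O) := by
      have hgg : LinearMap.det (ρ.ρ g) * LinearMap.det (ρ.ρ g⁻¹) = 1 := by
        rw [← map_mul, ← map_mul, mul_inv_cancel, map_one, map_one]
      rw [map_mul, map_mul, map_mul, map_mul, map_pow, map_pow, hgood ℓ hℓ hℓT.2 B hB τ hτ,
        mul_right_comm, hgg, one_mul, Nat.cast_pow]
    have hsplit : LinearMap.det (ρ.ρ σ) =
        ((ℓ ^ a : ℕ) : O) * LinearMap.det (ρ.ρ ((g * τ ^ a * g⁻¹)⁻¹ * σ)) := by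
      rw [← hconj, ← map_mul, ← map_mul, mul_inv_cancel_left]
    rw [hsplit, show ((ℓ ^ a : ℕ) : O) * LinearMap.det (ρ.ρ ((g * τ ^ a * g⁻¹)⁻¹ * σ)) - (q : O) =
      ((ℓ ^ a : ℕ) : O) * (LinearMap.det (ρ.ρ ((g * τ ^ a * g⁻¹)⁻¹ * σ)) - 1)
        - ((q : O) - ((ℓ ^ a : ℕ) : O)) by ring]
    exact Ideal.sub_mem _ (Ideal.mul_mem_left _ _ hdet1) hcong
  have hinf : LinearMap.det (ρ.ρ σ) - (q : O) ∈ ⨅ n : ℕ, IsLocalRing.maximalIdeal O ^ n :=
    Submodule.mem_iInf _ |>.mpr key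
  rwa [Ideal.iInf_pow_eq_bot_of_isLocalRing _ (Ideal.IsMaximal.ne_top inferInstance),
    Ideal.mem_bot] at hinf

end FermatLib.Galois
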