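import Mathlib
import Fermat.Prelude.Def_ModularCurve_ArithmeticGalois

/-!
# Stabilisers of divisor classes are open

Every point of `Pic⁰` of a function field `ℚ̄ · F₀` (with `F₀` a field of Laurent series over `ℚ`)
is fixed by the Galois group of some number field, as soon as principal divisors exist.
-/

set_option autoImplicit false

open AlgebraicCurve ModularCurve

namespace FermatLib.Galois

local notation "Qbar" => AlgebraicClosure ℚ
local notation "Γℚ" => (AlgebraicClosure ℚ ≃ₐ[ℚ] AlgebraicClosure ℚ)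

/-- A property of Galois elements holds on the Galois group of some number field. -/
def HoldsNearOne (P : Γℚ → Prop) : Prop :=
  ∃ L : IntermediateField ℚ Qbar, FiniteDimensional ℚ L ∧
    ∀ σ : Γℚ, (∀ y ∈ L, σ y = y) → P σ

theorem HoldsNearOne.mono {P Q : Γℚ → Prop} (h : HoldsNearOne P) (hPQ : ∀ σ, P σ → Q σ) :
    HoldsNearOne Q :=
  h.imp fun _ hL => ⟨hL.1, fun σ hσ => hPQ σ (hL.2 σ hσ)⟩

theorem holdsNearOne_of_forall {P : Γℚ → Prop} (h : ∀ σ, P σ) : HoldsNearOne P :=
  ⟨⊥, inferInstance, fun σ _ => h σ⟩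

theorem HoldsNearOne.and {P Q : Γℚ → Prop} (hP : HoldsNearOne P) (hQ : HoldsNearOne Q) :
    HoldsNearOne fun σ => P σ ∧ Q σ := by
  obtain ⟨L, hL, hP⟩ := hP
  obtain ⟨L', hL', hQ⟩ := hQ
  exact ⟨L ⊔ L', IntermediateField.finiteDimensional_sup L L', fun σ hσ =>
    ⟨hP σ fun y hy => hσ y ((le_sup_left : L ≤ L ⊔ L') hy),
      hQ σ fun y hy => hσ y ((le_sup_right : L' ≤ L ⊔ L') hy)⟩⟩

theorem holdsNearOne_forall_mem {ι : Type*} (s : Finset ι) (P : ι → Γℚ → Prop)
    (h : ∀ i ∈ s, HoldsNearOne (P i)) : HoldsNearOne fun σ => ∀ i ∈ s, P i σ := by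
  classical
  induction s using Finset.induction with
  | empty => exact holdsNearOne_of_forall fun σ i hi => absurd hi (Finset.notMem_empty i)
  | insert i s _ ih =>
    refine ((h i (Finset.mem_insert_self i s)).and
      (ih fun j hj => h j (Finset.mem_insert_of_mem hj))).mono fun σ hσ j hj => ?_
    rcases Finset.mem_insert.mp hj with rfl | hj
    · exact hσ.1
    · exact hσ.2 j hj

theorem holdsNearOne_apply_eq (a : Qbar) : HoldsNearOne fun σ => σ a = a :=
  ⟨IntermediateField.adjoin ℚ {a},
    IntermediateField.adjoin.finiteDimensional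
      ((AlgebraicClosure.isAlgebraic ℚ).isAlgebraic a).isIntegral,
    fun _ hσ => hσ a (IntermediateField.mem_adjoin_simple_self ℚ a)⟩

variable {F₀ : IntermediateField ℚ (LaurentSeries ℚ)}

/-- Every function is defined over a number field. -/
theorem holdsNearOne_smul_function (x : laurentBaseChange Qbar F₀) :
    HoldsNearOne fun σ => arithmeticGalois F₀ σ • x = x := by
  suffices h : ∀ y : LaurentSeries Qbar, y ∈ Subfield.closure
      (Set.range (algebraMap Qbar (LaurentSeries Qbar)) ∪
        (⇑(coeffEmb Qbar) '' (F₀ : Set (LaurentSeries ℚ)))) →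
      HoldsNearOne fun σ => coeffMap (σ : Qbar →+* Qbar) y = y by
    exact (h _ (mem_laurentBaseChange_iff.mp x.2)).mono fun σ hσ => Subtype.ext hσ
  intro y hy
  induction hy using Subfield.closure_induction with
  | mem y hy =>
    rcases hy with ⟨a, rfl⟩ | ⟨z, -, rfl⟩
    · exact (holdsNearOne_apply_eq a).mono fun σ hσ =>
        (coeffMap_algebraMap _ _).trans (congrArg _ hσ)
    · exact holdsNearOne_of_forall fun σ => coeffMap_coeffEmb σ z
  | one => exact holdsNearOne_of_forall fun σ => map_one _
  | add a b _ _ ha hb => exact (ha.and hb).mono fun σ hσ => by rw [map_add, hσ.1, hσ.2]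
  | neg a _ ha => exact ha.mono fun σ hσ => by rw [map_neg, hσ]
  | inv a _ ha => exact ha.mono fun σ hσ => by rw [map_inv₀, hσ]
  | mul a b _ _ ha hb => exact (ha.and hb).mono fun σ hσ => by rw [map_mul, hσ.1, hσ.2]

open scoped Pointwise in
/-- Every place is defined over a number field. -/
theorem holdsNearOne_smul_place [HasPrincipalDivisors Qbar (laurentBaseChange Qbar F₀)]
    (v : Place Qbar (laurentBaseChange Qbar F₀)) :
    HoldsNearOne fun σ => arithmeticGalois F₀ σ • v = v := by
  classical
  obtain ⟨π, hπ⟩ := IsDiscreteValuationRing.exists_irreducible v.toValuationSubring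
  have hπ0 : (π : laurentBaseChange Qbar F₀) ≠ 0 := fun h => hπ.ne_zero (Subtype.ext h)
  obtain ⟨D, hD, -⟩ := HasPrincipalDivisors.exists_divisor (K := Qbar) (π : laurentBaseChange Qbar F₀) hπ0
  have hsep : ∀ w ∈ D.support, HoldsNearOne fun σ => arithmeticGalois F₀ σ • v = w → v = w := by
    intro w _
    by_cases hvw : v = w
    · exact holdsNearOne_of_forall fun σ _ => hvw
    obtain ⟨x, hx⟩ : ∃ x, ¬(x ∈ v.toValuationSubring ↔ x ∈ w.toValuationSubring) := by
      by_contra hc
      exact hvw (Place.ext (SetLike.ext fun x => not_not.mp fun hn => hc ⟨x, hn⟩))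
    refine (holdsNearOne_smul_function x).mono fun σ hσ hw => absurd ?_ hx
    rw [← hw, SemilinearAut.smul_toValuationSubring]
    conv_rhs => rw [← hσ]
    exact (ValuationSubring.smul_mem_pointwise_smul_iff).symm
  refine ((holdsNearOne_smul_function (π : laurentBaseChange Qbar F₀)).and
    (holdsNearOne_forall_mem D.support _ hsep)).mono fun σ ⟨hπσ, hw⟩ => ?_
  have hmem : arithmeticGalois F₀ σ • v ∈ D.support := by
    rw [Finsupp.mem_support_iff, hD, ← hπσ, SemilinearAut.ord_smul,
      Place.ord_coe_irreducible v hπ]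
    exact one_ne_zero
  exact (hw _ hmem rfl).symm

/-- Every divisor class is defined over a number field. -/
theorem holdsNearOne_smul_pic0 [HasPrincipalDivisors Qbar (laurentBaseChange Qbar F₀)]
    (x : Pic0 Qbar (laurentBaseChange Qbar F₀)) : HoldsNearOne fun σ => σ • x = x := by
  obtain ⟨D, rfl⟩ := Pic0.mk_surjective x
  refine (holdsNearOne_forall_mem (D : Divisor Qbar (laurentBaseChange Qbar F₀)).support _
    fun v _ => holdsNearOne_smul_place v).mono fun σ hσ => ?_
  rw [galois_smul_pic0_def, SemilinearAut.pic0_smul_mk]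
  refine congrArg Pic0.mk (Subtype.ext ?_)
  rw [SemilinearAut.coe_degZeroSMulHom, SemilinearAut.divisor_smul_def]
  exact (Finsupp.mapDomain_congr hσ).trans Finsupp.mapDomain_id

end FermatLib.Galois
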