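import Fermat.Agent.Galois.RepMatrix
import Mathlib.LinearAlgebra.FiniteDimensional.Basic
import Mathlib.LinearAlgebra.Matrix.DotProduct
import Mathlib.LinearAlgebra.Finsupp.LinearCombination
import Mathlib.LinearAlgebra.Matrix.Charpoly.Coeff
import Mathlib.FieldTheory.IsAlgClosed.AlgebraicClosure

/-!
# Two-dimensional representations over a field: absolute irreducibility, Brauer–Nesbitt
-/

set_option autoImplicit false

open Matrix

namespace FermatLib.Galois

variable {G : Type*} {k K : Type*} [Field k] [Field K]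

local notation "M₂" R:max => Matrix (Fin 2) (Fin 2) R

section Monoid

variable [Monoid G]

/-- No line of `k²` is stable. -/
def NoStableLine (ρ : G →* M₂ k) : Prop :=
  ∀ v : Fin 2 → k, v ≠ 0 → ∃ σ, ∀ a : k, ρ σ *ᵥ v ≠ a • v

lemma eq_top_of_mem_of_ne_smul {W : Submodule k (Fin 2 → k)} {v w : Fin 2 → k}
    (hv : v ∈ W) (hw : w ∈ W) (hv0 : v ≠ 0) (h : ∀ a : k, w ≠ a • v) : W = ⊤ := by
  have hli : LinearIndependent k ![v, w] :=
    (LinearIndependent.pair_iff' hv0).mpr fun a ha => h a ha.symm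
  have hs := hli.span_eq_top_of_card_eq_finrank (by simp)
  rw [eq_top_iff, ← hs, Submodule.span_le]
  rintro x ⟨i, rfl⟩
  fin_cases i <;> simpa

lemma NoStableLine.span_mulVec_eq_top {ρ : G →* M₂ k} (h : NoStableLine ρ) {v : Fin 2 → k}
    (hv : v ≠ 0) : Submodule.span k (Set.range fun σ => ρ σ *ᵥ v) = ⊤ := by
  obtain ⟨σ, hσ⟩ := h v hv
  exact eq_top_of_mem_of_ne_smul (Submodule.subset_span ⟨1, by simp⟩)
    (Submodule.subset_span ⟨σ, rfl⟩) hv hσ

/-- The span of the image, as a subalgebra. -/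
def spanAlgebra (ρ : G →* M₂ k) : Subalgebra k (M₂ k) :=
  Algebra.adjoin k (Set.range ρ)

lemma spanAlgebra_toSubmodule (ρ : G →* M₂ k) :
    (spanAlgebra ρ).toSubmodule = Submodule.span k (Set.range ρ) := by
  rw [spanAlgebra, Algebra.adjoin_eq_span]
  congr
  rw [← MonoidHom.coe_mrange, Submonoid.closure_eq]

lemma exists_eq_vecMulVec {N : M₂ k} (hN : N ≠ 0) (hd : N.det = 0) :
    ∃ u φ : Fin 2 → k, u ≠ 0 ∧ φ ≠ 0 ∧ N = vecMulVec u φ := by
  obtain ⟨i, j, hij⟩ : ∃ i j, N i j ≠ 0 := by
    by_contra h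
    push Not at h
    exact hN (Matrix.ext h)
  refine ⟨fun a => N a j / N i j, fun b => N i b,
    Function.ne_iff.mpr ⟨i, by simp [hij]⟩, Function.ne_iff.mpr ⟨j, hij⟩, ?_⟩
  rw [Matrix.det_fin_two] at hd
  ext a b
  rw [vecMulVec_apply, div_mul_eq_mul_div, eq_div_iff hij]
  fin_cases i <;> fin_cases j <;> fin_cases a <;> fin_cases b <;>
    simp only [Fin.zero_eta, Fin.mk_one] <;>
    first | ring1 | linear_combination hd | linear_combination -hd

/-- Burnside's theorem in dimension two. -/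
theorem NoStableLine.span_range_eq_top [IsAlgClosed k] {ρ : G →* M₂ k} (h : NoStableLine ρ) :
    Submodule.span k (Set.range ρ) = ⊤ := by
  set S := spanAlgebra ρ
  have hρS : ∀ σ, ρ σ ∈ S := fun σ => Algebra.subset_adjoin ⟨σ, rfl⟩
  have htrans : ∀ {v : Fin 2 → k}, v ≠ 0 → ∀ w, ∃ X ∈ S, X *ᵥ v = w := by
    intro v hv w
    let f : M₂ k →ₗ[k] (Fin 2 → k) := (Matrix.mulVecBilin k k).flip v
    have : Submodule.span k (Set.range fun σ => ρ σ *ᵥ v) ≤ S.toSubmodule.map f :=
      Submodule.span_le.mpr fun x ⟨σ, hσ⟩ => ⟨ρ σ, hρS σ, hσ⟩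
    rw [h.span_mulVec_eq_top hv, top_le_iff] at this
    exact (this ▸ Submodule.mem_top : w ∈ S.toSubmodule.map f)
  -- a nonzero singular element
  obtain ⟨N, hNS, hN, hNd⟩ : ∃ N ∈ S, N ≠ 0 ∧ N.det = 0 := by
    obtain ⟨σ, hσ⟩ := h (Pi.single 0 1) (by simp)
    obtain ⟨a, ha⟩ := IsAlgClosed.exists_root (ρ σ).charpoly (by simp [charpoly_degree_eq_dim])
    refine ⟨algebraMap k _ a - ρ σ, S.sub_mem (S.algebraMap_mem a) (hρS σ), ?_, ?_⟩
    · intro h0
      apply hσ a
      rw [sub_eq_zero.mp h0 |>.symm, Algebra.algebraMap_eq_smul_one, Matrix.smul_mulVec,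
        Matrix.one_mulVec]
    · rw [← ha, Matrix.eval_charpoly, Matrix.scalar_apply]
      rfl
  obtain ⟨u, φ, hu, hφ, rfl⟩ := exists_eq_vecMulVec hN hNd
  have hall : ∀ x y : Fin 2 → k, vecMulVec x y ∈ S := by
    intro x y
    let R : Submodule k (Fin 2 → k) :=
      S.toSubmodule.map ((Matrix.vecMulBilin k k) φ)
    have hφR : φ ∈ R := ⟨1, S.one_mem, by simp⟩
    obtain ⟨Y, hY, rfl⟩ : y ∈ R := by
      by_contra hy
      have hline : ∀ Y ∈ S, ∃ c : k, φ ᵥ* Y = c • φ := by
        intro Y hY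
        by_contra hc
        push Not at hc
        exact hy (eq_top_of_mem_of_ne_smul (W := R) hφR ⟨Y, hY, rfl⟩ hφ hc ▸ Submodule.mem_top)
      have hx : (![φ 1, -φ 0] : Fin 2 → k) ≠ 0 := by
        intro h0
        apply hφ
        funext i
        fin_cases i
        · simpa using congrFun h0 1
        · simpa using congrFun h0 0
      have hz : ∀ w, φ ⬝ᵥ w = 0 := by
        intro w
        obtain ⟨X, hX, rfl⟩ := htrans hx w
        obtain ⟨c, hc⟩ := hline X hX
        rw [dotProduct_mulVec, hc, smul_dotProduct]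
        simp [dotProduct, Fin.sum_univ_two]; right; ring
      exact hφ (dotProduct_eq_zero _ hz)
    obtain ⟨X, hX, rfl⟩ := htrans hu x
    have := S.mul_mem (S.mul_mem hX hNS) hY
    rwa [Matrix.mul_vecMulVec, Matrix.vecMulVec_mul] at this
  rw [← spanAlgebra_toSubmodule, eq_top_iff]
  intro X _
  have : X = ∑ i, ∑ j, vecMulVec (Pi.single i (X i j)) (Pi.single j 1) := by
    conv_lhs => rw [matrix_eq_sum_single X]
    congr! 2 with i _ j
    ext a b
    simp [vecMulVec_apply, Matrix.single, Pi.single_apply]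
    grind
  rw [this]
  exact S.sum_mem fun i _ => S.sum_mem fun j _ => hall _ _

lemma hasFullSpan_of_span_eq_top {ρ : G →* M₂ k}
    (h : Submodule.span k (Set.range ρ) = ⊤) : HasFullSpan ρ := by
  obtain ⟨f, hf, hspan, hli⟩ :=
    Submodule.exists_fun_fin_finrank_span_eq k (Set.range ρ)
  have h4 : Module.finrank k (Submodule.span k (Set.range ρ)) = 4 := by
    rw [h, finrank_top, Module.finrank_matrix]; simp
  choose g hg using hf
  let e : Fin 4 ≃ Fin (Module.finrank k (Submodule.span k (Set.range ρ))) := finCongr h4.symm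
  refine ⟨g ∘ e, isUnit_iff_ne_zero.mpr fun hdet => ?_⟩
  obtain ⟨c, hc0, hc⟩ := Matrix.exists_vecMul_eq_zero_iff.mpr hdet
  set X := combMap ρ (g ∘ e) c with hX
  have hker : ∀ Y ∈ Submodule.span k (Set.range ρ), (X * Y).trace = 0 := by
    intro Y hY
    rw [← hspan] at hY
    induction hY using Submodule.span_induction with
    | mem y hy =>
      obtain ⟨i, rfl⟩ := hy
      have := congrFun ((traceMap_combMap ρ (g ∘ e) c).trans hc) (e.symm i)
      simpa [traceMap_apply, hg, hX] using this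
    | zero => simp
    | add x y _ _ hx hy => simp [mul_add, hx, hy]
    | smul a x _ hx => simp [hx]
  have hX0 : X = 0 := by
    ext i j
    have := hker (Matrix.single j i 1) (h ▸ Submodule.mem_top)
    simpa [Matrix.trace_mul_single] using this
  apply hc0
  have hli' : LinearIndependent k fun i => ρ ((g ∘ e) i) := by
    simpa [Function.comp_def, hg] using hli.comp e e.injective
  rw [hX, combMap_apply] at hX0
  funext i
  exact Fintype.linearIndependent_iff.mp hli' c hX0 i

lemma HasFullSpan.noStableLine {ρ : G →* M₂ k} (h : HasFullSpan ρ) : NoStableLine ρ := by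
  intro v hv
  by_contra hs
  push Not at hs
  choose a ha using hs
  have hall : ∀ X : M₂ k, ∃ c : k, X *ᵥ v = c • v := by
    intro X
    have hX : X ∈ Submodule.span k (Set.range ρ) := h.span_range_eq_top ▸ Submodule.mem_top
    induction hX using Submodule.span_induction with
    | mem x hx => obtain ⟨σ, rfl⟩ := hx; exact ⟨_, ha σ⟩
    | zero => exact ⟨0, by simp⟩
    | add x y _ _ hx hy =>
      obtain ⟨c, hc⟩ := hx; obtain ⟨d, hd⟩ := hy
      exact ⟨c + d, by rw [add_mulVec, hc, hd, add_smul]⟩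
    | smul b x _ hx =>
      obtain ⟨c, hc⟩ := hx
      exact ⟨b * c, by rw [smul_mulVec, hc, smul_smul]⟩
  obtain ⟨j, hj⟩ := Function.ne_iff.mp hv
  obtain ⟨c, hc⟩ := hall (Matrix.single (1 - j) j 1)
  have h1 := congrFun hc (1 - j)
  have h2 := congrFun hc j
  fin_cases j <;>
    simp [Matrix.mulVec, dotProduct, Matrix.single] at h1 h2 hj <;>
    simp_all

theorem noStableLine_iff_hasFullSpan [IsAlgClosed k] (ρ : G →* M₂ k) :
    NoStableLine ρ ↔ HasFullSpan ρ :=
  ⟨fun h => hasFullSpan_of_span_eq_top h.span_range_eq_top, fun h => h.noStableLine⟩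

/-- Full span is absolute irreducibility. -/
theorem hasFullSpan_iff_noStableLine_map [IsAlgClosed K] (f : k →+* K) (ρ : G →* M₂ k) :
    HasFullSpan ρ ↔ NoStableLine (repMap f ρ) := by
  rw [noStableLine_iff_hasFullSpan]
  exact ⟨fun h => h.repMap f, fun h => HasFullSpan.of_repMap f h⟩

/-- A left eigenvector from a right one. -/
lemma vecMul_of_mulVec_eq {X : M₂ k} {v : Fin 2 → k} {a : k} (h : X *ᵥ v = a • v) :
    ![v 1, -v 0] ᵥ* X = (X.trace - a) • ![v 1, -v 0] := by
  have h0 := congrFun h 0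
  have h1 := congrFun h 1
  simp [Matrix.mulVec, dotProduct, Fin.sum_univ_two] at h0 h1
  ext i
  fin_cases i <;> simp [Matrix.vecMul, dotProduct, Fin.sum_univ_two, Matrix.trace_fin_two]
  · linear_combination -h1
  · linear_combination h0

/-- A representation without rational stable line which is not absolutely irreducible is described
by a character with values in an algebraically closed field. -/
lemma exists_linearMap_of_not_hasFullSpan [Algebra k K] [IsAlgClosed K] {ρ : G →* M₂ k}
    (hns : NoStableLine ρ) (h : ¬ HasFullSpan ρ) :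
    ∃ (lam : G → K) (f : (Fin 2 → k) →ₗ[k] K), Function.Injective f ∧
      (∀ σ x, f (ρ σ *ᵥ x) = lam σ * f x) ∧
      ∀ σ, lam σ * (algebraMap k K (ρ σ).trace - lam σ) = algebraMap k K (ρ σ).det := by
  rw [hasFullSpan_iff_noStableLine_map (algebraMap k K)] at h
  simp only [NoStableLine, not_forall] at h
  obtain ⟨v, hv, hs⟩ := h
  push Not at hs
  choose a ha using hs
  set φ : Fin 2 → K := ![v 1, -v 0]
  set ι : k →ₗ[k] K := Algebra.linearMap k K
  let f : (Fin 2 → k) →ₗ[k] K :=
    { toFun := fun x => φ ⬝ᵥ fun i => algebraMap k K (x i)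
      map_add' := fun x y => by simp [dotProduct, Fin.sum_univ_two]; ring
      map_smul' := fun c x => by simp [dotProduct, Fin.sum_univ_two, Algebra.smul_def]; ring }
  have hmap : ∀ σ x, f (ρ σ *ᵥ x) = (algebraMap k K (ρ σ).trace - a σ) * f x := by
    intro σ x
    change (φ ⬝ᵥ fun i => algebraMap k K ((ρ σ *ᵥ x) i)) =
      _ * (φ ⬝ᵥ fun i => algebraMap k K (x i))
    have : (fun i => algebraMap k K ((ρ σ *ᵥ x) i)) =
        repMap (algebraMap k K) ρ σ *ᵥ fun i => algebraMap k K (x i) := by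
      funext i; simp [Matrix.mulVec, dotProduct, Fin.sum_univ_two]
    rw [this, dotProduct_mulVec, vecMul_of_mulVec_eq (ha σ), smul_dotProduct, trace_repMap,
      smul_eq_mul]
  have hinj : Function.Injective f := by
    rw [injective_iff_map_eq_zero]
    intro x hx
    by_contra hx0
    obtain ⟨σ, hσ⟩ := hns x hx0
    have htop := eq_top_of_mem_of_ne_smul (W := LinearMap.ker f) (show x ∈ _ from hx)
      (show ρ σ *ᵥ x ∈ _ by simp [hmap, hx]) hx0 hσ
    have hz : ∀ y, f y = 0 := fun y => (htop ▸ Submodule.mem_top : y ∈ LinearMap.ker f)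
    apply hv
    have e0 := hz (Pi.single 0 1)
    have e1 := hz (Pi.single 1 1)
    simp [f, φ, dotProduct, Fin.sum_univ_two] at e0 e1
    funext i
    fin_cases i <;> assumption
  refine ⟨_, f, hinj, hmap, fun σ => ?_⟩
  have hd := vecMul_of_mulVec_eq (ha σ)
  rw [trace_repMap] at hd
  obtain ⟨j, hj⟩ := Function.ne_iff.mp hv
  have h0 := congrFun (ha σ) 0
  have h1 := congrFun (ha σ) 1
  simp [Matrix.mulVec, dotProduct, Fin.sum_univ_two] at h0 h1
  rw [Matrix.det_fin_two, Matrix.trace_fin_two]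
  simp only [map_add, map_sub, map_mul]
  apply mul_left_cancel₀ hj
  fin_cases j <;> simp only [Fin.zero_eta, Fin.mk_one] <;> grind

end Monoid

section Group

variable [Group G]

lemma det_ne_zero (ρ : G →* M₂ k) (σ : G) : (ρ σ).det ≠ 0 :=
  Matrix.det_ne_zero_of_left_inverse (B := ρ σ⁻¹) (by rw [← map_mul, inv_mul_cancel, map_one])

end Group

end FermatLib.Galois
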