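import Mathlib

/-!
# Transfer of operator identities to a representation with the same traces

The algebraic core of the comparison between an abstract rank two representation and the Galois
module `J[p^k]`: a group `G` acts on an abelian group through `Φ : G →* A`, commuting with the
scalars `ψ : P →+* A`, each `Φ g` satisfies `X² - τ g X + d g = 0`, and a representation
`r : G →* M₂(T)` whose image spans `M₂(T)` has trace `π (τ g)` modulo `I`.  If scalars killed by `ψ`
are sent into `I` by `π`, then every relation `∑ ψ (t i) Φ (g i) = 0` holds for `r` modulo `I`.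
-/

set_option autoImplicit false

namespace FermatLib.Galois

section TraceForm

variable {G T : Type*} [Group G] [CommRing T] {I : Ideal T}

theorem apply_mem_of_trace_mul_mem (r : G →* Matrix (Fin 2) (Fin 2) T)
    (hspan : Submodule.span T (Set.range r) = ⊤) (X : Matrix (Fin 2) (Fin 2) T)
    (hX : ∀ g, (X * r g).trace ∈ I) (a b : Fin 2) : X a b ∈ I := by
  have hall : ∀ Y : Matrix (Fin 2) (Fin 2) T, (X * Y).trace ∈ I := by
    intro Y
    have hY : Y ∈ Submodule.span T (Set.range r) := by rw [hspan]; exact Submodule.mem_top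
    induction hY using Submodule.span_induction with
    | mem y hy => obtain ⟨g, rfl⟩ := hy; exact hX g
    | zero => simp
    | add y z _ _ hy hz => rw [mul_add, Matrix.trace_add]; exact I.add_mem hy hz
    | smul c y _ hy => rw [mul_smul_comm, Matrix.trace_smul]; exact I.mul_mem_left c hy
  have h := hall (Matrix.single b a 1)
  simpa [Matrix.trace, Matrix.diag, Matrix.mul_apply, Matrix.single, Fin.sum_univ_two, ite_and,
    apply_ite] using h

/-- If `z` times every commutator of the image is zero modulo `I`, then `z ∈ I`. -/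
theorem mem_of_mul_trace_comm_mem (r : G →* Matrix (Fin 2) (Fin 2) T)
    (hspan : Submodule.span T (Set.range r) = ⊤) (z : T)
    (hz : ∀ g h k, z * ((r (h * k * g)).trace - (r (k * h * g)).trace) ∈ I) : z ∈ I := by
  have h1 : ∀ h k, ∀ a b, (z • (r h * r k - r k * r h)) a b ∈ I := fun h k =>
    apply_mem_of_trace_mul_mem r hspan _ fun g => by
      rw [smul_mul_assoc, Matrix.trace_smul, sub_mul, Matrix.trace_sub, ← map_mul, ← map_mul,
        ← map_mul, ← map_mul]
      exact hz g h k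
  have h2 : ∀ A B : Matrix (Fin 2) (Fin 2) T, ∀ a b, (z • (A * B - B * A)) a b ∈ I := by
    intro A
    have hA : A ∈ Submodule.span T (Set.range r) := by rw [hspan]; exact Submodule.mem_top
    induction hA using Submodule.span_induction with
    | mem A hA =>
      obtain ⟨h, rfl⟩ := hA
      intro B
      have hB : B ∈ Submodule.span T (Set.range r) := by rw [hspan]; exact Submodule.mem_top
      induction hB using Submodule.span_induction with
      | mem B hB => obtain ⟨k, rfl⟩ := hB; exact h1 h k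
      | zero => simp
      | add B C _ _ hB hC =>
        intro a b
        rw [mul_add, add_mul, add_sub_add_comm, smul_add]
        exact I.add_mem (hB a b) (hC a b)
      | smul c B _ hB =>
        intro a b
        rw [mul_smul_comm, smul_mul_assoc, ← smul_sub, smul_comm]
        exact I.mul_mem_left c (hB a b)
    | zero => simp
    | add A C _ _ hA hC =>
      intro B a b
      rw [mul_add, add_mul, add_sub_add_comm, smul_add]
      exact I.add_mem (hA B a b) (hC B a b)
    | smul c A _ hA =>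
      intro B a b
      rw [mul_smul_comm, smul_mul_assoc, ← smul_sub, smul_comm]
      exact I.mul_mem_left c (hA B a b)
  have h := h2 (Matrix.single 0 0 1) (Matrix.single 0 1 1) 0 1
  simpa [Matrix.mul_apply, Matrix.single, Fin.sum_univ_two] using h

end TraceForm

section Core

variable {G P A T : Type*} [Group G] [CommRing P] [Ring A] [CommRing T]

/-- The transfer lemma, for one level. -/
theorem sum_smul_apply_mem_of_quadratic {I : Ideal T} (ψ : P →+* A) (Φ : G →* A)
    (hcomm : ∀ t g, Commute (ψ t) (Φ g)) (τ d : G → P)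
    (hquad : ∀ g, Φ g * Φ g - ψ (τ g) * Φ g + ψ (d g) = 0)
    (hd : ∀ g h, ψ (d (g * h)) = ψ (d g) * ψ (d h)) (hd1 : ψ (d 1) = 1)
    (π : P →+* T) (hker : ∀ t, ψ t = 0 → π t ∈ I)
    (r : G →* Matrix (Fin 2) (Fin 2) T) (hspan : Submodule.span T (Set.range r) = ⊤)
    (htr : ∀ g, (r g).trace - π (τ g) ∈ I)
    {ι : Type*} [Fintype ι] (t : ι → P) (g : ι → G)
    (hx : ∑ i, ψ (t i) * Φ (g i) = 0) (a b : Fin 2) :
    (∑ i, π (t i) • r (g i)) a b ∈ I := by
  -- `ψ (τ g) = Φ g + d g (Φ g)⁻¹`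
  have hτ : ∀ g, ψ (τ g) = Φ g + ψ (d g) * Φ g⁻¹ := by
    intro g
    have hg : Φ g * Φ g⁻¹ = 1 := by rw [← map_mul, mul_inv_cancel, map_one]
    have h := congrArg (· * Φ g⁻¹) (hquad g)
    simp only [add_mul, sub_mul, mul_assoc, hg, mul_one, zero_mul] at h
    rw [sub_add_eq_add_sub, sub_eq_zero] at h
    exact h.symm
  have hdc : ∀ g h, ψ (d g) * ψ (d h) = ψ (d h) * ψ (d g) := fun g h => by
    rw [← map_mul, ← map_mul, mul_comm]
  -- the statement for the shifted family
  suffices key : ∀ (t : ι → P) (g : ι → G), ∑ i, ψ (t i) * Φ (g i) = 0 →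
      ∑ i, π (t i) * (r (g i)).trace ∈ I by
    refine apply_mem_of_trace_mul_mem r hspan _ (fun h => ?_) a b
    have h' := key t (fun i => g i * h) (by
      simp only [map_mul, ← mul_assoc, ← Finset.sum_mul, hx, zero_mul])
    simpa [Finset.sum_mul, Matrix.trace_sum, Matrix.trace_smul] using h'
  intro t g hx
  let z : G → P := fun h => ∑ i, t i * τ (g i * h)
  let y : A := ∑ i, ψ (t i) * ψ (d (g i)) * Φ (g i)⁻¹
  have hy : ∀ h, ψ (z h) = ψ (d h) * Φ h⁻¹ * y := by
    intro h
    have e : ∀ i, ψ (t i) * ψ (τ (g i * h)) =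
        ψ (t i) * Φ (g i) * Φ h + ψ (d h) * Φ h⁻¹ * (ψ (t i) * ψ (d (g i)) * Φ (g i)⁻¹) := by
      intro i
      rw [hτ, mul_add, hd, map_mul, mul_inv_rev, map_mul, mul_assoc (ψ (t i)) (Φ (g i)) (Φ h)]
      congr 1
      have c1 : Φ h⁻¹ * (ψ (t i) * ψ (d (g i))) = ψ (t i) * ψ (d (g i)) * Φ h⁻¹ := by
        rw [← map_mul]; exact (hcomm _ _).symm.eq
      have c2 : ψ (d h) * (ψ (t i) * ψ (d (g i))) = ψ (t i) * ψ (d (g i)) * ψ (d h) := by
        rw [← map_mul, ← map_mul, ← map_mul, mul_comm]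
      calc ψ (t i) * (ψ (d (g i)) * ψ (d h) * (Φ h⁻¹ * Φ (g i)⁻¹))
          = ψ (t i) * ψ (d (g i)) * ψ (d h) * Φ h⁻¹ * Φ (g i)⁻¹ := by simp only [mul_assoc]
        _ = ψ (d h) * (ψ (t i) * ψ (d (g i))) * Φ h⁻¹ * Φ (g i)⁻¹ := by rw [c2]
        _ = ψ (d h) * (ψ (t i) * ψ (d (g i)) * Φ h⁻¹) * Φ (g i)⁻¹ := by simp only [mul_assoc]
        _ = ψ (d h) * (Φ h⁻¹ * (ψ (t i) * ψ (d (g i)))) * Φ (g i)⁻¹ := by rw [c1]
        _ = ψ (d h) * Φ h⁻¹ * (ψ (t i) * ψ (d (g i)) * Φ (g i)⁻¹) := by simp only [mul_assoc]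
    simp only [z, map_sum, map_mul]
    rw [Finset.sum_congr rfl (fun i _ => e i), Finset.sum_add_distrib, ← Finset.sum_mul, hx,
      zero_mul, zero_add, ← Finset.mul_sum]
  have hy1 : ψ (z 1) = y := by rw [hy, hd1, inv_one, map_one, one_mul, one_mul]
  -- `ψ (z 1) * Φ h` is again a scalar
  have hw : ∀ h, ψ (z 1) * Φ h = ψ (z h⁻¹ * d h) := by
    intro h
    have e : ψ (d h⁻¹) * ψ (d h) = 1 := by rw [← hd, inv_mul_cancel, hd1]
    rw [map_mul, hy h⁻¹, inv_inv, ← hy1]
    symm
    calc ψ (d h⁻¹) * Φ h * ψ (z 1) * ψ (d h)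
        = ψ (d h⁻¹) * (Φ h * (ψ (z 1) * ψ (d h))) := by simp only [mul_assoc]
      _ = ψ (d h⁻¹) * (ψ (z 1) * ψ (d h) * Φ h) := by
        rw [← ((hcomm (z 1) h).mul_left (hcomm (d h) h)).eq]
      _ = ψ (d h⁻¹) * ψ (d h) * (ψ (z 1) * Φ h) := by
        rw [← map_mul, ← map_mul, mul_comm (z 1) (d h), map_mul, map_mul]
        simp only [mul_assoc]
      _ = ψ (z 1) * Φ h := by rw [e, one_mul]
  have hswap : ∀ h k, ψ (z 1) * Φ (h * k) = ψ (z 1) * Φ (k * h) := by
    intro h k
    rw [map_mul, map_mul, ← mul_assoc, hw h, (hcomm _ k).eq, ← hw h, ← mul_assoc, ← (hcomm _ k).eq,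
      mul_assoc]
  have hz : π (z 1) ∈ I := by
    refine mem_of_mul_trace_comm_mem r hspan _ fun g h k => ?_
    have e0 : ψ (z 1 * (τ (h * k * g) - τ (k * h * g))) = 0 := by
      have e1 : ψ (z 1) * Φ (h * k * g) = ψ (z 1) * Φ (k * h * g) := by
        rw [map_mul, ← mul_assoc, hswap h k, mul_assoc, ← map_mul]
      have e2 : ψ (z 1) * Φ (h * k * g)⁻¹ = ψ (z 1) * Φ (k * h * g)⁻¹ := by
        rw [mul_inv_rev (h * k), mul_inv_rev (k * h), map_mul _ g⁻¹, map_mul _ g⁻¹, ← mul_assoc,
          ← mul_assoc, (hcomm _ g⁻¹).eq, mul_assoc, mul_assoc, mul_inv_rev, mul_inv_rev,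
          hswap k⁻¹ h⁻¹]
      have e3 : ψ (d (h * k * g)) = ψ (d (k * h * g)) := by
        rw [hd, hd h, hdc, ← hd k, ← hd]
      have key : ∀ x, ψ (z 1) * ψ (τ x) = ψ (z 1) * Φ x + ψ (d x) * (ψ (z 1) * Φ x⁻¹) := by
        intro x
        rw [hτ, mul_add, ← mul_assoc, ← map_mul ψ (z 1), mul_comm (z 1), map_mul ψ, mul_assoc]
      rw [map_mul, map_sub, mul_sub, key, key, e1, e2, e3, sub_self]
    have h3 := hker _ e0
    rw [map_mul, map_sub] at h3
    have h4 : π (z 1) * ((r (h * k * g)).trace - (r (k * h * g)).trace) =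
        π (z 1) * (π (τ (h * k * g)) - π (τ (k * h * g))) +
        π (z 1) * ((r (h * k * g)).trace - π (τ (h * k * g))) -
        π (z 1) * ((r (k * h * g)).trace - π (τ (k * h * g))) := by ring
    rw [h4]
    exact I.sub_mem (I.add_mem h3 (I.mul_mem_left _ (htr _))) (I.mul_mem_left _ (htr _))
  have h5 : ∑ i, π (t i) * (r (g i)).trace =
      π (z 1) + ∑ i, π (t i) * ((r (g i)).trace - π (τ (g i))) := by
    simp only [z, mul_one, map_sum, map_mul, mul_sub, Finset.sum_sub_distrib]
    abel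
  rw [h5]
  exact I.add_mem hz (I.sum_mem fun i _ => I.mul_mem_left _ (htr _))

end Core

end FermatLib.Galois
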