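import Mathlib
import Fermat.Prelude.Def_GaloisRep_Adic
import Fermat.Agent.Galois.FrobeniusDensity
import Fermat.Agent.Galois.LucasTrace
import Fermat.Agent.Galois.TransferCore
import Fermat.Agent.Galois.TransferCyclo

/-!
# Transfer of Galois identities from `J[p^k]` to a representation with the same Frobenius data

`J` is an abelian group with commuting actions of the Galois group and of a commutative ring `P`.
At the Frobenius elements of almost all primes `ℓ` one has `F² - a ℓ F + ℓ = 0` on `J[p^k]`, and the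
representation `ρ` over `T` has characteristic polynomial `X² - π (a ℓ) X + ℓ`.  Then every
relation `∑ t i • g i = 0` on `J[p^k]` holds for `ρ` modulo any ideal containing the image of the
annihilator of `J[p^k]`.
-/

set_option autoImplicit false

open Polynomial

namespace FermatLib.Galois

local notation "Qbar" => AlgebraicClosure ℚ
local notation "Γℚ" => (AlgebraicClosure ℚ ≃ₐ[ℚ] AlgebraicClosure ℚ)

theorem natCast_eq_of_modEq_of_natCast_eq_zero {R : Type*} [Ring R] {n a b : ℕ}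
    (hn : (n : R) = 0) (h : a ≡ b [MOD n]) : (a : R) = (b : R) := by
  conv_lhs => rw [← Nat.mod_add_div a n]
  conv_rhs => rw [← Nat.mod_add_div b n]
  rw [Nat.ModEq] at h
  simp [hn, h]

theorem repr_mem_of_mem_smul_top {T V ι : Type*} [CommRing T] [AddCommGroup V] [Module T V]
    (b : Module.Basis ι T V) (I : Ideal T) {v : V} (hv : v ∈ I • (⊤ : Submodule T V)) (i : ι) :
    b.repr v i ∈ I := by
  refine Submodule.smul_induction_on hv (fun c hc w _ => ?_) (fun x y hx hy => ?_)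
  · rw [map_smul, Finsupp.smul_apply, smul_eq_mul]
    exact I.mul_mem_right _ hc
  · rw [map_add, Finsupp.add_apply]
    exact I.add_mem hx hy

theorem mem_smul_top_of_repr_mem {T V ι : Type*} [CommRing T] [AddCommGroup V] [Module T V]
    [Fintype ι] (b : Module.Basis ι T V) (I : Ideal T) {v : V} (hv : ∀ i, b.repr v i ∈ I) :
    v ∈ I • (⊤ : Submodule T V) := by
  rw [← b.sum_repr v]
  exact Submodule.sum_mem _ fun i _ => Submodule.smul_mem_smul (hv i) Submodule.mem_top

/-- Trace and determinant read off from a characteristic polynomial. -/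
theorem trace_det_of_charpoly_eq {T : Type*} [CommRing T] [Nontrivial T]
    (M : Matrix (Fin 2) (Fin 2) T) (t d : T)
    (h : M.charpoly = X ^ 2 - C t * X + C d) : M.trace = t ∧ M.det = d := by
  rw [Matrix.charpoly_fin_two] at h
  constructor
  · have h1 := congrArg (fun f : T[X] => f.coeff 1) h
    simpa [coeff_X, coeff_C, coeff_X_pow] using h1
  · have h0 := congrArg (fun f : T[X] => f.coeff 0) h
    simpa [coeff_X, coeff_C, coeff_X_pow] using h0

section Level

variable {T : Type} [CommRing T] [IsLocalRing T] (ρ : GaloisRepAdic T)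
  (b : Module.Basis (Fin 2) T ρ.V)

/-- The matrix form of an adic representation. -/
noncomputable def transferRepMatrix : Γℚ →* Matrix (Fin 2) (Fin 2) T :=
  (LinearMap.toMatrixAlgEquiv b).toMulEquiv.toMonoidHom.comp ρ.ρ

theorem transferRepMatrix_apply (g : Γℚ) :
    transferRepMatrix ρ b g = LinearMap.toMatrix b b (ρ.ρ g) := rfl

theorem transferRepMatrix_charpoly (g : Γℚ) : (transferRepMatrix ρ b g).charpoly = (ρ.ρ g).charpoly :=
  LinearMap.charpoly_toMatrix _ b

variable {J : Type*} [AddCommGroup J] [DistribMulAction Γℚ J] {P : Type*} [CommRing P]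
  [Module P J] [SMulCommClass Γℚ P J]

/-- The Galois action on the `n`-torsion. -/
noncomputable def torsionGaloisEnd (n : ℕ) :
    Γℚ →* AddMonoid.End ↥(Submodule.torsionBy P J (n : P)) where
  toFun g :=
    { toFun := fun x => ⟨g • (x : J), by
        rw [Submodule.mem_torsionBy_iff, ← smul_comm g]
        rw [(Submodule.mem_torsionBy_iff _ _).mp x.2, smul_zero]⟩
      map_zero' := Subtype.ext (smul_zero g)
      map_add' := fun x y => Subtype.ext (smul_add g (x : J) (y : J)) }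
  map_one' := AddMonoidHom.ext fun x => Subtype.ext (one_smul Γℚ (x : J))
  map_mul' g h := AddMonoidHom.ext fun x => Subtype.ext (mul_smul g h (x : J))

@[simp] theorem coe_torsionGaloisEnd_apply (n : ℕ) (g : Γℚ)
    (x : Submodule.torsionBy P J (n : P)) :
    ((torsionGaloisEnd n g x : Submodule.torsionBy P J (n : P)) : J) = g • (x : J) := rfl

variable {p k : ℕ} {S : Finset ℕ} (π : P →+* T) (a : ℕ → P) {I : Ideal T}

/-- **Transfer, one level.** -/
theorem transfer_sum_mem_of_level (hp : p.Prime) (hpS : p ∈ S)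
    (hchar : ∀ ℓ : ℕ, ℓ.Prime → ℓ ∉ S → ∀ A : ValuationSubring Qbar, A.LiesOverPrime ℓ →
      ∀ σ : Γℚ, A.IsFrobeniusAt σ ℓ →
        LinearMap.charpoly (ρ.ρ σ) = X ^ 2 - C (π (a ℓ)) * X + C ((ℓ : T)))
    (hquad : ∀ ℓ : ℕ, ℓ.Prime → ℓ ∉ S → ∀ A : ValuationSubring Qbar, A.LiesOverPrime ℓ →
      ∀ σ : Γℚ, A.IsFrobeniusAt σ ℓ → ∀ x : J, p ^ k • x = 0 →
        σ • σ • x - a ℓ • σ • x + ℓ • x = 0)
    (hfin : ∃ L : IntermediateField ℚ Qbar, FiniteDimensional ℚ L ∧
      ∀ σ : Γℚ, (∀ y ∈ L, σ y = y) → ∀ x : J, p ^ k • x = 0 → σ • x = x)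
    (hI : ∃ n, IsLocalRing.maximalIdeal T ^ n ≤ I)
    (hker : ∀ t : P, (∀ x : J, p ^ k • x = 0 → t • x = 0) → π t ∈ I)
    (hspan : Submodule.span T (Set.range (transferRepMatrix ρ b)) = ⊤)
    {ι : Type*} [Fintype ι] (t : ι → P) (g : ι → Γℚ)
    (hx : ∀ x : J, p ^ k • x = 0 → ∑ i, t i • g i • x = 0) (v : ρ.V) :
    ∑ i, π (t i) • ρ.ρ (g i) v ∈ I • (⊤ : Submodule T ρ.V) := by
  classical
  let n : ℕ := p ^ k
  let M := Submodule.torsionBy P J (n : P)
  have hmemM : ∀ x : J, x ∈ M ↔ p ^ k • x = 0 := fun x => by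
    rw [Submodule.mem_torsionBy_iff, Nat.cast_smul_eq_nsmul]
  let A := AddMonoid.End ↥M
  let ψ : P →+* A := Module.toAddMonoidEnd P ↥M
  let Φ : Γℚ →* A := torsionGaloisEnd n
  have hψ : ∀ (t : P) (x : ↥M), ((ψ t x : ↥M) : J) = t • (x : J) := fun t x => rfl
  have hΦ : ∀ (g : Γℚ) (x : ↥M), ((Φ g x : ↥M) : J) = g • (x : J) := fun g x => rfl
  have hcomm : ∀ t g, Commute (ψ t) (Φ g) := fun t g =>
    AddMonoidHom.ext fun x => Subtype.ext (smul_comm g t (x : J)).symm
  have hn0 : NeZero n := ⟨pow_ne_zero _ hp.ne_zero⟩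
  obtain ⟨ζ, hζ⟩ := HasEnoughRootsOfUnity.exists_primitiveRoot Qbar n
  let χ : Γℚ →* (ZMod n)ˣ := hζ.autToPow ℚ
  let d : Γℚ → P := fun g => (((χ g : ZMod n).val : ℕ) : P)
  have hζpow : ∀ i j : ℕ, ζ ^ i = ζ ^ j → i ≡ j [MOD n] := fun i j h => by
    have hu := hζ.isUnit_unit (NeZero.ne n)
    rw [hu.eq_orderOf, ← pow_eq_pow_iff_modEq]
    exact Units.ext (by simpa using h)
  -- `n` vanishes on the torsion and modulo `I`
  have hnA : (n : A) = 0 := by
    rw [← map_natCast ψ]
    exact AddMonoidHom.ext fun x => Subtype.ext ((Submodule.mem_torsionBy_iff _ _).mp x.2)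
  have hnT : Ideal.Quotient.mk I (n : T) = 0 := by
    rw [Ideal.Quotient.eq_zero_iff_mem, ← map_natCast π]
    exact hker _ fun x hx => by rw [Nat.cast_smul_eq_nsmul]; exact hx
  let mk := Ideal.Quotient.mk I
  have hnTI : (n : T ⧸ I) = 0 := by rw [← map_natCast mk]; exact hnT
  -- everything compatible with `χ`
  have hdmod : ∀ g h, (χ (g * h) : ZMod n).val ≡
      (χ g : ZMod n).val * (χ h : ZMod n).val [MOD n] := fun g h => by
    rw [← ZMod.natCast_eq_natCast_iff]
    push_cast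
    rw [ZMod.natCast_zmod_val, ZMod.natCast_zmod_val, ZMod.natCast_zmod_val, map_mul, Units.val_mul]
  have hd1mod : (χ 1 : ZMod n).val ≡ 1 [MOD n] := by
    rw [← ZMod.natCast_eq_natCast_iff, ZMod.natCast_zmod_val, map_one, Units.val_one, Nat.cast_one]
  have hd : ∀ g h, ψ (d (g * h)) = ψ (d g) * ψ (d h) := fun g h => by
    simp only [d, map_natCast]
    rw [← Nat.cast_mul]
    exact natCast_eq_of_modEq_of_natCast_eq_zero hnA (hdmod g h)
  have hd1 : ψ (d 1) = 1 := by
    simp only [d, map_natCast]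
    rw [← Nat.cast_one (R := A)]
    exact natCast_eq_of_modEq_of_natCast_eq_zero hnA hd1mod
  let δ : Γℚ →* T ⧸ I :=
    { toFun := fun g => mk (π (d g))
      map_one' := by
        simp only [d, map_natCast]
        rw [← Nat.cast_one (R := T ⧸ I)]
        exact natCast_eq_of_modEq_of_natCast_eq_zero hnTI hd1mod
      map_mul' := fun g h => by
        simp only [d, map_natCast]
        rw [← Nat.cast_mul]
        exact natCast_eq_of_modEq_of_natCast_eq_zero hnTI (hdmod g h) }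
  have hδ : ∀ g, δ g = mk (π (d g)) := fun g => rfl
  let D : Γℚ →* A :=
    { toFun := fun g => ψ (d g)
      map_one' := hd1
      map_mul' := hd }
  have hD : ∀ g, D g = ψ (d g) := fun g => rfl
  let r := transferRepMatrix ρ b
  let rI : Γℚ →* Matrix (Fin 2) (Fin 2) (T ⧸ I) := mk.mapMatrix.toMonoidHom.comp r
  have hrI : ∀ g, rI g = (r g).map mk := fun g => rfl
  have htrI : ∀ g, mk (r g).trace = (rI g).trace := fun g => by
    rw [hrI, AddMonoidHom.map_trace]
  have hdetI : ∀ g, mk (r g).det = (rI g).det := fun g => RingHom.map_det mk (r g)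
  let Q : Γℚ → Prop := fun g => ∃ τ : P, Φ g * Φ g - ψ τ * Φ g + ψ (d g) = 0 ∧
    (rI g).trace = mk (π τ) ∧ (rI g).det = δ g
  -- the level
  obtain ⟨L₁, hL₁, hL₁fix⟩ := hfin
  obtain ⟨m, hm⟩ := hI
  obtain ⟨L₂, hL₂, hL₂fix⟩ := ρ.isAdicContinuous m
  let L₃ : IntermediateField ℚ Qbar := IntermediateField.adjoin ℚ {ζ}
  have hL₃ : FiniteDimensional ℚ L₃ :=
    IntermediateField.adjoin.finiteDimensional ((hζ.isIntegral (NeZero.pos n)).tower_top)
  let L : IntermediateField ℚ Qbar := L₁ ⊔ L₂ ⊔ L₃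
  have htriv : ∀ σ : Γℚ, (∀ y ∈ L, σ y = y) → Φ σ = 1 ∧ χ σ = 1 ∧ rI σ = 1 := by
    intro σ hσ
    refine ⟨?_, ?_, ?_⟩
    · exact AddMonoidHom.ext fun x => Subtype.ext (hL₁fix σ
        (fun y hy => hσ y ((le_sup_left.trans le_sup_left : L₁ ≤ L) hy)) _ ((hmemM _).mp x.2))
    · have hζσ : σ ζ = ζ := hσ ζ ((le_sup_right : L₃ ≤ L)
        (IntermediateField.mem_adjoin_simple_self ℚ ζ))
      have h := hζ.autToPow_spec ℚ σ
      rw [hζσ] at h
      refine Units.ext ?_
      rw [← ZMod.natCast_zmod_val (χ σ : ZMod n), Units.val_one, ← Nat.cast_one,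
        ZMod.natCast_eq_natCast_iff]
      exact hζpow _ _ (h.trans (pow_one ζ).symm)
    · rw [hrI]
      ext i j
      rw [Matrix.map_apply, show r σ i j = b.repr (ρ.ρ σ (b j)) i from
        LinearMap.toMatrix_apply b b _ i j]
      have hmem : ρ.ρ σ (b j) - b j ∈ I • (⊤ : Submodule T ρ.V) :=
        Submodule.smul_mono_left hm (hL₂fix σ
          (fun y hy => hσ y ((le_sup_right.trans le_sup_left : L₂ ≤ L) hy)) (b j))
      have h := repr_mem_of_mem_smul_top b I hmem i
      rw [map_sub, Finsupp.sub_apply, ← Ideal.Quotient.eq, Module.Basis.repr_self] at h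
      rw [h, Finsupp.single_apply, Matrix.one_apply]
      by_cases hij : i = j
      · simp [hij]
      · simp [hij, Ne.symm hij]
  have hQcongr : ∀ g h : Γℚ, (∀ y ∈ L, g y = h y) → Q g → Q h := by
    intro g h hgh ⟨τ, h1, h2, h3⟩
    obtain ⟨e1, e2, e3⟩ := htriv (g⁻¹ * h) fun y hy => by
      rw [AlgEquiv.mul_apply, ← hgh y hy, ← AlgEquiv.mul_apply, inv_mul_cancel, AlgEquiv.one_apply]
    have he : h = g * (g⁻¹ * h) := by group
    have eΦ : Φ h = Φ g := by rw [he, map_mul, e1, mul_one]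
    have eχ : χ h = χ g := by rw [he, map_mul, e2, mul_one]
    have er : rI h = rI g := by rw [he, map_mul, e3, mul_one]
    have ed : d h = d g := by simp only [d, eχ]
    exact ⟨τ, by rw [eΦ, ed]; exact h1, by rw [er]; exact h2,
      by rw [er, hδ, ed, ← hδ]; exact h3⟩
  have hQpow : ∀ (σ : Γℚ) (e : ℕ), Q σ → Q (σ ^ e) := by
    intro σ e ⟨τ, h1, h2, h3⟩
    refine ⟨lucasTrace τ (d σ) e, ?_, ?_, ?_⟩
    · have h := lucasTrace_quadratic ψ (Φ σ) τ (d σ) (fun t => hcomm t σ) h1 e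
      have e' : ψ (d (σ ^ e)) = ψ ((d σ) ^ e) := by rw [← hD, map_pow, map_pow, hD]
      rw [map_pow Φ, e']
      exact h
    · rw [map_pow, trace_pow_eq_lucasTrace, h2, h3, hδ, map_lucasTrace, map_lucasTrace]
    · rw [map_pow, Matrix.det_pow, h3, map_pow]
  have hQfrob : ∀ ℓ : ℕ, ℓ.Prime → ℓ ∉ S → ∀ V : ValuationSubring Qbar, V.LiesOverPrime ℓ →
      ∀ σ : Γℚ, V.IsFrobeniusAt σ ℓ → Q σ := by
    intro ℓ hℓ hℓS V hV σ hσ
    have hℓn : ¬ ℓ ∣ n := fun hdvd => hℓS <| by
      rwa [(Nat.prime_dvd_prime_iff_eq hℓ hp).mp (hℓ.dvd_of_dvd_pow hdvd)]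
    have hmod : (χ σ : ZMod n).val ≡ ℓ [MOD n] := by
      have h := apply_eq_pow_of_isFrobeniusAt V hℓ hV hℓn hσ hζ
      rw [← hζ.autToPow_spec ℚ σ] at h
      exact hζpow _ _ h
    obtain ⟨ht, hdet⟩ := trace_det_of_charpoly_eq (r σ) _ _
      ((transferRepMatrix_charpoly ρ b σ).trans (hchar ℓ hℓ hℓS V hV σ hσ))
    have eA : ψ (d σ) = (ℓ : A) := by
      simp only [d, map_natCast]
      exact natCast_eq_of_modEq_of_natCast_eq_zero hnA hmod
    refine ⟨a ℓ, ?_, ?_, ?_⟩
    · rw [eA, ← map_natCast ψ]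
      refine AddMonoidHom.ext fun x => Subtype.ext ?_
      change σ • σ • (x : J) - a ℓ • σ • (x : J) + (ℓ : P) • (x : J) = 0
      rw [Nat.cast_smul_eq_nsmul]
      exact hquad ℓ hℓ hℓS V hV σ hσ _ ((hmemM _).mp x.2)
    · rw [← htrI, ht]
    · rw [← hdetI, hdet, hδ]
      simp only [d, map_natCast]
      exact (natCast_eq_of_modEq_of_natCast_eq_zero hnTI hmod).symm
  have : FiniteDimensional ℚ L := inferInstance
  have hQall : ∀ g, Q g := fun g => forall_of_forall_isFrobeniusAt S L hQcongr hQpow hQfrob g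
  choose τ hτ1 hτ2 _ using hQall
  refine mem_smul_top_of_repr_mem b I fun i => ?_
  have hker' : ∀ t : P, ψ t = 0 → π t ∈ I := fun t ht => hker t fun x hx => by
    have h := congrArg Subtype.val (DFunLike.congr_fun ht ⟨x, (hmemM x).mpr hx⟩)
    exact h
  have hxA : ∑ i, ψ (t i) * Φ (g i) = 0 := by
    refine AddMonoidHom.ext fun x => Subtype.ext ?_
    let ev : A →+ J :=
      { toFun := fun f => ((f x : ↥M) : J), map_zero' := rfl, map_add' := fun f f' => rfl }
    change ev (∑ i, ψ (t i) * Φ (g i)) = 0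
    rw [map_sum]
    exact hx _ ((hmemM _).mp x.2)
  have htr : ∀ g, (r g).trace - π (τ g) ∈ I := fun g => by
    rw [← Ideal.Quotient.eq]
    exact (htrI g).trans (hτ2 g)
  have hmain := sum_smul_apply_mem_of_quadratic ψ Φ hcomm τ d hτ1 hd hd1 π hker' r hspan htr
    t g hxA
  rw [← b.sum_repr v]
  simp only [map_sum, map_smul, Finsupp.finsetSum_apply, Finsupp.smul_apply, smul_eq_mul,
    Finset.mul_sum]
  rw [Finset.sum_comm]
  refine I.sum_mem fun j _ => ?_
  have h := hmain i j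
  rw [Matrix.sum_apply] at h
  have h' := I.mul_mem_left (b.repr v j) h
  rw [Finset.mul_sum] at h'
  convert h' using 1
  refine Finset.sum_congr rfl fun x _ => ?_
  rw [Matrix.smul_apply, smul_eq_mul, show r (g x) i j = b.repr (ρ.ρ (g x) (b j)) i from
        LinearMap.toMatrix_apply b b _ i j]
  ring

end Level

end FermatLib.Galois
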