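import Mathlib
import Fermat.Agent.Galois.RepField
import Fermat.Agent.Galois.TransferLevel

/-!
# The image of a residually absolutely irreducible representation spans the matrix algebra
-/

set_option autoImplicit false

open scoped TensorProduct Matrix

namespace FermatLib.Galois

local notation "Γℚ" => (AlgebraicClosure ℚ ≃ₐ[ℚ] AlgebraicClosure ℚ)

theorem hasFullSpan_repMatrix_of_residual {T : Type} [CommRing T] [IsLocalRing T]
    (ρ : GaloisRepAdic T) (b : Module.Basis (Fin 2) T ρ.V)
    (h : ρ.residual.IsAbsolutelyIrreducible) : HasFullSpan (transferRepMatrix ρ b) := by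
  let k := IsLocalRing.ResidueField T
  let K := AlgebraicClosure k
  let bk : Module.Basis (Fin 2) k (k ⊗[T] ρ.V) := Algebra.TensorProduct.basis k b
  let bK : Module.Basis (Fin 2) K (K ⊗[k] (k ⊗[T] ρ.V)) := Algebra.TensorProduct.basis K bk
  apply HasFullSpan.of_repMap (IsLocalRing.residue T)
  rw [hasFullSpan_iff_noStableLine_map (algebraMap k K)]
  intro v hv
  by_contra hcon
  push Not at hcon
  let w : K ⊗[k] (k ⊗[T] ρ.V) := bK.equivFun.symm v
  have hw : w ≠ 0 := fun hw => hv (bK.equivFun.symm.map_eq_zero_iff.mp hw)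
  have hstable : ∀ σ : Γℚ, ∃ a : K,
      ((ρ.ρ σ).baseChange k).baseChange K w = a • w := by
    intro σ
    obtain ⟨a, ha⟩ := hcon σ
    refine ⟨a, bK.equivFun.injective ?_⟩
    rw [map_smul, show bK.equivFun w = v from bK.equivFun.apply_symm_apply v, ← ha]
    simp only [Module.Basis.equivFun_apply]
    rw [← LinearMap.toMatrix_mulVec_repr bK bK (((ρ.ρ σ).baseChange k).baseChange K) w,
      show (bK.repr w : Fin 2 → K) = v from by
        rw [← Module.Basis.equivFun_apply]; exact bK.equivFun.apply_symm_apply v]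
    congr 1
    ext i j
    simp [bk, bK, LinearMap.toMatrix_apply, repMap, transferRepMatrix_apply]
    rfl
  have hirr : ∀ W : Submodule K (K ⊗[k] (k ⊗[T] ρ.V)),
      (∀ σ : Γℚ, ∀ x ∈ W, ((ρ.ρ σ).baseChange k).baseChange K x ∈ W) → W = ⊥ ∨ W = ⊤ := h
  rcases hirr (K ∙ w) (fun σ x hx => by
      obtain ⟨c, rfl⟩ := Submodule.mem_span_singleton.mp hx
      obtain ⟨a, ha⟩ := hstable σ
      rw [map_smul, ha]
      exact Submodule.mem_span_singleton.mpr ⟨c * a, mul_smul c a w⟩) with h0 | h0
  · exact hw (Submodule.span_singleton_eq_bot.mp h0)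
  · have hr : Module.finrank K (K ⊗[k] (k ⊗[T] ρ.V)) = 2 := Module.finrank_eq_card_basis bK
    have h1 := finrank_span_singleton (K := K) hw
    rw [h0, finrank_top, hr] at h1
    exact absurd h1 (by norm_num)

theorem span_range_repMatrix_eq_top {T : Type} [CommRing T] [IsLocalRing T]
    (ρ : GaloisRepAdic T) (b : Module.Basis (Fin 2) T ρ.V)
    (h : ρ.residual.IsAbsolutelyIrreducible) :
    Submodule.span T (Set.range (transferRepMatrix ρ b)) = ⊤ :=
  (hasFullSpan_repMatrix_of_residual ρ b h).span_range_eq_top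

end FermatLib.Galois
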