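import Mathlib
import Fermat.Prelude.Def_CuspForm_HeckeGaloisRepDatum
import Fermat.Prelude.Def_ModularCurve_HeckeModule
import Fermat.Agent.Galois.TransferOpen
import Fermat.Agent.Galois.TransferSpan
import Fermat.Agent.Modular.HeckeFinite

/-!
# Transfer from `J₀(N)[p^∞]` to the representation of a Hecke–Galois datum

For a datum `H` of level `N` away from `S`, every identity `∑ tᵢ gᵢ = 0` on `J₀(N)[p^k]`, with `tᵢ`
Hecke polynomials away from `S`, holds for `H.ρ` modulo an ideal containing a power of the maximal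
ideal, provided `k` is large enough.
-/

set_option autoImplicit false

open ModularCurve CuspForm

namespace FermatLib.Galois

local notation "Qbar" => AlgebraicClosure ℚ
local notation "Γℚ" => (AlgebraicClosure ℚ ≃ₐ[ℚ] AlgebraicClosure ℚ)

variable (N : ℕ) [NeZero N]

/-- The operator `T ℓ` or `U ℓ` on weight two forms, in the full Hecke algebra. -/
noncomputable def formsHeckeGen (ℓ : Nat.Primes) : CuspForm.heckeAlgebra N 2 (∅ : Set ℕ) :=
  if h : (ℓ : ℕ) ∣ N then heckeAlgebra.U ℓ.2 h (Set.notMem_empty _)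
  else heckeAlgebra.T ℓ.2 h (Set.notMem_empty _)

/-- Evaluation of Hecke polynomials on weight two forms. -/
noncomputable def formsHeckeEval : HeckeAlg →+* CuspForm.heckeAlgebra N 2 (∅ : Set ℕ) :=
  MvPolynomial.eval₂Hom (Int.castRingHom _) (formsHeckeGen N)

theorem formsHeckeEval_heckeGen (ℓ : Nat.Primes) :
    formsHeckeEval N (heckeGen ℓ) = formsHeckeGen N ℓ :=
  MvPolynomial.eval₂Hom_X' _ _ _

/-- Hecke polynomials in the variables away from `S`. -/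
noncomputable def awayHeckeAlg (S : Set ℕ) : Subalgebra ℤ HeckeAlg :=
  Algebra.adjoin ℤ (heckeGen '' {ℓ | (ℓ : ℕ) ∉ S})

theorem formsHeckeEval_mem {S : Set ℕ} {t : HeckeAlg} (ht : t ∈ awayHeckeAlg S) :
    (formsHeckeEval N t : Module.End ℂ (CuspForm (CongruenceSubgroup.Gamma0 N) 2)) ∈
      CuspForm.heckeAlgebra N 2 S := by
  induction ht using Algebra.adjoin_induction with
  | mem t ht =>
    obtain ⟨ℓ, hℓ, rfl⟩ := ht
    rw [formsHeckeEval_heckeGen, formsHeckeGen]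
    split_ifs with h
    · exact heckeULin_mem_heckeAlgebra ℓ.2 h hℓ
    · exact heckeTLin_mem_heckeAlgebra ℓ.2 h hℓ
  | algebraMap r => simp
  | add a b _ _ ha hb => rw [map_add, Subalgebra.coe_add]; exact add_mem ha hb
  | mul a b _ _ ha hb => rw [map_mul, Subalgebra.coe_mul]; exact mul_mem ha hb

/-- Evaluation of the polynomials away from `S` in the Hecke algebra away from `S`. -/
noncomputable def awayHeckeEval (S : Set ℕ) :
    awayHeckeAlg S →+* CuspForm.heckeAlgebra N 2 S where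
  toFun t := ⟨formsHeckeEval N t, formsHeckeEval_mem N t.2⟩
  map_one' := Subtype.ext (by simp)
  map_mul' a b := Subtype.ext (by simp)
  map_zero' := Subtype.ext (by simp)
  map_add' a b := Subtype.ext (by simp)

theorem awayHeckeEval_apply (S : Set ℕ) (t : awayHeckeAlg S) :
    awayHeckeEval N S t = ⟨formsHeckeEval N (t : HeckeAlg), formsHeckeEval_mem N t.2⟩ := rfl

theorem coe_awayHeckeEval (S : Set ℕ) (t : awayHeckeAlg S) :
    (awayHeckeEval N S t : Module.End ℂ (CuspForm (CongruenceSubgroup.Gamma0 N) 2)) =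
      (formsHeckeEval N (t : HeckeAlg) :
        Module.End ℂ (CuspForm (CongruenceSubgroup.Gamma0 N) 2)) :=
  (congrArg Subtype.val (awayHeckeEval_apply N S t)).trans (Subtype.coe_mk _ _)

theorem inclusion_awayHeckeEval (S : Set ℕ) (t : awayHeckeAlg S) :
    Subalgebra.inclusion (heckeAlgebra_mono (Set.empty_subset S)) (awayHeckeEval N S t) =
      formsHeckeEval N (t : HeckeAlg) :=
  Subtype.ext (by rw [Subalgebra.coe_inclusion, coe_awayHeckeEval])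

theorem awayHeckeAlg_le {S S' : Set ℕ} (h : ∀ ℓ : Nat.Primes, (ℓ : ℕ) ∈ S' → (ℓ : ℕ) ∈ S) :
    awayHeckeAlg S ≤ awayHeckeAlg S' :=
  Algebra.adjoin_mono (Set.image_mono fun ℓ hℓ hℓ' => hℓ (h ℓ hℓ'))

/-- The Frobenius trace as a Hecke polynomial away from `S`. -/
noncomputable def awayHeckeGen (S : Set ℕ) (ℓ : ℕ) : awayHeckeAlg S :=
  open Classical in
  if h : ℓ.Prime ∧ ℓ ∉ S then
    ⟨heckeGen (⟨ℓ, h.1⟩ : Nat.Primes), Algebra.subset_adjoin ⟨(⟨ℓ, h.1⟩ : Nat.Primes), h.2, rfl⟩⟩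
  else 0

theorem coe_awayHeckeGen {S : Set ℕ} {ℓ : ℕ} (hℓ : ℓ.Prime) (hℓS : ℓ ∉ S) :
    (awayHeckeGen S ℓ : HeckeAlg) = heckeGen (⟨ℓ, hℓ⟩ : Nat.Primes) := by
  rw [awayHeckeGen, dif_pos ⟨hℓ, hℓS⟩]

theorem awayHeckeEval_awayHeckeGen {S : Set ℕ} {ℓ : ℕ} (hℓ : ℓ.Prime) (hℓN : ¬ ℓ ∣ N)
    (hℓS : ℓ ∉ S) : awayHeckeEval N S (awayHeckeGen S ℓ) = heckeAlgebra.T hℓ hℓN hℓS := by
  have hgen : formsHeckeEval N (awayHeckeGen S ℓ : HeckeAlg) =
      heckeAlgebra.T hℓ hℓN (Set.notMem_empty ℓ) := by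
    rw [coe_awayHeckeGen hℓ hℓS]
    exact (formsHeckeEval_heckeGen N _).trans (dif_neg hℓN)
  refine Subtype.ext ?_
  rw [coe_awayHeckeEval, hgen, heckeAlgebra.coe_T, heckeAlgebra.coe_T]

/-- Hecke polynomials prime to the level killing deep `p`-power torsion of `J₀(N)` are deeply divisible by `p` on
cusp forms. -/
def TorsionFaithful (p : ℕ) : Prop :=
  ∀ j : ℕ, ∃ k : ℕ, ∀ t ∈ awayHeckeAlg {q : ℕ | q ∣ N},
    (letI := heckeModuleBar N; ∀ x : JZero N, p ^ k • x = 0 → t • x = 0) →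
      ∃ u : CuspForm.heckeAlgebra N 2 (∅ : Set ℕ), formsHeckeEval N t = (p ^ j : ℕ) • u

/-- Divisibility by powers of `p` in the full algebra implies it, up to a shift, away from `S`. -/
theorem exists_pow_dvd_shift (p : ℕ) (S : Set ℕ) (j : ℕ) :
    ∃ j' : ℕ, ∀ y : CuspForm.heckeAlgebra N 2 S,
      (∃ u : CuspForm.heckeAlgebra N 2 (∅ : Set ℕ),
        Subalgebra.inclusion (heckeAlgebra_mono (Set.empty_subset S)) y = (p ^ j' : ℕ) • u) →
      ∃ w : CuspForm.heckeAlgebra N 2 S, y = (p ^ j : ℕ) • w := by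
  let A₀ := CuspForm.heckeAlgebra N 2 (∅ : Set ℕ)
  have : Module.Finite ℤ A₀ := FermatLib.Modular.heckeAlgebra_moduleFinite N 2 ∅
  let ι : CuspForm.heckeAlgebra N 2 S →ₐ[ℤ] A₀ :=
    Subalgebra.inclusion (heckeAlgebra_mono (Set.empty_subset S))
  obtain ⟨c, hc⟩ := Ideal.exists_pow_inf_eq_pow_smul (Ideal.span {(p : ℤ)})
    (M := A₀) (LinearMap.range ι.toLinearMap)
  refine ⟨j + c, fun y ⟨u, hu⟩ => ?_⟩
  have hy : ι y ∈ Ideal.span {(p : ℤ)} ^ (j + c) • (⊤ : Submodule ℤ A₀) ⊓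
      LinearMap.range ι.toLinearMap := by
    refine ⟨?_, ⟨y, rfl⟩⟩
    rw [Ideal.span_singleton_pow, SetLike.mem_coe, Submodule.ideal_span_singleton_smul,
      Submodule.mem_smul_pointwise_iff_exists]
    refine ⟨u, Submodule.mem_top, ?_⟩
    rw [show ι y = (p ^ (j + c) : ℕ) • u from hu, ← natCast_zsmul]
    push_cast
    rfl
  rw [hc _ (Nat.le_add_left c j), Nat.add_sub_cancel, Ideal.span_singleton_pow,
    Submodule.ideal_span_singleton_smul, Submodule.mem_smul_pointwise_iff_exists] at hy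
  obtain ⟨_, ⟨-, w, rfl⟩, hw⟩ := hy
  refine ⟨w, Subalgebra.inclusion_injective (heckeAlgebra_mono (Set.empty_subset S)) ?_⟩
  change ι y = ι _
  rw [map_nsmul, ← natCast_zsmul]
  push_cast
  exact hw.symm

section Datum

variable {N}
variable {p : ℕ} {S : Finset ℕ} {𝒪 : Type} [CommRing 𝒪] [IsDomain 𝒪] [IsDiscreteValuationRing 𝒪]
  [IsAdicComplete (IsLocalRing.maximalIdeal 𝒪) 𝒪]
  {θ : CuspForm.heckeAlgebra N 2 (↑S : Set ℕ) →+* IsLocalRing.ResidueField 𝒪}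
  {T : Type} [CommRing T] [IsLocalRing T] [IsNoetherianRing T]
  [IsAdicComplete (IsLocalRing.maximalIdeal T) T] [Algebra 𝒪 T] [IsLocalHom (algebraMap 𝒪 T)]
  [Module.Finite 𝒪 T] [Module.Free 𝒪 T]

theorem natCast_mem_maximalIdeal_of_algebra (hp𝒪 : (p : 𝒪) ∈ IsLocalRing.maximalIdeal 𝒪) :
    (p : T) ∈ IsLocalRing.maximalIdeal T := by
  rw [← map_natCast (algebraMap 𝒪 T)]
  exact map_nonunit (algebraMap 𝒪 T) _ hp𝒪

/-- The evaluation in `T` of Hecke polynomials away from `S`. -/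
noncomputable def datumEval (H : HeckeGaloisRepDatum N (↑S : Set ℕ) 𝒪 θ T) :
    awayHeckeAlg (↑S : Set ℕ) →+* T :=
  H.π.comp (awayHeckeEval N _)

/-- What the transfer needs to know about `J₀(N)`. -/
structure TorsionGaloisInputs (N : ℕ) [NeZero N] (p : ℕ) : Prop where
  heckeCommute : HeckeOperatorsCommuteBar N
  galoisCommute : ∀ (σ : Γℚ) (t : HeckeAlg) (x : JZero N),
    letI := heckeModuleBar N; σ • t • x = t • σ • x
  finite_torsion : ∀ k : ℕ, Set.Finite {x : JZero N | p ^ k • x = 0}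
  holdsNearOne : ∀ x : JZero N, HoldsNearOne fun σ => σ • x = x
  frobQuadratic : ∀ ℓ : ℕ, (hℓ : ℓ.Prime) → ¬ ℓ ∣ N * p → ∀ A : ValuationSubring Qbar,
    A.LiesOverPrime ℓ → ∀ σ : Γℚ, A.IsFrobeniusAt σ ℓ → ∀ x : JZero N, (∃ n, p ^ n • x = 0) →
      letI := heckeModuleBar N
      σ • σ • x - heckeGen ⟨ℓ, hℓ⟩ • σ • x + ℓ • x = 0
  unramified : ∀ ℓ : ℕ, ℓ.Prime → ¬ ℓ ∣ N * p → ∀ A : ValuationSubring Qbar,
    A.LiesOverPrime ℓ → ∀ σ ∈ A.inertiaSubgroupIn ℚ, ∀ x : JZero N, (∃ n, p ^ n • x = 0) →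
      σ • x = x
  faithful : TorsionFaithful N p

/-- Relations on `J₀(N)[p^k]` hold for the representation of the datum modulo `I`, for large `k`. -/
theorem exists_level_transfer (hp : p.Prime) (hp𝒪 : (p : 𝒪) ∈ IsLocalRing.maximalIdeal 𝒪)
    (hpS : p ∈ S) (hNS : ∀ q : ℕ, q.Prime → q ∣ N → q ∈ S) (hJ : TorsionGaloisInputs N p)
    (H : HeckeGaloisRepDatum N (↑S : Set ℕ) 𝒪 θ T) (I : Ideal T)
    (hI : ∃ n, IsLocalRing.maximalIdeal T ^ n ≤ I) :
    ∃ k : ℕ, ∀ {ι : Type} [Fintype ι] (t : ι → awayHeckeAlg (↑S : Set ℕ)) (g : ι → Γℚ),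
      (letI := heckeModuleBar N
       ∀ x : JZero N, p ^ k • x = 0 → ∑ i, (t i : HeckeAlg) • g i • x = 0) →
      ∀ v : H.ρ.V, ∑ i, datumEval H (t i) • H.ρ.ρ (g i) v ∈ I • (⊤ : Submodule T H.ρ.V) := by
  letI := heckeModuleBar N
  obtain ⟨n, hn⟩ := hI
  obtain ⟨j', hj'⟩ := exists_pow_dvd_shift N p (↑S : Set ℕ) n
  obtain ⟨k, hk⟩ := hJ.faithful j'
  refine ⟨k, fun {ι} _ t g hx v => ?_⟩
  have : SMulCommClass Γℚ (awayHeckeAlg (↑S : Set ℕ)) (JZero N) :=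
    ⟨fun σ t x => hJ.galoisCommute σ (t : HeckeAlg) x⟩
  have b : Module.Basis (Fin 2) T H.ρ.V := Module.finBasisOfFinrankEq T H.ρ.V H.ρ.finrank_eq
  have hSN : ∀ ℓ : ℕ, ℓ.Prime → ℓ ∉ S → ¬ ℓ ∣ N * p := fun ℓ hℓ hℓS h => by
    rcases hℓ.dvd_mul.mp h with h | h
    · exact hℓS (hNS ℓ hℓ h)
    · exact hℓS ((Nat.prime_dvd_prime_iff_eq hℓ hp).mp h ▸ hpS)
  refine transfer_sum_mem_of_level (p := p) (k := k) H.ρ b (datumEval H)
    (awayHeckeGen (↑S : Set ℕ)) hp hpS (fun ℓ hℓ hℓS A hA σ hσ => ?_)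
    (fun ℓ hℓ hℓS A hA σ hσ x hx => ?_) ?_ ⟨n, hn⟩ (fun t ht => ?_)
    (span_range_repMatrix_eq_top H.ρ b H.residual_absIrr) t g hx v
  · have hℓN : ¬ ℓ ∣ N := fun h => hℓS (hNS ℓ hℓ h)
    rw [H.charpoly_frob ℓ hℓ hℓN hℓS A hA σ hσ, datumEval, RingHom.comp_apply,
      awayHeckeEval_awayHeckeGen N hℓ hℓN]
  · have h := hJ.frobQuadratic ℓ hℓ (hSN ℓ hℓ hℓS) A hA σ hσ x ⟨k, hx⟩
    rwa [← coe_awayHeckeGen (S := (↑S : Set ℕ)) hℓ hℓS] at h
  · obtain ⟨L, hL, hfix⟩ := holdsNearOne_forall_mem (hJ.finite_torsion k).toFinset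
      (fun x σ => σ • x = x) fun x _ => hJ.holdsNearOne x
    exact ⟨L, hL, fun σ hσ x hx => hfix σ hσ x ((hJ.finite_torsion k).mem_toFinset.mpr hx)⟩
  · have hmem : (t : HeckeAlg) ∈ awayHeckeAlg {q : ℕ | q ∣ N} :=
      awayHeckeAlg_le (fun ℓ hℓ => Finset.mem_coe.mpr (hNS _ ℓ.2 hℓ)) t.2
    obtain ⟨u, hu⟩ := hk (t : HeckeAlg) hmem ht
    obtain ⟨w, hw⟩ := hj' (awayHeckeEval N _ t) ⟨u, (inclusion_awayHeckeEval N _ t).trans hu⟩
    rw [datumEval, RingHom.comp_apply, hw, map_nsmul, nsmul_eq_mul, Nat.cast_pow]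
    exact hn (Ideal.mul_mem_right _ _
      (Ideal.pow_mem_pow (natCast_mem_maximalIdeal_of_algebra hp𝒪) n))

/-- A Galois element acting trivially on `J₀(N)[p^∞]` acts trivially in the datum. -/
theorem rho_eq_one_of_forall_smul_eq (hp : p.Prime) (hp𝒪 : (p : 𝒪) ∈ IsLocalRing.maximalIdeal 𝒪)
    (hpS : p ∈ S) (hNS : ∀ q : ℕ, q.Prime → q ∣ N → q ∈ S) (hJ : TorsionGaloisInputs N p)
    (H : HeckeGaloisRepDatum N (↑S : Set ℕ) 𝒪 θ T) (σ : Γℚ)
    (hσ : ∀ (k : ℕ) (x : JZero N), p ^ k • x = 0 → σ • x = x) : H.ρ.ρ σ = 1 := by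
  refine LinearMap.ext fun v => ?_
  have : IsHausdorff (IsLocalRing.maximalIdeal T) H.ρ.V :=
    IsHausdorff.of_le_jacobson _ _ (IsLocalRing.maximalIdeal_le_jacobson _)
  rw [Module.End.one_apply, ← sub_eq_zero]
  refine IsHausdorff.haus this _ fun n => ?_
  rw [SModEq.zero]
  obtain ⟨k, hk⟩ := exists_level_transfer hp hp𝒪 hpS hNS hJ H _ ⟨n, le_rfl⟩
  have h := hk (ι := Fin 2) ![1, -1] ![σ, 1] (fun x hx => by
    letI := heckeModuleBar N
    simp [Fin.sum_univ_two, hσ k x hx, neg_smul]) v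
  simpa [Fin.sum_univ_two, sub_eq_add_neg] using h

/-- The representation of the datum is unramified outside `S`. -/
theorem isUnramifiedAt_of_inputs (hp : p.Prime) (hp𝒪 : (p : 𝒪) ∈ IsLocalRing.maximalIdeal 𝒪)
    (hpS : p ∈ S) (hNS : ∀ q : ℕ, q.Prime → q ∣ N → q ∈ S) (hJ : TorsionGaloisInputs N p)
    (H : HeckeGaloisRepDatum N (↑S : Set ℕ) 𝒪 θ T) (q : ℕ) (hq : q.Prime) (hqS : q ∉ S) :
    H.ρ.IsUnramifiedAt q := by
  intro A hA σ hσ
  have hqNp : ¬ q ∣ N * p := fun h => by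
    rcases hq.dvd_mul.mp h with h | h
    · exact hqS (hNS q hq h)
    · exact hqS ((Nat.prime_dvd_prime_iff_eq hq hp).mp h ▸ hpS)
  exact rho_eq_one_of_forall_smul_eq hp hp𝒪 hpS hNS hJ H σ fun k x hx =>
    hJ.unramified q hq hqNp A hA σ hσ x ⟨k, hx⟩

end Datum

end FermatLib.Galois
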