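import Fermat.Prelude.Thm_Algebra_finite_maximalSpectrum_and_bijective_localization_of_module_finite
import Fermat.Prelude.Thm_IsLocalRing_isAdicComplete_of_module_finite
import Mathlib.RingTheory.DedekindDomain.IntegralClosure
import Mathlib.RingTheory.DedekindDomain.PID
import Mathlib.RingTheory.DiscreteValuationRing.TFAE
import Mathlib.RingTheory.IntegralClosure.IntegrallyClosed
import Mathlib.RingTheory.LocalRing.ResidueField.Basic
import Mathlib.RingTheory.LocalRing.ResidueField.Instances
import Mathlib.FieldTheory.SplittingField.Construction
import Mathlib.FieldTheory.Perfect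

/-!
# Finite extensions of complete discrete valuation rings
-/

set_option autoImplicit false

open IsLocalRing

namespace FermatLib.Galois

variable (O : Type) [CommRing O] [IsDomain O] [IsDiscreteValuationRing O]
  [IsAdicComplete (maximalIdeal O) O]

/-- A domain which is module-finite over a complete noetherian local ring is local. -/
theorem isLocalRing_of_module_finite_of_isDomain (A : Type) [CommRing A] [IsDomain A]
    [Algebra O A] [Module.Finite O A] : IsLocalRing A := by
  classical
  obtain ⟨-, hbij, -, -⟩ :=
    Algebra.finite_maximalSpectrum_and_bijective_localization_of_module_finite (𝒪 := O) A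
  refine IsLocalRing.of_unique_max_ideal ?_
  obtain ⟨I, hI⟩ := Ideal.exists_maximal A
  refine ⟨I, hI, fun J hJ => ?_⟩
  by_contra hne
  let a : MaximalSpectrum A := ⟨I, hI⟩
  let b : MaximalSpectrum A := ⟨J, hJ⟩
  have hab : b ≠ a := fun h => hne (congrArg MaximalSpectrum.asIdeal h)
  obtain ⟨e, he⟩ := hbij.2 (Pi.single a 1)
  obtain ⟨f, hf⟩ := hbij.2 (Pi.single b 1)
  have hef : e * f = 0 := hbij.1 (by
    rw [map_mul, he, hf, map_zero]
    funext c
    by_cases hc : c = a
    · subst hc; simp [Pi.single_eq_of_ne' hab]
    · simp [Pi.single_eq_of_ne hc])
  rcases mul_eq_zero.mp hef with h | h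
  · have := congrFun he a; rw [h, map_zero] at this; simp at this
  · have := congrFun hf b; rw [h, map_zero] at this; simp at this

/-- A finite separable extension of the fraction field of a complete DVR with finite residue
field is the fraction field of a finite extension of that ring of the same kind. -/
theorem exists_dvr_extension (K : Type) [Field K] [Algebra O K] [IsFractionRing O K]
    (K' : Type) [Field K'] [Algebra K K'] [Algebra O K'] [IsScalarTower O K K']
    [FiniteDimensional K K'] [Algebra.IsSeparable K K'] :
    ∃ (O' : Type) (_ : CommRing O') (_ : IsDomain O') (_ : IsDiscreteValuationRing O')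
      (_ : IsAdicComplete (maximalIdeal O') O') (_ : Algebra O O') (_ : Module.Finite O O')
      (_ : IsLocalHom (algebraMap O O')) (_ : Algebra O' K') (_ : IsFractionRing O' K')
      (_ : IsScalarTower O O' K'),
      Function.Injective (algebraMap O O') ∧
      (Finite (ResidueField O) → Finite (ResidueField O')) ∧ (CharZero O → CharZero O') := by
  let O' := integralClosure O K'
  haveI : IsIntegralClosure O' O K' := integralClosure.isIntegralClosure O K'
  haveI : Module.Finite O O' := IsIntegralClosure.finite O K K' O'
  haveI : IsLocalRing O' := isLocalRing_of_module_finite_of_isDomain O O'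
  haveI : IsDedekindDomain O' := IsIntegralClosure.isDedekindDomain O K K' O'
  haveI : IsFractionRing O' K' := integralClosure.isFractionRing_of_finite_extension K K'
  have hinjK : Function.Injective (algebraMap O K') := by
    rw [IsScalarTower.algebraMap_eq O K K']
    exact (algebraMap K K').injective.comp (IsFractionRing.injective O K)
  have hinj : Function.Injective (algebraMap O O') := fun x y h =>
    hinjK (congrArg Subtype.val h)
  haveI : FaithfulSMul O O' := (faithfulSMul_iff_algebraMap_injective O O').mpr hinj
  haveI : Algebra.IsIntegral O O' := Algebra.IsIntegral.of_finite O O'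
  haveI : IsLocalHom (algebraMap O O') :=
    (algebraMap_isIntegral_iff.mpr inferInstance).isLocalHom hinj
  have hnf : ¬ IsField O' := fun h =>
    IsDiscreteValuationRing.not_isField O (isField_of_isIntegral_of_isField hinj h)
  haveI : IsPrincipalIdealRing O' := IsPrincipalIdealRing.of_finite_primes
    (by
      apply Set.Finite.subset (Set.toFinite {(⊥ : Ideal O'), maximalIdeal O'})
      intro P hP
      rcases eq_or_ne P ⊥ with h | h
      · exact Or.inl h
      · exact Or.inr (IsLocalRing.eq_maximalIdeal (hP.isMaximal h)))
  haveI : IsDiscreteValuationRing O' :=
    { not_a_field' := fun h => hnf ((IsLocalRing.isField_iff_maximalIdeal_eq).mpr h) }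
  haveI : IsAdicComplete (maximalIdeal O') O' :=
    IsLocalRing.isAdicComplete_of_module_finite (𝒪 := O)
  refine ⟨O', inferInstance, inferInstance, inferInstance, inferInstance, inferInstance,
    inferInstance, inferInstance, inferInstance, inferInstance, inferInstance, hinj,
    fun _ => Module.finite_of_finite (ResidueField O), fun _ =>
      charZero_of_injective_ringHom hinj⟩

/-- Given a monic polynomial over a complete DVR of characteristic zero with finite residue field,
there is a finite extension of the same kind over which it splits. -/
theorem exists_dvr_extension_splits [CharZero O] [Finite (ResidueField O)] (f : Polynomial O)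
    (hf : f.Monic) :
    ∃ (O' : Type) (_ : CommRing O') (_ : IsDomain O') (_ : IsDiscreteValuationRing O')
      (_ : IsAdicComplete (maximalIdeal O') O') (_ : Finite (ResidueField O')) (_ : CharZero O')
      (_ : Algebra O O') (_ : Module.Finite O O') (_ : IsLocalHom (algebraMap O O')),
      Function.Injective (algebraMap O O') ∧ (f.map (algebraMap O O')).Splits := by
  let K := FractionRing O
  haveI : CharZero K := charZero_of_injective_algebraMap (IsFractionRing.injective O K)
  let K' := (f.map (algebraMap O K)).SplittingField
  obtain ⟨O', _, _, _, _, _, _, _, _, hfr, hst, hinj, hfin, hch⟩ :=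
    exists_dvr_extension O K K'
  refine ⟨O', inferInstance, inferInstance, inferInstance, inferInstance, hfin inferInstance,
    hch inferInstance, inferInstance, inferInstance, inferInstance, hinj, ?_⟩
  have hsp : (f.map (algebraMap O K')).Splits := by
    rw [IsScalarTower.algebraMap_eq O K K', ← Polynomial.map_map]
    exact Polynomial.SplittingField.splits _
  rw [IsScalarTower.algebraMap_eq O O' K', ← Polynomial.map_map] at hsp
  refine Polynomial.Splits.of_splits_map_of_injective (IsFractionRing.injective O' K') hsp fun a ha => ?_
  have : IsIntegral O' a := ⟨f.map (algebraMap O O'), hf.map _, by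
    rw [← Polynomial.mem_roots'.mp ha |>.2, Polynomial.eval_map]⟩
  exact (IsIntegrallyClosed.algebraMap_eq_of_integral this)

end FermatLib.Galois
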