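import Mathlib
import Fermat.Agent.Galois.RepDVR

/-!
Extending a point with values in a complete DVR along an integral extension of the source.
-/

set_option autoImplicit false

open IsLocalRing

namespace FermatLib.Galois

/-- A ring map `R → O` into a complete DVR extends, along an injective map `R → R'` into a domain
which is finite over `ℤ`, to a point of `R'` in a finite extension of `O`, as soon as it is
injective. -/
theorem s35_exists_extension {R R' : Type*} [CommRing R] [CommRing R'] [IsDomain R']
    [Module.Finite ℤ R'] (i : R →+* R') (hi : Function.Injective i)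
    (O : Type) [CommRing O] [IsDomain O] [IsDiscreteValuationRing O]
    [IsAdicComplete (maximalIdeal O) O] [Finite (ResidueField O)] [CharZero O]
    (ι : R →+* O) (hι : Function.Injective ι) :
    ∃ (O' : Type) (_ : CommRing O') (_ : IsDomain O') (_ : IsDiscreteValuationRing O')
      (_ : IsAdicComplete (maximalIdeal O') O') (_ : Finite (ResidueField O')) (_ : CharZero O')
      (_ : Algebra O O') (_ : Module.Finite O O') (_ : IsLocalHom (algebraMap O O')),
      Function.Injective (algebraMap O O') ∧
      ∃ ι' : R' →+* O', ∀ r : R, ι' (i r) = algebraMap O O' (ι r) := by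
  classical
  let K := FractionRing O
  let Ω := AlgebraicClosure K
  have hOK : Function.Injective (algebraMap O K) := IsFractionRing.injective O K
  have : CharZero K := charZero_of_injective_algebraMap hOK
  have : IsDomain R := hi.isDomain i
  let _ : Algebra R R' := i.toAlgebra
  let _ : Algebra R Ω := (((algebraMap K Ω).comp (algebraMap O K)).comp ι).toAlgebra
  have : FaithfulSMul R R' := (faithfulSMul_iff_algebraMap_injective R R').mpr hi
  have : FaithfulSMul R Ω := (faithfulSMul_iff_algebraMap_injective R Ω).mpr
    (((algebraMap K Ω).injective.comp hOK).comp hι)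
  have : Algebra.IsIntegral R R' := ⟨fun x => (Algebra.IsIntegral.isIntegral (R := ℤ) x).tower_top⟩
  let φ : R' →ₐ[R] Ω := IsAlgClosed.lift
  obtain ⟨s, hs⟩ := Module.finite_def.mp ‹Module.Finite ℤ R'›
  let K' : IntermediateField K Ω := IntermediateField.adjoin K ((φ '' (s : Set R')))
  have : FiniteDimensional K K' := by
    have : Finite (φ '' (s : Set R')) := (s.finite_toSet.image φ).to_subtype
    exact IntermediateField.finiteDimensional_adjoin fun x _ => Algebra.IsIntegral.isIntegral x
  have hmem : ∀ x, φ x ∈ K' := fun x => by
    have hx : x ∈ Submodule.span ℤ (s : Set R') := hs ▸ Submodule.mem_top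
    induction hx using Submodule.span_induction with
    | mem y hy => exact IntermediateField.subset_adjoin K _ ⟨y, hy, rfl⟩
    | zero => rw [map_zero]; exact zero_mem K'
    | add a b _ _ ha hb => rw [map_add]; exact add_mem ha hb
    | smul n a _ ha => rw [map_zsmul]; exact zsmul_mem ha n
  obtain ⟨O', _, _, _, _, _, _, _, _, _, _, hinj, hfin, hch⟩ := exists_dvr_extension O K K'
  refine ⟨O', inferInstance, inferInstance, inferInstance, inferInstance, hfin inferInstance,
    hch inferInstance, inferInstance, inferInstance, inferInstance, hinj, ?_⟩
  let g : R' →+* K' := φ.toRingHom.codRestrict K' hmem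
  have hO'K : Function.Injective (algebraMap O' K') := IsFractionRing.injective O' K'
  have hint : ∀ x, ∃ y : O', algebraMap O' K' y = g x := fun x => by
    have h : IsIntegral ℤ (g x) := (Algebra.IsIntegral.isIntegral (R := ℤ) x).map g.toIntAlgHom
    exact IsIntegrallyClosed.algebraMap_eq_of_integral h.tower_top
  choose y hy using hint
  refine ⟨{ toFun := y
            map_one' := hO'K (by rw [hy, map_one, map_one])
            map_mul' := fun a b => hO'K (by rw [hy, map_mul, map_mul, hy, hy])
            map_zero' := hO'K (by rw [hy, map_zero, map_zero])
            map_add' := fun a b => hO'K (by rw [hy, map_add, map_add, hy, hy]) }, fun r => ?_⟩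
  apply hO'K
  change algebraMap O' K' (y (i r)) = _
  rw [hy, ← IsScalarTower.algebraMap_apply O O' K']
  exact Subtype.ext (φ.commutes r)

end FermatLib.Galois
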