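import Fermat.Agent.Galois.PadicPoint
import Fermat.Agent.Galois.EigenformCharacter
import Fermat.Prelude.Def_CuspForm_HeckeGaloisRepDatum

/-!
# Residual Galois representations attached to normalised eigenforms

The residual representation attached to a normalised eigenform is obtained from the `p`-adic
representation attached to a lift of its residual Hecke character.
-/

set_option autoImplicit false

noncomputable section

open Polynomial IsLocalRing
open scoped TensorProduct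

namespace FermatLib.Galois

local notation "Qbar" => AlgebraicClosure ℚ
local notation "Γℚ" => (AlgebraicClosure ℚ ≃ₐ[ℚ] AlgebraicClosure ℚ)
local notation "ZbarC" => integralClosure ℤ ℂ

/-- The existence of `p`-adic representations attached to points of Hecke algebras. -/
def PadicAttachment : Prop :=
  ∀ (p : ℕ) [Fact p.Prime] (N : ℕ) [NeZero N] (S : Finset ℕ)
      (_hpS : p ∈ S) (_hNS : ∀ q : ℕ, q.Prime → q ∣ N → q ∈ S)
      (𝒪' : Type) [CommRing 𝒪'] [IsDomain 𝒪'] [IsDiscreteValuationRing 𝒪']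
      [IsAdicComplete (IsLocalRing.maximalIdeal 𝒪') 𝒪'] [Finite (IsLocalRing.ResidueField 𝒪')]
      [CharZero 𝒪'] (_hp𝒪' : (p : 𝒪') ∈ IsLocalRing.maximalIdeal 𝒪')
      (χ : CuspForm.heckeAlgebra N 2 (↑S : Set ℕ) →+* 𝒪'),
      ∃ (𝒪'' : Type) (_ : CommRing 𝒪'') (_ : IsDomain 𝒪'') (_ : IsDiscreteValuationRing 𝒪'')
        (_ : IsAdicComplete (IsLocalRing.maximalIdeal 𝒪'') 𝒪'')
        (_ : Finite (IsLocalRing.ResidueField 𝒪'')) (_ : CharZero 𝒪'')
        (_ : Algebra 𝒪' 𝒪'') (_ : Module.Finite 𝒪' 𝒪'') (_ : IsLocalHom (algebraMap 𝒪' 𝒪'')),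
      Function.Injective (algebraMap 𝒪' 𝒪'') ∧
      ∃ ρ : GaloisRepAdic 𝒪'',
        (∀ (ℓ : ℕ) (hℓ : ℓ.Prime) (hℓN : ¬ ℓ ∣ N) (hℓS : ℓ ∉ (↑S : Set ℕ)),
          ∀ A : ValuationSubring (AlgebraicClosure ℚ), A.LiesOverPrime ℓ →
            ∀ σ : AlgebraicClosure ℚ ≃ₐ[ℚ] AlgebraicClosure ℚ, A.IsFrobeniusAt σ ℓ →
              LinearMap.charpoly (ρ.ρ σ) =
                X ^ 2 - C (algebraMap 𝒪' 𝒪'' (χ (CuspForm.heckeAlgebra.T hℓ hℓN hℓS))) * X
                  + C ((ℓ : 𝒪''))) ∧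
        (∀ q : ℕ, q.Prime → ¬ q ∣ N → q ≠ p → ρ.IsUnramifiedAt q)

/-- The trivial residual representation. -/
def trivialResidualRep (k : Type) [Field k] : ResidualGaloisRep k where
  V := Fin 2 → k
  finrank_eq := Module.finrank_fin_fun k
  ρ := 1
  factorsThroughFiniteLevel := ⟨⊥, inferInstance, fun _ _ => rfl⟩

theorem charpoly_residual_baseChangeAlong {A : Type} [CommRing A] [IsLocalRing A]
    {k : Type} [Field k] (ι : ResidueField A →+* k) (ρ : GaloisRepAdic A) (σ : Γℚ) :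
    LinearMap.charpoly ((ρ.residual.baseChangeAlong ι).ρ σ) =
      (LinearMap.charpoly (ρ.ρ σ)).map (ι.comp (residue A)) := by
  letI : Algebra (ResidueField A) k := ι.toAlgebra
  show LinearMap.charpoly (((ρ.ρ σ).baseChange (ResidueField A)).baseChange k) = _
  rw [LinearMap.charpoly_baseChange, LinearMap.charpoly_baseChange, Polynomial.map_map]
  rfl

theorem unramified_residual_baseChangeAlong {A : Type} [CommRing A] [IsLocalRing A]
    {k : Type} [Field k] (ι : ResidueField A →+* k) (ρ : GaloisRepAdic A) {q : ℕ}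
    (h : ρ.IsUnramifiedAt q) : (ρ.residual.baseChangeAlong ι).IsUnramifiedAt q := by
  letI : Algebra (ResidueField A) k := ι.toAlgebra
  intro P hP σ hσ
  show ((ρ.ρ σ).baseChange (ResidueField A)).baseChange k = 1
  rw [h P hP σ hσ, LinearMap.baseChange_one, LinearMap.baseChange_one]

/-- The residual representation attached to a normalised eigenform. -/
theorem exists_residual_attached (hattach : PadicAttachment)
    (hfinT : ∀ (N : ℕ) [NeZero N] (S : Set ℕ), Module.Finite ℤ ↥(CuspForm.heckeAlgebra N 2 S))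
    {N : ℕ} {g : CuspForm (CongruenceSubgroup.Gamma0 N) 2} (hg : g.IsNormalizedEigenform)
    {p : ℕ} (hp : p.Prime) {k : Type} [Field k] [CharP k p] (φ : ZbarC →+* k) :
    ∃ ρ : ResidualGaloisRep k, ρ.IsAttachedTo g φ ∧
      ∀ ℓ : ℕ, ℓ.Prime → ¬ ℓ ∣ N * p → ρ.IsUnramifiedAt ℓ := by
  rcases eq_or_ne N 0 with rfl | hN
  · exact ⟨trivialResidualRep k, fun ℓ _ hℓ => absurd (dvd_zero ℓ) hℓ,
      fun ℓ _ hℓ => absurd (by simp) hℓ⟩
  haveI : NeZero N := ⟨hN⟩
  haveI : Fact p.Prime := ⟨hp⟩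
  let S : Finset ℕ := insert p N.primeFactors
  haveI := hfinT N (↑S : Set ℕ)
  obtain ⟨ξ, -, hξT, -⟩ := exists_eigenformCharacter (S := (↑S : Set ℕ)) hg
  haveI : (RingHom.ker φ).IsMaximal := isMaximal_ker_of_charP hp φ
  letI : Field (ZbarC ⧸ RingHom.ker φ) := Ideal.Quotient.field _
  haveI : CharP (ZbarC ⧸ RingHom.ker φ) p :=
    (RingHom.charP_iff φ.kerLift φ.kerLift_injective p).mpr inferInstance
  haveI : IsAlgClosed (ZbarC ⧸ RingHom.ker φ) := isAlgClosed_quotient_integralClosure _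
  obtain ⟨O, _, _, _, _, _, _, hpO, χ, j, hj⟩ :=
    exists_padicPoint ξ hp (Ideal.Quotient.mk (RingHom.ker φ))
  obtain ⟨O', _, _, _, _, _, _, _, _, _, -, ρ, hchar, hunr⟩ :=
    hattach p N S (Finset.mem_insert_self _ _)
      (fun q hq hqN => Finset.mem_insert_of_mem (Nat.mem_primeFactors.mpr ⟨hq, hqN, hN⟩))
      O hpO χ
  letI : Algebra (ResidueField O) (ResidueField O') :=
    (ResidueField.map (algebraMap O O')).toAlgebra
  letI : Algebra (ResidueField O) (ZbarC ⧸ RingHom.ker φ) := j.toAlgebra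
  let j' : ResidueField O' →ₐ[ResidueField O] (ZbarC ⧸ RingHom.ker φ) := IsAlgClosed.lift
  let ι : ResidueField O' →+* k := φ.kerLift.comp j'.toRingHom
  have hι : ∀ t, ι (residue O' (algebraMap O O' (χ t))) = φ (ξ t) := fun t => by
    rw [← ResidueField.map_residue]
    show φ.kerLift (j' (algebraMap (ResidueField O) (ResidueField O') (residue O (χ t)))) = _
    rw [j'.commutes]
    show φ.kerLift (j (residue O (χ t))) = _
    rw [hj, RingHom.kerLift_mk]
  refine ⟨ρ.residual.baseChangeAlong ι, fun ℓ hℓ hℓN hℓk A hA σ hσ => ?_, fun ℓ hℓ hℓNp => ?_⟩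
  · have hℓS : ℓ ∉ (↑S : Set ℕ) := by
      rw [Finset.mem_coe, Finset.mem_insert, not_or]
      exact ⟨fun h => hℓk (by rw [h, CharP.cast_eq_zero]),
        fun h => hℓN (Nat.dvd_of_mem_primeFactors h)⟩
    refine ⟨ξ (CuspForm.heckeAlgebra.T hℓ hℓN hℓS), hξT ℓ hℓ hℓN hℓS, ?_⟩
    rw [charpoly_residual_baseChangeAlong, hchar ℓ hℓ hℓN hℓS A hA σ hσ]
    simp only [Polynomial.map_sub, Polynomial.map_add, Polynomial.map_mul, Polynomial.map_pow,
      Polynomial.map_X, Polynomial.map_C, Polynomial.map_natCast, RingHom.comp_apply, map_natCast, hι]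
  · rw [hℓ.dvd_mul, not_or] at hℓNp
    exact unramified_residual_baseChangeAlong ι ρ
      (hunr ℓ hℓ hℓNp.1 fun h => hℓNp.2 (dvd_of_eq h))

end FermatLib.Galois
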