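import Fermat.Agent.Galois.AttachJZero
import Fermat.Agent.Modular.CorrFacts
import Fermat.Agent.Galois.ResidualAttached

/-!
# `p`-adic representations attached to characters of the weight two Hecke algebra

S30 follows from the Kummer description of the torsion of `J₀(N)` and the Eichler–Shimura
congruence relation.
-/

set_option autoImplicit false

noncomputable section

namespace FermatLib.Galois.Attach

open ModularCurve Polynomial

local notation "Qbar" => AlgebraicClosure ℚ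
local notation "Γℚ" => (AlgebraicClosure ℚ ≃ₐ[ℚ] AlgebraicClosure ℚ)

/-- The Eichler–Shimura congruence relation on `J₀(N)` at `p`, as in S37. -/
def SpecializationInput (N p : ℕ) [NeZero N] : Prop :=
  letI := heckeModuleBar N
  ∀ (_ : SMulCommClass Γℚ HeckeAlg (JZero N)),
    SpecializationExists (K := ℚ) (L := Qbar) N p (JZero N)

section consequences

variable {N p : ℕ} [NeZero N]

theorem holdsNearOne_smul_jzero (x : JZero N) : HoldsNearOne fun σ => σ • x = x :=
  haveI := (FermatLib.Modular.Corr.curveFacts Qbar).hasPrincipalDivisors N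
  holdsNearOne_smul_pic0 x

theorem galois_smul_heckeAlg (σ : Γℚ) (t : HeckeAlg) (x : JZero N) :
    letI := heckeModuleBar N; σ • t • x = t • σ • x :=
  (FermatLib.Modular.smulCommClass_heckeModuleBar N).smul_comm σ t x

theorem frobQuadratic_of_specialization (h : SpecializationInput N p) (ℓ : ℕ) (hℓ : ℓ.Prime)
    (hℓNp : ¬ ℓ ∣ N * p) (A : ValuationSubring Qbar) (hA : A.LiesOverPrime ℓ) (σ : Γℚ)
    (hσ : A.IsFrobeniusAt σ ℓ) (x : JZero N) (hx : ∃ n, p ^ n • x = 0) :
    letI := heckeModuleBar N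
    σ • σ • x - heckeGen ⟨ℓ, hℓ⟩ • σ • x + ℓ • x = 0 := by
  let := heckeModuleBar N
  have := FermatLib.Modular.smulCommClass_heckeModuleBar N
  obtain ⟨J', _, _, sp, F, hsp, hrel⟩ := h this ℓ hℓ hℓNp A hA
  refine hsp.injective_torsion _ ?_ ?_
  · obtain ⟨n, hn⟩ := hx
    refine ⟨n, ?_⟩
    have hg : ∀ (g : Γℚ) (y : JZero N), p ^ n • g • y = g • p ^ n • y := fun g y =>
      (map_nsmul (DistribSMul.toAddMonoidHom (JZero N) g) _ y).symm
    have ht : ∀ (t : HeckeAlg) (y : JZero N), p ^ n • t • y = t • p ^ n • y := fun t y =>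
      (map_nsmul (DistribSMul.toAddMonoidHom (JZero N) t) _ y).symm
    have h0 : ∀ g : Γℚ, g • (0 : JZero N) = 0 := fun g =>
      map_zero (DistribSMul.toAddMonoidHom (JZero N) g)
    have h0' : ∀ t : HeckeAlg, t • (0 : JZero N) = 0 := fun t =>
      map_zero (DistribSMul.toAddMonoidHom (JZero N) t)
    have hl : p ^ n • ℓ • x = ℓ • p ^ n • x := smul_comm _ _ _
    simp only [nsmul_add, nsmul_sub, hl, hg, ht, hn, h0, h0', nsmul_zero, sub_zero,
      add_zero]
  · rw [map_add, map_sub, hsp.hecke_comm, hsp.frobenius_comm σ hσ, hsp.frobenius_comm σ hσ,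
      map_nsmul]
    exact hrel (sp x)

theorem unramified_of_specialization (h : SpecializationInput N p) (ℓ : ℕ) (hℓ : ℓ.Prime)
    (hℓNp : ¬ ℓ ∣ N * p) (A : ValuationSubring Qbar) (hA : A.LiesOverPrime ℓ) (σ : Γℚ)
    (hσ : σ ∈ A.inertiaSubgroupIn ℚ) (x : JZero N) (hx : ∃ n, p ^ n • x = 0) : σ • x = x := by
  let := heckeModuleBar N
  have := FermatLib.Modular.smulCommClass_heckeModuleBar N
  obtain ⟨J', _, _, sp, F, hsp, -⟩ := h this ℓ hℓ hℓNp A hA
  rw [← sub_eq_zero]
  refine hsp.injective_torsion _ ?_ ?_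
  · obtain ⟨n, hn⟩ := hx
    refine ⟨n, ?_⟩
    rw [nsmul_sub, ← DistribSMul.toAddMonoidHom_apply (JZero N) σ x, ← map_nsmul, hn, map_zero,
      sub_zero]
  · rw [map_sub, hsp.inertia_comm σ hσ, sub_self]

end consequences

/-- S30 from the Kummer description and the congruence relation. -/
theorem padicAttachment_of_inputs
    (hK : ∀ (N p : ℕ) [NeZero N], p.Prime → KummerHeckeIso N p)
    (hS37 : ∀ (N p : ℕ) [NeZero N], p.Prime → SpecializationInput N p) :
    FermatLib.Galois.PadicAttachment := by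
  intro p _ N _ S hpS hNS O _ _ _ _ _ _ hpO χ
  have hp : p.Prime := Fact.out
  have hcomm := FermatLib.Modular.heckeOperatorsCommuteBar N
  have D := torsionHeckeData hcomm galois_smul_heckeAlg holdsNearOne_smul_jzero (hK N p hp) hp
    (S : Set ℕ) hNS
  have hquad : ∀ ℓ : ℕ, ℓ.Prime → ℓ ∉ S → ∀ A : ValuationSubring Qbar, A.LiesOverPrime ℓ →
      ∀ σ : Γℚ, A.IsFrobeniusAt σ ℓ →
        SatisfiesQuadratic p (awayAct hcomm (S : Set ℕ)) σ (awayHeckeGen (S : Set ℕ) ℓ) ℓ := by
    intro ℓ hℓ hℓS A hA σ hσ x hx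
    have hℓNp : ¬ ℓ ∣ N * p := fun h => hℓS <| by
      rcases hℓ.dvd_mul.mp h with h | h
      · exact hNS ℓ hℓ h
      · exact (Nat.prime_dvd_prime_iff_eq hℓ hp).mp h ▸ hpS
    have h := frobQuadratic_of_specialization (hS37 N p hp) ℓ hℓ hℓNp A hA σ hσ x hx
    rw [awayAct_apply, coe_awayHeckeGen hℓ (show ℓ ∉ (S : Set ℕ) from hℓS)]
    exact h
  obtain ⟨O', i1, i2, i3, i4, i5, i6, i7, i8, i9, hinj, ρ, hcp, hunr⟩ :=
    exists_attached _ _ D S (awayHeckeGen (S : Set ℕ)) hquad O hpO χ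
  refine ⟨O', i1, i2, i3, i4, i5, i6, i7, i8, i9, hinj, ρ, fun ℓ hℓ hℓN hℓS A hA σ hσ => ?_,
    fun q hq hqN hqp => hunr q hq hqp fun A hA σ hσ x hx => ?_⟩
  · rw [hcp ℓ hℓ (fun h => hℓS (h ▸ hpS)) A hA σ hσ _ (hquad ℓ hℓ hℓS A hA σ hσ),
      awayHeckeEval_awayHeckeGen N hℓ hℓN hℓS]
  · refine unramified_of_specialization (hS37 N p hp) q hq (fun h => ?_) A hA σ hσ x hx
    rcases hq.dvd_mul.mp h with h | h
    · exact hqN h
    · exact hqp ((Nat.prime_dvd_prime_iff_eq hq hp).mp h)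

end FermatLib.Galois.Attach
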