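import Fermat.Prelude.Def_CuspForm_HeckeGaloisRepDatum
import Fermat.Prelude.Def_CuspForm_Newforms
import Fermat.Agent.Galois.NewformRepDet

/-!
Assembly of S35: from the attached representation, the determinant at Frobenius elements and one
eigenvalue `± q` at a Frobenius element over a prime `q` exactly dividing the level, the
characteristic polynomial there is `(X - 1)(X - q)` or `(X + 1)(X + q)`.
-/

set_option autoImplicit false

open Polynomial

namespace FermatLib.Galois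

variable {M : ℕ}

/-- Determinant of a representation with the characteristic polynomials of an eigen-system. -/
theorem s35_det_eq_of_charpoly {O : Type} [CommRing O] [IsLocalRing O]
    (ρ : GaloisRepAdic O) (σ : AlgebraicClosure ℚ ≃ₐ[ℚ] AlgebraicClosure ℚ) {t c : O}
    (h : LinearMap.charpoly (ρ.ρ σ) = X ^ 2 - C t * X + C c) :
    LinearMap.det (ρ.ρ σ) = c := by
  have h' := congrArg (fun P : O[X] => P.coeff 0)
    ((s35_charpoly_eq_of_finrank_eq_two ρ.finrank_eq (ρ.ρ σ)).symm.trans h)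
  simpa using h'

/-- The conclusion of S35 at the bad primes, for one representation with the good-prime
characteristic polynomials of the eigen-system `χ`, given an eigenvalue `± q` at Frobenius. -/
theorem s35_charpoly_frobenius_of_root (hdens : S35FrobeniusDense)
    {lam : ℕ} (hlam : lam.Prime) {S : Finset ℕ}
    (hMS : ∀ r : ℕ, r.Prime → r ∣ M → r ∈ S)
    {O : Type} [CommRing O] [IsDomain O] [IsDiscreteValuationRing O] [CharZero O]
    (hlamO : (lam : O) ∈ IsLocalRing.maximalIdeal O)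
    (ρ : GaloisRepAdic O)
    (t : ∀ (ℓ : ℕ), ℓ.Prime → ¬ ℓ ∣ M → ℓ ∉ (↑S : Set ℕ) → O)
    (hgood : ∀ (ℓ : ℕ) (hℓ : ℓ.Prime) (hℓM : ¬ ℓ ∣ M) (hℓS : ℓ ∉ (↑S : Set ℕ)),
      ∀ A : ValuationSubring (AlgebraicClosure ℚ), A.LiesOverPrime ℓ →
        ∀ σ : AlgebraicClosure ℚ ≃ₐ[ℚ] AlgebraicClosure ℚ, A.IsFrobeniusAt σ ℓ →
          LinearMap.charpoly (ρ.ρ σ) = X ^ 2 - C (t ℓ hℓ hℓM hℓS) * X + C ((ℓ : O)))
    {q : ℕ} (hq : q.Prime) (hqlam : q ≠ lam)
    {A : ValuationSubring (AlgebraicClosure ℚ)} (hA : A.LiesOverPrime q)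
    {σ : AlgebraicClosure ℚ ≃ₐ[ℚ] AlgebraicClosure ℚ} (hσ : A.IsFrobeniusAt σ q)
    (hroot : (LinearMap.charpoly (ρ.ρ σ)).IsRoot (q : O) ∨
      (LinearMap.charpoly (ρ.ρ σ)).IsRoot (-(q : O))) :
    LinearMap.charpoly (ρ.ρ σ) = X ^ 2 - C ((q : O) + 1) * X + C ((q : O)) ∨
      LinearMap.charpoly (ρ.ρ σ) = X ^ 2 + C ((q : O) + 1) * X + C ((q : O)) := by
  have hdet : LinearMap.det (ρ.ρ σ) = (q : O) :=
    s35_det_frobenius_eq hdens hlam hlamO ρ S
      (fun ℓ hℓ hℓS B hB τ hτ =>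
        have hℓM : ¬ ℓ ∣ M := fun h => hℓS (hMS ℓ hℓ h)
        s35_det_eq_of_charpoly ρ τ (hgood ℓ hℓ hℓM (by simpa using hℓS) B hB τ hτ))
      hq hqlam hA hσ
  exact s35_charpoly_eq_of_isRoot ρ.finrank_eq (ρ.ρ σ) (Nat.cast_ne_zero.mpr hq.ne_zero) hdet hroot

end FermatLib.Galois
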