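import Fermat.Agent.Galois.FrobeniusDensity
import Fermat.Agent.Galois.NewformRepDet

/-!
The density input of the assembly of S35 from the Frobenius density theorem.
-/

set_option autoImplicit false

namespace FermatLib.Galois

theorem s35_frobeniusDense : S35FrobeniusDense := by
  intro T L hL σ
  obtain ⟨ℓ, hℓ, hℓT, A, hA, τ, hτ, -, b, -, hb⟩ := exists_isFrobeniusAt_agreeOn L σ T
  exact ⟨ℓ, hℓ, hℓT, A, τ, 1, b, hA, hτ, fun x hx => by simpa using (hb x hx).symm⟩

end FermatLib.Galois
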