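import Mathlib
import Fermat.Agent.Galois.NewformRepAssembly
import Fermat.Agent.Galois.NewformRepDensity
import Fermat.Agent.Galois.LucasTrace
import Fermat.Agent.Galois.TransferLevel

/-!
An eigenvalue `± q` at a Frobenius element over `q` from one operator identity on the torsion of a
Galois module: if a scalar `t` with nonzero image makes `(F² - q²)(F² - 1)` vanish, then the trace
`a` of `F` in every representation with the same Frobenius data satisfies `a² = (q + 1)²`.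
-/

set_option autoImplicit false

open Polynomial

namespace FermatLib.Galois

local notation "Qbar" => AlgebraicClosure ℚ
local notation "Γℚ" => (AlgebraicClosure ℚ ≃ₐ[ℚ] AlgebraicClosure ℚ)

/-- In a ring: a quadratic relation with constant `c` turns the quartic identity into a scalar. -/
theorem s35_scalar_of_quartic {R A : Type*} [CommRing R] [Ring A] (ψ : R →+* A) (F G : A)
    (hFG : F * G = 1) (hc : ∀ r, Commute (ψ r) F) (t τ c : R)
    (hq : F * F - ψ τ * F + ψ c = 0)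
    (hid : ψ t * (F * F * F * F - ψ (c * c + 1) * (F * F) + ψ (c * c)) = 0) :
    ψ (t * (τ * τ - (c + 1) * (c + 1))) = 0 := by
  have e1 : F * F + ψ c = ψ τ * F := by
    have h := hq
    rw [sub_add_eq_add_sub] at h
    exact sub_eq_zero.mp h
  have e2 : (F * F + ψ c) * (F * F + ψ c) = ψ (τ * τ) * (F * F) := by
    rw [e1, map_mul]
    simp only [mul_assoc]
    rw [← mul_assoc F (ψ τ) F, ← (hc τ).eq, mul_assoc]
  have hcF : Commute (ψ c) (F * F) := (hc c).mul_right (hc c)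
  have e3 : F * F * F * F - ψ (c * c + 1) * (F * F) + ψ (c * c) =
      ψ (τ * τ - (c + 1) * (c + 1)) * (F * F) := by
    rw [map_sub, sub_mul, ← e2]
    simp only [add_mul, mul_add, ← hcF.eq, map_add, map_mul, map_one, one_mul, mul_one]
    simp only [mul_assoc]
    abel
  rw [e3, ← mul_assoc, ← map_mul] at hid
  have h := congrArg (fun z => z * G * G) hid
  simpa [mul_assoc, hFG] using h

variable {O : Type} [CommRing O] [IsDomain O] [IsLocalRing O] [IsNoetherianRing O]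
  (ρ : GaloisRepAdic O)
  {J : Type*} [AddCommGroup J] [DistribMulAction Γℚ J] {P : Type*} [CommRing P]
  [Module P J] [SMulCommClass Γℚ P J]

/-- **Eigenvalue `± q`.** -/
theorem s35_isRoot_of_torsion_identity {lam : ℕ} (hlam : lam.Prime)
    (hlamO : (lam : O) ∈ IsLocalRing.maximalIdeal O) {S : Finset ℕ} (hlamS : lam ∈ S)
    (π : P →+* O) (a : ℕ → P)
    (hchar : ∀ ℓ : ℕ, ℓ.Prime → ℓ ∉ S → ∀ A : ValuationSubring Qbar, A.LiesOverPrime ℓ →
      ∀ σ : Γℚ, A.IsFrobeniusAt σ ℓ →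
        LinearMap.charpoly (ρ.ρ σ) = X ^ 2 - C (π (a ℓ)) * X + C ((ℓ : O)))
    (hquad : ∀ ℓ : ℕ, ℓ.Prime → ℓ ∉ S → ∀ A : ValuationSubring Qbar, A.LiesOverPrime ℓ →
      ∀ σ : Γℚ, A.IsFrobeniusAt σ ℓ → ∀ (k : ℕ) (x : J), lam ^ k • x = 0 →
        σ • σ • x - a ℓ • σ • x + ℓ • x = 0)
    (hfin : ∀ k : ℕ, ∃ L : IntermediateField ℚ Qbar, FiniteDimensional ℚ L ∧
      ∀ σ : Γℚ, (∀ y ∈ L, σ y = y) → ∀ x : J, lam ^ k • x = 0 → σ • x = x)
    (hker : ∀ n : ℕ, ∃ k : ℕ, ∀ t : P, (∀ x : J, lam ^ k • x = 0 → t • x = 0) →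
      π t ∈ IsLocalRing.maximalIdeal O ^ n)
    {q : ℕ} (hq : q.Prime) (hqlam : q ≠ lam)
    {A : ValuationSubring Qbar} (hA : A.LiesOverPrime q) {σ : Γℚ} (hσ : A.IsFrobeniusAt σ q)
    (t : P) (ht : π t ≠ 0)
    (hid : ∀ (k : ℕ) (x : J), lam ^ k • x = 0 →
      t • (σ • σ • σ • σ • x - (q * q + 1) • σ • σ • x + (q * q) • x) = 0) :
    (LinearMap.charpoly (ρ.ρ σ)).IsRoot (q : O) ∨
      (LinearMap.charpoly (ρ.ρ σ)).IsRoot (-(q : O)) := by
  classical
  have hdet : LinearMap.det (ρ.ρ σ) = (q : O) :=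
    s35_det_frobenius_eq s35_frobeniusDense hlam hlamO ρ S
      (fun ℓ hℓ hℓS B hB τ hτ => s35_det_eq_of_charpoly ρ τ (hchar ℓ hℓ hℓS B hB τ hτ))
      hq hqlam hA hσ
  let b := Module.finBasisOfFinrankEq O ρ.V ρ.finrank_eq
  let r := transferRepMatrix ρ b
  have hrdet : (r σ).det = (q : O) := (LinearMap.det_toMatrix b (ρ.ρ σ)).trans hdet
  suffices key : (r σ).trace * (r σ).trace - ((q : O) + 1) * ((q : O) + 1) = 0 by
    have hcp : LinearMap.charpoly (ρ.ρ σ) = X ^ 2 - C (r σ).trace * X + C ((q : O)) := by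
      rw [← transferRepMatrix_charpoly ρ b, Matrix.charpoly_fin_two, hrdet]
    rcases mul_self_eq_mul_self_iff.mp (sub_eq_zero.mp key) with h | h
    · left; rw [hcp, h]; simp [IsRoot.def]; ring
    · right; rw [hcp, h]; simp [IsRoot.def]; ring
  suffices key : ∀ n : ℕ, π t * ((r σ).trace * (r σ).trace - ((q : O) + 1) * ((q : O) + 1))
      ∈ IsLocalRing.maximalIdeal O ^ n by
    have hinf := (Submodule.mem_iInf _).mpr key
    rw [Ideal.iInf_pow_eq_bot_of_isLocalRing _ (Ideal.IsMaximal.ne_top inferInstance),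
      Ideal.mem_bot] at hinf
    exact (mul_eq_zero.mp hinf).resolve_left ht
  intro n
  obtain ⟨k, hk⟩ := hker n
  set m : ℕ := lam ^ k with hm
  let mk := Ideal.Quotient.mk (IsLocalRing.maximalIdeal O ^ n)
  haveI : NeZero m := ⟨pow_ne_zero _ hlam.ne_zero⟩
  obtain ⟨ζ, hζ⟩ := HasEnoughRootsOfUnity.exists_primitiveRoot Qbar m
  obtain ⟨L₁, hL₁, hL₁fix⟩ := hfin k
  obtain ⟨L₂, hL₂, hL₂fix⟩ := ρ.isAdicContinuous n
  let L₃ : IntermediateField ℚ Qbar := IntermediateField.adjoin ℚ {ζ}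
  have hL₃ : FiniteDimensional ℚ L₃ :=
    IntermediateField.adjoin.finiteDimensional ((hζ.isIntegral (NeZero.pos m)).tower_top)
  let L : IntermediateField ℚ Qbar := L₁ ⊔ L₂ ⊔ L₃
  haveI : FiniteDimensional ℚ L := inferInstance
  obtain ⟨ℓ, hℓ, hℓS, B, hB, τ₀, hτ₀, -, e, -, he⟩ := exists_isFrobeniusAt_agreeOn L σ S
  have hℓlam : ℓ ≠ lam := fun h => hℓS (h ▸ hlamS)
  have hndvd : ∀ s : ℕ, s.Prime → s ≠ lam → ¬ s ∣ m := fun s hs hne hdvd =>
    hne ((Nat.prime_dvd_prime_iff_eq hs hlam).mp (hs.dvd_of_dvd_pow hdvd))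
  -- `q ≡ ℓ ^ e`
  have hmod : ℓ ^ e ≡ q [MOD m] := by
    have hpow : ∀ (j : ℕ), (τ₀ ^ j) ζ = ζ ^ ℓ ^ j := by
      intro j
      induction j with
      | zero => simp
      | succ j ih =>
        rw [pow_succ', AlgEquiv.mul_apply, ih, map_pow,
          s35_frobenius_apply_rootOfUnity B hℓ hB hτ₀ (hndvd ℓ hℓ hℓlam) hζ.pow_eq_one,
          ← pow_mul, pow_succ']
    have h := he ζ ((le_sup_right : L₃ ≤ L) (IntermediateField.mem_adjoin_simple_self ℚ ζ))
    rw [hpow, s35_frobenius_apply_rootOfUnity A hq hA hσ (hndvd q hq hqlam) hζ.pow_eq_one] at h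
    rwa [(hζ.isOfFinOrder (NeZero.ne m)).pow_eq_pow_iff_modEq, ← hζ.eq_orderOf] at h
  have hfix : ∀ y ∈ L, ((τ₀ ^ e)⁻¹ * σ) y = y := fun y hy => by
    rw [AlgEquiv.mul_apply, ← he y hy, ← AlgEquiv.mul_apply, inv_mul_cancel, AlgEquiv.one_apply]
  have hsplit : σ = τ₀ ^ e * ((τ₀ ^ e)⁻¹ * σ) := by group
  -- the torsion
  let End' := AddMonoid.End ↥(Submodule.torsionBy P J (m : P))
  let ψ : P →+* End' := Module.toAddMonoidEnd P ↥(Submodule.torsionBy P J (m : P))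
  let Φ : Γℚ →* End' := torsionGaloisEnd m
  have hmem : ∀ x : ↥(Submodule.torsionBy P J (m : P)), lam ^ k • (x : J) = 0 := fun x => by
    rw [← hm, ← Nat.cast_smul_eq_nsmul P]
    exact (Submodule.mem_torsionBy_iff _ _).mp x.2
  have hcomm : ∀ s g, Commute (ψ s) (Φ g) := fun s g =>
    AddMonoidHom.ext fun x => Subtype.ext (smul_comm g s (x : J)).symm
  have hmEnd : ((m : ℕ) : End') = 0 := by
    rw [← map_natCast ψ]
    exact AddMonoidHom.ext fun x => Subtype.ext ((Submodule.mem_torsionBy_iff _ _).mp x.2)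
  have hΦσ : Φ σ = Φ τ₀ ^ e := by
    have h1 : Φ ((τ₀ ^ e)⁻¹ * σ) = 1 := AddMonoidHom.ext fun x => Subtype.ext
      (hL₁fix _ (fun y hy => hfix y ((le_sup_left.trans le_sup_left : L₁ ≤ L) hy)) _ (hmem x))
    rw [hsplit, map_mul, h1, mul_one, map_pow]
  have hq0 : Φ τ₀ * Φ τ₀ - ψ (a ℓ) * Φ τ₀ + ψ ((ℓ : ℕ) : P) = 0 := by
    refine AddMonoidHom.ext fun x => Subtype.ext ?_
    change τ₀ • τ₀ • (x : J) - a ℓ • τ₀ • (x : J) + (ℓ : P) • (x : J) = 0
    rw [Nat.cast_smul_eq_nsmul]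
    exact hquad ℓ hℓ hℓS B hB τ₀ hτ₀ k _ (hmem x)
  let τ : P := lucasTrace (a ℓ) ((ℓ : ℕ) : P) e
  have hqσ : Φ σ * Φ σ - ψ τ * Φ σ + ψ ((q : ℕ) : P) = 0 := by
    have h := lucasTrace_quadratic ψ (Φ τ₀) (a ℓ) _ (fun s => hcomm s τ₀) hq0 e
    rw [← hΦσ, ← Nat.cast_pow, map_natCast] at h
    rw [map_natCast, ← natCast_eq_of_modEq_of_natCast_eq_zero hmEnd hmod]
    exact h
  have hidσ : ψ t * (Φ σ * Φ σ * Φ σ * Φ σ -
      ψ ((q : P) * q + 1) * (Φ σ * Φ σ) + ψ ((q : P) * q)) = 0 := by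
    refine AddMonoidHom.ext fun x => Subtype.ext ?_
    change t • (σ • σ • σ • σ • (x : J) - ((q : P) * q + 1) • σ • σ • (x : J) +
      ((q : P) * q) • (x : J)) = 0
    rw [← Nat.cast_mul, ← Nat.cast_one, ← Nat.cast_add, Nat.cast_smul_eq_nsmul,
      Nat.cast_smul_eq_nsmul]
    exact hid k _ (hmem x)
  have hscal := s35_scalar_of_quartic ψ (Φ σ) (Φ σ⁻¹)
    (by rw [← map_mul, mul_inv_cancel, map_one]) (fun s => hcomm s σ) t τ _ hqσ hidσ
  have hπ := hk _ fun x hx => by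
    have hx' : x ∈ Submodule.torsionBy P J (m : P) := by
      rw [Submodule.mem_torsionBy_iff, Nat.cast_smul_eq_nsmul]; exact hx
    exact congrArg Subtype.val (DFunLike.congr_fun hscal ⟨x, hx'⟩)
  -- the trace
  have htr : mk (r σ).trace = mk (π τ) := by
    have h1 : (r ((τ₀ ^ e)⁻¹ * σ)).map mk = 1 := by
      ext i j
      rw [Matrix.map_apply, show r ((τ₀ ^ e)⁻¹ * σ) i j = b.repr (ρ.ρ ((τ₀ ^ e)⁻¹ * σ) (b j)) i from
        LinearMap.toMatrix_apply b b _ i j]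
      have h := repr_mem_of_mem_smul_top b _ (hL₂fix _
        (fun y hy => hfix y ((le_sup_right.trans le_sup_left : L₂ ≤ L) hy)) (b j)) i
      rw [map_sub, Finsupp.sub_apply, ← Ideal.Quotient.eq, Module.Basis.repr_self] at h
      rw [h, Finsupp.single_apply, Matrix.one_apply]
      by_cases hij : i = j
      · simp [hij]
      · simp [hij, Ne.symm hij]
    obtain ⟨ht', hd'⟩ := trace_det_of_charpoly_eq (r τ₀) _ _
      ((transferRepMatrix_charpoly ρ b τ₀).trans (hchar ℓ hℓ hℓS B hB τ₀ hτ₀))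
    rw [AddMonoidHom.map_trace, hsplit, map_mul, Matrix.map_mul, h1, mul_one, map_pow,
      ← AddMonoidHom.map_trace, trace_pow_eq_lucasTrace, ht', hd']
    simp only [τ, map_lucasTrace, map_natCast]
  rw [← Ideal.Quotient.eq_zero_iff_mem] at hπ ⊢
  simp only [map_mul, map_sub, map_add, map_one, map_natCast] at hπ ⊢
  rw [htr]
  exact hπ

end FermatLib.Galois
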