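import Mathlib
import Fermat.Agent.Galois.AttachFinal
import Fermat.Agent.Galois.NewformRepTransfer

/-!
The torsion identity on `J₀(N)` for an eigen-system which does not occur at level `M`: if the
quartic identity `(F² - q²)(F² - 1) = 0` holds on the common kernel of two equivariant maps to
`J₀(M)`, then a separating Hecke polynomial gives the eigenvalue `± q`.
-/

set_option autoImplicit false

open ModularCurve Polynomial

namespace FermatLib.Galois

local notation "Qbar" => AlgebraicClosure ℚ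
local notation "Γℚ" => (AlgebraicClosure ℚ ≃ₐ[ℚ] AlgebraicClosure ℚ)

/-- Deep divisibility in an ambient lattice gives deep divisibility in the lattice. -/
theorem s35_exists_pow_dvd {T X : Type*} [CommRing T] [Module.Finite ℤ T] [Finite X]
    (η : T →+ (X → ℤ)) (hη : Function.Injective η) (p : ℕ) (j : ℕ) :
    ∃ j' : ℕ, ∀ y : T, (∀ x, (p : ℤ) ^ j' ∣ η y x) → ∃ w : T, y = (p ^ j : ℕ) • w := by
  classical
  obtain ⟨c, hc⟩ := Ideal.exists_pow_inf_eq_pow_smul (Ideal.span {(p : ℤ)})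
    (M := X → ℤ) (LinearMap.range η.toIntLinearMap)
  refine ⟨j + c, fun y hy => ?_⟩
  choose u hu using hy
  have hmem : η y ∈ Ideal.span {(p : ℤ)} ^ (j + c) • (⊤ : Submodule ℤ (X → ℤ)) ⊓
      LinearMap.range η.toIntLinearMap := by
    refine ⟨?_, ⟨y, rfl⟩⟩
    rw [Ideal.span_singleton_pow, SetLike.mem_coe, Submodule.ideal_span_singleton_smul,
      Submodule.mem_smul_pointwise_iff_exists]
    exact ⟨u, Submodule.mem_top, funext fun x => (hu x).symm⟩
  rw [hc _ (Nat.le_add_left c j), Nat.add_sub_cancel, Ideal.span_singleton_pow,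
    Submodule.ideal_span_singleton_smul, Submodule.mem_smul_pointwise_iff_exists] at hmem
  obtain ⟨_, ⟨-, w, rfl⟩, hw⟩ := hmem
  refine ⟨w, hη ?_⟩
  rw [← hw, map_nsmul, ← natCast_zsmul]
  push_cast
  rfl

variable {M N : ℕ} [NeZero M] [NeZero N]

/-- A quartic identity on the common kernel gives one for `t • x` when `t` maps into it. -/
theorem s35_quartic_smul {J J' : Type*} [AddCommGroup J] [AddCommGroup J'] {G : Type*} [Group G]
    [DistribMulAction G J] {P : Type*} [CommRing P] [Module P J] [SMulCommClass G P J]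
    (f₁ f₂ : J →+ J') (σ : G) (c d n : ℕ) (t : P) (x : J) (hx : n • x = 0)
    (h₁ : f₁ (t • x) = 0) (h₂ : f₂ (t • x) = 0)
    (hker : ∀ y : J, n • y = 0 → f₁ y = 0 → f₂ y = 0 →
      σ • σ • σ • σ • y - c • σ • σ • y + d • y = 0) :
    t • (σ • σ • σ • σ • x - c • σ • σ • x + d • x) = 0 := by
  rw [smul_add, smul_sub, smul_comm t c, smul_comm t d, ← smul_comm σ t, ← smul_comm σ t,
    ← smul_comm σ t, ← smul_comm σ t]
  exact hker (t • x) (by rw [← smul_comm t n, hx, smul_zero]) h₁ h₂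

/-- A Hecke polynomial vanishing on the forms of level `M` composed with an equivariant map to
`J₀(M)` kills the `p`-power torsion. -/
theorem s35_map_kills {p : ℕ} (hp : p.Prime) (hMN : M ∣ N)
    (hKM : Attach.KummerHeckeIso M p)
    (t : awayHeckeAlg {r : ℕ | r ∣ N}) (htM : formsHeckeEval M (t : HeckeAlg) = 0)
    (f : JZero N →+ JZero M)
    (hfT : ∀ y : JZero N, f (letI := heckeModuleBar N; (t : HeckeAlg) • y) =
      (letI := heckeModuleBar M; (t : HeckeAlg) • f y))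
    (x : JZero N) (k : ℕ) (hx : p ^ k • x = 0) :
    f (letI := heckeModuleBar N; (t : HeckeAlg) • x) = 0 := by
  have hcommM := FermatLib.Modular.heckeOperatorsCommuteBar M
  have DM := Attach.torsionHeckeData hcommM Attach.galois_smul_heckeAlg
    Attach.holdsNearOne_smul_jzero hKM hp {r : ℕ | r ∣ N} (fun r _ h => h.trans hMN)
  refine (hfT x).trans ?_
  have h0 := DM.eq_zero t
    (Subtype.ext (by rw [coe_awayHeckeEval, htM, ZeroMemClass.coe_zero, ZeroMemClass.coe_zero]))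
    k (f x) (by rw [← map_nsmul, hx, map_zero])
  rwa [Attach.awayAct_apply] at h0

/-- **Eigenvalue `± q` from the identity on the common kernel of two maps to level `M`.** -/
theorem s35_isRoot_jZero {p : ℕ} (hp : p.Prime) (hMN : M ∣ N)
    (hKN : Attach.KummerHeckeIso N p) (hKM : Attach.KummerHeckeIso M p)
    (hN : Attach.SpecializationInput N p) (f₁ f₂ : JZero N →+ JZero M)
    {q : ℕ} (hq : q.Prime) (hqp : q ≠ p)
    {A : ValuationSubring Qbar} (hA : A.LiesOverPrime q) {σ : Γℚ} (hσ : A.IsFrobeniusAt σ q)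
    (hker : ∀ (k : ℕ) (x : JZero N), p ^ k • x = 0 → f₁ x = 0 → f₂ x = 0 →
      σ • σ • σ • σ • x - (q * q + 1) • σ • σ • x + (q * q) • x = 0)
    {O : Type} [CommRing O] [IsDomain O] [IsLocalRing O] [IsNoetherianRing O]
    (hpO : (p : O) ∈ IsLocalRing.maximalIdeal O) (ρ : GaloisRepAdic O)
    {S : Finset ℕ} (hpS : p ∈ S) (hNS : ∀ r : ℕ, r.Prime → r ∣ N → r ∈ S)
    (χ : CuspForm.heckeAlgebra N 2 {r : ℕ | r ∣ N} →+* O)
    (hchar : ∀ ℓ : ℕ, ℓ.Prime → ℓ ∉ S → ∀ B : ValuationSubring Qbar, B.LiesOverPrime ℓ →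
      ∀ τ : Γℚ, B.IsFrobeniusAt τ ℓ → LinearMap.charpoly (ρ.ρ τ) =
        X ^ 2 - C (χ (awayHeckeEval N _ (awayHeckeGen {r : ℕ | r ∣ N} ℓ))) * X + C ((ℓ : O)))
    (t : awayHeckeAlg {r : ℕ | r ∣ N}) (htM : formsHeckeEval M (t : HeckeAlg) = 0)
    (ht : χ (awayHeckeEval N _ t) ≠ 0)
    (hf₁T : ∀ y : JZero N, f₁ (letI := heckeModuleBar N; (t : HeckeAlg) • y) =
      (letI := heckeModuleBar M; (t : HeckeAlg) • f₁ y))
    (hf₂T : ∀ y : JZero N, f₂ (letI := heckeModuleBar N; (t : HeckeAlg) • y) =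
      (letI := heckeModuleBar M; (t : HeckeAlg) • f₂ y)) :
    (LinearMap.charpoly (ρ.ρ σ)).IsRoot (q : O) ∨
      (LinearMap.charpoly (ρ.ρ σ)).IsRoot (-(q : O)) := by
  classical
  let S₀ : Set ℕ := {r : ℕ | r ∣ N}
  let instN := heckeModuleBar N
  have hcommN := FermatLib.Modular.heckeOperatorsCommuteBar N
  have DN := Attach.torsionHeckeData hcommN Attach.galois_smul_heckeAlg
    Attach.holdsNearOne_smul_jzero hKN hp S₀ (fun r _ h => h)
  have : SMulCommClass Γℚ (awayHeckeAlg S₀) (JZero N) :=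
    ⟨fun g u x => Attach.galois_smul_heckeAlg g (u : HeckeAlg) x⟩
  have : Module.Finite ℤ (CuspForm.heckeAlgebra N 2 S₀) :=
    FermatLib.Modular.heckeAlgebra_moduleFinite N 2 S₀
  refine s35_isRoot_of_torsion_identity (P := awayHeckeAlg S₀) ρ hp hpO hpS
    (χ.comp (awayHeckeEval N S₀)) (awayHeckeGen S₀) hchar ?_ DN.finite_level ?_ hq hqp hA hσ t ht ?_
  · intro ℓ hℓ hℓS B hB τ hτ k x hx
    have hℓNp : ¬ ℓ ∣ N * p := fun h => hℓS <| by
      rcases hℓ.dvd_mul.mp h with h | h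
      · exact hNS ℓ hℓ h
      · exact (Nat.prime_dvd_prime_iff_eq hℓ hp).mp h ▸ hpS
    have h := Attach.frobQuadratic_of_specialization hN ℓ hℓ hℓNp B hB τ hτ x ⟨k, hx⟩
    rwa [← coe_awayHeckeGen (S := S₀) hℓ (fun h' => hℓS (hNS ℓ hℓ h'))] at h
  · intro n
    obtain ⟨s, η, hη, hlat⟩ := DN.lattice
    let η' : CuspForm.heckeAlgebra N 2 S₀ →+ (Fin s × Fin s → ℤ) :=
      AddMonoidHom.mk' (fun y x => η y x.1 x.2) fun y y' => funext fun x => by
        simp [map_add, Matrix.add_apply]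
    obtain ⟨j', hj'⟩ := s35_exists_pow_dvd η' (fun y y' h => hη (Matrix.ext fun i j =>
      congrFun h (i, j))) p n
    refine ⟨j', fun u hu => ?_⟩
    obtain ⟨w, hw⟩ := hj' (awayHeckeEval N S₀ u) fun x =>
      hlat u j' (fun y hy => (Attach.awayAct_apply hcommN S₀ u y).trans (hu y hy)) x.1 x.2
    rw [RingHom.comp_apply, hw, map_nsmul, nsmul_eq_mul, Nat.cast_pow]
    exact Ideal.mul_mem_right _ _ (Ideal.pow_mem_pow hpO n)
  · intro k x hx
    exact s35_quartic_smul f₁ f₂ σ (q * q + 1) (q * q) (p ^ k) t x hx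
      (s35_map_kills hp hMN hKM t htM f₁ hf₁T x k hx)
      (s35_map_kills hp hMN hKM t htM f₂ hf₂T x k hx)
      (fun y hy => hker k y hy)

end FermatLib.Galois
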