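import Mathlib
import Fermat.Agent.Basic.EigenChar

/-!
Integer valued families which are independent over `ℤ` are independent over `ℂ`, and the
resulting eigenvector for a character killing the kernel of an integral action.
-/

set_option autoImplicit false

open scoped TensorProduct

namespace FermatLib.Galois

/-- An integer valued family independent over `ℤ` is independent over `ℂ`. -/
theorem s35_linearIndependent_intCast {ι X : Type*} [Fintype ι] {w : ι → X → ℤ}
    (hw : LinearIndependent ℤ w) : LinearIndependent ℂ fun i x => (w i x : ℂ) := by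
  classical
  rw [Fintype.linearIndependent_iff]
  intro z hz i
  by_contra hne
  let b := Module.Basis.ofVectorSpace ℚ ℂ
  obtain ⟨k, hk⟩ : ∃ k, b.repr (z i) k ≠ 0 := by
    by_contra h
    push Not at h
    exact hne (b.repr.map_eq_zero_iff.mp (Finsupp.ext h))
  let a : ι → ℚ := fun j => b.repr (z j) k
  obtain ⟨d, hd⟩ := IsLocalization.exist_integer_multiples (nonZeroDivisors ℤ) Finset.univ a
  choose m hm using fun j => hd j (Finset.mem_univ j)
  have hrel : ∑ j, m j • w j = 0 := by
    funext x
    have hx : ∑ j, (w j x : ℚ) • z j = 0 := by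
      have h := congrFun hz x
      simp only [Finset.sum_apply, Pi.smul_apply, smul_eq_mul, Pi.zero_apply] at h
      rw [← h]
      refine Finset.sum_congr rfl fun j _ => ?_
      rw [Rat.smul_def, Rat.cast_intCast, mul_comm]
    have hq : ∑ j, (w j x : ℚ) * a j = 0 := by
      have h := congrArg (fun v => b.repr v k) hx
      simpa [a, map_sum, Finsupp.finsetSum_apply] using h
    apply Int.cast_injective (α := ℚ)
    simp only [Finset.sum_apply, Pi.smul_apply, smul_eq_mul, Pi.zero_apply, Int.cast_sum,
      Int.cast_mul, Int.cast_zero]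
    have hm' : ∀ j, (m j : ℚ) = (d : ℤ) * a j := fun j => by
      simpa [Algebra.smul_def] using hm j
    simp only [hm', mul_assoc, ← Finset.mul_sum]
    rw [Finset.sum_congr rfl fun j _ => mul_comm (a j) (w j x : ℚ), hq, mul_zero]
  have h0 := Fintype.linearIndependent_iff.mp hw m hrel i
  have h1 : ((d : ℤ) : ℚ) * a i = 0 := by
    rw [← zsmul_eq_mul]
    have := hm i
    rw [h0, map_zero] at this
    simpa [Algebra.smul_def] using this.symm
  exact hk ((mul_eq_zero.mp h1).resolve_left (Int.cast_ne_zero.mpr (nonZeroDivisors.ne_zero d.2)))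

/-- If the operators of `P` preserve a lattice with a `ℂ`-independent basis spanning `V` and the
character `χ` kills the kernel of the action, then `χ` is the eigencharacter of a common
eigenvector. -/
theorem s35_exists_eigenvector_of_ker_le {V : Type*} [AddCommGroup V] [Module ℂ V]
    {P : Type*} [CommRing P] (ρ : P →+* Module.End ℂ V) {n : ℕ} (b : Fin n → V)
    (hb : LinearIndependent ℂ b) (hspan : Submodule.span ℂ (Set.range b) = ⊤)
    (hint : ∀ (t : P) (j : Fin n), ∃ c : Fin n → ℤ, ρ t (b j) = ∑ i, (c i : ℂ) • b i)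
    (χ : P →+* ℂ) (hker : ∀ t, ρ t = 0 → χ t = 0) :
    ∃ v : V, v ≠ 0 ∧ ∀ t, ρ t v = χ t • v := by
  classical
  let bV : Module.Basis (Fin n) ℂ V := Module.Basis.mk hb (by rw [hspan])
  have hbV : ∀ j, bV j = b j := fun j => Module.Basis.mk_apply hb _ j
  have : FiniteDimensional ℂ V := Module.Finite.of_basis bV
  choose c hc using hint
  have hinj : ∀ (u u' : Fin n → ℂ), ∑ i, u i • b i = ∑ i, u' i • b i → u = u' := by
    intro u u' h
    have h2 : ∑ i, (u i - u' i) • b i = 0 := by
      simp only [sub_smul, Finset.sum_sub_distrib, h, sub_self]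
    funext i
    exact sub_eq_zero.mp (Fintype.linearIndependent_iff.mp hb _ h2 i)
  let E : P →ₗ[ℤ] (Fin n × Fin n → ℤ) :=
    { toFun := fun t x => c t x.1 x.2
      map_add' := fun t t' => by
        funext x
        apply Int.cast_injective (α := ℂ)
        refine congrFun (hinj (fun i => (c (t + t') x.1 i : ℂ))
          (fun i => ((c t x.1 i + c t' x.1 i : ℤ) : ℂ)) ?_) x.2
        rw [← hc, map_add, LinearMap.add_apply, hc, hc]
        simp [add_smul, Finset.sum_add_distrib]
      map_smul' := fun m t => by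
        funext x
        apply Int.cast_injective (α := ℂ)
        refine congrFun (hinj (fun i => (c (m • t) x.1 i : ℂ))
          (fun i => ((m * c t x.1 i : ℤ) : ℂ)) ?_) x.2
        rw [← hc, map_zsmul, LinearMap.smul_apply, hc, Finset.smul_sum]
        refine Finset.sum_congr rfl fun i _ => ?_
        rw [Int.cast_mul, mul_smul, Int.cast_smul_eq_zsmul, Int.cast_smul_eq_zsmul] }
  have hE0 : ∀ t, E t = 0 → ρ t = 0 := fun t ht => bV.ext fun j => by
    rw [hbV, hc]
    refine (Finset.sum_eq_zero fun i _ => ?_).trans (LinearMap.zero_apply _).symm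
    rw [show c t j i = 0 from congrFun ht (j, i), Int.cast_zero, zero_smul]
  obtain ⟨r, B⟩ := Submodule.basisOfPid (Pi.basisFun ℤ (Fin n × Fin n)) (LinearMap.range E)
  choose t ht using fun k => (B k).2
  have hLI : LinearIndependent ℂ fun k x => ((E (t k)) x : ℂ) := by
    refine s35_linearIndependent_intCast ?_
    have h := B.linearIndependent.map' (LinearMap.range E).subtype (Submodule.ker_subtype _)
    simpa only [ht, Function.comp_def, Submodule.subtype_apply] using h
  let ρC : ℂ ⊗[ℤ] P →ₐ[ℂ] Module.End ℂ V :=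
    Algebra.TensorProduct.lift (Algebra.ofId ℂ (Module.End ℂ V)) ρ.toIntAlgHom
      (fun a p => Algebra.commutes a (ρ p))
  let χC : ℂ ⊗[ℤ] P →ₐ[ℂ] ℂ :=
    Algebra.TensorProduct.lift (Algebra.ofId ℂ ℂ) χ.toIntAlgHom (fun a p => Commute.all _ _)
  have hρC : ∀ a p, ρC (a ⊗ₜ p) = a • ρ p := fun a p => by
    simp only [ρC, Algebra.TensorProduct.lift_tmul, Algebra.ofId_apply, Algebra.smul_def]
    rfl
  have hχC : ∀ a p, χC (a ⊗ₜ p) = a * χ p := fun a p => by
    simp only [χC, Algebra.TensorProduct.lift_tmul, Algebra.ofId_apply]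
    rfl
  have hexp : ∀ x : ℂ ⊗[ℤ] P, ∃ z : Fin r → ℂ,
      ρC x = ∑ k, z k • ρ (t k) ∧ χC x = ∑ k, z k * χ (t k) := by
    intro x
    induction x using TensorProduct.induction_on with
    | zero => exact ⟨0, by simp, by simp⟩
    | tmul a p =>
      let m := B.repr ⟨E p, p, rfl⟩
      have hp : E (p - ∑ k, m k • t k) = 0 := by
        rw [map_sub, map_sum, sub_eq_zero]
        have h := congrArg Subtype.val (B.sum_repr ⟨E p, p, rfl⟩)
        simp only [Submodule.coe_sum, Submodule.coe_smul] at h
        rw [← h]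
        exact Finset.sum_congr rfl fun k _ => by rw [map_zsmul, ht]
      refine ⟨fun k => a * (m k : ℂ), ?_, ?_⟩
      · have h := hE0 _ hp
        rw [map_sub, sub_eq_zero] at h
        rw [hρC, h, map_sum, Finset.smul_sum]
        refine Finset.sum_congr rfl fun k _ => ?_
        rw [map_zsmul, mul_smul, Int.cast_smul_eq_zsmul]
      · have h := hker _ (hE0 _ hp)
        rw [map_sub, sub_eq_zero] at h
        rw [hχC, h, map_sum, Finset.mul_sum]
        refine Finset.sum_congr rfl fun k _ => ?_
        rw [map_zsmul, zsmul_eq_mul, mul_assoc]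
    | add x y hx hy =>
      obtain ⟨z, hz, hz'⟩ := hx
      obtain ⟨z', hz2, hz2'⟩ := hy
      exact ⟨z + z', by simp [hz, hz2, add_smul, Finset.sum_add_distrib],
        by simp [hz', hz2', add_mul, Finset.sum_add_distrib]⟩
  have hkerC : RingHom.ker ρC.toRingHom ≤ RingHom.ker χC.toRingHom := by
    intro x hx
    obtain ⟨z, hz, hz'⟩ := hexp x
    have hx0 : ρC x = 0 := hx
    have hzero : ∑ k, z k • (fun y => ((E (t k)) y : ℂ)) = 0 := by
      funext y
      have h1 : ∑ i, (∑ k, z k * (c (t k) y.1 i : ℂ)) • b i = ∑ i, (0 : ℂ) • b i := by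
        have h2 := LinearMap.congr_fun (hz.symm.trans hx0) (b y.1)
        simp only [LinearMap.coe_sum, Finset.sum_apply, LinearMap.smul_apply,
          LinearMap.zero_apply, hc, Finset.smul_sum, smul_smul] at h2
        rw [Finset.sum_comm] at h2
        simp only [zero_smul, Finset.sum_const_zero, Finset.sum_smul]
        exact h2
      have h3 := congrFun (hinj _ _ h1) y.2
      simpa [E] using h3
    have hz0 := Fintype.linearIndependent_iff.mp hLI z hzero
    show χC x = 0
    rw [hz']
    simp [hz0]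
  have : (RingHom.ker χC.toRingHom).IsPrime := RingHom.ker_isPrime _
  obtain ⟨v, χ', hv, hχ', hk⟩ :=
    FermatLib.Basic.exists_eigenchar_ker_le ρC.toRingHom (RingHom.ker χC.toRingHom) hkerC
  refine ⟨v, hv, fun p => ?_⟩
  have hinjv : Function.Injective fun a : ℂ => a • v := smul_left_injective ℂ hv
  have hconst : χ' (χ' ((1 : ℂ) ⊗ₜ p) ⊗ₜ (1 : P)) = χ' ((1 : ℂ) ⊗ₜ p) := by
    refine hinjv ?_
    have h := hχ' (χ' ((1 : ℂ) ⊗ₜ p) ⊗ₜ (1 : P))
    change ρC _ v = _ at h
    rw [hρC, map_one, LinearMap.smul_apply, Module.End.one_apply] at h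
    exact h.symm
  have hmem := hk (show (1 : ℂ) ⊗ₜ p - χ' ((1 : ℂ) ⊗ₜ p) ⊗ₜ (1 : P) ∈ RingHom.ker χ' by
    rw [RingHom.mem_ker, map_sub, hconst, sub_self])
  change χC _ = 0 at hmem
  rw [map_sub, hχC, hχC, one_mul, map_one, mul_one, sub_eq_zero] at hmem
  have h := hχ' ((1 : ℂ) ⊗ₜ p)
  change ρC _ v = _ at h
  rwa [hρC, one_smul, ← hmem] at h

end FermatLib.Galois
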