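import Mathlib
import Fermat.Prelude.Def_CuspForm_Newforms
import Fermat.Agent.Basic.EigenformLift
import Fermat.Agent.Galois.TransferHecke
import Fermat.Agent.Galois.NewformRepLinIndep

/-!
A Hecke polynomial in the good operators which kills the forms of a lower level but not a given
eigen-system which does not occur there.
-/

set_option autoImplicit false

open ModularFormClass CongruenceSubgroup ModularCurve

namespace FermatLib.Galois

theorem s35_exists_int_qCoeff {M : ℕ} [NeZero M] {f : CuspForm (Gamma0 M) 2}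
    (hf : f ∈ CuspForm.intLattice M 2) (n : ℕ) : ∃ m : ℤ, qCoeff f n = (m : ℂ) := by
  induction hf using Submodule.span_induction with
  | mem g hg => exact hg n
  | zero =>
    refine ⟨0, ?_⟩
    have h := FermatLib.Basic.qCoeff_cusp_smul (0 : ℂ) (0 : CuspForm (Gamma0 M) 2) n
    simpa using h
  | add g g' _ _ h h' =>
    obtain ⟨a, ha⟩ := h
    obtain ⟨b, hb⟩ := h'
    exact ⟨a + b, by rw [FermatLib.Basic.qCoeff_cusp_add, ha, hb]; push_cast; rfl⟩
  | smul c g _ h =>
    obtain ⟨a, ha⟩ := h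
    refine ⟨c * a, ?_⟩
    rw [← Int.cast_smul_eq_zsmul ℂ, FermatLib.Basic.qCoeff_cusp_smul, ha]
    push_cast; rfl

/-- The lattice of forms with integral expansions has a `ℂ`-independent basis. -/
theorem s35_intLattice_linearIndependent {M : ℕ} [NeZero M] {r : ℕ}
    (B : Module.Basis (Fin r) ℤ (CuspForm.intLattice M 2)) :
    LinearIndependent ℂ fun i => (B i : CuspForm (Gamma0 M) 2) := by
  classical
  choose a ha using fun i : Fin r => fun n => s35_exists_int_qCoeff (B i).2 n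
  have hw : LinearIndependent ℤ fun i => a i := by
    rw [Fintype.linearIndependent_iff]
    intro z hz
    refine Fintype.linearIndependent_iff.mp B.linearIndependent z (Subtype.ext ?_)
    rw [Submodule.coe_sum, Submodule.coe_zero]
    refine FermatLib.Basic.cusp_eq_zero_of_qCoeff_eq_zero _ fun n => ?_
    let φ : CuspForm (Gamma0 M) 2 →+ ℂ :=
      AddMonoidHom.mk' (fun g => qCoeff g n) fun g h => FermatLib.Basic.qCoeff_cusp_add g h n
    change φ (∑ i, ((z i • B i : CuspForm.intLattice M 2) : CuspForm (Gamma0 M) 2)) = 0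
    rw [map_sum]
    have h := congrArg (fun v : ℕ → ℤ => ((v n : ℤ) : ℂ)) hz
    simp only [Finset.sum_apply, Pi.smul_apply, smul_eq_mul, Int.cast_sum, Int.cast_mul,
      Pi.zero_apply, Int.cast_zero] at h
    rw [← h]
    refine Finset.sum_congr rfl fun i _ => ?_
    rw [Submodule.coe_smul, map_zsmul, zsmul_eq_mul]
    exact congrArg _ (ha i n)
  have hC := s35_linearIndependent_intCast hw
  rw [Fintype.linearIndependent_iff] at hC ⊢
  intro z hz
  refine hC z (funext fun n => ?_)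
  let φ : CuspForm (Gamma0 M) 2 →ₗ[ℂ] ℂ :=
    { toFun := fun g => qCoeff g n
      map_add' := fun g h => FermatLib.Basic.qCoeff_cusp_add g h n
      map_smul' := fun c g => FermatLib.Basic.qCoeff_cusp_smul c g n }
  have h := congrArg φ hz
  rw [map_zero, map_sum] at h
  simp only [Finset.sum_apply, Pi.smul_apply, smul_eq_mul, Pi.zero_apply]
  refine Eq.trans (Finset.sum_congr rfl fun i _ => ?_) h
  rw [map_smul, smul_eq_mul]
  exact congrArg _ (ha i n).symm

/-- **Separation.** -/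
theorem s35_exists_separating {M N : ℕ} [NeZero M] [NeZero N] (hMN : M ∣ N)
    (hint : CuspForm.HasIntegralStructure M 2)
    (g : CuspForm (Gamma0 N) 2) (hg : ¬ CuspForm.GoodEigensystemOccursAt g M)
    (ξ : CuspForm.heckeAlgebra N 2 {r : ℕ | r ∣ N} →+* ℂ)
    (hξ : ∀ (ℓ : ℕ) (hℓ : ℓ.Prime) (hℓN : ¬ ℓ ∣ N),
      ξ (CuspForm.heckeAlgebra.T hℓ hℓN hℓN) = qCoeff g ℓ) :
    ∃ t : awayHeckeAlg {r : ℕ | r ∣ N}, formsHeckeEval M (t : HeckeAlg) = 0 ∧
      ξ (awayHeckeEval N _ t) ≠ 0 := by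
  classical
  by_contra hcon
  push Not at hcon
  have : Module.Finite ℤ (CuspForm.intLattice M 2) := CuspForm.intLattice.moduleFinite M
  have : Module.Free ℤ (CuspForm.intLattice M 2) := CuspForm.intLattice.moduleFree M
  let B := Module.finBasis ℤ (CuspForm.intLattice M 2)
  let ρ : awayHeckeAlg {r : ℕ | r ∣ N} →+* Module.End ℂ (CuspForm (Gamma0 M) 2) :=
    ((CuspForm.heckeAlgebra M 2 (∅ : Set ℕ)).val.toRingHom.comp (formsHeckeEval M)).comp
      (awayHeckeAlg {r : ℕ | r ∣ N}).val.toRingHom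
  have hspan : Submodule.span ℂ (Set.range fun i => (B i : CuspForm (Gamma0 M) 2)) = ⊤ := by
    rw [eq_top_iff, ← hint, Submodule.span_le]
    intro x hx
    have h := congrArg Subtype.val (B.sum_repr ⟨x, hx⟩)
    rw [Submodule.coe_sum] at h
    rw [SetLike.mem_coe, show x = _ from h.symm]
    refine Submodule.sum_mem _ fun i _ => ?_
    rw [Submodule.coe_smul, ← Int.cast_smul_eq_zsmul ℂ]
    exact Submodule.smul_mem _ _ (Submodule.subset_span ⟨i, rfl⟩)
  have hlat : ∀ (t : awayHeckeAlg {r : ℕ | r ∣ N}) (j : Fin (Module.finrank ℤ (CuspForm.intLattice M 2))),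
      ∃ c : Fin (Module.finrank ℤ (CuspForm.intLattice M 2)) → ℤ,
        ρ t (B j : CuspForm (Gamma0 M) 2) = ∑ i, (c i : ℂ) • (B i : CuspForm (Gamma0 M) 2) := by
    intro t j
    have hmem : ρ t (B j : CuspForm (Gamma0 M) 2) ∈ CuspForm.intLattice M 2 :=
      CuspForm.mem_intLattice_of_mem_heckeAlgebra one_le_two
        (formsHeckeEval M (t : HeckeAlg)).2 (B j).2
    refine ⟨fun i => B.repr ⟨_, hmem⟩ i, ?_⟩
    have h := congrArg Subtype.val (B.sum_repr ⟨_, hmem⟩)
    rw [Submodule.coe_sum] at h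
    refine h.symm.trans (Finset.sum_congr rfl fun i _ => ?_)
    rw [Submodule.coe_smul, Int.cast_smul_eq_zsmul]
  obtain ⟨v, hv, hve⟩ := s35_exists_eigenvector_of_ker_le ρ (fun i => (B i : CuspForm (Gamma0 M) 2))
    (s35_intLattice_linearIndependent B) hspan hlat (ξ.comp (awayHeckeEval N _))
    (fun t ht => hcon t (Subtype.ext ht))
  -- a full eigenvector among the vectors with this character
  let W : Submodule ℂ (CuspForm (Gamma0 M) 2) :=
    ⨅ t, Module.End.eigenspace (ρ t) ((ξ.comp (awayHeckeEval N _)) t)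
  have hvW : v ∈ W := Submodule.mem_iInf _ |>.mpr fun t => Module.End.mem_eigenspace_iff.mpr (hve t)
  have hstab : ∀ (T : CuspForm.heckeAlgebra M 2 (∅ : Set ℕ)), ∀ w ∈ W,
      (T : Module.End ℂ (CuspForm (Gamma0 M) 2)) w ∈ W := by
    intro T w hw
    refine Submodule.mem_iInf _ |>.mpr fun t => Module.End.mem_eigenspace_iff.mpr ?_
    have hw' := Module.End.mem_eigenspace_iff.mp (Submodule.mem_iInf _ |>.mp hw t)
    have hc : (formsHeckeEval M (t : HeckeAlg)) * T = T * formsHeckeEval M (t : HeckeAlg) :=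
      mul_comm' _ _
    have h2 := congrArg (fun z : CuspForm.heckeAlgebra M 2 (∅ : Set ℕ) =>
      (z : Module.End ℂ (CuspForm (Gamma0 M) 2)) w) hc
    change ρ t ((T : Module.End ℂ (CuspForm (Gamma0 M) 2)) w) =
      (T : Module.End ℂ (CuspForm (Gamma0 M) 2)) (ρ t w) at h2
    rw [h2, hw', map_smul]
  let ρW : CuspForm.heckeAlgebra M 2 (∅ : Set ℕ) →+* Module.End ℂ W :=
    { toFun := fun T => (T : Module.End ℂ (CuspForm (Gamma0 M) 2)).restrict (hstab T)
      map_one' := LinearMap.ext fun w => Subtype.ext rfl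
      map_mul' := fun _ _ => LinearMap.ext fun w => Subtype.ext rfl
      map_zero' := LinearMap.ext fun w => Subtype.ext rfl
      map_add' := fun _ _ => LinearMap.ext fun w => Subtype.ext rfl }
  have : FiniteDimensional ℂ (CuspForm (Gamma0 M) 2) :=
    FermatLib.Basic.finiteDimensional_of_hasIntegralStructure hint
  have hne : RingHom.ker ρW ≠ ⊤ := fun h => hv (by
    have h1 : ρW 1 = 0 := RingHom.mem_ker.mp (by rw [h]; trivial)
    rw [map_one] at h1
    exact congrArg Subtype.val (LinearMap.congr_fun h1 ⟨v, hvW⟩))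
  obtain ⟨P, hP, hPle⟩ := Ideal.exists_le_maximal _ hne
  obtain ⟨w, χ, hw, hwe, -⟩ := FermatLib.Basic.exists_eigenchar_ker_le ρW P hPle
  obtain ⟨f, hf, -, hfℓ, -⟩ := FermatLib.Basic.exists_normalizedEigenform_of_eigenchar
    (w : CuspForm (Gamma0 M) 2) (fun h => hw (Subtype.ext h)) χ
    (fun T => congrArg Subtype.val (hwe T))
  refine hg ⟨f, hf, fun ℓ hℓ hℓN => ?_⟩
  have hℓM : ¬ ℓ ∣ M := fun h => hℓN (h.trans hMN)
  rw [hfℓ ℓ hℓ hℓM, ← hξ ℓ hℓ hℓN]
  have hinj : Function.Injective fun a : ℂ => a • w := smul_left_injective ℂ hw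
  refine hinj (Subtype.ext ?_)
  have hmem := Module.End.mem_eigenspace_iff.mp
    (Submodule.mem_iInf _ |>.mp w.2 (awayHeckeGen {r : ℕ | r ∣ N} ℓ))
  rw [show (ξ.comp (awayHeckeEval N _)) (awayHeckeGen {r : ℕ | r ∣ N} ℓ) =
    ξ (CuspForm.heckeAlgebra.T hℓ hℓN hℓN) from
      congrArg ξ (awayHeckeEval_awayHeckeGen N hℓ hℓN hℓN)] at hmem
  refine Eq.trans (congrArg Subtype.val (hwe (CuspForm.heckeAlgebra.T hℓ hℓM
    (Set.notMem_empty ℓ)))).symm ?_
  refine Eq.trans ?_ hmem
  show _ = (formsHeckeEval M (awayHeckeGen {r : ℕ | r ∣ N} ℓ : HeckeAlg) :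
    Module.End ℂ (CuspForm (Gamma0 M) 2)) w
  have hev : formsHeckeEval M (awayHeckeGen {r : ℕ | r ∣ N} ℓ : HeckeAlg) =
      CuspForm.heckeAlgebra.T hℓ hℓM (Set.notMem_empty ℓ) := by
    rw [coe_awayHeckeGen (S := {r : ℕ | r ∣ N}) hℓ hℓN]
    exact (formsHeckeEval_heckeGen M _).trans (dif_neg hℓM)
  rw [hev]
  rfl

end FermatLib.Galois
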