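import Fermat.Agent.Galois.NewformRepS35
import Fermat.Agent.Galois.NewformRepJZero
import Fermat.Agent.Galois.NewformRepSeparate
import Fermat.Agent.Galois.NewformRepExtend
import Fermat.Agent.Galois.EigenformCharacter
import Fermat.Agent.Galois.RepAdic
import Fermat.Agent.Galois.AttachKummer
import Fermat.Agent.Galois.MazurP.DegeneracyHecke
import Fermat.Agent.Modular.IntStruct
import Fermat.Agent.Modular.KummerHecke

/-!
# S35 from one geometric statement on `J₀(qM)`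

The eigenvalue `± q` of Frobenius at a prime exactly dividing the level of a newform, and with it
S35, from the attached representations, the congruence relation and the identity
`(F² - q²)(F² - 1) = 0` on the torsion of `J₀(qM)` killed by both push-forwards to `J₀(M)`.
-/

set_option autoImplicit false
set_option linter.style.haveILetI false

noncomputable section

open Polynomial CongruenceSubgroup ModularCurve ModularFormClass

namespace FermatLib.Galois

local notation "Qbar" => AlgebraicClosure ℚ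
local notation "Γℚ" => (AlgebraicClosure ℚ ≃ₐ[ℚ] AlgebraicClosure ℚ)

/-- On torsion of order prime to `q` of `J₀(qM)` killed by both push-forwards to `J₀(M)`,
`q ∤ M`, the square of a Frobenius element at `q` has no eigenvalues but `1` and `q²`. -/
def SqFrobeniusOnNewPart : Prop :=
  ∀ (q M : ℕ) [Fact q.Prime] [NeZero q] [NeZero M] [NeZero (q * M)], ¬ q ∣ M →
    ∀ (h₁ : M * 1 ∣ q * M) (h₂ : M * q ∣ q * M) (A : ValuationSubring Qbar), A.LiesOverPrime q →
    ∀ σ : Γℚ, A.IsFrobeniusAt σ q → ∀ d : ℕ, 1 ≤ d → ¬ q ∣ d →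
    ∀ x : JZero (q * M), d • x = 0 → MazurP.degPush 1 h₁ x = 0 → MazurP.degPush q h₂ x = 0 →
      σ • σ • σ • σ • x - (q * q + 1) • σ • σ • x + (q * q) • x = 0

/-- A ring map from a domain integral over `ℤ` to a ring of characteristic zero is injective. -/
theorem s35_injective_of_isIntegral {R O : Type*} [CommRing R] [IsDomain R]
    [Algebra.IsIntegral ℤ R] [CommRing O] [IsDomain O] [CharZero O] (f : R →+* O) :
    Function.Injective f := by
  rw [RingHom.injective_iff_ker_eq_bot]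
  refine Ideal.eq_bot_of_comap_eq_bot (R := ℤ) ?_
  ext n
  simp [RingHom.mem_ker]

/-- The range of a map out of a Hecke algebra is finite over `ℤ`. -/
theorem s35_moduleFinite_range {N : ℕ} [NeZero N] {S : Set ℕ} {B : Type*} [CommRing B]
    (ξ : CuspForm.heckeAlgebra N 2 S →+* B) : Module.Finite ℤ ξ.range :=
  haveI := FermatLib.Modular.heckeAlgebra_moduleFinite N 2 S
  Module.Finite.of_surjective ξ.rangeRestrict.toAddMonoidHom.toIntLinearMap
    ξ.rangeRestrict_surjective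

/-- The Hecke algebra away from `S` lies in the one away from the primes of the level. -/
theorem s35_heckeAlgebra_le {N : ℕ} [NeZero N] {S : Finset ℕ}
    (hNS : ∀ r : ℕ, r.Prime → r ∣ N → r ∈ S) :
    CuspForm.heckeAlgebra N 2 (↑S : Set ℕ) ≤ CuspForm.heckeAlgebra N 2 {r : ℕ | r ∣ N} := by
  refine Algebra.adjoin_mono ?_
  rintro T (⟨ℓ, hℓ, hℓN, -, rfl⟩ | ⟨r, hrN, hr, hrS, rfl⟩)
  · exact CuspForm.heckeTLin_mem_heckeGenerators hℓ hℓN hℓN
  · exact absurd (Finset.mem_coe.mpr (hNS r hr hrN)) hrS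

/-- **Eigenvalue `± q`** at a prime exactly dividing the level, in every representation with the
Frobenius data of a form which is new at that prime. -/
theorem s35_root_of_geometry (hgeom : SqFrobeniusOnNewPart)
    {N : ℕ} [NeZero N] {g : CuspForm (Gamma0 N) 2} (lam : ℕ) [Fact lam.Prime]
    (h37 : Attach.SpecializationInput N lam) (S : Finset ℕ)
    (O' : Type) [CommRing O'] [IsDomain O'] [IsDiscreteValuationRing O'] [CharZero O']
    (hlamO' : (lam : O') ∈ IsLocalRing.maximalIdeal O')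
    (chig : CuspForm.heckeAlgebra N 2 (↑S : Set ℕ) →+* ℂ)
    (hchig : ∀ (ℓ : ℕ) (hℓ : ℓ.Prime) (hℓN : ¬ ℓ ∣ N) (hℓS : ℓ ∉ (↑S : Set ℕ)),
      chig (CuspForm.heckeAlgebra.T hℓ hℓN hℓS) = qCoeff g ℓ)
    (iota : chig.range →+* O') (hlamS : lam ∈ S) (hNS : ∀ r : ℕ, r.Prime → r ∣ N → r ∈ S)
    (O : Type) [CommRing O] [IsDomain O] [IsDiscreteValuationRing O]
    [IsAdicComplete (IsLocalRing.maximalIdeal O) O] [Finite (IsLocalRing.ResidueField O)]
    [CharZero O] [Algebra O' O] [IsLocalHom (algebraMap O' O)]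
    (hinj : Function.Injective (algebraMap O' O)) (ρ : GaloisRepAdic O)
    (hgood : ∀ (ℓ : ℕ) (hℓ : ℓ.Prime) (hℓN : ¬ ℓ ∣ N) (hℓS : ℓ ∉ (↑S : Set ℕ)),
      ∀ A : ValuationSubring Qbar, A.LiesOverPrime ℓ → ∀ σ : Γℚ, A.IsFrobeniusAt σ ℓ →
        LinearMap.charpoly (ρ.ρ σ) = X ^ 2 - C (algebraMap O' O ((iota.comp chig.rangeRestrict)
          (CuspForm.heckeAlgebra.T hℓ hℓN hℓS))) * X + C ((ℓ : O)))
    {q : ℕ} (hq : q.Prime) (hqlam : q ≠ lam) (hqN : q ∣ N) (hq2 : ¬ q ^ 2 ∣ N)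
    (hnew : g.IsNewformAt q)
    {A : ValuationSubring Qbar} (hA : A.LiesOverPrime q) {σ : Γℚ} (hσ : A.IsFrobeniusAt σ q) :
    (LinearMap.charpoly (ρ.ρ σ)).IsRoot (q : O) ∨
      (LinearMap.charpoly (ρ.ρ σ)).IsRoot (-(q : O)) := by
  classical
  haveI : Fact q.Prime := ⟨hq⟩
  haveI : NeZero q := ⟨hq.ne_zero⟩
  have hlam : lam.Prime := Fact.out
  obtain ⟨M, rfl⟩ := hqN
  haveI : NeZero M := ⟨fun h => NeZero.ne (q * M) (by rw [h, mul_zero])⟩
  have hqM : ¬ q ∣ M := fun h => hq2 (by rw [sq]; exact mul_dvd_mul_left q h)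
  obtain ⟨hge, -, hocc⟩ := hnew
  rw [Nat.mul_div_cancel_left M hq.pos] at hocc
  -- the character at all good primes
  haveI := FermatLib.Modular.heckeAlgebra_moduleFinite (q * M) 2 {r : ℕ | r ∣ q * M}
  obtain ⟨ξ₀, -, hξT, -⟩ := exists_eigenformCharacter (S := {r : ℕ | r ∣ q * M}) hge
  let ξ : CuspForm.heckeAlgebra (q * M) 2 {r : ℕ | r ∣ q * M} →+* ℂ :=
    (integralClosure ℤ ℂ).val.toRingHom.comp ξ₀
  let incl := Subalgebra.inclusion (s35_heckeAlgebra_le (N := q * M) hNS)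
  have hext : ∀ y, ξ (incl y) = chig y := by
    rintro ⟨y, hy⟩
    induction hy using Algebra.adjoin_induction with
    | mem y hy =>
      rcases hy with ⟨ℓ, hℓ, hℓN, hℓS, rfl⟩ | ⟨r, hrN, hr, hrS, rfl⟩
      · exact (hξT ℓ hℓ hℓN hℓN).trans (hchig ℓ hℓ hℓN hℓS).symm
      · exact absurd (Finset.mem_coe.mpr (hNS r hr hrN)) hrS
    | algebraMap r =>
      show ξ (incl (algebraMap ℤ _ r)) = chig (algebraMap ℤ _ r)
      rw [AlgHom.commutes, eq_intCast, eq_intCast, map_intCast, map_intCast]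
    | add a b ha hb iha ihb =>
      show ξ (incl (⟨a, ha⟩ + ⟨b, hb⟩)) = chig (⟨a, ha⟩ + ⟨b, hb⟩)
      rw [map_add, map_add, map_add, iha, ihb]
    | mul a b ha hb iha ihb =>
      show ξ (incl (⟨a, ha⟩ * ⟨b, hb⟩)) = chig (⟨a, ha⟩ * ⟨b, hb⟩)
      rw [map_mul, map_mul, map_mul, iha, ihb]
  -- enlarge the coefficients
  have hle : chig.range ≤ ξ.range := by
    rintro _ ⟨y, rfl⟩
    exact ⟨incl y, hext y⟩
  haveI := s35_moduleFinite_range chig
  haveI := s35_moduleFinite_range ξ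
  obtain ⟨O₂, _, _, _, _, _, _, _, _, _, hinj₂, ι₂, hι₂⟩ :=
    s35_exists_extension (Subring.inclusion hle) (Subring.inclusion_injective hle) O
      ((algebraMap O' O).comp iota) (hinj.comp (s35_injective_of_isIntegral iota))
  let ρ₂ := ρ.baseChangeAlong (algebraMap O O₂) ‹_›
  have hcp : ∀ s : Γℚ, LinearMap.charpoly (ρ₂.ρ s) =
      (LinearMap.charpoly (ρ.ρ s)).map (algebraMap O O₂) :=
    fun s => charpoly_baseChangeAlong _ _ ρ s
  have hlamO : (lam : O₂) ∈ IsLocalRing.maximalIdeal O₂ := by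
    have h := map_nonunit (algebraMap O O₂) _ (map_nonunit (algebraMap O' O) (lam : O') hlamO')
    rwa [map_natCast, map_natCast] at h
  suffices key : (LinearMap.charpoly (ρ₂.ρ σ)).IsRoot (q : O₂) ∨
      (LinearMap.charpoly (ρ₂.ρ σ)).IsRoot (-(q : O₂)) by
    rw [hcp, ← map_natCast (algebraMap O O₂), ← map_neg, isRoot_map_iff hinj₂,
      isRoot_map_iff hinj₂] at key
    exact key
  -- the separating Hecke polynomial
  obtain ⟨t, ht0, htξ⟩ := s35_exists_separating (M := M) (N := q * M) (dvd_mul_left M q)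
    (FermatLib.Modular.hasIntegralStructure M 2) g hocc ξ fun ℓ hℓ hℓN => hξT ℓ hℓ hℓN hℓN
  have h₁ : M * 1 ∣ q * M := by simp
  have h₂ : M * q ∣ q * M := dvd_of_eq (mul_comm M q)
  have hK : ∀ (L : ℕ) [NeZero L], Attach.KummerHeckeIso L lam := fun L _ =>
    Attach.kummerHeckeIso_of_equiv (FermatLib.Modular.kummerHeckeEquiv L lam hlam)
  refine s35_isRoot_jZero hlam (dvd_mul_left M q) (hK (q * M)) (hK M) h37
    (MazurP.degPush 1 h₁) (MazurP.degPush q h₂) hq hqlam hA hσ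
    (fun k x hx hx₁ hx₂ => hgeom q M hqM h₁ h₂ A hA σ hσ (lam ^ k)
      (Nat.one_le_iff_ne_zero.mpr (pow_ne_zero _ hlam.ne_zero))
      (fun hd => hqlam ((Nat.prime_dvd_prime_iff_eq hq hlam).mp (hq.dvd_of_dvd_pow hd)))
      x hx hx₁ hx₂)
    hlamO ρ₂ hlamS hNS (ι₂.comp ξ.rangeRestrict) ?_ t ht0 ?_
    (MazurP.degPush_one_hecke_smul h₁ t.2) (MazurP.degPush_prime_hecke_smul hqM h₂ t.2)
  · intro ℓ hℓ hℓS B hB τ hτ
    have hℓN : ¬ ℓ ∣ q * M := fun h => hℓS (hNS ℓ hℓ h)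
    have hℓS' : ℓ ∉ (↑S : Set ℕ) := fun h => hℓS (Finset.mem_coe.mp h)
    have hπ : ι₂ (ξ.rangeRestrict (awayHeckeEval (q * M) _
        (awayHeckeGen {r : ℕ | r ∣ q * M} ℓ))) = algebraMap O O₂ (algebraMap O' O
          ((iota.comp chig.rangeRestrict) (CuspForm.heckeAlgebra.T hℓ hℓN hℓS'))) := by
      refine Eq.trans ?_ (hι₂ (chig.rangeRestrict (CuspForm.heckeAlgebra.T hℓ hℓN hℓS')))
      refine congrArg ι₂ (Subtype.ext ?_)
      show ξ (awayHeckeEval _ _ _) = chig _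
      rw [awayHeckeEval_awayHeckeGen (q * M) hℓ hℓN (S := {r : ℕ | r ∣ q * M}) hℓN]
      exact (hξT ℓ hℓ hℓN hℓN).trans (hchig ℓ hℓ hℓN hℓS').symm
    rw [hcp, hgood ℓ hℓ hℓN hℓS' B hB τ hτ, RingHom.comp_apply ι₂, hπ]
    simp [Polynomial.map_sub, Polynomial.map_add, Polynomial.map_mul, Polynomial.map_pow]
  · intro h
    refine htξ ?_
    have hker : ξ.rangeRestrict (awayHeckeEval (q * M) _ t) = 0 :=
      s35_injective_of_isIntegral ι₂ (by rw [map_zero]; exact h)
    exact congrArg Subtype.val hker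

/-- **S35** from attached representations, the congruence relation and the geometric identity. -/
theorem s35_of_geometry (hgeom : SqFrobeniusOnNewPart)
    {M : ℕ} [NeZero M] {g : CuspForm (Gamma0 M) 2} (hg : g.IsNewform)
    (lam : ℕ) [Fact lam.Prime] (h37 : Attach.SpecializationInput M lam)
    (hattach : PadicAttachment)
    (S : Finset ℕ)
    (O' : Type) [CommRing O'] [IsDomain O'] [IsDiscreteValuationRing O']
    [IsAdicComplete (IsLocalRing.maximalIdeal O') O'] [Finite (IsLocalRing.ResidueField O')]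
    [CharZero O'] (hlamO' : (lam : O') ∈ IsLocalRing.maximalIdeal O')
    (chig : CuspForm.heckeAlgebra M 2 (↑S : Set ℕ) →+* ℂ)
    (hchig : ∀ (ℓ : ℕ) (hℓ : ℓ.Prime) (hℓM : ¬ ℓ ∣ M) (hℓS : ℓ ∉ (↑S : Set ℕ)),
      chig (CuspForm.heckeAlgebra.T hℓ hℓM hℓS) = qCoeff g ℓ)
    (iota : chig.range →+* O')
    (hlamS : lam ∈ S) (hMS : ∀ q : ℕ, q.Prime → q ∣ M → q ∈ S) :
    ∃ (O'' : Type) (_ : CommRing O'') (_ : IsDomain O'') (_ : IsDiscreteValuationRing O'')
      (_ : IsAdicComplete (IsLocalRing.maximalIdeal O'') O'')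
      (_ : Finite (IsLocalRing.ResidueField O''))
      (_ : CharZero O'') (_ : Algebra O' O'') (_ : Module.Finite O' O'')
      (_ : IsLocalHom (algebraMap O' O'')),
      Function.Injective (algebraMap O' O'') ∧
      ∃ ρ : GaloisRepAdic O'',
        (∀ (ℓ : ℕ) (hℓ : ℓ.Prime) (hℓM : ¬ ℓ ∣ M) (hℓS : ℓ ∉ (↑S : Set ℕ)),
          ∀ A : ValuationSubring Qbar, A.LiesOverPrime ℓ →
            ∀ σ : Γℚ, A.IsFrobeniusAt σ ℓ →
              LinearMap.charpoly (ρ.ρ σ) = X ^ 2 - C (algebraMap O' O''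
                ((iota.comp chig.rangeRestrict) (CuspForm.heckeAlgebra.T hℓ hℓM hℓS))) * X
                  + C ((ℓ : O''))) ∧
        (∀ q : ℕ, q.Prime → q ≠ lam → q ∣ M → ¬ q ^ 2 ∣ M →
          ∀ A : ValuationSubring Qbar, A.LiesOverPrime q →
            ∀ σ : Γℚ, A.IsFrobeniusAt σ q →
              LinearMap.charpoly (ρ.ρ σ) = X ^ 2 - C ((q : O'') + 1) * X + C ((q : O'')) ∨
              LinearMap.charpoly (ρ.ρ σ) = X ^ 2 + C ((q : O'') + 1) * X + C ((q : O''))) :=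
  s35_of_inputs hg lam S O' hlamO' chig hchig iota hlamS hMS hattach s35_frobeniusDense
    fun O _ _ _ _ _ _ _ _ _ hinj ρ hgood q hq hqlam hqM hq2 hnew _ hA _ hσ =>
      s35_root_of_geometry hgeom lam h37 S O' hlamO' chig hchig iota hlamS hMS O hinj ρ hgood
        hq hqlam hqM hq2 hnew hA hσ

end FermatLib.Galois
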