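import Fermat.Agent.Igusa.SqFrobSheets
import Fermat.Agent.Igusa.MonoTopLift
import Fermat.Agent.Galois.AttachmentProved
import Fermat.Agent.Galois.NewformRepRoot

/-!
# S35 from the top property of the modular two-sheet datum
-/

set_option autoImplicit false
set_option linter.style.haveILetI false
set_option synthInstance.maxHeartbeats 400000

noncomputable section

open AlgebraicCurve ModularCurve

namespace FermatLib.Igusa.Mono

open FermatLib.Modular.Corr

local notation "Qb" => AlgebraicClosure ℚ

attribute [local instance] neZero_mul'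

/-- The top property (`htop` of `monoDatum`) at every level `q M`, `q ∤ M`. -/
def MonoTopProperty : Prop :=
  ∀ (q M : ℕ) [Fact q.Prime] [NeZero q] [NeZero M] (hqM : ¬ q ∣ M) (A : ValuationSubring Qb)
    (hA : A.LiesOverPrime q) [CharP (IsLocalRing.ResidueField A) q],
    ∃ n₀ : ℕ, ∀ n, n₀ ≤ n →
      (∀ f ∈ riemannRochSpace (n • monoP₁ hqM hA),
        ∃ r : modularFunctionFieldFullC (IsLocalRing.ResidueField A) M,
        ((r, 0) : modularFunctionFieldFullC (IsLocalRing.ResidueField A) M ×
            modularFunctionFieldFullC (IsLocalRing.ResidueField A) M) ∈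
          redSpace (monoSheetInf hqM hA) (monoSheetZero hqM hA)
            IsLocalRing.residue_surjective (riemannRochSpace (n • monoPx q M)) ∧
          f - r ∈ riemannRochSpace ((n - 1) • monoP₁ hqM hA)) ∧
      (∀ f ∈ riemannRochSpace (n • monoP₂ hqM hA),
        ∃ r : modularFunctionFieldFullC (IsLocalRing.ResidueField A) M,
        ((0, r) : modularFunctionFieldFullC (IsLocalRing.ResidueField A) M ×
            modularFunctionFieldFullC (IsLocalRing.ResidueField A) M) ∈
          redSpace (monoSheetInf hqM hA) (monoSheetZero hqM hA)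
            IsLocalRing.residue_surjective (riemannRochSpace (n • monoPx q M)) ∧
          f - r ∈ riemannRochSpace ((n - 1) • monoP₂ hqM hA))

theorem sqFrobeniusOnNewPart_of_top (htop : MonoTopProperty) : Galois.SqFrobeniusOnNewPart :=
  sqFrobeniusOnNewPart_of_sheets fun q M _ _ _ hqM A hA => by
    haveI := monoResidue_charP (q := q) hA
    exact ⟨monoDatum hqM hA (mono_lift_exists hqM hA) (htop q M hqM A hA), rfl, rfl, rfl,
      fun _ => rfl⟩

end FermatLib.Igusa.Mono
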