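import Fermat.Agent.Galois.EigenformAttachmentAt
import Fermat.Agent.Modular.HeckeFinite
import Fermat.Agent.EC.Torsion
import Fermat.Agent.Basic.FreyCurveFacts

/-!
# Residual attachment, with Hecke finiteness and finite-level torsion filled in
-/

set_option autoImplicit false

noncomputable section

namespace FermatLib.Galois

theorem exists_residual_attached_of_padicAttachment (hattach : PadicAttachment)
    {N : ℕ} {g : CuspForm (CongruenceSubgroup.Gamma0 N) 2} (hg : g.IsNormalizedEigenform)
    {p : ℕ} (hp : p.Prime) {k : Type} [Field k] [CharP k p]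
    (φ : integralClosure ℤ ℂ →+* k) :
    ∃ ρ : ResidualGaloisRep k, ρ.IsAttachedTo g φ ∧
      ∀ ℓ : ℕ, ℓ.Prime → ¬ ℓ ∣ N * p → ρ.IsUnramifiedAt ℓ :=
  exists_residual_attached hattach
    (fun N _ S => FermatLib.Modular.heckeAlgebra_moduleFinite N 2 S) hg hp φ

theorem eigenformResidualAttachmentAt_of_padicAttachment (hattach : PadicAttachment)
    (P : FreyPackage) (M : ℕ) : P.EigenformResidualAttachmentAt M :=
  haveI := FermatLib.Basic.Frey.freyCurve_isElliptic P
  eigenformResidualAttachmentAt_of hattach
    (fun N _ S => FermatLib.Modular.heckeAlgebra_moduleFinite N 2 S) P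
    (FermatLib.EC.galoisFactorsThroughFiniteLevel_torsion P.freyCurve P.hp0) M

end FermatLib.Galois
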