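import Fermat.Agent.Galois.PlaceBasic
import Fermat.Agent.Basic.FrobeniusExists
import Fermat.Agent.EC.InertiaMinkowski
import Fermat.Agent.Mazur.GunitCyclo
import Mathlib.RingTheory.Invariant.Profinite

/-!
# Places of `ℚ̄` over a rational prime are conjugate
-/

set_option autoImplicit false

open scoped Pointwise

namespace FermatLib.Galois

open FermatLib.Basic

local notation "Qbar" => AlgebraicClosure ℚ
local notation "Γℚ" => (AlgebraicClosure ℚ ≃ₐ[ℚ] AlgebraicClosure ℚ)
local notation "Zbar" => integralClosure ℤ (AlgebraicClosure ℚ)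

local instance placeConjugate_isAlgebraic : Algebra.IsAlgebraic ℚ Qbar :=
  AlgebraicClosure.isAlgebraic ℚ

local instance placeConjugate_isGalois : IsGalois ℚ Qbar :=
  haveI : Normal ℚ Qbar := normal_iff.mpr fun x =>
    ⟨(Algebra.IsAlgebraic.isAlgebraic x).isIntegral, IsAlgClosed.splits _⟩
  ⟨⟩

/-- The places over a rational prime are permuted transitively by the Galois group. -/
theorem exists_smul_eq_of_liesOverPrime {q : ℕ} (hq : q.Prime) {A B : ValuationSubring Qbar}
    (hA : A.LiesOverPrime q) (hB : B.LiesOverPrime q) : ∃ σ : Γℚ, σ • A = B :=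
  exists_smul_place_eq hq hA hB

/-- Inertia of a conjugate place is the conjugate inertia. -/
theorem conj_mem_inertia_smul {q : ℕ} (hq : q.Prime) {A : ValuationSubring Qbar}
    (hA : A.LiesOverPrime q) (g : Γℚ) (hgA : (g • A).LiesOverPrime q) {τ : Γℚ}
    (hτ : τ ∈ A.inertiaSubgroupIn ℚ) : g * τ * g⁻¹ ∈ (g • A).inertiaSubgroupIn ℚ := by
  refine FermatLib.EC.mem_inertiaSubgroupIn_of_forall_isIntegral (g • A) hq hgA fun b hb => ?_
  have hb' : IsIntegral ℤ (g⁻¹ b) := hb.map ((g⁻¹ : Γℚ).restrictScalars ℤ)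
  have h := FermatLib.EC.sub_mem_nonunits_of_mem_inertiaSubgroupIn A hτ
    (valuationSubring_mem_of_isIntegral A hb')
  have hint : IsIntegral ℤ ((g * τ * g⁻¹) b - b) :=
    (hb.map ((g * τ * g⁻¹).restrictScalars ℤ)).sub hb
  change ((⟨_, hint⟩ : Zbar) : Qbar) ∈ (g • A).nonunits
  rw [← mem_centerIdeal_iff, centerIdeal_smul, Ideal.mem_pointwise_smul_iff_inv_smul_mem,
    mem_centerIdeal_iff]
  show g⁻¹ ((g * τ * g⁻¹) b - b) ∈ A.nonunits
  simpa [map_sub] using h

/-- The mod `p` cyclotomic character is surjective on inertia at every place over `p`. -/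
theorem cycloChar_surjective_on_inertia (p : ℕ) [Fact p.Prime] {A : ValuationSubring Qbar}
    (hA : A.LiesOverPrime p) (u : (ZMod p)ˣ) :
    ∃ τ ∈ A.inertiaSubgroupIn ℚ, ExtCitation.cycloChar p τ = u := by
  have hp : p.Prime := Fact.out
  let I : Subgroup (ZMod p)ˣ := (A.inertiaSubgroupIn ℚ).map (ExtCitation.cycloChar p)
  obtain ⟨ζ, hζ⟩ := FermatLib.Mazur.exists_isPrimitiveRoot_qbar p
  haveI : FiniteDimensional ℚ (IntermediateField.adjoin ℚ {ζ}) :=
    IntermediateField.adjoin.finiteDimensional (Algebra.IsAlgebraic.isAlgebraic ζ).isIntegral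
  have hH : I.comap (ExtCitation.cycloChar p) = ⊤ := by
    refine FermatLib.EC.eq_top_of_forall_inertia_le _ (IntermediateField.adjoin ℚ {ζ})
      (fun σ hσ => ?_) fun q hq B hB σ hσ => ?_
    · rw [Subgroup.mem_comap, (FermatLib.Mazur.cycloChar_eq_one_iff p hζ σ).mpr
        ((IntermediateField.mem_fixingSubgroup_iff _ σ).mp hσ ζ
          (IntermediateField.mem_adjoin_simple_self ℚ ζ))]
      exact one_mem I
    · rw [Subgroup.mem_comap]
      by_cases hqp : q = p
      · subst hqp
        obtain ⟨g, rfl⟩ := exists_smul_eq_of_liesOverPrime hp hB hA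
        refine ⟨g * σ * g⁻¹, conj_mem_inertia_smul hp hB g hA hσ, ?_⟩
        rw [map_mul, map_mul, map_inv, mul_comm, inv_mul_cancel_left]
      · rw [FermatLib.Mazur.cycloChar_eq_one_of_mem_inertia p hq hqp hB hσ]
        exact one_mem I
  obtain ⟨σ, hσ⟩ := FermatLib.Mazur.cycloChar_surjective p u
  have : σ ∈ I.comap (ExtCitation.cycloChar p) := hH ▸ Subgroup.mem_top σ
  exact hσ ▸ this

end FermatLib.Galois
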