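import Fermat.Agent.Basic.FrobeniusExists
import Mathlib.FieldTheory.IsAlgClosed.Basic
import Mathlib.FieldTheory.Finite.Basic
import Mathlib.Algebra.Algebra.ZMod

/-!
# Places of `ℚ̄` over a prime

Valuation subrings of `ℚ̄` over a rational prime: they are determined by their centre on the
algebraic integers, the Galois group (of any subfield) permutes transitively those with a given
trace on the subfield, the residue field is an algebraic closure of the prime field, and the
decomposition group surjects onto its automorphism group.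
-/

set_option autoImplicit false

open scoped Pointwise

namespace FermatLib.Galois

open FermatLib.Basic

local notation "Qbar" => AlgebraicClosure ℚ
local notation "Γℚ" => (AlgebraicClosure ℚ ≃ₐ[ℚ] AlgebraicClosure ℚ)
local notation "Zbar" => integralClosure ℤ (AlgebraicClosure ℚ)

local instance placeBasic_isAlgebraic : Algebra.IsAlgebraic ℚ Qbar :=
  AlgebraicClosure.isAlgebraic ℚ

local instance placeBasic_isGalois : IsGalois ℚ Qbar :=
  haveI : IsAlgClosure ℚ Qbar := ⟨inferInstance, inferInstance⟩
  haveI : Normal ℚ Qbar := IsAlgClosure.normal ℚ Qbar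
  ⟨⟩

section General

variable {L : Type*} [Field L] {K : Type*} [Field K] [Algebra K L]

/-- Membership in the translate of a place. -/
lemma mem_smul_place {g : L ≃ₐ[K] L} {A : ValuationSubring L} {x : L} :
    x ∈ g • A ↔ g⁻¹ x ∈ A :=
  ValuationSubring.mem_pointwise_smul_iff_inv_smul_mem

/-- The maximal ideal of the translate of a place. -/
lemma mem_nonunits_smul_place {g : L ≃ₐ[K] L} {A : ValuationSubring L} {x : L} :
    x ∈ (g • A).nonunits ↔ g⁻¹ x ∈ A.nonunits := by
  rw [ValuationSubring.mem_nonunits_iff_or, ValuationSubring.mem_nonunits_iff_or, mem_smul_place,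
    map_inv₀, EmbeddingLike.map_eq_zero_iff]

/-- Translation preserves the prime under a place. -/
lemma liesOverPrime_smul_iff {g : L ≃ₐ[K] L} {A : ValuationSubring L} {q : ℕ} :
    (g • A).LiesOverPrime q ↔ A.LiesOverPrime q := by
  rw [ValuationSubring.LiesOverPrime, mem_nonunits_smul_place, map_natCast]
  rfl

/-- An element of the decomposition group maps the place to itself. -/
lemma decomposition_apply_mem {σ : L ≃ₐ[K] L} {A : ValuationSubring L}
    (hσ : σ ∈ A.decompositionSubgroup K) {x : L} : σ x ∈ A ↔ x ∈ A := by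
  have h : σ • A = A := hσ
  conv_lhs => rw [← h, mem_smul_place, ← AlgEquiv.mul_apply, inv_mul_cancel, AlgEquiv.one_apply]

/-- The decomposition group of a translate is the conjugate. -/
lemma mem_decompositionSubgroup_smul {g σ : L ≃ₐ[K] L} {A : ValuationSubring L} :
    σ ∈ (g • A).decompositionSubgroup K ↔ g⁻¹ * σ * g ∈ A.decompositionSubgroup K := by
  simp only [MulAction.mem_stabilizer_iff, mul_smul, inv_smul_eq_iff]

/-- The residue of an element of a place vanishes exactly on the maximal ideal. -/
lemma residue_eq_zero_iff_nonunits {A : ValuationSubring L} {x : A} :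
    IsLocalRing.residue A x = 0 ↔ (x : L) ∈ A.nonunits :=
  (IsLocalRing.residue_eq_zero_iff x).trans A.coe_mem_nonunits_iff.symm

/-- The action of the decomposition group on residues. -/
lemma decomposition_smul_residue {A : ValuationSubring L} (g : A.decompositionSubgroup K) {x : L}
    (hx : x ∈ A) :
    g • IsLocalRing.residue A ⟨x, hx⟩ =
      IsLocalRing.residue A ⟨g.1 x, (decomposition_apply_mem g.2).mpr hx⟩ :=
  by
  rw [← IsLocalRing.ResidueField.residue_smul]; rfl

/-- Integral elements lie in every place. -/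
lemma integral_mem_place (A : ValuationSubring L) {x : L} (hx : IsIntegral ℤ x) : x ∈ A :=
  valuationSubring_mem_of_isIntegral A hx

/-- A rational integer is in the maximal ideal of a place over `q` exactly when `q` divides it. -/
lemma intCast_mem_nonunits_iff {A : ValuationSubring L} {q : ℕ} (hq : q.Prime)
    (hA : A.LiesOverPrime q) (n : ℤ) : (n : L) ∈ A.nonunits ↔ (q : ℤ) ∣ n := by
  have h : ((IsLocalRing.maximalIdeal A).comap (Int.castRingHom A)) = Ideal.span {(q : ℤ)} := by
    refine ((PrincipalIdealRing.isMaximal_of_irreducible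
      (Nat.prime_iff_prime_int.mp hq).irreducible).eq_of_le
      (Ideal.comap_ne_top _ Ideal.IsPrime.ne_top') ?_).symm
    rw [Ideal.span_singleton_le_iff_mem, Ideal.mem_comap]
    exact A.coe_mem_nonunits_iff.mp (by simpa [ValuationSubring.LiesOverPrime] using hA)
  rw [← Ideal.mem_span_singleton, ← h, Ideal.mem_comap]
  exact A.coe_mem_nonunits_iff (a := (n : A))

/-- A natural number is in the maximal ideal of a place over `q` exactly when `q` divides it. -/
lemma natCast_mem_nonunits_iff {A : ValuationSubring L} {q : ℕ} (hq : q.Prime)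
    (hA : A.LiesOverPrime q) (n : ℕ) : (n : L) ∈ A.nonunits ↔ q ∣ n := by
  rw [← Int.natCast_dvd_natCast, ← intCast_mem_nonunits_iff hq hA, Int.cast_natCast]

/-- The residue field of a place over `q` has characteristic `q`. -/
theorem charP_residueField {A : ValuationSubring L} {q : ℕ} (hq : q.Prime)
    (hA : A.LiesOverPrime q) : CharP (IsLocalRing.ResidueField A) q := by
  refine ⟨fun n => ?_⟩
  rw [← map_natCast (IsLocalRing.residue A), residue_eq_zero_iff_nonunits,
    ← natCast_mem_nonunits_iff hq hA]
  simp

/-- The residue field of a place of an algebraically closed field is algebraically closed. -/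
theorem isAlgClosed_residueField [IsAlgClosed L] (A : ValuationSubring L) :
    IsAlgClosed (IsLocalRing.ResidueField A) := by
  refine IsAlgClosed.of_exists_root _ fun p hp hirr => ?_
  obtain ⟨P, hPp, hPdeg, hPmon⟩ := Polynomial.lifts_and_degree_eq_and_monic
    (Polynomial.map_surjective (IsLocalRing.residue A) IsLocalRing.residue_surjective p) hp
  have hdeg : (P.map A.subtype).degree ≠ 0 := by
    rw [hPmon.degree_map, hPdeg]
    exact hirr.degree_pos.ne'
  obtain ⟨z, hz⟩ := IsAlgClosed.exists_root (P.map A.subtype) hdeg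
  have hzint : IsIntegral A z := ⟨P, hPmon, by rwa [Polynomial.IsRoot, Polynomial.eval_map] at hz⟩
  obtain ⟨y, rfl⟩ := IsIntegrallyClosed.isIntegral_iff.mp hzint
  refine ⟨IsLocalRing.residue A y, ?_⟩
  rw [Polynomial.IsRoot, Polynomial.eval_map] at hz
  change P.eval₂ A.subtype (A.subtype y) = 0 at hz
  rw [Polynomial.eval₂_at_apply] at hz
  rw [← hPp, Polynomial.eval_map, Polynomial.eval₂_at_apply,
    show P.eval y = 0 from Subtype.ext hz, map_zero]

end General

/-! ## Places of `ℚ̄` -/

/-- A place is determined by its maximal ideal on algebraic integers. -/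
theorem place_eq_of_forall_isIntegral {A A' : ValuationSubring Qbar}
    (h : ∀ b : Qbar, IsIntegral ℤ b → (b ∈ A.nonunits ↔ b ∈ A'.nonunits)) : A = A' := by
  have key : ∀ {A A' : ValuationSubring Qbar},
      (∀ b : Qbar, IsIntegral ℤ b → (b ∈ A.nonunits ↔ b ∈ A'.nonunits)) → A ≤ A' := by
    intro A A' h x hx
    obtain ⟨b, c, hb, hc, hbu, hbc⟩ := exists_isIntegral_div A hx
    have hbu' : b ∉ A'.nonunits := fun hb' => hbu ((h b hb).mpr hb')
    rw [ValuationSubring.mem_nonunits_iff_or, not_or, not_not] at hbu'
    rw [show x = b⁻¹ * c by rw [← hbc, ← mul_assoc, inv_mul_cancel₀ hbu'.1, one_mul]]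
    exact mul_mem hbu'.2 (integral_mem_place A' hc)
  exact le_antisymm (key h) (key fun b hb => (h b hb).symm)

/-- A place is determined by its centre. -/
theorem place_eq_of_centerIdeal_eq {A A' : ValuationSubring Qbar}
    (h : centerIdeal A = centerIdeal A') : A = A' :=
  place_eq_of_forall_isIntegral fun b hb => by
    rw [← mem_centerIdeal_iff (x := ⟨b, hb⟩), h, mem_centerIdeal_iff]

/-- The centre of a translate. -/
theorem centerIdeal_smul (g : Γℚ) (A : ValuationSubring Qbar) :
    centerIdeal (g • A) = g • centerIdeal A := by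
  ext x
  rw [mem_centerIdeal_iff, mem_nonunits_smul_place, Ideal.mem_pointwise_smul_iff_inv_smul_mem,
    mem_centerIdeal_iff]
  rfl

/-- The centre of a place over a prime is maximal. -/
theorem centerIdeal_isMaximal {A : ValuationSubring Qbar} {q : ℕ} (hq : q.Prime)
    (hA : A.LiesOverPrime q) : (centerIdeal A).IsMaximal := by
  have : Algebra.IsIntegral ℤ Zbar := inferInstance
  refine Ideal.isMaximal_of_isIntegral_of_isMaximal_comap (R := ℤ) (centerIdeal A) ?_
  have h : (centerIdeal A).comap (algebraMap ℤ Zbar) = Ideal.span {(q : ℤ)} := by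
    ext n
    rw [Ideal.mem_comap, mem_centerIdeal_iff, Ideal.mem_span_singleton,
      ← intCast_mem_nonunits_iff hq hA]
    simp
  rw [h]
  exact PrincipalIdealRing.isMaximal_of_irreducible (Nat.prime_iff_prime_int.mp hq).irreducible

/-- The residue map on algebraic integers. -/
noncomputable def residueIntegers (A : ValuationSubring Qbar) :
    Zbar →+* IsLocalRing.ResidueField A :=
  (IsLocalRing.residue A).comp (integersToValuationSubring A)

lemma ker_residueIntegers (A : ValuationSubring Qbar) :
    RingHom.ker (residueIntegers A) = centerIdeal A := by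
  ext x
  exact IsLocalRing.residue_eq_zero_iff _

/-- Every residue class is the class of an algebraic integer. -/
theorem residueIntegers_surjective {A : ValuationSubring Qbar} {q : ℕ} (hq : q.Prime)
    (hA : A.LiesOverPrime q) : Function.Surjective (residueIntegers A) := by
  intro r
  obtain ⟨⟨x, hx⟩, rfl⟩ := IsLocalRing.residue_surjective r
  obtain ⟨b, c, hb, hc, hbu, hbc⟩ := exists_isIntegral_div A hx
  have hne : residueIntegers A ⟨b, hb⟩ ≠ 0 := by
    rw [Ne, ← RingHom.mem_ker, ker_residueIntegers, mem_centerIdeal_iff]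
    exact hbu
  obtain ⟨y, i, hi, hyi⟩ := (centerIdeal_isMaximal hq hA).exists_inv
    (x := (⟨b, hb⟩ : Zbar)) (by rwa [← ker_residueIntegers, RingHom.mem_ker])
  refine ⟨⟨c, hc⟩ * y, mul_left_cancel₀ hne ?_⟩
  have hy : residueIntegers A y * residueIntegers A ⟨b, hb⟩ = 1 := by
    have hi0 : residueIntegers A i = 0 := by
      rwa [← RingHom.mem_ker, ker_residueIntegers]
    have := congrArg (residueIntegers A) hyi
    rwa [map_add, map_mul, map_one, hi0, add_zero] at this
  rw [map_mul, mul_left_comm, mul_comm (residueIntegers A _) (residueIntegers A y), hy, mul_one]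
  change IsLocalRing.residue A _ = IsLocalRing.residue A _ * IsLocalRing.residue A _
  rw [← map_mul]
  exact congrArg _ (Subtype.ext hbc.symm)

/-- The residue field of a place over `q` is algebraic over the prime field. -/
theorem residue_pow_card_eq {A : ValuationSubring Qbar} {q : ℕ} (hq : q.Prime)
    (hA : A.LiesOverPrime q) (r : IsLocalRing.ResidueField A) :
    ∃ n : ℕ, 0 < n ∧ r ^ q ^ n = r := by
  have : Fact q.Prime := ⟨hq⟩
  have := charP_residueField hq hA
  obtain ⟨x, rfl⟩ := residueIntegers_surjective hq hA r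
  obtain ⟨f, hf, hf0⟩ := Algebra.IsIntegral.isIntegral (R := ℤ) x
  replace hf0 : f.eval₂ (Int.castRingHom (IsLocalRing.ResidueField A)) (residueIntegers A x) = 0 := by
    have h := congrArg (residueIntegers A) hf0
    rwa [Polynomial.hom_eval₂, map_zero, RingHom.ext_int ((residueIntegers A).comp _)
      (Int.castRingHom _)] at h
  let : Algebra (ZMod q) (IsLocalRing.ResidueField A) := ZMod.algebra _ q
  have hint : IsIntegral (ZMod q) (residueIntegers A x) := by
    refine ⟨f.map (Int.castRingHom (ZMod q)), hf.map _, ?_⟩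
    rw [Polynomial.eval₂_map, RingHom.ext_int (RingHom.comp _ _) (Int.castRingHom _)]
    exact hf0
  let E := IntermediateField.adjoin (ZMod q) {residueIntegers A x}
  have : FiniteDimensional (ZMod q) E := IntermediateField.adjoin.finiteDimensional hint
  have : Finite E := Module.finite_of_finite (ZMod q)
  let : Fintype E := Fintype.ofFinite E
  have : CharP E q := charP_of_injective_algebraMap (algebraMap (ZMod q) E).injective q
  obtain ⟨n, -, hn⟩ := FiniteField.card E q
  refine ⟨n, n.pos, ?_⟩
  have := congrArg Subtype.val (FiniteField.pow_card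
    (⟨_, IntermediateField.mem_adjoin_simple_self (ZMod q) (residueIntegers A x)⟩ : E))
  rwa [hn] at this

section Subfield

variable (K : IntermediateField ℚ Qbar)

local notation "G'" => IntermediateField.fixingSubgroup K
local notation "B₀" => FixedPoints.subring Zbar (IntermediateField.fixingSubgroup K)

/-- The algebraic integers fixed by the Galois group of `K` lie in `K`. -/
lemma coe_mem_of_mem_fixedPoints (a : B₀) : ((a : Zbar) : Qbar) ∈ K := by
  refine (InfiniteGalois.fixedField_fixingSubgroup K).le ?_
  rw [IntermediateField.mem_fixedField_iff]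
  intro f hf
  exact congrArg Subtype.val (a.2 ⟨f, hf⟩)

lemma smulCommClass_fixedPoints : SMulCommClass G' B₀ Zbar := ⟨fun g a b => by
  change g • ((a : Zbar) * b) = (a : Zbar) * g • b
  rw [smul_mul', a.2 g]⟩

/-- The Galois group of `K` is transitive on the places with a given trace on `K`. -/
theorem exists_fixing_smul_place_eq (A A' : ValuationSubring Qbar)
    (h : ∀ x ∈ K, IsIntegral ℤ x → (x ∈ A.nonunits ↔ x ∈ A'.nonunits)) :
    ∃ g ∈ K.fixingSubgroup, g • A = A' := by
  haveI : CompactSpace G' :=
    isCompact_iff_compactSpace.mp (InfiniteGalois.fixingSubgroup_isClosed K).isCompact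
  let _ : TopologicalSpace Zbar := ⊥
  haveI : DiscreteTopology Zbar := ⟨rfl⟩
  haveI : ContinuousSMul G' Zbar := continuousSMul_iff_stabilizer_isOpen.mpr fun b => by
    have heq : (MulAction.stabilizer G' b : Set G') =
        Subtype.val ⁻¹' (MulAction.stabilizer Γℚ (b : Qbar) : Set _) := by
      ext g
      simp only [SetLike.mem_coe, Set.mem_preimage, MulAction.mem_stabilizer_iff]
      exact ⟨fun h => congrArg Subtype.val h, fun h => Subtype.ext h⟩
    rw [heq]
    exact (stabilizer_isOpen_of_isIntegral (b : Qbar)).preimage continuous_subtype_val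
  haveI := smulCommClass_fixedPoints K
  haveI : Algebra.IsInvariant B₀ Zbar G' := ⟨fun b hb => ⟨⟨b, hb⟩, rfl⟩⟩
  have hunder : (centerIdeal A).under B₀ = (centerIdeal A').under B₀ := by
    ext a
    change (a : Zbar) ∈ centerIdeal A ↔ (a : Zbar) ∈ centerIdeal A'
    rw [mem_centerIdeal_iff, mem_centerIdeal_iff]
    exact h _ (coe_mem_of_mem_fixedPoints K a) (a : Zbar).2
  obtain ⟨g, hg⟩ :=
    Algebra.IsInvariant.exists_smul_of_under_eq_of_profinite (A := B₀) (G := G') _ _ hunder
  refine ⟨g.1, g.2, place_eq_of_centerIdeal_eq ?_⟩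
  rw [centerIdeal_smul]
  exact hg.symm

/-- An automorphism of the residue field fixing the residues of integers of `K` is induced by an
element of the decomposition group fixing `K`. -/
theorem exists_decomposition_residue_eq {A : ValuationSubring Qbar} {q : ℕ} (hq : q.Prime)
    (hA : A.LiesOverPrime q) (e : IsLocalRing.ResidueField A ≃+* IsLocalRing.ResidueField A)
    (h : ∀ x : Zbar, (x : Qbar) ∈ K → e (residueIntegers A x) = residueIntegers A x) :
    ∃ g : A.decompositionSubgroup ℚ, g.1 ∈ K.fixingSubgroup ∧ ∀ r, g • r = e r := by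
  haveI : CompactSpace G' :=
    isCompact_iff_compactSpace.mp (InfiniteGalois.fixingSubgroup_isClosed K).isCompact
  let _ : TopologicalSpace Zbar := ⊥
  haveI : DiscreteTopology Zbar := ⟨rfl⟩
  haveI : ContinuousSMul G' Zbar := continuousSMul_iff_stabilizer_isOpen.mpr fun b => by
    have heq : (MulAction.stabilizer G' b : Set G') =
        Subtype.val ⁻¹' (MulAction.stabilizer Γℚ (b : Qbar) : Set _) := by
      ext g
      simp only [SetLike.mem_coe, Set.mem_preimage, MulAction.mem_stabilizer_iff]
      exact ⟨fun h => congrArg Subtype.val h, fun h => Subtype.ext h⟩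
    rw [heq]
    exact (stabilizer_isOpen_of_isIntegral (b : Qbar)).preimage continuous_subtype_val
  haveI := smulCommClass_fixedPoints K
  haveI : Algebra.IsInvariant B₀ Zbar G' := ⟨fun b hb => ⟨⟨b, hb⟩, rfl⟩⟩
  let Q := centerIdeal A
  let φ : (Zbar ⧸ Q) ≃+* IsLocalRing.ResidueField A :=
    (Ideal.quotEquivOfEq (ker_residueIntegers A).symm).trans
      (RingHom.quotientKerEquivOfSurjective (residueIntegers_surjective hq hA))
  have hφ : ∀ z, φ (Ideal.Quotient.mk Q z) = residueIntegers A z := fun z => rfl
  haveI : Q.LiesOver (Q.under B₀) := ⟨rfl⟩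
  let f : (Zbar ⧸ Q) ≃ₐ[B₀ ⧸ Q.under B₀] (Zbar ⧸ Q) :=
    AlgEquiv.ofRingEquiv (f := (φ.trans e).trans φ.symm) fun r => by
      obtain ⟨a, rfl⟩ := Ideal.Quotient.mk_surjective r
      change φ.symm (e (φ (Ideal.Quotient.mk Q (a : Zbar)))) = Ideal.Quotient.mk Q (a : Zbar)
      rw [RingEquiv.symm_apply_eq, hφ]
      exact h _ (coe_mem_of_mem_fixedPoints K a)
  obtain ⟨g, hg⟩ :=
    Ideal.Quotient.stabilizerHom_surjective_of_profinite (G := G') (Q.under B₀) Q f
  have hgA : g.1.1 • A = A := smul_eq_of_smul_centerIdeal_eq g.2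
  refine ⟨⟨g.1.1, hgA⟩, g.1.2, fun r => ?_⟩
  obtain ⟨z, rfl⟩ := residueIntegers_surjective hq hA r
  have h1 : Ideal.Quotient.mk Q (g.1.1 • z) = φ.symm (e (φ (Ideal.Quotient.mk Q z))) :=
    AlgEquiv.congr_fun hg (Ideal.Quotient.mk Q z)
  rw [RingEquiv.eq_symm_apply, hφ, hφ] at h1
  rw [← h1]
  exact decomposition_smul_residue (⟨g.1.1, hgA⟩ : A.decompositionSubgroup ℚ) _

end Subfield

/-- The Galois group is transitive on the places over a prime. -/
theorem exists_smul_place_eq {A A' : ValuationSubring Qbar} {q : ℕ} (hq : q.Prime)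
    (hA : A.LiesOverPrime q) (hA' : A'.LiesOverPrime q) : ∃ g : Γℚ, g • A = A' := by
  obtain ⟨g, -, hg⟩ := exists_fixing_smul_place_eq ⊥ A A' fun x hx hint => by
    obtain ⟨r, rfl⟩ := IntermediateField.mem_bot.mp hx
    obtain ⟨n, rfl⟩ := IsIntegrallyClosed.isIntegral_iff.mp
      ((isIntegral_algebraMap_iff (algebraMap ℚ Qbar).injective).mp hint)
    rw [← IsScalarTower.algebraMap_apply, eq_intCast, intCast_mem_nonunits_iff hq hA,
      intCast_mem_nonunits_iff hq hA']
  exact ⟨g, hg⟩

end FermatLib.Galois
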