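import Mathlib.RingTheory.Filtration
import Mathlib.LinearAlgebra.Matrix.Charpoly.Coeff
import Fermat.Prelude.Def_GaloisRep_Adic
import Fermat.Agent.Galois.FrobeniusDensity

/-!
# Two-dimensional representations with equal characteristic polynomials at Frobenius

If two continuous two-dimensional representations of the Galois group of `ℚ` have equal
characteristic polynomials at all Frobenius elements outside a finite set of primes, then they
have equal characteristic polynomials everywhere.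
-/

set_option autoImplicit false

open Polynomial

namespace FermatLib.Galois

local notation "Qbar" => AlgebraicClosure ℚ
local notation "Γℚ" => (AlgebraicClosure ℚ ≃ₐ[ℚ] AlgebraicClosure ℚ)

/-- Two by two matrices with equal characteristic polynomials have powers with equal
characteristic polynomials. -/
theorem charpoly_pow_eq_of_charpoly_eq {R : Type*} [CommRing R] [Nontrivial R]
    {M N : Matrix (Fin 2) (Fin 2) R} (h : M.charpoly = N.charpoly) (b : ℕ) :
    (M ^ b).charpoly = (N ^ b).charpoly := by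
  have h0 := congrArg (fun p : R[X] => p.coeff 0) h
  have h1 := congrArg (fun p : R[X] => p.coeff 1) h
  simp only [Matrix.charpoly_fin_two] at h0 h1
  have hd : M.det = N.det := by simpa using h0
  have ht : M.trace = N.trace := by simpa [coeff_X_pow] using h1
  have hrec : ∀ (A : Matrix (Fin 2) (Fin 2) R) (k : ℕ),
      (A ^ (k + 2)).trace = A.trace * (A ^ (k + 1)).trace - A.det * (A ^ k).trace := by
    intro A k
    have hA : A * A = A.trace • A - A.det • (1 : Matrix (Fin 2) (Fin 2) R) := by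
      ext i j
      fin_cases i <;> fin_cases j <;>
        simp [Matrix.mul_apply, Fin.sum_univ_two, Matrix.det_fin_two, Matrix.trace_fin_two] <;> ring
    rw [pow_add, pow_two, hA, mul_sub, mul_smul_comm, mul_smul_comm, mul_one, ← pow_succ,
      Matrix.trace_sub, Matrix.trace_smul, Matrix.trace_smul, smul_eq_mul, smul_eq_mul]
  have key : ∀ k : ℕ, (M ^ k).trace = (N ^ k).trace := by
    intro k
    induction k using Nat.twoStepInduction with
    | zero => simp
    | one => simpa using ht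
    | more k ihk ihk1 => rw [hrec M k, hrec N k, ht, hd, ihk, ihk1]
  rw [Matrix.charpoly_fin_two, Matrix.charpoly_fin_two, key b, Matrix.det_pow, Matrix.det_pow, hd]

theorem matrix_charpoly_eq_of_frobenius {R : Type} [CommRing R] [Nontrivial R]
    (r r' : Γℚ →* Matrix (Fin 2) (Fin 2) R)
    (hr : GaloisFactorsThroughFiniteLevel r) (hr' : GaloisFactorsThroughFiniteLevel r')
    (S : Finset ℕ)
    (h : ∀ ℓ : ℕ, ℓ.Prime → ℓ ∉ S → ∀ A : ValuationSubring Qbar, A.LiesOverPrime ℓ →
      ∀ σ : Γℚ, A.IsFrobeniusAt σ ℓ → (r σ).charpoly = (r' σ).charpoly)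
    (g : Γℚ) : (r g).charpoly = (r' g).charpoly := by
  obtain ⟨L, hL, hL1⟩ := hr
  obtain ⟨L', hL', hL1'⟩ := hr'
  have key : ∀ {M : Type} [Monoid M] (ρ : Γℚ →* M) (E : IntermediateField ℚ Qbar),
      (∀ σ : Γℚ, (∀ x ∈ E, σ x = x) → ρ σ = 1) →
      ∀ u v : Γℚ, (∀ x ∈ E, u x = v x) → ρ u = ρ v := by
    intro M _ ρ E hE u v huv
    have h1 : ρ (u⁻¹ * v) = 1 := hE _ fun x hx => by
      rw [AlgEquiv.mul_apply, ← huv x hx, ← AlgEquiv.mul_apply, inv_mul_cancel, AlgEquiv.one_apply]
    calc ρ u = ρ u * ρ (u⁻¹ * v) := by rw [h1, mul_one]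
      _ = ρ v := by rw [← map_mul, mul_inv_cancel_left]
  refine forall_of_forall_isFrobeniusAt (P := fun σ => (r σ).charpoly = (r' σ).charpoly) S
    (L ⊔ L') (fun u v huv hu => ?_) (fun σ b hσ => ?_) h g
  · rwa [← key r L hL1 u v fun x hx => huv x ((le_sup_left : L ≤ L ⊔ L') hx),
      ← key r' L' hL1' u v fun x hx => huv x ((le_sup_right : L' ≤ L ⊔ L') hx)]
  · rw [map_pow, map_pow]
    exact charpoly_pow_eq_of_charpoly_eq hσ b

/-- The matrices of a rank-two representation in a basis. -/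
noncomputable def densityMatrixRep {R : Type} [CommRing R] {V : Type} [AddCommGroup V] [Module R V]
    (b : Module.Basis (Fin 2) R V) (ρ : Γℚ →* Module.End R V) :
    Γℚ →* Matrix (Fin 2) (Fin 2) R :=
  ((LinearMap.toMatrixAlgEquiv b).toAlgHom.toRingHom.toMonoidHom).comp ρ

theorem charpoly_densityMatrixRep {R : Type} [CommRing R] [Nontrivial R] {V : Type} [AddCommGroup V]
    [Module R V] [Module.Free R V] [Module.Finite R V]
    (b : Module.Basis (Fin 2) R V) (ρ : Γℚ →* Module.End R V) (σ : Γℚ) :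
    (densityMatrixRep b ρ σ).charpoly = LinearMap.charpoly (ρ σ) :=
  LinearMap.charpoly_toMatrix (ρ σ) b

/-- Two rank-two representations with finite image (through a finite level) and the same
characteristic polynomials at Frobenius have the same characteristic polynomials. -/
theorem charpoly_eq_of_frobenius {R : Type} [CommRing R] [Nontrivial R] {V V' : Type}
    [AddCommGroup V] [Module R V] [Module.Free R V] [Module.Finite R V]
    [AddCommGroup V'] [Module R V'] [Module.Free R V'] [Module.Finite R V']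
    (hV : Module.finrank R V = 2) (hV' : Module.finrank R V' = 2)
    (ρ : Γℚ →* Module.End R V) (ρ' : Γℚ →* Module.End R V')
    (hρ : GaloisFactorsThroughFiniteLevel ρ) (hρ' : GaloisFactorsThroughFiniteLevel ρ')
    (S : Finset ℕ)
    (h : ∀ ℓ : ℕ, ℓ.Prime → ℓ ∉ S → ∀ A : ValuationSubring Qbar, A.LiesOverPrime ℓ →
      ∀ σ : Γℚ, A.IsFrobeniusAt σ ℓ →
        LinearMap.charpoly (ρ σ) = LinearMap.charpoly (ρ' σ))
    (g : Γℚ) : LinearMap.charpoly (ρ g) = LinearMap.charpoly (ρ' g) := by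
  have bV := Module.finBasisOfFinrankEq R V hV
  have bV' := Module.finBasisOfFinrankEq R V' hV'
  rw [← charpoly_densityMatrixRep bV ρ, ← charpoly_densityMatrixRep bV' ρ']
  refine matrix_charpoly_eq_of_frobenius _ _ ?_ ?_ S (fun ℓ hℓ hS A hA σ hσ => ?_) g
  · obtain ⟨L, hL, hL1⟩ := hρ
    exact ⟨L, hL, fun σ hσ => by simp [densityMatrixRep, hL1 σ hσ]⟩
  · obtain ⟨L, hL, hL1⟩ := hρ'
    exact ⟨L, hL, fun σ hσ => by simp [densityMatrixRep, hL1 σ hσ]⟩
  · rw [charpoly_densityMatrixRep, charpoly_densityMatrixRep]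
    exact h ℓ hℓ hS A hA σ hσ

theorem residual_charpoly_eq_of_frobenius {k : Type} [Field k] (ρ ρ' : ResidualGaloisRep k)
    (S : Finset ℕ)
    (h : ∀ ℓ : ℕ, ℓ.Prime → ℓ ∉ S → ∀ A : ValuationSubring Qbar, A.LiesOverPrime ℓ →
      ∀ σ : Γℚ, A.IsFrobeniusAt σ ℓ →
        LinearMap.charpoly (ρ.ρ σ) = LinearMap.charpoly (ρ'.ρ σ))
    (g : Γℚ) : LinearMap.charpoly (ρ.ρ g) = LinearMap.charpoly (ρ'.ρ g) :=
  charpoly_eq_of_frobenius ρ.finrank_eq ρ'.finrank_eq ρ.ρ ρ'.ρ ρ.factorsThroughFiniteLevel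
    ρ'.factorsThroughFiniteLevel S h g

theorem adic_charpoly_eq_of_frobenius {A : Type} [CommRing A] [IsLocalRing A] [IsNoetherianRing A]
    (ρ ρ' : GaloisRepAdic A) (S : Finset ℕ)
    (h : ∀ ℓ : ℕ, ℓ.Prime → ℓ ∉ S → ∀ P : ValuationSubring Qbar, P.LiesOverPrime ℓ →
      ∀ σ : Γℚ, P.IsFrobeniusAt σ ℓ →
        LinearMap.charpoly (ρ.ρ σ) = LinearMap.charpoly (ρ'.ρ σ))
    (g : Γℚ) : LinearMap.charpoly (ρ.ρ g) = LinearMap.charpoly (ρ'.ρ g) := by
  have bV := Module.finBasisOfFinrankEq A ρ.V ρ.finrank_eq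
  have bV' := Module.finBasisOfFinrankEq A ρ'.V ρ'.finrank_eq
  rw [← charpoly_densityMatrixRep bV ρ.ρ, ← charpoly_densityMatrixRep bV' ρ'.ρ]
  set 𝔪 := IsLocalRing.maximalIdeal A
  have key : ∀ n : ℕ, ((densityMatrixRep bV ρ.ρ g).charpoly).map (Ideal.Quotient.mk (𝔪 ^ (n + 1))) =
      ((densityMatrixRep bV' ρ'.ρ g).charpoly).map (Ideal.Quotient.mk (𝔪 ^ (n + 1))) := by
    intro n
    have : Nontrivial (A ⧸ 𝔪 ^ (n + 1)) := Ideal.Quotient.nontrivial_iff.mpr fun htop =>
      (IsLocalRing.maximalIdeal.isMaximal A).ne_top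
        (eq_top_iff.mpr (htop ▸ Ideal.pow_le_self n.succ_ne_zero))
    let red : Matrix (Fin 2) (Fin 2) A →* Matrix (Fin 2) (Fin 2) (A ⧸ 𝔪 ^ (n + 1)) :=
      (Ideal.Quotient.mk (𝔪 ^ (n + 1))).mapMatrix.toMonoidHom
    have hlevel : ∀ (τ : GaloisRepAdic A) (b : Module.Basis (Fin 2) A τ.V),
        GaloisFactorsThroughFiniteLevel (red.comp (densityMatrixRep b τ.ρ)) := by
      intro τ b
      obtain ⟨L, hL, hL1⟩ := τ.isAdicContinuous (n + 1)
      refine ⟨L, hL, fun σ hσ => ?_⟩
      ext i j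
      have hmem : ∀ v ∈ (𝔪 ^ (n + 1)) • (⊤ : Submodule A τ.V), b.coord i v ∈ 𝔪 ^ (n + 1) :=
        fun v hv => Submodule.smul_induction_on (p := fun v => b.coord i v ∈ 𝔪 ^ (n + 1)) hv
          (fun a ha w _ => by rw [map_smul, smul_eq_mul]; exact Ideal.mul_mem_right _ _ ha)
          (fun v w hv hw => by rw [map_add]; exact Ideal.add_mem _ hv hw)
      have hij := hmem _ (hL1 σ hσ (b j))
      rw [← Ideal.Quotient.eq_zero_iff_mem] at hij
      rw [← sub_eq_zero]
      refine Eq.trans ?_ hij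
      rcases eq_or_ne i j with rfl | hne
      · simp [red, densityMatrixRep, LinearMap.toMatrixAlgEquiv_apply]
      · simp [red, densityMatrixRep, LinearMap.toMatrixAlgEquiv_apply, hne]
    have hq := matrix_charpoly_eq_of_frobenius _ _ (hlevel ρ bV) (hlevel ρ' bV') S
      (fun ℓ hℓ hS P hP σ hσ => by
        change ((densityMatrixRep bV ρ.ρ σ).map (Ideal.Quotient.mk (𝔪 ^ (n + 1)))).charpoly =
          ((densityMatrixRep bV' ρ'.ρ σ).map (Ideal.Quotient.mk (𝔪 ^ (n + 1)))).charpoly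
        rw [Matrix.charpoly_map, Matrix.charpoly_map, charpoly_densityMatrixRep,
          charpoly_densityMatrixRep, h ℓ hℓ hS P hP σ hσ]) g
    simpa [red, Matrix.charpoly_map] using hq
  ext i
  rw [← sub_eq_zero, ← Submodule.mem_bot A,
    ← Ideal.iInf_pow_eq_bot_of_isLocalRing 𝔪 (IsLocalRing.maximalIdeal.isMaximal A).ne_top,
    Submodule.mem_iInf]
  intro n
  refine Ideal.pow_le_pow_right n.le_succ ?_
  rw [← Ideal.Quotient.eq]
  simpa [Polynomial.coeff_map] using congrArg (fun p => Polynomial.coeff p i) (key n)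

end FermatLib.Galois
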