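import Fermat.Agent.Mazur.GunitCyclo

/-!
# Involutions of `ℚ̄` invert roots of unity
-/

set_option autoImplicit false
set_option linter.style.haveILetI false

namespace FermatLib.Galois

local notation "Qbar" => AlgebraicClosure ℚ
local notation "Γℚ" => (AlgebraicClosure ℚ ≃ₐ[ℚ] AlgebraicClosure ℚ)

variable {c : Γℚ}

theorem eq_zero_of_neg_eq_qbar {z : Qbar} (h : -z = z) : z = 0 := by
  linear_combination (-1 / 2 : Qbar) * h

theorem apply_apply_of_mul_self (hc : c * c = 1) (x : Qbar) : c (c x) = x := by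
  rw [← AlgEquiv.mul_apply, hc, AlgEquiv.one_apply]

/-- An automorphism of order two moves `√-1`. -/
theorem involution_apply_sqrt_neg_one (hc : c * c = 1) (hc1 : c ≠ 1) {i : Qbar}
    (hi : i ^ 2 = -1) : c i = -i := by
  have hcc := apply_apply_of_mul_self hc
  have hor : c i = i ∨ c i = -i := sq_eq_sq_iff_eq_or_eq_neg.mp (by rw [← map_pow, hi, map_neg, map_one])
  refine hor.resolve_left fun hfix => ?_
  obtain ⟨x, hx⟩ : ∃ x, c x ≠ x := by
    by_contra h
    push Not at h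
    exact hc1 (AlgEquiv.ext h)
  have hβ : c (x - c x) = -(x - c x) := by rw [map_sub, hcc, neg_sub]
  have hβ0 : x - c x ≠ 0 := sub_ne_zero.mpr (Ne.symm hx)
  obtain ⟨γ, hγ⟩ := IsAlgClosed.exists_pow_nat_eq (x - c x) (n := 2) two_pos
  have h1 : c γ ^ 2 = (i * γ) ^ 2 := by
    rw [← map_pow, hγ, hβ, mul_pow, hi, hγ, neg_one_mul]
  have h2 := hcc γ
  rcases sq_eq_sq_iff_eq_or_eq_neg.mp h1 with h | h
  · rw [h, map_mul, hfix, h, ← mul_assoc, ← sq, hi, neg_one_mul] at h2
    exact hβ0 (by rw [← hγ, eq_zero_of_neg_eq_qbar h2, zero_pow two_ne_zero])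
  · rw [h, map_neg, map_mul, hfix, h, mul_neg, neg_neg, ← mul_assoc, ← sq, hi, neg_one_mul] at h2
    exact hβ0 (by rw [← hγ, eq_zero_of_neg_eq_qbar h2, zero_pow two_ne_zero])

/-- Sums of squares of fixed elements are squares of fixed elements. -/
theorem involution_exists_fixed_sq_add (hc : c * c = 1) (hc1 : c ≠ 1) {i : Qbar}
    (hi : i ^ 2 = -1) {a b : Qbar} (ha : c a = a) (hb : c b = b) :
    ∃ d, c d = d ∧ d ^ 2 = a ^ 2 + b ^ 2 := by
  have hci := involution_apply_sqrt_neg_one hc hc1 hi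
  obtain ⟨γ, hγ⟩ := IsAlgClosed.exists_pow_nat_eq (a + b * i) (n := 2) two_pos
  refine ⟨γ * c γ, by rw [map_mul, apply_apply_of_mul_self hc, mul_comm], ?_⟩
  rw [mul_pow, ← map_pow, hγ, map_add, map_mul, ha, hb, hci]
  linear_combination (-b ^ 2) * hi

/-- A fixed root of unity of odd order is trivial. -/
theorem involution_root_of_unity_eq_one (hc : c * c = 1) (hc1 : c ≠ 1) {ζ : Qbar} {n : ℕ}
    (hn : Odd n) (hζ : ζ ^ n = 1) (hfix : c ζ = ζ) : ζ = 1 := by
  obtain ⟨i, hi⟩ := IsAlgClosed.exists_pow_nat_eq (-1 : Qbar) (n := 2) two_pos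
  obtain ⟨m, hm⟩ := hn
  set η := ζ ^ (m + 1) with hη
  have hη2 : η ^ 2 = ζ := by
    rw [hη, ← pow_mul, show (m + 1) * 2 = n + 1 by omega, pow_succ, hζ, one_mul]
  have hηfix : c η = η := by rw [hη, map_pow, hfix]
  by_contra hne
  have hsum : ∀ k : ℕ, ∃ d, c d = d ∧ d ^ 2 = ∑ j ∈ Finset.range k, (η ^ (j + 1)) ^ 2 := by
    intro k
    induction k with
    | zero => exact ⟨0, map_zero c, by simp⟩
    | succ k ih =>
      obtain ⟨d, hd, hd2⟩ := ih
      obtain ⟨e, he, he2⟩ := involution_exists_fixed_sq_add hc hc1 hi hd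
        (show c (η ^ (k + 1)) = η ^ (k + 1) by rw [map_pow, hηfix])
      exact ⟨e, he, by rw [he2, Finset.sum_range_succ, hd2]⟩
  obtain ⟨d, hd, hd2⟩ := hsum (n - 1)
  have hgeom : (∑ j ∈ Finset.range n, ζ ^ j) = 0 := by
    have h := mul_geom_sum ζ n
    rw [hζ, sub_self] at h
    exact (mul_eq_zero.mp h).resolve_left (sub_ne_zero.mpr hne)
  have hd' : d ^ 2 = -1 := by
    rw [show n = n - 1 + 1 by omega, Finset.sum_range_succ', pow_zero] at hgeom
    rw [hd2, eq_neg_iff_add_eq_zero, ← hgeom]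
    simp only [← pow_mul, mul_comm _ 2]
    simp only [pow_mul, hη2]
  have := involution_apply_sqrt_neg_one hc hc1 hd'
  rw [hd] at this
  rw [eq_zero_of_neg_eq_qbar this.symm, zero_pow two_ne_zero] at hd'
  exact absurd hd'.symm (neg_ne_zero.mpr one_ne_zero)

/-- The mod `p` cyclotomic character takes the value `-1` at involutions. -/
theorem cycloChar_involution (p : ℕ) [Fact p.Prime] (hc : c * c = 1) (hc1 : c ≠ 1) :
    ((ExtCitation.cycloChar p c : (ZMod p)ˣ) : ZMod p) = -1 := by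
  have hp : p.Prime := Fact.out
  set u := ExtCitation.cycloChar p c with hu
  have h2 : u * u = 1 := by rw [hu, ← map_mul, hc, map_one]
  have h2' : (u : ZMod p) * (u : ZMod p) = 1 := by rw [← Units.val_mul, h2, Units.val_one]
  rcases mul_self_eq_one_iff.mp h2' with h | h
  · obtain ⟨ζ, hζ⟩ := FermatLib.Mazur.exists_isPrimitiveRoot_qbar p
    rcases hp.eq_two_or_odd' with hp2 | hodd
    · subst hp2
      rw [h]
      exact (ZMod.neg_eq_self_mod_two 1).symm
    · exfalso
      have hfix : c ζ = ζ := (FermatLib.Mazur.cycloChar_eq_one_iff p hζ c).mp (Units.ext h)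
      exact hζ.ne_one hp.one_lt (involution_root_of_unity_eq_one hc hc1 hodd hζ.pow_eq_one hfix)
  · exact h

end FermatLib.Galois
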