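import Fermat.Agent.Galois.AttachAssembly
import Fermat.Agent.Galois.TransferHecke
import Fermat.Agent.Modular.HeckeAction
import Fermat.Prelude.Def_CuspForm_HeckeGaloisRepDatum

/-!
# The torsion of `J₀(N)` as data for the attached representations

The Kummer description `J₀(N)[m] ≅ Hom_cusp(Γ₀(N), ℤ/m)`, compatible with the Hecke operators at
good primes, makes the Hecke algebra away from `S` faithful on the `p`-power torsion.
-/

set_option autoImplicit false

noncomputable section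

namespace FermatLib.Galois.Attach

open ModularCurve CongruenceSubgroup FermatLib.Modular Polynomial AlgebraicCurve

local notation "Qbar" => AlgebraicClosure ℚ
local notation "Γℚ" => (AlgebraicClosure ℚ ≃ₐ[ℚ] AlgebraicClosure ℚ)

variable (N : ℕ) [NeZero N] (p : ℕ)

/-- The Kummer description of `J₀(N)[p^n]`, compatible with `T ℓ` for `ℓ ∤ N`. -/
def KummerHeckeIso : Prop :=
  ∀ n : ℕ, ∃ ψ : Pic0.torsion Qbar (modularFunctionFieldBar N) (p ^ n) ≃+
      cuspidalHoms ℤ (Gamma0 N) (ZMod (p ^ n)),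
    ∀ ℓ : Nat.Primes, ¬ (ℓ : ℕ) ∣ N →
      ∀ x y : Pic0.torsion Qbar (modularFunctionFieldBar N) (p ^ n),
        (y : JZero N) = heckeOperatorBar N ℓ (x : JZero N) →
          (ψ y : Additive (Gamma0 N) →+ ZMod (p ^ n)) =
            heckeHomOp N ℤ (ZMod (p ^ n)) ℓ (ψ x).1

variable {N p}

theorem awayHeckeEval_surjective (S : Set ℕ) : Function.Surjective (awayHeckeEval N S) := by
  rintro ⟨y, hy⟩
  suffices ∃ t : awayHeckeAlg S,
      (formsHeckeEval N (t : HeckeAlg) : Module.End ℂ (CuspForm (Gamma0 N) 2)) = y from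
    let ⟨t, ht⟩ := this; ⟨t, Subtype.ext ((coe_awayHeckeEval N S t).trans ht)⟩
  induction hy using Algebra.adjoin_induction with
  | mem x hx =>
    rcases hx with ⟨ℓ, hℓ, hℓN, hℓS, rfl⟩ | ⟨q, hqN, hq, hqS, rfl⟩
    · let P : Nat.Primes := ⟨ℓ, hℓ⟩
      refine ⟨⟨heckeGen P, Algebra.subset_adjoin ⟨P, hℓS, rfl⟩⟩, ?_⟩
      show (formsHeckeEval N (heckeGen P) : Module.End ℂ (CuspForm (Gamma0 N) 2)) = _
      rw [formsHeckeEval_heckeGen, formsHeckeGen, dif_neg hℓN, CuspForm.heckeAlgebra.coe_T]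
    · let P : Nat.Primes := ⟨q, hq⟩
      refine ⟨⟨heckeGen P, Algebra.subset_adjoin ⟨P, hqS, rfl⟩⟩, ?_⟩
      show (formsHeckeEval N (heckeGen P) : Module.End ℂ (CuspForm (Gamma0 N) 2)) = _
      rw [formsHeckeEval_heckeGen, formsHeckeGen, dif_pos hqN, CuspForm.heckeAlgebra.coe_U]
  | algebraMap a => exact ⟨algebraMap ℤ _ a, by simp⟩
  | add x y _ _ hx hy =>
    obtain ⟨s, rfl⟩ := hx
    obtain ⟨t, rfl⟩ := hy
    exact ⟨s + t, by simp⟩
  | mul x y _ _ hx hy =>
    obtain ⟨s, rfl⟩ := hx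
    obtain ⟨t, rfl⟩ := hy
    exact ⟨s * t, by simp⟩

theorem formsHeckeEval_eq_heckeEvalForms :
    formsHeckeEval N = (CuspForm.heckeEvalForms N 2 : HeckeAlg →+* _) := by
  refine MvPolynomial.ringHom_ext (fun a => by simp) fun ℓ => ?_
  show formsHeckeEval N (heckeGen ℓ) = CuspForm.heckeEvalForms N 2 (heckeGen ℓ)
  rw [formsHeckeEval_heckeGen, formsHeckeGen]
  split_ifs with h
  · exact (CuspForm.heckeEvalForms_heckeGen_of_dvd (q := ℓ) h).symm
  · exact (CuspForm.heckeEvalForms_heckeGen_of_not_dvd (ℓ := ℓ) h).symm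

omit [NeZero N] in
theorem mem_torsion_iff_pow (n : ℕ) (x : JZero N) :
    x ∈ Pic0.torsion Qbar (modularFunctionFieldBar N) (p ^ n) ↔ p ^ n • x = 0 := by
  rw [Pic0.mem_torsion, natCast_zsmul]

/-- Transport of a Hecke polynomial away from `S` along a Kummer description compatible with the
operators outside `S`. -/
theorem kummer_heckeEvalBar (hcomm : HeckeOperatorsCommuteBar N) {n : ℕ}
    (ψ : Pic0.torsion Qbar (modularFunctionFieldBar N) (p ^ n) ≃+
      cuspidalHoms ℤ (Gamma0 N) (ZMod (p ^ n)))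
    {S : Set ℕ}
    (hψ : ∀ ℓ : Nat.Primes, (ℓ : ℕ) ∉ S →
      ∀ x y : Pic0.torsion Qbar (modularFunctionFieldBar N) (p ^ n),
        (y : JZero N) = heckeOperatorBar N ℓ (x : JZero N) →
          (ψ y : Additive (Gamma0 N) →+ ZMod (p ^ n)) =
            heckeHomOp N ℤ (ZMod (p ^ n)) ℓ (ψ x).1)
    {t : HeckeAlg} (ht : t ∈ awayHeckeAlg S)
    (x y : Pic0.torsion Qbar (modularFunctionFieldBar N) (p ^ n))
    (hy : (y : JZero N) = heckeEvalBar hcomm t (x : JZero N)) :
    (ψ y : Additive (Gamma0 N) →+ ZMod (p ^ n)) = heckeHomEval N ℤ (ZMod (p ^ n)) t (ψ x).1 := by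
  have himg : ∀ (u : HeckeAlg) (z : Pic0.torsion Qbar (modularFunctionFieldBar N) (p ^ n)),
      heckeEvalBar hcomm u (z : JZero N) ∈ Pic0.torsion Qbar (modularFunctionFieldBar N) (p ^ n) :=
    fun u z => (mem_torsion_iff_pow n _).mpr
      (by rw [← map_nsmul, (mem_torsion_iff_pow n _).mp z.2, map_zero])
  induction ht using Algebra.adjoin_induction generalizing x y with
  | mem t ht =>
    obtain ⟨ℓ, hℓS, rfl⟩ := ht
    rw [heckeEvalBar_heckeGen] at hy
    rw [heckeHomEval_heckeGen]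
    exact hψ ℓ hℓS x y hy
  | algebraMap a =>
    rw [MvPolynomial.algebraMap_eq, heckeEvalBar_C, Module.End.intCast_apply] at hy
    rw [MvPolynomial.algebraMap_eq, heckeHomEval_C_apply,
      show y = a • x from Subtype.ext hy, map_zsmul]
    rfl
  | add a b _ _ ha hb =>
    rw [map_add, LinearMap.add_apply] at hy
    obtain ⟨ya, hya⟩ : ∃ z : Pic0.torsion Qbar (modularFunctionFieldBar N) (p ^ n),
        (z : JZero N) = heckeEvalBar hcomm a (x : JZero N) := ⟨⟨_, himg a x⟩, rfl⟩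
    obtain ⟨yb, hyb⟩ : ∃ z : Pic0.torsion Qbar (modularFunctionFieldBar N) (p ^ n),
        (z : JZero N) = heckeEvalBar hcomm b (x : JZero N) := ⟨⟨_, himg b x⟩, rfl⟩
    rw [← hya, ← hyb, ← AddSubgroup.coe_add] at hy
    obtain rfl : y = ya + yb := Subtype.ext hy
    have hab := LinearMap.congr_fun (map_add (heckeHomEval N ℤ (ZMod (p ^ n))) a b) (ψ x).1
    exact (Eq.trans (congrArg Subtype.val (ψ.map_add ya yb))
      (congrArg₂ (fun u v => u + v) (ha x ya hya) (hb x yb hyb))).trans hab.symm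
  | mul a b _ _ ha hb =>
    have hab := LinearMap.congr_fun (map_mul (heckeEvalBar hcomm) a b) (x : JZero N)
    let yb : Pic0.torsion Qbar (modularFunctionFieldBar N) (p ^ n) :=
      ⟨heckeEvalBar hcomm b (x : JZero N), himg b x⟩
    have h1 := ha yb y (hy.trans hab)
    have h2 := hb x yb rfl
    have hab' := LinearMap.congr_fun (map_mul (heckeHomEval N ℤ (ZMod (p ^ n))) a b) (ψ x).1
    exact (h1.trans (congrArg (heckeHomEval N ℤ (ZMod (p ^ n)) a) h2)).trans hab'.symm

/-- The operators away from `S` on `J₀(N)`. -/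
def awayAct (hcomm : HeckeOperatorsCommuteBar N) (S : Set ℕ) :
    awayHeckeAlg S →+* AddMonoid.End (JZero N) where
  toFun t := (heckeEvalBar hcomm (t : HeckeAlg)).toAddMonoidHom
  map_one' := AddMonoidHom.ext fun x => LinearMap.congr_fun (map_one (heckeEvalBar hcomm)) x
  map_mul' s t := AddMonoidHom.ext fun x =>
    LinearMap.congr_fun (map_mul (heckeEvalBar hcomm) (s : HeckeAlg) t) x
  map_zero' := AddMonoidHom.ext fun x => LinearMap.congr_fun (map_zero (heckeEvalBar hcomm)) x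
  map_add' s t := AddMonoidHom.ext fun x =>
    LinearMap.congr_fun (map_add (heckeEvalBar hcomm) (s : HeckeAlg) t) x

theorem awayAct_apply (hcomm : HeckeOperatorsCommuteBar N) (S : Set ℕ) (t : awayHeckeAlg S)
    (x : JZero N) : awayAct hcomm S t x = (letI := heckeModuleBar N; (t : HeckeAlg) • x) :=
  (heckeModuleBar_smul_def hcomm _ x).symm

theorem torsionHeckeData (hcomm : HeckeOperatorsCommuteBar N)
    (hgal : ∀ (σ : Γℚ) (t : HeckeAlg) (x : JZero N),
      letI := heckeModuleBar N; σ • t • x = t • σ • x)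
    (hopen : ∀ x : JZero N, HoldsNearOne fun σ => σ • x = x) (hK : KummerHeckeIso N p)
    (hp : p.Prime) (S : Set ℕ) (hNS : ∀ q : ℕ, q.Prime → q ∣ N → q ∈ S) :
    TorsionHeckeData p (awayAct hcomm S) (awayHeckeEval N S) := by
  classical
  have : Fact p.Prime := ⟨hp⟩
  have hcard : ∀ n, Nat.card {x : JZero N // p ^ n • x = 0} = p ^ (n * cuspRank N) := by
    intro n
    obtain ⟨ψ, -⟩ := hK n
    rw [Nat.card_congr ((Equiv.subtypeEquivRight fun x => (mem_torsion_iff_pow n x).symm).trans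
      ψ.toEquiv), natCard_cuspidalHoms_gamma0, Nat.card_zmod, pow_mul]
  refine ⟨fun g t x => ?_, ⟨_, hcard⟩, fun n => ?_, awayHeckeEval_surjective S, ?_, ?_⟩
  · rw [awayAct_apply, awayAct_apply]
    exact (hgal g _ x).symm
  · have hfin : Finite {x : JZero N // p ^ n • x = 0} :=
      Nat.finite_of_card_ne_zero (by rw [hcard]; exact pow_ne_zero _ hp.ne_zero)
    have hfin' : {x : JZero N | p ^ n • x = 0}.Finite := Set.finite_coe_iff.mp hfin
    obtain ⟨F, hF, hfix⟩ := holdsNearOne_forall_mem hfin'.toFinset (fun x σ => σ • x = x) fun x _ => hopen x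
    exact ⟨F, hF, fun σ hσ x hx => hfix σ hσ x ((Set.Finite.mem_toFinset _).mpr hx)⟩
  · intro t ht n x hx
    obtain ⟨ψ, hψ⟩ := hK n
    let x' : Pic0.torsion Qbar (modularFunctionFieldBar N) (p ^ n) :=
      ⟨x, (mem_torsion_iff_pow n x).mpr hx⟩
    let y' : Pic0.torsion Qbar (modularFunctionFieldBar N) (p ^ n) :=
      ⟨heckeEvalBar hcomm (t : HeckeAlg) x, (mem_torsion_iff_pow n _).mpr
        (by rw [← map_nsmul, hx, map_zero])⟩
    have h := kummer_heckeEvalBar hcomm ψ (fun ℓ hℓ => hψ ℓ fun h => hℓ (hNS ℓ ℓ.2 h)) t.2 x' y' rfl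
    rw [heckeHomEval_eq_zero (by
      rw [← RingHom.congr_fun formsHeckeEval_eq_heckeEvalForms (t : HeckeAlg),
        ← inclusion_awayHeckeEval, ht, map_zero]) (ψ x').2] at h
    have h' : y' = 0 := ψ.injective (by rw [map_zero]; exact Subtype.ext h)
    exact congrArg Subtype.val h'
  · let incl := Subalgebra.inclusion
      (CuspForm.heckeAlgebra_mono (N := N) (k := 2) (Set.empty_subset S))
    let e := cuspidalHomsEquiv N ℤ ℤ
    let η : CuspForm.heckeAlgebra N 2 S →+ Matrix (Fin (cuspRank N)) (Fin (cuspRank N)) ℤ :=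
      ((LinearMap.toMatrix' (R := ℤ)).toAddMonoidHom.comp (e.conj.toAddMonoidHom.comp
        (heckeCuspAct N ℤ ℤ).toAddMonoidHom)).comp incl.toRingHom.toAddMonoidHom
    refine ⟨cuspRank N, η, ?_, ?_⟩
    · exact LinearMap.toMatrix'.injective.comp (e.conj.injective.comp
        ((heckeCuspAct_injective N ℤ ℤ).comp (Subalgebra.inclusion_injective (CuspForm.heckeAlgebra_mono (Set.empty_subset S)))))
    · intro t n hkill i j
      obtain ⟨ψ, hψ⟩ := hK n
      let c : ℤ →+ ZMod (p ^ n) := Int.castAddHom _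
      let φ : cuspidalHoms ℤ (Gamma0 N) ℤ := e.symm (Pi.single j 1)
      obtain ⟨x, hxφ⟩ := ψ.surjective ⟨c.comp φ.1, φ.2.comp c⟩
      have h := kummer_heckeEvalBar hcomm ψ (fun ℓ hℓ => hψ ℓ fun h => hℓ (hNS ℓ ℓ.2 h)) t.2 x 0
        (hkill (x : JZero N) ((mem_torsion_iff_pow n _).mp x.2)).symm
      rw [map_zero, ZeroMemClass.coe_zero, hxφ, heckeHomEval_comp_left] at h
      have hval : η (awayHeckeEval N S t) i j =
          heckeHomEval N ℤ ℤ (t : HeckeAlg) φ.1 (Additive.ofMul (cuspBasisElt N i)) := by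
        show LinearMap.toMatrix' (e.conj (heckeCuspAct N ℤ ℤ (incl (awayHeckeEval N S t)))) i j = _
        rw [LinearMap.toMatrix'_apply, LinearEquiv.conj_apply_apply, inclusion_awayHeckeEval,
          RingHom.congr_fun formsHeckeEval_eq_heckeEvalForms (t : HeckeAlg),
          heckeCuspAct_heckeEvalForms]
        congr
      have h2 := DFunLike.congr_fun h (Additive.ofMul (cuspBasisElt N i))
      rw [AddMonoidHom.zero_apply, AddMonoidHom.comp_apply] at h2
      rw [hval, ← Nat.cast_pow]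
      exact (ZMod.intCast_zmod_eq_zero_iff_dvd _ _).mp h2.symm

end FermatLib.Galois.Attach
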