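import Fermat.Prelude.Def_GaloisRep_DeformationCondition
import Fermat.Agent.Galois.DeformLocal

/-!
`GaloisRep.flatCondition` and `GaloisRep.minimalFlatCondition` are deformation conditions.
-/

noncomputable section

namespace FermatLib.Galois.FlatModel

open GaloisRep IsLocalRing DeformLocal

variable {𝒪 : Type} [CommRing 𝒪] [IsLocalRing 𝒪]

theorem natCast_mem_maximalIdeal_of_hom {A B : Type} [CommRing A] [IsLocalRing A] [CommRing B]
    [IsLocalRing B] (φ : A →+* B) {p : ℕ} (h : (p : B) ∈ maximalIdeal B) :
    (p : A) ∈ maximalIdeal A := by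
  by_contra hu
  rw [IsLocalRing.mem_maximalIdeal, mem_nonunits_iff, not_not] at hu
  rw [← map_natCast φ p] at h
  exact h (hu.map φ)

end FermatLib.Galois.FlatModel
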