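import Mathlib.LinearAlgebra.Projection
import Mathlib.LinearAlgebra.Trace
import Mathlib.RingTheory.LocalRing.Module
import Fermat.Agent.Galois.FlatCondition
import Fermat.Agent.Galois.Flat.Corollaries

/-!
`GaloisRep.ordinaryCondition` and `GaloisRep.minimalOrdinaryCondition` are deformation conditions
for an odd prime `p`: an ordinary representation with cyclotomic determinant is described by
equations in the entries, using an inertia element on which the determinant is not `1` mod `𝔪`.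
-/

noncomputable section

namespace FermatLib.Galois.OrdinaryCondition

open GaloisRep IsLocalRing DeformLocal FlatModel
open scoped TensorProduct

local notation "Qbar" => AlgebraicClosure ℚ
local notation "Γℚ" => (AlgebraicClosure ℚ ≃ₐ[ℚ] AlgebraicClosure ℚ)

variable {A B C : Type} [CommRing A] [IsLocalRing A] [CommRing B] [IsLocalRing B]
  [CommRing C] [IsLocalRing C]

/-- `det ρ(σ) - 1`. -/
def detSubOne (ρ : GaloisRepAdic A) (σ : Γℚ) : A := LinearMap.det (ρ.ρ σ) - 1

theorem detSubOne_baseChange (φ : A →+* B) (hφ : IsLocalHom φ) (ρ : GaloisRepAdic A) (σ : Γℚ) :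
    detSubOne (ρ.baseChangeAlong φ hφ) σ = φ (detSubOne ρ σ) := by
  rw [detSubOne, detSubOne, det_baseChange_apply, map_sub, map_one]

/-- The equations of ordinarity at a place `P`, normalised by `σ₀`. -/
structure Equations (ρ : GaloisRepAdic A) (P : ValuationSubring Qbar) (σ₀ : Γℚ) : Prop where
  trace_eq : LinearMap.trace A ρ.V (ρ.ρ σ₀ - 1) = detSubOne ρ σ₀
  mul_self : (ρ.ρ σ₀ - 1) * (ρ.ρ σ₀ - 1) - detSubOne ρ σ₀ • (ρ.ρ σ₀ - 1) = 0
  decomposition : ∀ g ∈ P.decompositionSubgroup ℚ,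
    ((ρ.ρ σ₀ - 1) - detSubOne ρ σ₀ • (1 : Module.End A ρ.V)) * ρ.ρ g * (ρ.ρ σ₀ - 1) = 0
  inertia : ∀ τ ∈ P.inertiaSubgroupIn ℚ,
    ((ρ.ρ σ₀ - 1) - detSubOne ρ σ₀ • (1 : Module.End A ρ.V)) * (ρ.ρ τ - 1) = 0

/-- An ordinary representation satisfies the equations. -/
theorem equations_of_line (ρ : GaloisRepAdic A) {P : ValuationSubring Qbar} {σ₀ : Γℚ}
    (hσ₀ : σ₀ ∈ P.inertiaSubgroupIn ℚ) {L : Submodule A ρ.V}
    (hL : ∃ b : Module.Basis (Fin 2) A ρ.V, L = A ∙ b 0)
    (hdec : ∀ g ∈ P.decompositionSubgroup ℚ, ∀ v ∈ L, ρ.ρ g v ∈ L)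
    (hine : ∀ τ ∈ P.inertiaSubgroupIn ℚ, ∀ v, ρ.ρ τ v - v ∈ L) :
    Equations ρ P σ₀ := by
  obtain ⟨b, hb⟩ := hL
  subst hb
  set M : Module.End A ρ.V := ρ.ρ σ₀ - 1 with hM
  have hMv : ∀ v, M v ∈ A ∙ b 0 := fun v => by
    simpa [hM, LinearMap.sub_apply, Module.End.one_apply] using hine σ₀ hσ₀ v
  obtain ⟨x, hx⟩ := Submodule.mem_span_singleton.1 (hMv (b 0))
  obtain ⟨y, hy⟩ := Submodule.mem_span_singleton.1 (hMv (b 1))
  have hM0 : ρ.ρ σ₀ (b 0) = (1 + x) • b 0 := by
    have : M (b 0) = x • b 0 := hx.symm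
    rw [hM, LinearMap.sub_apply, Module.End.one_apply, sub_eq_iff_eq_add] at this
    rw [this, add_smul, one_smul, add_comm]
  have hM1 : ρ.ρ σ₀ (b 1) = y • b 0 + b 1 := by
    have : M (b 1) = y • b 0 := hy.symm
    rw [hM, LinearMap.sub_apply, Module.End.one_apply, sub_eq_iff_eq_add] at this
    exact this
  have hdet : detSubOne ρ σ₀ = x := by
    rw [detSubOne, ← LinearMap.det_toMatrix b, Matrix.det_fin_two]
    simp [LinearMap.toMatrix_apply, hM0, hM1]
  have hfix : ∀ v ∈ A ∙ b 0, M v = x • v := fun v hv => by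
    obtain ⟨c, rfl⟩ := Submodule.mem_span_singleton.1 hv
    rw [map_smul, ← hx, smul_comm]
  have htr : LinearMap.trace A ρ.V M = x := by
    rw [LinearMap.trace_eq_matrix_trace A b, Matrix.trace_fin_two]
    simp [LinearMap.toMatrix_apply, ← hx, ← hy]
  refine ⟨htr.trans hdet.symm, ?_, fun g hg => ?_, fun τ hτ => ?_⟩
  · refine LinearMap.ext fun v => ?_
    simp [Module.End.mul_apply, hdet, hfix _ (hMv v), sub_self, ← hM]
  · refine LinearMap.ext fun v => ?_
    simp [Module.End.mul_apply, hdet, hfix _ (hdec g hg _ (hMv v)), ← hM]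
  · refine LinearMap.ext fun v => ?_
    have := hfix _ (hine τ hτ v)
    simp only [map_sub] at this
    simp [Module.End.mul_apply, hdet, ← hM, ← this]

/-- The equations give a stable free line. -/
theorem exists_line_of_equations (ρ : GaloisRepAdic A) {P : ValuationSubring Qbar} {σ₀ : Γℚ}
    (hu : IsUnit (detSubOne ρ σ₀)) (h : Equations ρ P σ₀) :
    ∃ L : Submodule A ρ.V, (∃ b : Module.Basis (Fin 2) A ρ.V, L = A ∙ b 0) ∧
      (∀ g ∈ P.decompositionSubgroup ℚ, ∀ v ∈ L, ρ.ρ g v ∈ L) ∧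
      (∀ τ ∈ P.inertiaSubgroupIn ℚ, ∀ v, ρ.ρ τ v - v ∈ L) := by
  obtain ⟨u, hu⟩ := hu
  set M : Module.End A ρ.V := ρ.ρ σ₀ - 1 with hM
  set e : Module.End A ρ.V := (↑u⁻¹ : A) • M with he
  have huM : M = (u : A) • e := by rw [he, smul_smul, Units.mul_inv, one_smul]
  have hidem : IsIdempotentElem e := by
    have h2 : M * M = (u : A) • M := by
      have := sub_eq_zero.1 h.mul_self
      rwa [← hu] at this
    show e * e = e
    rw [he, smul_mul_assoc, mul_smul_comm, h2, smul_smul, smul_smul, mul_assoc, Units.inv_mul,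
      mul_one]
  have htr : LinearMap.trace A ρ.V e = 1 := by
    rw [he, map_smul, h.trace_eq, ← hu, smul_eq_mul, Units.inv_mul]
  have hproj : LinearMap.IsProj (LinearMap.range e) e :=
    (LinearMap.isProj_range_iff_isIdempotentElem e).2 hidem
  have hc : IsCompl (LinearMap.range e) (LinearMap.ker e) := hproj.isCompl
  have : Module.Projective A (LinearMap.range e) :=
    Module.Projective.of_split (LinearMap.range e).subtype e.rangeRestrict
      (LinearMap.ext fun x => Subtype.ext (hproj.map_id _ x.2))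
  let q : ρ.V →ₗ[A] LinearMap.ker e := (LinearMap.id - e).codRestrict _ fun v => by
    have := LinearMap.congr_fun hidem.eq v
    rw [Module.End.mul_apply] at this
    simp [this]
  have hq : ∀ x : LinearMap.ker e, q x = x := fun x => Subtype.ext (by simp [q])
  have : Module.Projective A (LinearMap.ker e) :=
    Module.Projective.of_split (LinearMap.ker e).subtype q (LinearMap.ext hq)
  have : Module.Finite A (LinearMap.range e) :=
    Module.Finite.of_surjective e.rangeRestrict e.surjective_rangeRestrict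
  have : Module.Finite A (LinearMap.ker e) := Module.Finite.of_surjective q fun x => ⟨x, hq x⟩
  have : Module.Flat A (LinearMap.range e) := Module.Flat.of_projective
  have : Module.Flat A (LinearMap.ker e) := Module.Flat.of_projective
  have : Module.Free A (LinearMap.range e) := Module.free_of_flat_of_isLocalRing
  have : Module.Free A (LinearMap.ker e) := Module.free_of_flat_of_isLocalRing
  let eV := Submodule.prodEquivOfIsCompl _ _ hc
  have hsum : Module.finrank A (LinearMap.range e) + Module.finrank A (LinearMap.ker e) = 2 := by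
    rw [← Module.finrank_prod, eV.finrank_eq, ρ.finrank_eq]
  have hcast : (Module.finrank A (LinearMap.range e) : A) = 1 := hproj.trace.symm.trans htr
  have hr : Module.finrank A (LinearMap.range e) = 1 := by
    generalize Module.finrank A (LinearMap.range e) = r at hsum hcast
    have hr2 : r ≤ 2 := by omega
    interval_cases r
    · simp at hcast
    · rfl
    · refine absurd (?_ : (1 : A) = 0) one_ne_zero
      push_cast at hcast
      linear_combination hcast
  have hk : Module.finrank A (LinearMap.ker e) = 1 := by omega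
  let b₀ := Module.basisUnique (Fin 1) hr
  let b₁ := Module.basisUnique (Fin 1) hk
  let b : Module.Basis (Fin 2) A ρ.V := ((b₀.prod b₁).map eV).reindex finSumFinEquiv
  have hb0 : b 0 = (b₀ 0 : ρ.V) := by
    simp [b, eV, show (finSumFinEquiv : Fin 1 ⊕ Fin 1 ≃ Fin (1 + 1)).symm 0 = Sum.inl 0 from rfl,
      Submodule.coe_prodEquivOfIsCompl']
  have hL : LinearMap.range e = A ∙ b 0 := by
    rw [hb0]
    refine le_antisymm (fun v hv => ?_) ((Submodule.span_singleton_le_iff_mem _ _).2 (b₀ 0).2)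
    have := congrArg Subtype.val (b₀.sum_repr ⟨v, hv⟩)
    rw [Fin.sum_univ_one] at this
    exact Submodule.mem_span_singleton.2 ⟨_, this⟩
  have hkill : ∀ w, (M - (u : A) • (1 : Module.End A ρ.V)) w = 0 → w ∈ LinearMap.range e := by
    intro w hw
    rw [LinearMap.sub_apply, LinearMap.smul_apply, Module.End.one_apply, sub_eq_zero] at hw
    refine ⟨w, ?_⟩
    rw [he, LinearMap.smul_apply, hw, smul_smul, Units.inv_mul, one_smul]
  refine ⟨LinearMap.range e, ⟨b, hL⟩, ?_, fun τ hτ v => ?_⟩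
  · rintro g hg _ ⟨v, rfl⟩
    refine hkill _ ?_
    have := LinearMap.congr_fun (h.decomposition g hg) ((↑u⁻¹ : A) • v)
    rw [← hu] at this
    simpa [Module.End.mul_apply, he, ← hM] using this
  · refine hkill _ ?_
    have := LinearMap.congr_fun (h.inertia τ hτ) v
    rw [← hu] at this
    simpa [Module.End.mul_apply, ← hM] using this

/-- Existence of normalising inertia elements. -/
theorem exists_isUnit_detSubOne {p : ℕ} (hp : p.Prime) (hp2 : p ≠ 2) {ρ : GaloisRepAdic A}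
    (h : ρ.DetIsCyclotomic p) {P : ValuationSubring Qbar} (hP : P.LiesOverPrime p) :
    ∃ σ₀ ∈ P.inertiaSubgroupIn ℚ, IsUnit (detSubOne ρ σ₀) := by
  have : NeZero p := ⟨hp.ne_zero⟩
  obtain ⟨ζ, hζ⟩ := HasEnoughRootsOfUnity.exists_primitiveRoot Qbar p
  obtain ⟨σ₀, hσ₀, hne⟩ := Flat.exists_inertia_apply_ne hp hp2 hP hζ
  refine ⟨σ₀, hσ₀, ?_⟩
  obtain ⟨a, ha⟩ := exists_cyclotomic_exponent hp.ne_zero 1 σ₀
  have hd := h.2 1 σ₀ a ha
  rw [pow_one] at hd
  by_contra hnu
  have hmem : detSubOne ρ σ₀ ∈ maximalIdeal A := (mem_maximalIdeal _).2 hnu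
  have hpm : (Ideal.span {(p : A)} : Ideal A) ≤ maximalIdeal A :=
    (Ideal.span_singleton_le_iff_mem _).2 h.1
  have ha1 : residue A (a : A) = residue A 1 := by
    refine Ideal.Quotient.eq.2 ?_
    have := sub_mem hmem (hpm hd)
    simpa [detSubOne] using this
  have hchar : CharP (ResidueField A) p := by
    refine (CharP.charP_iff_prime_eq_zero hp).2 ?_
    rw [← map_natCast (residue A), residue_eq_zero_iff]
    exact h.1
  have hmod : a ≡ 1 [MOD p] := by
    rw [← CharP.natCast_eq_natCast (ResidueField A) p, Nat.cast_one, ← map_natCast (residue A),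
      ha1, map_one]
  refine hne ?_
  rw [ha ζ (by rw [pow_one]; exact hζ.pow_eq_one)]
  conv_rhs => rw [← pow_one ζ]
  exact pow_eq_pow_of_modEq hmod hζ.pow_eq_one

/-- Ordinarity, given an element at each place normalising it. -/
theorem equations_of_isOrdinaryAt {p : ℕ} {ρ : GaloisRepAdic A} (h : ρ.IsOrdinaryAt p)
    {P : ValuationSubring Qbar} (hP : P.LiesOverPrime p) {σ₀ : Γℚ}
    (hσ₀ : σ₀ ∈ P.inertiaSubgroupIn ℚ) : Equations ρ P σ₀ := by
  obtain ⟨L, hL, hdec, hine⟩ := h P hP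
  exact equations_of_line ρ hσ₀ hL hdec hine

/-- The base change of endomorphisms. -/
def endBaseChange (φ : A →+* B) (hφ : IsLocalHom φ) (ρ : GaloisRepAdic A) :
    Module.End A ρ.V →+* Module.End B (ρ.baseChangeAlong φ hφ).V :=
  letI : Algebra A B := φ.toAlgebra
  (Module.End.baseChangeHom A B ρ.V).toRingHom

theorem endBaseChange_rho (φ : A →+* B) (hφ : IsLocalHom φ) (ρ : GaloisRepAdic A) (σ : Γℚ) :
    endBaseChange φ hφ ρ (ρ.ρ σ) = (ρ.baseChangeAlong φ hφ).ρ σ := rfl

theorem endBaseChange_toBaseChange (φ : A →+* B) (hφ : IsLocalHom φ) (ρ : GaloisRepAdic A)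
    (f : Module.End A ρ.V) (v : ρ.V) :
    endBaseChange φ hφ ρ f (toBaseChange φ hφ ρ v) = toBaseChange φ hφ ρ (f v) := rfl

theorem endBaseChange_smul (φ : A →+* B) (hφ : IsLocalHom φ) (ρ : GaloisRepAdic A)
    (a : A) (f : Module.End A ρ.V) :
    endBaseChange φ hφ ρ (a • f) = φ a • endBaseChange φ hφ ρ f := by
  letI : Algebra A B := φ.toAlgebra
  show (a • f).baseChange B = φ a • f.baseChange B
  rw [LinearMap.baseChange_smul]
  exact (algebraMap_smul B a (f.baseChange B)).symm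

theorem trace_endBaseChange (φ : A →+* B) (hφ : IsLocalHom φ) (ρ : GaloisRepAdic A)
    (f : Module.End A ρ.V) :
    LinearMap.trace B (ρ.baseChangeAlong φ hφ).V (endBaseChange φ hφ ρ f) =
      φ (LinearMap.trace A ρ.V f) := by
  let _ : Algebra A B := φ.toAlgebra
  exact LinearMap.trace_baseChange f B

theorem Equations.baseChange {ρ : GaloisRepAdic A} {P : ValuationSubring Qbar} {σ₀ : Γℚ}
    (h : Equations ρ P σ₀) (φ : A →+* B) (hφ : IsLocalHom φ) :
    Equations (ρ.baseChangeAlong φ hφ) P σ₀ := by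
  refine ⟨?_, ?_, fun g hg => ?_, fun τ hτ => ?_⟩ <;>
    simp only [detSubOne_baseChange, ← endBaseChange_rho φ hφ ρ, ← map_one (endBaseChange φ hφ ρ),
      ← map_sub, ← map_mul, ← endBaseChange_smul]
  · rw [trace_endBaseChange, h.trace_eq]
  · rw [h.mul_self, map_zero]
  · rw [h.decomposition g hg, map_zero]
  · rw [h.inertia τ hτ, map_zero]

theorem eq_zero_of_endBaseChange (φ : A →+* B) (hφ : IsLocalHom φ) (ρ : GaloisRepAdic A)
    {f : Module.End A ρ.V} (hf : endBaseChange φ hφ ρ f = 0) {ι : Type*}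
    (b : Module.Basis ι A ρ.V) (v : ρ.V) (i : ι) : φ (b.repr (f v) i) = 0 := by
  refine mem_of_toBaseChange_eq_zero φ hφ ρ ?_ b i
  rw [← endBaseChange_toBaseChange, hf, LinearMap.zero_apply]

theorem Equations.of_jointly_injective {ρ : GaloisRepAdic A} {P : ValuationSubring Qbar} {σ₀ : Γℚ}
    (φ : A →+* B) (hφ : IsLocalHom φ) (ψ : A →+* C) (hψ : IsLocalHom ψ)
    (hinj : ∀ a, φ a = 0 → ψ a = 0 → a = 0) (h₁ : Equations (ρ.baseChangeAlong φ hφ) P σ₀)
    (h₂ : Equations (ρ.baseChangeAlong ψ hψ) P σ₀) : Equations ρ P σ₀ := by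
  obtain ⟨a1, b1, c1, d1⟩ := h₁
  obtain ⟨a2, b2, c2, d2⟩ := h₂
  simp only [detSubOne_baseChange, ← endBaseChange_rho φ hφ ρ, ← map_one (endBaseChange φ hφ ρ),
    ← map_sub, ← map_mul, ← endBaseChange_smul, trace_endBaseChange] at a1 b1 c1 d1
  simp only [detSubOne_baseChange, ← endBaseChange_rho ψ hψ ρ, ← map_one (endBaseChange ψ hψ ρ),
    ← map_sub, ← map_mul, ← endBaseChange_smul, trace_endBaseChange] at a2 b2 c2 d2
  have key : ∀ f : Module.End A ρ.V, endBaseChange φ hφ ρ f = 0 → endBaseChange ψ hψ ρ f = 0 →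
      f = 0 := fun f hf hf' => LinearMap.ext fun v => (Module.finBasis A ρ.V).ext_elem fun i => by
    rw [LinearMap.zero_apply, map_zero, Finsupp.zero_apply]
    exact hinj _ (eq_zero_of_endBaseChange φ hφ ρ hf _ v i)
      (eq_zero_of_endBaseChange ψ hψ ρ hf' _ v i)
  refine ⟨?_, key _ b1 b2, fun g hg => key _ (c1 g hg) (c2 g hg),
    fun τ hτ => key _ (d1 τ hτ) (d2 τ hτ)⟩
  rw [← sub_eq_zero]
  exact hinj _ (by rw [map_sub, a1, sub_self]) (by rw [map_sub, a2, sub_self])

variable {p : ℕ}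

theorem isOrdinaryAt_baseChange (hp : p.Prime) (hp2 : p ≠ 2) (φ : A →+* B) (hφ : IsLocalHom φ)
    {ρ : GaloisRepAdic A} (hdet : ρ.DetIsCyclotomic p) (h : ρ.IsOrdinaryAt p) :
    (ρ.baseChangeAlong φ hφ).IsOrdinaryAt p := fun P hP => by
  obtain ⟨σ₀, hσ₀, hu⟩ := exists_isUnit_detSubOne hp hp2 hdet hP
  exact exists_line_of_equations _ (by rw [detSubOne_baseChange]; exact hu.map φ)
    ((equations_of_isOrdinaryAt h hP hσ₀).baseChange φ hφ)

theorem isOrdinaryAt_of_jointly_injective (hp : p.Prime) (hp2 : p ≠ 2) (φ : A →+* B)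
    (hφ : IsLocalHom φ) (ψ : A →+* C) (hψ : IsLocalHom ψ)
    (hinj : ∀ a, φ a = 0 → ψ a = 0 → a = 0) {ρ : GaloisRepAdic A} (hdet : ρ.DetIsCyclotomic p)
    (h₁ : (ρ.baseChangeAlong φ hφ).IsOrdinaryAt p) (h₂ : (ρ.baseChangeAlong ψ hψ).IsOrdinaryAt p) :
    ρ.IsOrdinaryAt p := fun P hP => by
  obtain ⟨σ₀, hσ₀, hu⟩ := exists_isUnit_detSubOne hp hp2 hdet hP
  exact exists_line_of_equations _ hu (Equations.of_jointly_injective φ hφ ψ hψ hinj
    (equations_of_isOrdinaryAt h₁ hP hσ₀) (equations_of_isOrdinaryAt h₂ hP hσ₀))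

theorem isOrdinaryAt_of_isEquiv {ρ ρ' : GaloisRepAdic A} (e : ρ.IsEquiv ρ')
    (h : ρ.IsOrdinaryAt p) : ρ'.IsOrdinaryAt p := by
  obtain ⟨e⟩ := e
  intro P hP
  obtain ⟨L, ⟨b, hb⟩, hdec, hine⟩ := h P hP
  refine ⟨L.map (e.toLinearEquiv : ρ.V →ₗ[A] ρ'.V), ⟨b.map e.toLinearEquiv, ?_⟩, ?_, ?_⟩
  · rw [hb, Submodule.map_span, Set.image_singleton]
    simp
  · rintro σ hσ _ ⟨v, hv, rfl⟩
    exact ⟨_, hdec σ hσ v hv, e.map_apply σ v⟩
  · intro σ hσ v
    refine ⟨_, hine σ hσ (e.toLinearEquiv.symm v), ?_⟩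
    show e.toLinearEquiv (_ - _) = _
    rw [map_sub, e.map_apply, LinearEquiv.apply_symm_apply]

end FermatLib.Galois.OrdinaryCondition
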