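import Mathlib.FieldTheory.Galois.Infinite
import Mathlib.LinearAlgebra.FreeModule.PID
import Mathlib.LinearAlgebra.LinearIndependent.Lemmas
import Mathlib.RingTheory.Localization.Integer
import Mathlib.RingTheory.TensorProduct.Maps
import Mathlib.LinearAlgebra.TensorProduct.Basis
import Mathlib.LinearAlgebra.FiniteDimensional.Lemmas

/-!
Linear algebra behind finite flat models of finite Galois modules: Galois descent for stable
subspaces of `K^ι`, and the properties of a separating Galois stable family of points of a finite
algebra.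
-/

noncomputable section

open scoped TensorProduct

namespace FermatLib.Galois.FlatModel

section Descent

variable {k K : Type*} [Field k] [Field K] [Algebra k K] [IsGalois k K] {ι : Type*} [Finite ι]

/-- A subspace of `K^ι` stable under `Gal(K/k)` which contains a non-zero vector contains a
non-zero `k`-rational one with smaller support. -/
theorem exists_rational_mem_of_stable (W : Submodule K (ι → K))
    (hW : ∀ σ : K ≃ₐ[k] K, ∀ c ∈ W, (fun i => σ (c i)) ∈ W)
    {c : ι → K} (hc : c ∈ W) (hc0 : c ≠ 0) :
    ∃ d ∈ W, d ≠ 0 ∧ (∀ i, c i = 0 → d i = 0) ∧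
      ∀ i, d i ∈ Set.range (algebraMap k K) := by
  induction hn : (Function.support c).ncard using Nat.strong_induction_on generalizing c with
  | _ n ih =>
    obtain ⟨i, hi⟩ := Function.ne_iff.1 hc0
    simp only [Pi.zero_apply] at hi
    set c' : ι → K := (c i)⁻¹ • c with hc'
    have hc'W : c' ∈ W := W.smul_mem _ hc
    have hc'i : c' i = 1 := by simp [hc', inv_mul_cancel₀ hi]
    by_cases hfix : ∀ σ : K ≃ₐ[k] K, ∀ j, σ (c' j) = c' j
    · refine ⟨c', hc'W, fun h => one_ne_zero (hc'i.symm.trans (congr_fun h i)), ?_, fun j => ?_⟩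
      · intro j hj
        simp [hc', hj]
      · exact (InfiniteGalois.mem_range_algebraMap_iff_fixed _).2 fun σ => hfix σ j
    · simp only [not_forall] at hfix
      obtain ⟨σ, j, hj⟩ := hfix
      set e : ι → K := (fun l => σ (c' l)) - c' with he
      have heW : e ∈ W := W.sub_mem (hW σ c' hc'W) hc'W
      have he0 : e ≠ 0 := fun h => hj (sub_eq_zero.1 (congr_fun h j))
      have hei : e i = 0 := by simp [he, hc'i]
      have hsub : ∀ l, c l = 0 → e l = 0 := fun l hl => by simp [he, hc', hl]
      have hlt : (Function.support e).ncard < n := by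
        subst hn
        refine Set.ncard_lt_ncard ⟨fun l hl hl' => hl (hsub l hl'), fun h => ?_⟩ (Set.toFinite _)
        exact h hi hei
      obtain ⟨d, hdW, hd0, hdsub, hdr⟩ := ih _ hlt heW he0 rfl
      exact ⟨d, hdW, hd0, fun l hl => hdsub l (hsub l hl), hdr⟩

/-- Galois descent: a stable subspace is spanned by its rational vectors. -/
theorem le_span_rational_of_stable (W : Submodule K (ι → K))
    (hW : ∀ σ : K ≃ₐ[k] K, ∀ c ∈ W, (fun i => σ (c i)) ∈ W) :
    W ≤ Submodule.span K {d | d ∈ W ∧ ∀ i, d i ∈ Set.range (algebraMap k K)} := by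
  intro c hc
  induction hn : (Function.support c).ncard using Nat.strong_induction_on generalizing c with
  | _ n ih =>
    by_cases hc0 : c = 0
    · simp [hc0]
    obtain ⟨d, hdW, hd0, hdsub, hdr⟩ := exists_rational_mem_of_stable W hW hc hc0
    obtain ⟨i, hi⟩ := Function.ne_iff.1 hd0
    simp only [Pi.zero_apply] at hi
    have hci : c i ≠ 0 := fun h => hi (hdsub i h)
    set c' : ι → K := c - (c i / d i) • d with hc'
    have hlt : (Function.support c').ncard < n := by
      subst hn
      refine Set.ncard_lt_ncard ⟨fun l hl hl' => hl ?_, fun h => h hci ?_⟩ (Set.toFinite _)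
      · simp [hc', hl', hdsub l hl']
      · simp [hc', div_mul_cancel₀ _ hi]
    have hmem := ih _ hlt (W.sub_mem hc (W.smul_mem (c i / d i) hdW)) rfl
    have hd : d ∈ Submodule.span K {d | d ∈ W ∧ ∀ i, d i ∈ Set.range (algebraMap k K)} :=
      Submodule.subset_span ⟨hdW, hdr⟩
    have : c' + (c i / d i) • d = c := by simp [hc']
    rw [← this]
    exact Submodule.add_mem _ hmem (Submodule.smul_mem _ _ hd)

end Descent

section Eval

variable {R : Type*} (k : Type*) {K : Type*} [CommRing R] [Field k] [Field K]
  [Algebra R k] [Algebra R K] [Algebra k K] [IsScalarTower R k K]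
  {A B : Type*} [CommRing A] [Algebra R A] [CommRing B] [Algebra R B]
  {ι ι' : Type*}

/-- The action of an automorphism of `K` on the `K`-points of an algebra. -/
def galComp (σ : K ≃ₐ[k] K) (f : A →ₐ[R] K) : A →ₐ[R] K :=
  ((σ.restrictScalars R : K ≃ₐ[R] K) : K →ₐ[R] K).comp f

@[simp] theorem galComp_apply (σ : K ≃ₐ[k] K) (f : A →ₐ[R] K) (a : A) :
    galComp k σ f a = σ (f a) := rfl

/-- The family of points `φ` separates the elements of `A`. -/
def Separates (φ : ι → A →ₐ[R] K) : Prop := ∀ a : A, (∀ m, φ m a = 0) → a = 0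

omit [Field k] [Algebra R k] [Algebra k K] [IsScalarTower R k K] in
theorem Separates.eq {φ : ι → A →ₐ[R] K} (h : Separates φ) {a b : A}
    (hab : ∀ m, φ m a = φ m b) : a = b :=
  sub_eq_zero.1 <| h _ fun m => by rw [map_sub, hab, sub_self]

/-- The range of `φ` is stable under `Gal(K/k)`. -/
def IsGalStable (φ : ι → A →ₐ[R] K) : Prop :=
  ∀ (σ : K ≃ₐ[k] K) (m : ι), ∃ m', φ m' = galComp k σ (φ m)

variable {k}

section
variable [IsFractionRing R k]

include k in
theorem algebraMap_injective_of_tower : Function.Injective (algebraMap R K) := by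
  rw [IsScalarTower.algebraMap_eq R k K]
  exact (algebraMap k K).injective.comp (IsFractionRing.injective R k)

include k in
theorem Separates.isTorsionFree [IsDomain R] {φ : ι → A →ₐ[R] K} (h : Separates φ) :
    Module.IsTorsionFree R A := by
  refine Module.IsTorsionFree.mk fun r hr a b hab => h.eq fun m => ?_
  have : r • (φ m a) = r • (φ m b) := by rw [← map_smul, ← map_smul]; exact congrArg _ hab
  rw [Algebra.smul_def, Algebra.smul_def] at this
  exact mul_left_cancel₀
    ((map_ne_zero_iff _ (algebraMap_injective_of_tower (R := R) (k := k) (K := K))).2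
      (IsRegular.ne_zero hr)) this

/-- A non-zero stable subspace of `K^ι` contains a non-zero integral vector; indeed these span. -/
theorem le_span_integral_of_stable [IsGalois k K] [Finite ι] (W : Submodule K (ι → K))
    (hW : ∀ σ : K ≃ₐ[k] K, ∀ c ∈ W, (fun i => σ (c i)) ∈ W) :
    W ≤ Submodule.span K {d | d ∈ W ∧ ∀ i, d i ∈ Set.range (algebraMap R K)} := by
  refine (le_span_rational_of_stable W hW).trans (Submodule.span_le.2 ?_)
  rintro d ⟨hdW, hdr⟩
  choose q hq using hdr
  obtain ⟨b, hb⟩ := IsLocalization.exist_integer_multiples_of_finite (nonZeroDivisors R) q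
  choose r hr using hb
  have : Nontrivial R := (algebraMap R k).domain_nontrivial
  have hb0 : algebraMap R K b ≠ 0 :=
    (map_ne_zero_iff _ (algebraMap_injective_of_tower (k := k))).2 (nonZeroDivisors.coe_ne_zero b)
  have hmem : (fun i => algebraMap R K (r i)) ∈ W := by
    convert W.smul_mem (algebraMap R K b) hdW using 1
    funext i
    simp [IsScalarTower.algebraMap_apply R k K, hr, hq, Algebra.smul_def]
  have : d = (algebraMap R K b)⁻¹ • fun i => algebraMap R K (r i) := by
    funext i
    rw [Pi.smul_apply, smul_eq_mul, eq_comm, inv_mul_eq_iff_eq_mul₀ hb0]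
    simp [IsScalarTower.algebraMap_apply R k K, hr, hq, Algebra.smul_def]
  rw [SetLike.mem_coe, this]
  exact Submodule.smul_mem _ _ (Submodule.subset_span ⟨hmem, fun i => ⟨r i, rfl⟩⟩)

variable [IsGalois k K] {φ : ι → A →ₐ[R] K}

include k in
/-- The values at a basis of `A` of a separating stable family are `K`-linearly independent. -/
theorem Separates.linearIndependent (h : Separates φ) (hs : IsGalStable k φ)
    {j : Type*} [Finite j] (b : Module.Basis j R A) :
    LinearIndependent K (fun (i : j) (m : ι) => φ m (b i)) := by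
  cases nonempty_fintype j
  rw [Fintype.linearIndependent_iff]
  intro c hc
  set W : Submodule K (j → K) :=
    LinearMap.ker (Fintype.linearCombination K (fun (i : j) (m : ι) => φ m (b i))) with hWdef
  have hmemW : ∀ c : j → K, c ∈ W ↔ ∀ m, ∑ i, c i * φ m (b i) = 0 := by
    intro c
    simp [hWdef, Fintype.linearCombination_apply, funext_iff]
  have hW : ∀ σ : K ≃ₐ[k] K, ∀ c ∈ W, (fun i => σ (c i)) ∈ W := by
    intro σ c hc
    rw [hmemW] at hc ⊢
    intro m
    obtain ⟨m', hm'⟩ := hs σ.symm m
    have := congrArg σ (hc m')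
    simpa [map_sum, hm'] using this
  have hbot : W ≤ ⊥ := by
    refine (le_span_integral_of_stable (R := R) W hW).trans (Submodule.span_le.2 ?_)
    rintro d ⟨hdW, hdr⟩
    choose r hr using hdr
    have h0 : ∑ i, r i • b i = 0 := by
      refine h _ fun m => ?_
      simpa [map_sum, Algebra.smul_def, hr] using (hmemW d).1 hdW m
    have := Fintype.linearIndependent_iff.1 b.linearIndependent r h0
    rw [SetLike.mem_coe, Submodule.mem_bot]
    funext i
    rw [← hr i, this i, map_zero, Pi.zero_apply]
  have : c ∈ W := by
    rw [hWdef, LinearMap.mem_ker, Fintype.linearCombination_apply]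
    exact hc
  exact congr_fun ((Submodule.mem_bot K).1 (hbot this))

variable [IsDomain R] [IsPrincipalIdealRing R] [Module.Finite R A]

omit [Field k] [Algebra R k] [Algebra k K] [IsScalarTower R k K] [IsFractionRing R k]
  [IsGalois k K] [IsDomain R] [IsPrincipalIdealRing R] in
theorem finite_algHom_field : Finite (A →ₐ[R] K) := by
  obtain ⟨n, s, hs⟩ := Module.Finite.exists_fin (R := R) (M := A)
  let Φ : (A →ₗ[R] K) →ₗ[K] (Fin n → K) :=
    { toFun := fun L i => L (s i)
      map_add' := fun _ _ => rfl
      map_smul' := fun _ _ => rfl }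
  have hΦ : LinearMap.ker Φ = ⊥ := by
    rw [LinearMap.ker_eq_bot]
    intro L L' hLL'
    exact LinearMap.ext_on hs (by rintro _ ⟨i, rfl⟩; exact congr_fun hLL' i)
  exact ((linearIndependent_algHom_toLinearMap R A K).map' Φ hΦ).finite

omit [IsDomain R] [IsPrincipalIdealRing R] in
include k in
/-- A separating stable finite family of points has exactly `rank A` members up to repetition, and
there are no other points. -/
theorem Separates.card_le [Finite ι] (h : Separates φ) (hs : IsGalStable k φ)
    {j : Type*} [Fintype j] (b : Module.Basis j R A) :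
    Nat.card (A →ₐ[R] K) ≤ Fintype.card j ∧ Fintype.card j ≤ Nat.card (Set.range φ) := by
  have := finite_algHom_field (R := R) (A := A) (K := K)
  have := Fintype.ofFinite (A →ₐ[R] K)
  cases nonempty_fintype ι
  let φ' : Set.range φ → A →ₐ[R] K := fun m => m.1
  have h' : Separates φ' := fun a ha => h a fun m => ha ⟨φ m, m, rfl⟩
  have hs' : IsGalStable k φ' := by
    rintro σ ⟨_, m, rfl⟩
    obtain ⟨m', hm'⟩ := hs σ m
    exact ⟨⟨φ m', m', rfl⟩, hm'⟩
  classical
  constructor
  · let Φ : (A →ₗ[R] K) →ₗ[K] (j → K) :=
      { toFun := fun L i => L (b i)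
        map_add' := fun _ _ => rfl
        map_smul' := fun _ _ => rfl }
    have hΦ : LinearMap.ker Φ = ⊥ :=
      LinearMap.ker_eq_bot.2 fun L L' hLL' => b.ext fun i => congr_fun hLL' i
    simpa [Nat.card_eq_fintype_card] using
      ((linearIndependent_algHom_toLinearMap R A K).map' Φ hΦ).fintype_card_le_finrank
  · simpa [Nat.card_eq_fintype_card] using (h'.linearIndependent hs' b).fintype_card_le_finrank

include k in
/-- A separating stable finite family of points consists of all points. -/
theorem Separates.surjective [Finite ι] (h : Separates φ) (hs : IsGalStable k φ) :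
    Function.Surjective φ := by
  have := finite_algHom_field (R := R) (A := A) (K := K)
  have := Fintype.ofFinite (A →ₐ[R] K)
  classical
  cases nonempty_fintype ι
  have := h.isTorsionFree (k := k)
  obtain ⟨h1, h2⟩ := h.card_le hs (Module.Free.chooseBasis R A)
  rw [Nat.card_eq_fintype_card] at h1 h2
  exact Set.range_eq_univ.1
    ((set_fintype_card_eq_univ_iff _).1 (le_antisymm (Fintype.card_subtype_le _) (h1.trans h2)))

omit [IsDomain R] [IsPrincipalIdealRing R] in
include k in
theorem Separates.card_algHom [Finite ι] (h : Separates φ) (hs : IsGalStable k φ)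
    {j : Type*} [Fintype j] (b : Module.Basis j R A) :
    Nat.card (A →ₐ[R] K) = Fintype.card j := by
  have := finite_algHom_field (R := R) (A := A) (K := K)
  obtain ⟨h1, h2⟩ := h.card_le hs b
  exact le_antisymm h1 (h2.trans (Finite.card_subtype_le _))

include k in
/-- Functions on an injective separating stable family are `K`-combinations of elements of `A`. -/
theorem Separates.span_eq_top [Finite ι] (h : Separates φ) (hs : IsGalStable k φ)
    (hinj : Function.Injective φ) {j : Type*} [Fintype j] (b : Module.Basis j R A) :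
    Submodule.span K (Set.range fun (i : j) (m : ι) => φ m (b i)) = ⊤ := by
  cases nonempty_fintype ι
  have hsurj := h.surjective hs
  have := Finite.of_surjective φ hsurj
  refine (h.linearIndependent hs b).span_eq_top_of_card_eq_finrank' ?_
  rw [Module.finrank_pi, ← h.card_algHom hs b, ← Nat.card_eq_fintype_card (α := ι)]
  exact (Nat.card_eq_of_bijective φ ⟨hinj, hsurj⟩).symm

omit [Module.Finite R A] in
include k in
/-- Product families separate tensor products. -/
theorem Separates.tensor (h : Separates φ) {ψ : ι' → B →ₐ[R] K} (h' : Separates ψ)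
    (hs' : IsGalStable k ψ) [Module.Finite R B] :
    Separates (fun x : ι × ι' => Algebra.TensorProduct.productMap (φ x.1) (ψ x.2)) := by
  intro x hx
  have := h'.isTorsionFree (k := k)
  let b := Module.Free.chooseBasis R B
  obtain ⟨a, rfl⟩ := TensorProduct.eq_repr_basis_right b x
  have hLI := h'.linearIndependent hs' b
  rw [Fintype.linearIndependent_iff] at hLI
  have ha : ∀ i, a i = 0 := fun i => h _ fun m => hLI (fun i => φ m (a i)) (by
    funext n
    have := hx (m, n)
    rw [Finsupp.sum_fintype _ _ (fun _ => by simp)] at this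
    simpa [map_sum] using this) i
  rw [Finsupp.sum_fintype _ _ (fun _ => by simp)]
  simp [ha]

omit [Module.Finite R A] [IsFractionRing R k] [IsGalois k K] [IsDomain R] [IsPrincipalIdealRing R] in
theorem IsGalStable.tensor (hs : IsGalStable k φ) {ψ : ι' → B →ₐ[R] K}
    (hs' : IsGalStable k ψ) :
    IsGalStable k (fun x : ι × ι' => Algebra.TensorProduct.productMap (φ x.1) (ψ x.2)) := by
  rintro σ ⟨m, n⟩
  obtain ⟨m', hm'⟩ := hs σ m
  obtain ⟨n', hn'⟩ := hs' σ n
  refine ⟨(m', n'), Algebra.TensorProduct.ext' fun a b => ?_⟩
  simp [hm', hn']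

end

end Eval

end FermatLib.Galois.FlatModel
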