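import Mathlib
import Fermat.Prelude.Thm_IsLocalRing_isAdicComplete_of_module_finite
import Fermat.Prelude.Thm_Algebra_finite_maximalSpectrum_and_bijective_localization_of_module_finite

/-!
# Finite extensions of complete discrete valuation rings

The integral closure of a complete discrete valuation ring of characteristic zero in a finite
extension of its fraction field is again one, and injectivity of matrices passes to field
extensions.
-/

set_option autoImplicit false
set_option linter.unusedSectionVars false

noncomputable section

namespace FermatLib.Galois.Attach

open Matrix

/-- A matrix over a domain which is injective on vectors stays injective over any field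
containing the domain. -/
theorem mulVec_injective_map {R F : Type*} [CommRing R] [IsDomain R] [Field F]
    {m n : Type*} [Fintype m] [Fintype n] (f : R →+* F)
    (hf : Function.Injective f) (B : Matrix m n R) (hB : Function.Injective B.mulVec) :
    Function.Injective (B.map f).mulVec := by
  classical
  have hcol : LinearIndependent R B.col := Matrix.mulVec_injective_iff.mp hB
  let K := FractionRing R
  have hinj : Function.Injective (B.map (algebraMap R K)).mulVec := by
    rw [Matrix.mulVec_injective_iff, ← LinearIndependent.iff_fractionRing (R := R) (K := K)]
    exact hcol.map_injOn ((Algebra.linearMap R K).compLeft m)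
      ((IsFractionRing.injective R K).comp_left).injOn
  obtain ⟨g, hg⟩ := (B.map (algebraMap R K)).mulVecLin.exists_leftInverse_of_injective
    (LinearMap.ker_eq_bot.mpr hinj)
  have hC : LinearMap.toMatrix' g * B.map (algebraMap R K) = 1 := by
    have := congrArg LinearMap.toMatrix' hg
    rwa [LinearMap.toMatrix'_comp, LinearMap.toMatrix'_id, ← Matrix.toLin'_apply', LinearMap.toMatrix'_toLin'] at this
  let f' : K →+* F := IsFractionRing.lift hf
  have hcomp : (B.map (algebraMap R K)).map f' = B.map f := by
    ext i j; simp [f', IsFractionRing.lift_algebraMap]
  intro x y hxy
  have hC' := congrArg (fun M : Matrix n n K => M.map f') hC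
  simp only [Matrix.map_mul, hcomp, Matrix.map_one, map_zero, map_one] at hC'
  calc x = (1 : Matrix n n F) *ᵥ x := (one_mulVec x).symm
    _ = (LinearMap.toMatrix' g).map f' *ᵥ (B.map f *ᵥ x) := by rw [mulVec_mulVec, hC']
    _ = (LinearMap.toMatrix' g).map f' *ᵥ (B.map f *ᵥ y) := congrArg _ hxy
    _ = y := by rw [mulVec_mulVec, hC', one_mulVec]

section extension

variable (O : Type) [CommRing O] [IsDomain O] [IsDiscreteValuationRing O]
  [IsAdicComplete (IsLocalRing.maximalIdeal O) O] [CharZero O]
  (L : Type) [Field L] [Algebra (FractionRing O) L] [Algebra O L]
  [IsScalarTower O (FractionRing O) L] [FiniteDimensional (FractionRing O) L]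

theorem finite_integralClosure : Module.Finite O (integralClosure O L) :=
  have : CharZero (FractionRing O) :=
    charZero_of_injective_algebraMap (IsFractionRing.injective O (FractionRing O))
  have : Algebra.IsSeparable (FractionRing O) L := Algebra.IsAlgebraic.isSeparable_of_perfectField
  IsIntegralClosure.finite O (FractionRing O) L (integralClosure O L)

theorem isFractionRing_integralClosure : IsFractionRing (integralClosure O L) L :=
  integralClosure.isFractionRing_of_finite_extension (FractionRing O) L

theorem injective_algebraMap_integralClosure :
    Function.Injective (algebraMap O (integralClosure O L)) := by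
  intro x y h
  have h1 := congrArg (fun z : integralClosure O L => (z : L)) h
  simp only [Subalgebra.coe_algebraMap] at h1
  rw [IsScalarTower.algebraMap_apply O (FractionRing O) L,
    IsScalarTower.algebraMap_apply O (FractionRing O) L] at h1
  exact IsFractionRing.injective O (FractionRing O) ((algebraMap _ L).injective h1)

theorem isLocalRing_integralClosure : IsLocalRing (integralClosure O L) := by
  have := finite_integralClosure O L
  set A := integralClosure O L
  obtain ⟨-, hbij, -, -⟩ :=
    Algebra.finite_maximalSpectrum_and_bijective_localization_of_module_finite (𝒪 := O) A
  have hsub : Subsingleton (MaximalSpectrum A) := by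
    classical
    refine ⟨fun I J => ?_⟩
    by_contra hIJ
    obtain ⟨e, he⟩ := hbij.2 (Pi.single I 1)
    have hee : e * e = e := hbij.1 (by rw [map_mul, he, ← Pi.single_mul, one_mul])
    rcases IsIdempotentElem.iff_eq_zero_or_one.mp hee with h | h
    · have := congrFun he I
      simp [h] at this
    · have := congrFun he J
      simp [h, Ne.symm hIJ] at this
  exact IsLocalRing.of_singleton_maximalSpectrum

attribute [local instance] isLocalRing_integralClosure in
theorem isLocalHom_integralClosure : IsLocalHom (algebraMap O (integralClosure O L)) :=
  have := finite_integralClosure O L
  (algebraMap_isIntegral_iff.mpr inferInstance).isLocalHom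
    (injective_algebraMap_integralClosure O L)

attribute [local instance] isLocalRing_integralClosure isLocalHom_integralClosure in
theorem isAdicComplete_integralClosure :
    IsAdicComplete (IsLocalRing.maximalIdeal (integralClosure O L)) (integralClosure O L) :=
  have := finite_integralClosure O L
  IsLocalRing.isAdicComplete_of_module_finite (𝒪 := O)

attribute [local instance] isLocalRing_integralClosure in
theorem isDiscreteValuationRing_integralClosure :
    IsDiscreteValuationRing (integralClosure O L) := by
  have : CharZero (FractionRing O) :=
    charZero_of_injective_algebraMap (IsFractionRing.injective O (FractionRing O))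
  have : Algebra.IsSeparable (FractionRing O) L :=
    Algebra.IsAlgebraic.isSeparable_of_perfectField
  have : IsDedekindDomain (integralClosure O L) :=
    integralClosure.isDedekindDomain O (FractionRing O) L
  have hnf : ¬ IsField (integralClosure O L) := by
    intro h
    have := finite_integralClosure O L
    exact IsDiscreteValuationRing.not_isField O
      (isField_of_isIntegral_of_isField (injective_algebraMap_integralClosure O L) h)
  have h : IsDiscreteValuationRing (integralClosure O L) ↔ IsDedekindDomain (integralClosure O L) :=
    (IsDiscreteValuationRing.TFAE (integralClosure O L) hnf).out 0 2
  exact h.mpr inferInstance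

theorem charZero_integralClosure : CharZero (integralClosure O L) :=
  charZero_of_injective_algebraMap (injective_algebraMap_integralClosure O L)

attribute [local instance] isLocalRing_integralClosure isLocalHom_integralClosure in
theorem finite_residueField_integralClosure [Finite (IsLocalRing.ResidueField O)] :
    Finite (IsLocalRing.ResidueField (integralClosure O L)) :=
  have := finite_integralClosure O L
  IsLocalRing.ResidueField.finite_of_finite (R := O) inferInstance

end extension

end FermatLib.Galois.Attach
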