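import Fermat.Agent.Galois.AttachQuadratic
import Fermat.Agent.Galois.AttachExtension

/-!
# Integral two-dimensional constituents

From an integral representation `ρ₀` of a group on `O^r` and a stable submodule `X ≠ 0` on which
`g + e(g) g⁻¹ = a(g)`, construct a representation in `GL₂` over a finite extension of the complete
discrete valuation ring `O` with characteristic polynomials `X² - a(g) X + e(g)`, cut out from
`X` with a saturated lattice.
-/

set_option autoImplicit false
set_option linter.unusedSectionVars false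

noncomputable section

namespace FermatLib.Galois.Attach

open Matrix Module

section saturated

variable {R Ω : Type*} [CommRing R] [IsDomain R] [IsPrincipalIdealRing R] [Field Ω] (i : R →+* Ω)
  (hi : Function.Injective i) {r : ℕ}

/-- A saturated lattice in a subspace which is spanned by integral vectors. -/
theorem exists_saturated_basis (W : Submodule Ω (Fin r → Ω)) (S : Set (Fin r → R))
    (hS : Submodule.span Ω ((fun x => i ∘ x) '' S) = W) (hi : Function.Injective i) :
    ∃ (d : ℕ) (B : Matrix (Fin r) (Fin d) R), finrank Ω W = d ∧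
      Function.Injective (B.map i).mulVec ∧ (∀ y, (B.map i) *ᵥ y ∈ W) ∧
      (∀ w ∈ W, ∃ y, (B.map i) *ᵥ y = w) ∧
      ∀ x : Fin r → R, i ∘ x ∈ W → ∃ y, B *ᵥ y = x := by
  classical
  let := i.toAlgebra
  let M : Submodule R (Fin r → R) :=
    (W.restrictScalars R).comap ((Algebra.linearMap R Ω).compLeft (Fin r))
  have hM : ∀ x, x ∈ M ↔ i ∘ x ∈ W := fun x => Iff.rfl
  obtain ⟨n, b⟩ := Submodule.basisOfPid (Pi.basisFun R (Fin r)) M
  let B : Matrix (Fin r) (Fin n) R := Matrix.of fun s t => (b t : Fin r → R) s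
  have hBy : ∀ y, B *ᵥ y = ((b.equivFun.symm y : M) : Fin r → R) := by
    intro y
    rw [Basis.equivFun_symm_apply]
    ext s
    simp [B, mulVec, dotProduct, Finset.sum_apply, mul_comm]
  have hBinj : Function.Injective B.mulVec := fun y y' h => by
    have h' : (b.equivFun.symm y : M) = b.equivFun.symm y' := Subtype.ext (by rw [← hBy, ← hBy, h])
    exact b.equivFun.symm.injective h'
  have hsat : ∀ x : Fin r → R, i ∘ x ∈ W → ∃ y, B *ᵥ y = x := fun x hx =>
    ⟨b.equivFun ⟨x, (hM x).mpr hx⟩, by rw [hBy]; simp⟩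
  have hBi := mulVec_injective_map i hi B hBinj
  have hmap : ∀ y, (B.map i) *ᵥ (i ∘ y) = i ∘ (B *ᵥ y) := fun y => by
    ext s; exact (RingHom.map_mulVec i B y s).symm
  have hmem : ∀ y, (B.map i) *ᵥ y ∈ W := by
    intro y
    rw [mulVec_eq_sum]
    refine sum_mem fun t _ => ?_
    rw [op_smul_eq_smul]
    refine W.smul_mem _ ?_
    exact (hM _).mp (b t).2
  have hge : ∀ w ∈ W, ∃ y, (B.map i) *ᵥ y = w := by
    have hle : W ≤ LinearMap.range (B.map i).mulVecLin := by
      rw [← hS, Submodule.span_le]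
      rintro _ ⟨x, hx, rfl⟩
      obtain ⟨y, rfl⟩ := hsat x (hS ▸ Submodule.subset_span ⟨x, hx, rfl⟩)
      exact ⟨i ∘ y, hmap y⟩
    exact fun w hw => hle hw
  let E : (Fin n → Ω) ≃ₗ[Ω] W := LinearEquiv.ofBijective
    ((B.map i).mulVecLin.codRestrict W hmem)
    ⟨fun y y' h => hBi (congrArg Subtype.val h), fun w => by
      obtain ⟨y, hy⟩ := hge w w.2
      exact ⟨y, Subtype.ext hy⟩⟩
  have hn : finrank Ω W = n := by rw [← E.finrank_eq, Module.finrank_fin_fun]
  exact ⟨n, B, hn, hBi, hmem, hge, hsat⟩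

theorem congr_of_saturated {d : ℕ} (B : Matrix (Fin r) (Fin d) R) {W : Submodule Ω (Fin r → Ω)}
    (hi : Function.Injective i) (hinj : Function.Injective (B.map i).mulVec)
    (hmem : ∀ y, (B.map i) *ᵥ y ∈ W) (hsat : ∀ x : Fin r → R, i ∘ x ∈ W → ∃ y, B *ᵥ y = x)
    (I : Ideal R) (y : Fin d → R) (hy : ∀ s, (B *ᵥ y) s ∈ I) : ∀ t, y t ∈ I := by
  obtain ⟨c, rfl⟩ := (IsPrincipalIdealRing.principal I).principal
  simp only [Ideal.submodule_span_eq, Ideal.mem_span_singleton'] at hy ⊢
  choose z hz using hy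
  have hmap : ∀ y, (B.map i) *ᵥ (i ∘ y) = i ∘ (B *ᵥ y) := fun y => by
    ext s; exact (RingHom.map_mulVec i B y s).symm
  have hz' : i ∘ (B *ᵥ y) = i c • (i ∘ z) := by
    ext s; simp [← hz s, mul_comm]
  rcases eq_or_ne c 0 with rfl | hc
  · rw [map_zero, zero_smul, ← hmap, ← mulVec_zero (B.map i)] at hz'
    exact fun t => ⟨0, by rw [mul_zero, hi ((congrFun (hinj hz') t).trans (map_zero i).symm)]⟩
  · have hzW : i ∘ z ∈ W := by
      rw [← W.smul_mem_iff ((map_ne_zero_iff i hi).mpr hc), ← hz', ← hmap]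
      exact hmem _
    obtain ⟨y', hy'⟩ := hsat z hzW
    rw [← hy', ← hmap, ← hmap, ← mulVec_smul] at hz'
    exact fun t => ⟨y' t, hi (by
      have := congrFun (hinj hz') t
      simp only [Function.comp_apply, Pi.smul_apply, smul_eq_mul] at this
      rw [this, map_mul, mul_comm])⟩

end saturated

section constituent

variable {G : Type*} [Group G]

theorem exists_irreducible_invariant {k V : Type*} [Field k] [AddCommGroup V] [Module k V]
    [FiniteDimensional k V] (R : G →* Module.End k V) (X : Submodule k V) (hX : X ≠ ⊥)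
    (hinv : IsInvariantSubspace R X) :
    ∃ W, W ≤ X ∧ W ≠ ⊥ ∧ IsInvariantSubspace R W ∧
      ∀ U, U ≤ W → IsInvariantSubspace R U → U = ⊥ ∨ U = W := by
  obtain ⟨W, ⟨hW1, hW2, hW3⟩, hmin⟩ := IsArtinian.set_has_minimal
    {U : Submodule k V | U ≤ X ∧ U ≠ ⊥ ∧ IsInvariantSubspace R U} ⟨X, le_rfl, hX, hinv⟩
  refine ⟨W, hW1, hW2, hW3, fun U hU hUi => or_iff_not_imp_left.mpr fun hU0 => ?_⟩
  by_contra hne
  exact hmin U ⟨hU.trans hW1, hU0, hUi⟩ (lt_of_le_of_ne hU hne)

variable (O : Type) [CommRing O] [IsDomain O] [IsDiscreteValuationRing O]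
  [IsAdicComplete (IsLocalRing.maximalIdeal O) O] [CharZero O]

/-- The conclusion of `exists_constituent`: a two-dimensional representation over the integral
closure `C` with prescribed characteristic polynomials, congruent to one wherever `ρ₀` and `e`
are, together with its origin inside `X`. -/
structure ConstituentData (C : Type) [CommRing C] [Algebra O C] {r : ℕ}
    (ρ₀ : G →* Matrix (Fin r) (Fin r) O) (e : G →* O) (a : G → O)
    (X : Submodule O (Fin r → O)) (π : G →* Matrix (Fin 2) (Fin 2) C) : Prop where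
  charpoly_eq : ∀ g, (π g).charpoly =
    Polynomial.X ^ 2 - Polynomial.C (algebraMap O C (a g)) * Polynomial.X
      + Polynomial.C (algebraMap O C (e g))
  congr_one : ∀ (g : G) (I : Ideal C), (∀ s t, algebraMap O C ((ρ₀ g - 1) s t) ∈ I) →
    algebraMap O C (e g - 1) ∈ I → ∀ s t, (π g - 1) s t ∈ I
  origin :
    (∃ B : Matrix (Fin r) (Fin 2) C, Function.Injective B.mulVec ∧
      (∀ g, (ρ₀ g).map (algebraMap O C) * B = B * π g) ∧
      ∀ (T : Matrix (Fin r) (Fin r) O) (c : O), (∀ x ∈ X, T *ᵥ x = c • x) →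
        T.map (algebraMap O C) * B = algebraMap O C c • B) ∨
    (∃ (v : Fin r → C) (ψ : G →* C), v ≠ 0 ∧
      (∀ g, (ρ₀ g).map (algebraMap O C) *ᵥ v = ψ g • v) ∧
      (∀ g, π g = !![ψ g, 0; 0, algebraMap O C (e g) * ψ g⁻¹]) ∧
      ∀ (T : Matrix (Fin r) (Fin r) O) (c : O), (∀ x ∈ X, T *ᵥ x = c • x) →
        T.map (algebraMap O C) *ᵥ v = algebraMap O C c • v)

/-- The core of `exists_constituent`, over an abstract principal ideal domain inside `Ω`. -/
theorem exists_constituentData {r : ℕ} {Ω : Type*} [Field Ω] [IsAlgClosed Ω] (j : O →+* Ω)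
    (C : Type) [CommRing C] [IsDomain C] [IsPrincipalIdealRing C] [Algebra O C] (i : C →+* Ω)
    (hi : Function.Injective i) (hij : ∀ x, i (algebraMap O C x) = j x)
    (ρ₀ : G →* Matrix (Fin r) (Fin r) O) (e : G →* O) (a : G → O) (X : Submodule O (Fin r → O))
    (hrel : ∀ g, ∀ x ∈ X, ρ₀ g *ᵥ x + e g • (ρ₀ g⁻¹ *ᵥ x) = a g • x)
    (R : G →* Module.End Ω (Fin r → Ω)) (hR : ∀ g y, R g y = (ρ₀ g).map j *ᵥ y)
    (XΩ : Submodule Ω (Fin r → Ω))
    (hop : ∀ (T : Matrix (Fin r) (Fin r) O) (c : O), (∀ x ∈ X, T *ᵥ x = c • x) →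
      ∀ y ∈ XΩ, T.map j *ᵥ y = j c • y)
    (hΩrel : ∀ g, ∀ y ∈ XΩ, R g y + j (e g) • R g⁻¹ y = j (a g) • y)
    (W : Submodule Ω (Fin r → Ω)) (hWX : W ≤ XΩ) (hW0 : W ≠ ⊥) (hWinv : IsInvariantSubspace R W)
    (hWmin : ∀ U, U ≤ W → IsInvariantSubspace R U → U = ⊥ ∨ U = W)
    (S : Set (Fin r → C)) (hspan : Submodule.span Ω ((fun x => i ∘ x) '' S) = W) :
    ∃ π : G →* Matrix (Fin 2) (Fin 2) C, ConstituentData O C ρ₀ e a X π := by
  classical
  have hjM : ∀ M : Matrix (Fin r) (Fin r) O, (M.map (algebraMap O C)).map i = M.map j := fun M => by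
    ext s t; exact hij _
  obtain ⟨d, B, hd, hBinj, hBmem, hBge, hBsat⟩ := exists_saturated_basis i W S hspan hi
  have hBmap : ∀ y, (B.map i) *ᵥ (i ∘ y) = i ∘ (B *ᵥ y) := fun y => by
    ext s; exact (RingHom.map_mulVec i B y s).symm
  have hBinj' : Function.Injective B.mulVec := fun y y' h => by
    have := hBinj ((hBmap y).trans ((congrArg (i ∘ ·) h).trans (hBmap y').symm))
    exact funext fun t => hi (congrFun this t)
  -- the matrix of `g` on the lattice
  have hcol : ∀ g t, ∃ y, B *ᵥ y = ((ρ₀ g).map (algebraMap O C) * B).col t := by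
    intro g t
    refine hBsat _ ?_
    have h1 : i ∘ ((ρ₀ g).map (algebraMap O C) * B).col t =
        R g ((B.map i) *ᵥ Pi.single t 1) := by
      rw [hR, mulVec_mulVec, mulVec_single_one, ← hjM, ← Matrix.map_mul]
      rfl
    rw [h1]
    exact hWinv g _ (hBmem _)
  choose P hP using hcol
  let π₀ : G → Matrix (Fin d) (Fin d) C := fun g => Matrix.of fun s t => P g t s
  have hπ₀ : ∀ g, (ρ₀ g).map (algebraMap O C) * B = B * π₀ g := by
    intro g
    ext s t
    have := congrFun (hP g t) s
    rw [Matrix.col_apply] at this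
    rw [← this, mulVec, dotProduct, Matrix.mul_apply]
    rfl
  have hcancel : ∀ M M' : Matrix (Fin d) (Fin d) C, B * M = B * M' → M = M' := by
    intro M M' h
    refine Matrix.ext fun s t => ?_
    have h1 : B *ᵥ M.col t = B *ᵥ M'.col t := by
      funext u
      exact congrFun (congrFun h u) t
    exact congrFun (hBinj' h1) s
  let π : G →* Matrix (Fin d) (Fin d) C :=
    { toFun := π₀
      map_one' := hcancel _ _ (by rw [← hπ₀, map_one, Matrix.map_one _ (map_zero _) (map_one _),
          Matrix.one_mul, Matrix.mul_one])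
      map_mul' := fun g g' => hcancel _ _ (by
        rw [← hπ₀, map_mul, Matrix.map_mul, Matrix.mul_assoc, hπ₀, ← Matrix.mul_assoc, hπ₀,
          Matrix.mul_assoc]) }
  have hπ : ∀ g, (ρ₀ g).map (algebraMap O C) * B = B * π g := hπ₀
  have hTB : ∀ (T : Matrix (Fin r) (Fin r) O) (c : O), (∀ x ∈ X, T *ᵥ x = c • x) →
      T.map (algebraMap O C) * B = algebraMap O C c • B := by
    intro T c hT
    ext s t
    refine hi ?_
    have := congrFun (hop T c hT _ (hWX (hBmem (Pi.single t 1)))) s
    rw [mulVec_mulVec, mulVec_single_one, mulVec_single_one, Pi.smul_apply, smul_eq_mul,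
      ← hjM, ← Matrix.map_mul, ← hij] at this
    rw [Matrix.smul_apply, smul_eq_mul, map_mul]
    exact this
  have hcongr : ∀ (g : G) (I : Ideal C), (∀ s t, algebraMap O C ((ρ₀ g - 1) s t) ∈ I) →
      ∀ s t, (π g - 1) s t ∈ I := by
    intro g I hI s t
    refine congr_of_saturated i B hi hBinj hBmem hBsat I ((π g - 1).col t) (fun u => ?_) s
    have h1 : (B *ᵥ (π g - 1).col t) u = (((ρ₀ g - 1).map (algebraMap O C)) * B) u t := by
      rw [Matrix.map_sub _ (map_sub _), Matrix.map_one _ (map_zero _) (map_one _), Matrix.sub_mul,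
        hπ, Matrix.one_mul]
      show (B * (π g - 1) : Matrix (Fin r) (Fin d) C) u t = _
      rw [Matrix.mul_sub, Matrix.mul_one]
    rw [h1, Matrix.mul_apply]
    exact sum_mem fun x _ => I.mul_mem_right _ (hI u x)
  -- transport to the subspace
  let RW : G →* Module.End Ω W :=
    { toFun := fun g => (R g).restrict (hWinv g)
      map_one' := LinearMap.ext fun x => Subtype.ext (by simp)
      map_mul' := fun g g' => LinearMap.ext fun x => Subtype.ext (by simp) }
  have hWrel : HasTraceRelation RW (j.toMonoidHom.comp e) (fun g => j (a g)) := fun g =>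
    LinearMap.ext fun x => Subtype.ext (hΩrel g x (hWX x.2))
  have hirr : ∀ U, IsInvariantSubspace RW U → U = ⊥ ∨ U = ⊤ := by
    intro U hU
    have hinvU : IsInvariantSubspace R (U.map W.subtype) := by
      rintro g _ ⟨x, hx, rfl⟩
      exact ⟨RW g x, hU g x hx, rfl⟩
    rcases hWmin _ (Submodule.map_subtype_le W U) hinvU with h | h
    · left
      apply Submodule.map_injective_of_injective W.injective_subtype
      rwa [Submodule.map_bot]
    · right
      apply Submodule.map_injective_of_injective W.injective_subtype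
      rwa [Submodule.map_top, Submodule.range_subtype]
  let E : (Fin d → Ω) ≃ₗ[Ω] W := LinearEquiv.ofBijective
    ((B.map i).mulVecLin.codRestrict W hBmem)
    ⟨fun y y' h => hBinj (congrArg Subtype.val h), fun x => by
      obtain ⟨y, hy⟩ := hBge x x.2
      exact ⟨y, Subtype.ext hy⟩⟩
  have hcp : ∀ g, LinearMap.charpoly (RW g) = (π g).charpoly.map i := by
    intro g
    have hc : E.symm.conj (RW g) = Matrix.toLin' ((π g).map i) := by
      refine LinearMap.ext fun y => E.injective (Subtype.ext ?_)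
      rw [LinearEquiv.conj_apply_apply, E.apply_symm_apply, E.symm_symm]
      show R g ((B.map i) *ᵥ y) = (B.map i) *ᵥ ((π g).map i *ᵥ y)
      rw [hR, mulVec_mulVec, mulVec_mulVec, ← hjM, ← Matrix.map_mul, ← Matrix.map_mul, hπ]
    rw [← LinearEquiv.charpoly_conj E.symm (RW g), hc, ← Matrix.charpoly_map,
      Matrix.charpoly_toLin']
  have hdpos : 1 ≤ d := hd ▸ Submodule.one_le_finrank_iff.mpr hW0
  by_cases hd1 : d = 1
  · subst hd1
    let ψ : G →* C :=
      { toFun := fun g => π g 0 0
        map_one' := by simp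
        map_mul' := fun g g' => by simp [Matrix.mul_apply] }
    let v : Fin r → C := B.col 0
    have hv : v ≠ 0 := fun h => by
      have h' : B *ᵥ Pi.single 0 1 = B *ᵥ 0 := by rw [mulVec_single_one, mulVec_zero]; exact h
      simpa using congrFun (hBinj' h') 0
    have hψv : ∀ g, (ρ₀ g).map (algebraMap O C) *ᵥ v = ψ g • v := by
      intro g
      ext s
      have := congrFun (congrFun (hπ g) s) 0
      simp only [Matrix.mul_apply, Fin.sum_univ_one] at this
      simpa [v, mulVec, dotProduct, ψ, mul_comm] using this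
    have hsum : ∀ g, algebraMap O C (a g) = ψ g + algebraMap O C (e g) * ψ g⁻¹ := by
      intro g
      have h1 := hTB (ρ₀ g + e g • ρ₀ g⁻¹) (a g) (fun x hx => by
        rw [add_mulVec, smul_mulVec, hrel g x hx])
      have h2 : (ρ₀ g + e g • ρ₀ g⁻¹).map (algebraMap O C) =
          (ρ₀ g).map (algebraMap O C) + algebraMap O C (e g) • (ρ₀ g⁻¹).map (algebraMap O C) := by
        ext s t
        rw [map_apply, Matrix.add_apply, Matrix.add_apply, Matrix.smul_apply, Matrix.smul_apply,
          map_apply, map_apply, smul_eq_mul, smul_eq_mul, map_add, map_mul]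
      rw [h2, Matrix.add_mul, Matrix.smul_mul, hπ, hπ] at h1
      obtain ⟨s, hs⟩ := Function.ne_iff.mp hv
      have h3 := congrFun (congrFun h1 s) 0
      simp only [Matrix.add_apply, Matrix.smul_apply, smul_eq_mul, Matrix.mul_apply,
        Fin.sum_univ_one] at h3
      refine mul_left_cancel₀ hs ?_
      simp only [v, Matrix.col_apply, ψ, MonoidHom.coe_mk, OneHom.coe_mk]
      linear_combination -h3
    let π2 : G →* Matrix (Fin 2) (Fin 2) C :=
      { toFun := fun g => !![ψ g, 0; 0, algebraMap O C (e g) * ψ g⁻¹]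
        map_one' := by simp [Matrix.one_fin_two]
        map_mul' := fun g g' => by
          rw [Matrix.mul_fin_two, _root_.mul_inv_rev, map_mul, map_mul, map_mul, map_mul]
          simp only [mul_zero, zero_mul, add_zero, zero_add]
          rw [show algebraMap O C (e g) * algebraMap O C (e g') * (ψ g'⁻¹ * ψ g⁻¹) =
            algebraMap O C (e g) * ψ g⁻¹ * (algebraMap O C (e g') * ψ g'⁻¹) by ring] }
    refine ⟨π2, ?_, ?_, Or.inr ⟨v, ψ, hv, hψv, fun g => rfl, ?_⟩⟩
    · intro g
      have hone : ψ g * ψ g⁻¹ = 1 := by rw [← map_mul, mul_inv_cancel, map_one]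
      rw [Matrix.charpoly_fin_two]
      simp [π2, Matrix.trace_fin_two, Matrix.det_fin_two, hsum g]
      have hone' : Polynomial.C (ψ g) * Polynomial.C (ψ g⁻¹) = 1 := by
        rw [← map_mul, hone, map_one]
      linear_combination Polynomial.C (algebraMap O C (e g)) * hone'
    · intro g I hI he
      have h00 : ψ g - 1 ∈ I := by simpa [ψ] using hcongr g I hI 0 0
      have hone : ψ g * ψ g⁻¹ = 1 := by rw [← map_mul, mul_inv_cancel, map_one]
      intro s t
      fin_cases s <;> fin_cases t <;>
        simp [π2]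
      · exact h00
      · have : algebraMap O C (e g) * ψ g⁻¹ - 1 =
            ψ g⁻¹ * algebraMap O C (e g - 1) - ψ g⁻¹ * (ψ g - 1) := by
          rw [map_sub, map_one]; linear_combination hone
        rw [this]
        exact sub_mem (I.mul_mem_left _ he) (I.mul_mem_left _ h00)
    · intro T c hT
      ext s
      exact congrFun (congrFun (hTB T c hT) s) 0
  · obtain ⟨hd2, hch⟩ := finrank_le_two_and_charpoly hWrel hirr (by omega)
    obtain rfl : d = 2 := hd.symm.trans hd2
    refine ⟨π, fun g => ?_, fun g I hI _ => hcongr g I hI, Or.inl ⟨B, hBinj', hπ, hTB⟩⟩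
    apply Polynomial.map_injective i hi
    rw [← hcp, hch g]
    simp [hij]

theorem exists_constituent {r : ℕ} (ρ₀ : G →* Matrix (Fin r) (Fin r) O) (e : G →* O) (a : G → O)
    (X : Submodule O (Fin r → O)) (hX : X ≠ ⊥) (hstab : ∀ g, ∀ x ∈ X, ρ₀ g *ᵥ x ∈ X)
    (hrel : ∀ g, ∀ x ∈ X, ρ₀ g *ᵥ x + e g • (ρ₀ g⁻¹ *ᵥ x) = a g • x) :
    ∃ (L : Type) (_ : Field L) (_ : Algebra (FractionRing O) L) (_ : Algebra O L)
      (_ : IsScalarTower O (FractionRing O) L) (_ : FiniteDimensional (FractionRing O) L),
      ∃ π : G →* Matrix (Fin 2) (Fin 2) (integralClosure O L),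
        ConstituentData O (integralClosure O L) ρ₀ e a X π := by
  classical
  let K := FractionRing O
  let Ω := AlgebraicClosure K
  let j : O →+* Ω := (algebraMap K Ω).comp (algebraMap O K)
  have hj : Function.Injective j :=
    (algebraMap K Ω).injective.comp (IsFractionRing.injective O K)
  have hjmap : ∀ (M : Matrix (Fin r) (Fin r) O) (x : Fin r → O),
      M.map j *ᵥ (j ∘ x) = j ∘ (M *ᵥ x) := fun M x => by
    ext s; exact (RingHom.map_mulVec j M x s).symm
  let R : G →* Module.End Ω (Fin r → Ω) :=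
    (Matrix.toLinAlgEquiv' (R := Ω) (n := Fin r)).toMonoidHom.comp
      (j.mapMatrix.toMonoidHom.comp ρ₀)
  have hR : ∀ g y, R g y = (ρ₀ g).map j *ᵥ y := fun g y => rfl
  let XΩ : Submodule Ω (Fin r → Ω) := Submodule.span Ω ((fun x => j ∘ x) '' (X : Set (Fin r → O)))
  have hXΩ : XΩ ≠ ⊥ := by
    obtain ⟨x, hx, hx0⟩ := X.ne_bot_iff.mp hX
    refine (Submodule.ne_bot_iff _).mpr ⟨j ∘ x, Submodule.subset_span ⟨x, hx, rfl⟩, fun h => hx0 ?_⟩
    ext s
    exact hj ((congrFun h s).trans (map_zero j).symm)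
  have hXinv : IsInvariantSubspace R XΩ := by
    intro g y hy
    induction hy using Submodule.span_induction with
    | mem y hy =>
      obtain ⟨x, hx, rfl⟩ := hy
      rw [hR, hjmap]
      exact Submodule.subset_span ⟨_, hstab g x hx, rfl⟩
    | zero => simp
    | add y z _ _ hy hz => rw [map_add]; exact add_mem hy hz
    | smul c y _ hy => rw [map_smul]; exact XΩ.smul_mem c hy
  have hop : ∀ (T : Matrix (Fin r) (Fin r) O) (c : O), (∀ x ∈ X, T *ᵥ x = c • x) →
      ∀ y ∈ XΩ, T.map j *ᵥ y = j c • y := by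
    intro T c hT y hy
    induction hy using Submodule.span_induction with
    | mem y hy =>
      obtain ⟨x, hx, rfl⟩ := hy
      rw [hjmap, hT x hx]
      ext s; simp
    | zero => simp
    | add y z _ _ hy hz => rw [mulVec_add, hy, hz, smul_add]
    | smul b y _ hy => rw [mulVec_smul, hy, smul_comm]
  have hΩrel : ∀ g, ∀ y ∈ XΩ, R g y + j (e g) • R g⁻¹ y = j (a g) • y := by
    intro g y hy
    have := hop (ρ₀ g + e g • ρ₀ g⁻¹) (a g) (fun x hx => by
      rw [add_mulVec, smul_mulVec, hrel g x hx]) y hy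
    rw [hR, hR, ← this, ← smul_mulVec, ← add_mulVec]
    congr 1
    ext s t; simp
  obtain ⟨W, hWX, hW0, hWinv, hWmin⟩ := exists_irreducible_invariant R XΩ hXΩ hXinv
  -- the field of definition of `W`
  let w := Module.finBasis Ω W
  let coords : Set Ω := Set.range fun st : Fin (finrank Ω W) × Fin r => (w st.1 : Fin r → Ω) st.2
  let L : IntermediateField K Ω := IntermediateField.adjoin K coords
  have : FiniteDimensional K L := by
    have : Finite coords := Set.finite_range _
    exact IntermediateField.finiteDimensional_adjoin fun x _ =>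
      (Algebra.IsAlgebraic.isAlgebraic x).isIntegral
  have := isFractionRing_integralClosure O L
  have := isLocalRing_integralClosure O L
  have := isDiscreteValuationRing_integralClosure O L
  refine ⟨L, inferInstance, inferInstance, inferInstance, inferInstance, inferInstance, ?_⟩
  let C := integralClosure O L
  let i : C →+* Ω := (algebraMap L Ω).comp C.val.toRingHom
  have hi : Function.Injective i := (algebraMap L Ω).injective.comp Subtype.val_injective
  have hij : ∀ x : O, i (algebraMap O C x) = j x := by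
    intro x
    show algebraMap L Ω (algebraMap O L x) = algebraMap K Ω (algebraMap O K x)
    rw [IsScalarTower.algebraMap_apply O K L, ← IsScalarTower.algebraMap_apply K L Ω]
  -- integral vectors spanning `W`
  have hscaled : ∀ t, ∃ (x : Fin r → C) (c : Ω), c ≠ 0 ∧ i ∘ x = c • (w t : Fin r → Ω) := by
    intro t
    let u : Fin r → L := fun s =>
      ⟨(w t : Fin r → Ω) s, IntermediateField.subset_adjoin K _ ⟨(t, s), rfl⟩⟩
    obtain ⟨c, hc⟩ := IsLocalization.exist_integer_multiples (nonZeroDivisors C) Finset.univ u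
    choose x hx using fun s => hc s (Finset.mem_univ s)
    refine ⟨x, i (c : C), (map_ne_zero_iff i hi).mpr (nonZeroDivisors.ne_zero c.2), ?_⟩
    ext s
    have := congrArg (algebraMap L Ω) (hx s)
    rw [Algebra.smul_def, map_mul] at this
    exact this
  choose sx sc hsc hsx using hscaled
  have hspan : Submodule.span Ω ((fun x => i ∘ x) '' Set.range sx) = W := by
    apply le_antisymm
    · rw [Submodule.span_le]
      rintro _ ⟨_, ⟨t, rfl⟩, rfl⟩
      show i ∘ sx t ∈ W
      rw [hsx]
      exact W.smul_mem _ (w t).2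
    · intro y hy
      have h1 := congrArg Subtype.val (w.sum_repr ⟨y, hy⟩)
      rw [AddSubmonoidClass.coe_finsetSum] at h1
      rw [show y = _ from h1.symm]
      refine sum_mem fun t _ => ?_
      rw [Submodule.coe_smul]
      refine Submodule.smul_mem _ _ ?_
      have : (w t : Fin r → Ω) = (sc t)⁻¹ • (i ∘ sx t) := by
        rw [hsx, smul_smul, inv_mul_cancel₀ (hsc t), one_smul]
      rw [this]
      exact Submodule.smul_mem _ _ (Submodule.subset_span ⟨_, ⟨t, rfl⟩, rfl⟩)
  exact exists_constituentData O j C i hi hij ρ₀ e a X hrel R hR XΩ hop hΩrel W hWX hW0 hWinv hWmin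
    (Set.range sx) hspan

end constituent

end FermatLib.Galois.Attach
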