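import Fermat.Agent.Galois.TransferCyclo
import Mathlib

/-!
# The `p`-adic cyclotomic character of `Gal(ℚ̄/ℚ)` and the structure map of a `p`-adic ring
-/

set_option autoImplicit false

noncomputable section

namespace FermatLib.Galois.Attach

local notation "Qbar" => AlgebraicClosure ℚ
local notation "Γℚ" => (AlgebraicClosure ℚ ≃ₐ[ℚ] AlgebraicClosure ℚ)

variable (p : ℕ) [Fact p.Prime]

/-- An algebra automorphism as a ring automorphism, as a monoid homomorphism. -/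
def toRingAutHom : Γℚ →* (Qbar ≃+* Qbar) where
  toFun σ := σ.toRingEquiv
  map_one' := rfl
  map_mul' _ _ := rfl

/-- The cyclotomic character. -/
def cycloChar : Γℚ →* ℤ_[p] :=
  (Units.coeHom ℤ_[p]).comp ((cyclotomicCharacter Qbar p).comp toRingAutHom)

theorem cycloChar_toZModPow_eq {n : ℕ} {σ : Γℚ} {a : ℕ} {ζ : Qbar}
    (hζ : IsPrimitiveRoot ζ (p ^ n)) (h : σ ζ = ζ ^ a) :
    PadicInt.toZModPow n (cycloChar p σ) = (a : ZMod (p ^ n)) := by
  have h1 := cyclotomicCharacter.spec (L := Qbar) p σ.toRingEquiv ζ hζ.pow_eq_one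
  have h2 : σ.toRingEquiv ζ = σ ζ := rfl
  rw [h2, h] at h1
  set z := PadicInt.toZModPow n (cycloChar p σ) with hz
  change ζ ^ a = ζ ^ z.val at h1
  have hunit : IsUnit ζ := hζ.isUnit (pow_ne_zero _ (Fact.out : p.Prime).ne_zero)
  obtain ⟨u, hu⟩ := hunit
  have h3 : u ^ a = u ^ z.val := Units.ext (by push_cast; rwa [hu])
  rw [pow_eq_pow_iff_modEq, ← orderOf_units, hu, ← hζ.eq_orderOf] at h3
  rw [(ZMod.natCast_eq_natCast_iff a z.val _).mpr h3, ZMod.natCast_val, ZMod.cast_id]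

theorem exists_primitiveRoot (n : ℕ) : ∃ ζ : Qbar, IsPrimitiveRoot ζ (p ^ n) :=
  HasEnoughRootsOfUnity.exists_primitiveRoot _ _

theorem cycloChar_frobenius {ℓ : ℕ} (hℓ : ℓ.Prime) (hℓp : ℓ ≠ p) {A : ValuationSubring Qbar}
    (hA : A.LiesOverPrime ℓ) {σ : Γℚ} (hσ : A.IsFrobeniusAt σ ℓ) :
    cycloChar p σ = (ℓ : ℤ_[p]) := by
  refine PadicInt.ext_of_toZModPow.mp fun n => ?_
  obtain ⟨ζ, hζ⟩ := exists_primitiveRoot p n
  rw [map_natCast]
  refine cycloChar_toZModPow_eq p hζ (apply_eq_pow_of_isFrobeniusAt A hℓ hA ?_ hσ hζ)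
  exact fun h => hℓp ((Nat.prime_dvd_prime_iff_eq hℓ Fact.out).mp (hℓ.dvd_of_dvd_pow h))

theorem cycloChar_inertia {ℓ : ℕ} (hℓ : ℓ.Prime) (hℓp : ℓ ≠ p) {A : ValuationSubring Qbar}
    (hA : A.LiesOverPrime ℓ) {σ : Γℚ} (hσ : σ ∈ A.inertiaSubgroupIn ℚ) :
    cycloChar p σ = 1 := by
  refine PadicInt.ext_of_toZModPow.mp fun n => ?_
  obtain ⟨ζ, hζ⟩ := exists_primitiveRoot p n
  rw [map_one, ← Nat.cast_one (R := ZMod (p ^ n))]
  refine cycloChar_toZModPow_eq p hζ ?_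
  rw [pow_one]
  exact apply_eq_self_of_mem_inertia A hℓ hA
    (fun h => hℓp ((Nat.prime_dvd_prime_iff_eq hℓ Fact.out).mp (hℓ.dvd_of_dvd_pow h))) hσ hζ

theorem exists_finite_level_cycloChar (n : ℕ) :
    ∃ F : IntermediateField ℚ Qbar, FiniteDimensional ℚ F ∧
      ∀ σ : Γℚ, (∀ x ∈ F, σ x = x) → PadicInt.toZModPow n (cycloChar p σ) = 1 := by
  obtain ⟨ζ, hζ⟩ := exists_primitiveRoot p n
  refine ⟨IntermediateField.adjoin ℚ {ζ},
    IntermediateField.adjoin.finiteDimensional ((AlgebraicClosure.isAlgebraic ℚ).isAlgebraic ζ).isIntegral, fun σ hσ => ?_⟩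
  rw [← Nat.cast_one (R := ZMod (p ^ n))]
  refine cycloChar_toZModPow_eq p hζ ?_
  rw [pow_one]
  exact hσ ζ (IntermediateField.subset_adjoin ℚ _ rfl)

section coefficient

variable {p} (O : Type*) [CommRing O] [IsLocalRing O]
  [IsAdicComplete (IsLocalRing.maximalIdeal O) O]

/-- A complete local ring with `p` in the maximal ideal is a `ℤ_[p]`-algebra. -/
theorem exists_padicIntHom (hp : (p : O) ∈ IsLocalRing.maximalIdeal O) :
    ∃ ι : ℤ_[p] →+* O, ∀ (n : ℕ) (x : ℤ_[p]), PadicInt.toZModPow n x = 0 →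
      ι x ∈ IsLocalRing.maximalIdeal O ^ n := by
  have hz : ∀ n : ℕ, ∀ a ∈ Ideal.span {((p ^ n : ℕ) : ℤ)},
      (Int.castRingHom (O ⧸ IsLocalRing.maximalIdeal O ^ n)) a = 0 := by
    intro n a ha
    obtain ⟨b, rfl⟩ := Ideal.mem_span_singleton'.mp ha
    rw [map_mul, map_natCast, Nat.cast_pow, ← map_natCast (Ideal.Quotient.mk _) p, ← map_pow,
      (Ideal.Quotient.eq_zero_iff_mem).mpr (Ideal.pow_mem_pow hp n), mul_zero]
  let f : ∀ n, ℤ_[p] →+* O ⧸ IsLocalRing.maximalIdeal O ^ n := fun n =>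
    ((Ideal.Quotient.lift _ _ (hz n)).comp (Int.quotientSpanNatEquivZMod (p ^ n)).symm.toRingHom).comp
      (PadicInt.toZModPow n)
  have hf : ∀ {m n : ℕ} (hle : m ≤ n), (Ideal.Quotient.factorPow _ hle).comp (f n) = f m := by
    intro m n hle
    refine RingHom.ext fun x => ?_
    obtain ⟨a, ha⟩ := ZMod.intCast_surjective (PadicInt.toZModPow n x)
    have hm : PadicInt.toZModPow m x = (a : ZMod (p ^ m)) := by
      rw [← PadicInt.zmod_cast_comp_toZModPow m n hle, RingHom.comp_apply, ← ha, map_intCast]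
    simp only [f, RingHom.comp_apply, ← ha, hm, map_intCast]
  refine ⟨IsAdicComplete.liftRingHom _ f hf, fun n x hx => ?_⟩
  rw [← Ideal.Quotient.eq_zero_iff_mem, IsAdicComplete.mk_liftRingHom]
  simp only [f, RingHom.comp_apply, hx, map_zero]

omit [IsAdicComplete (IsLocalRing.maximalIdeal O) O] in
theorem injective_of_padicIntHom [IsDomain O] [CharZero O] (ι : ℤ_[p] →+* O) :
    Function.Injective ι := by
  rw [injective_iff_map_eq_zero]
  intro x hx
  by_contra hne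
  rw [PadicInt.unitCoeff_spec hne, map_mul, map_pow, map_natCast, mul_eq_zero] at hx
  rcases hx with h | h
  · exact ((PadicInt.unitCoeff hne).isUnit.map ι).ne_zero h
  · exact (pow_ne_zero _ (Nat.cast_ne_zero.mpr (Fact.out : p.Prime).ne_zero)) h

end coefficient

end FermatLib.Galois.Attach
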