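import Fermat.Agent.Galois.AttachExtension

/-!
# Eigenvectors in a faithful lattice

A commutative ring acting faithfully on an integral lattice, congruent to an action by matrices
over `ℤ_[p]`, has a common eigenvector for each of its characters with values in a field over
`ℤ_[p]`.
-/

set_option autoImplicit false

noncomputable section

namespace FermatLib.Galois.Attach

open Matrix TensorProduct

/-- A finite dimensional commutative algebra acting faithfully by matrices has an eigenvector for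
each of its characters. -/
theorem exists_eigenvector_of_injective {K A : Type*} [Field K] [CommRing A] [Algebra K A]
    [Module.Finite K A] {r : ℕ} (φ : A →ₐ[K] Matrix (Fin r) (Fin r) K)
    (hφ : Function.Injective φ) (ψ : A →ₐ[K] K) :
    ∃ v : Fin r → K, v ≠ 0 ∧ ∀ x, φ x *ᵥ v = ψ x • v := by
  have hart : IsArtinianRing A := IsArtinianRing.of_finite K A
  have : (RingHom.ker ψ).IsPrime := RingHom.ker_isPrime _
  have hmin : RingHom.ker ψ ∈ (Module.annihilator A A).minimalPrimes := by
    refine ⟨⟨this, ?_⟩, fun q hq hle => ?_⟩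
    · intro x hx
      have := Module.mem_annihilator.mp hx 1
      rw [smul_eq_mul, mul_one] at this
      rw [this]; exact Ideal.zero_mem _
    · have : q.IsPrime := hq.1
      exact (Ideal.IsMaximal.eq_of_le (IsArtinianRing.isMaximal_of_isPrime q)
        (Ideal.IsPrime.ne_top ‹(RingHom.ker ψ).IsPrime›) hle).ge
  obtain ⟨-, a, ha⟩ := isAssociatedPrime_iff.mp
    (Module.associatedPrimes.minimalPrimes_annihilator_subset_associatedPrimes A A hmin)
  have ha0 : a ≠ 0 := by
    rintro rfl
    refine Ideal.IsPrime.ne_top ‹(RingHom.ker ψ).IsPrime› ((Ideal.eq_top_iff_one _).mpr ?_)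
    rw [ha, Submodule.mem_colon_singleton, smul_zero]
    exact Submodule.zero_mem _
  obtain ⟨i, j, hij⟩ : ∃ i j, φ a i j ≠ 0 := by
    by_contra h
    push Not at h
    exact ha0 (hφ (by rw [map_zero]; ext i j; exact h i j))
  refine ⟨(φ a).col j, fun h => hij (congrFun h i), fun x => ?_⟩
  have hx : x - algebraMap K A (ψ x) ∈ RingHom.ker ψ := by
    rw [RingHom.mem_ker, map_sub, AlgHom.commutes, Algebra.algebraMap_self_apply, sub_self]
  rw [ha, Submodule.mem_colon_singleton, smul_eq_mul, Submodule.mem_bot, sub_mul, sub_eq_zero,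
    ← Algebra.smul_def] at hx
  calc φ x *ᵥ (φ a).col j = (φ x * φ a).col j := by rw [← mulVec_single_one, mulVec_mulVec, mulVec_single_one]
    _ = ψ x • (φ a).col j := by rw [← map_mul, hx, map_smul]; rfl

variable {p : ℕ} [hp : Fact p.Prime]

/-- An injective integral map that is divisible by `p^n` where a matrix over `ℤ_[p]` is forces
linear independence over `ℤ_[p]`. -/
theorem injective_mulVec_of_congruent {m I : Type*} [Fintype m] {S : Type*} [Fintype S]
    (B : Matrix I m ℤ_[p]) (E : Matrix S m ℤ) (hE : Function.Injective E.mulVec)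
    (h : ∀ (c : m → ℤ) (n : ℕ), (∀ i, PadicInt.toZModPow n ((B *ᵥ fun x => (c x : ℤ_[p])) i) = 0) →
      ∀ s, (p : ℤ) ^ n ∣ (E *ᵥ c) s) :
    Function.Injective B.mulVec := by
  have hE' : Function.Injective (E.map (Int.castRingHom ℤ_[p])).mulVec := by
    intro x y hxy
    have hQ := mulVec_injective_map (Int.castRingHom ℚ_[p]) Int.cast_injective E hE
    have key : ∀ z : m → ℤ_[p], E.map (Int.castRingHom ℚ_[p]) *ᵥ (fun i => (z i : ℚ_[p]))
        = fun s => (((E.map (Int.castRingHom ℤ_[p]) *ᵥ z) s : ℤ_[p]) : ℚ_[p]) := fun z => by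
      funext s
      simp [mulVec, dotProduct]
    have := hQ (a₁ := fun i => (x i : ℚ_[p])) (a₂ := fun i => (y i : ℚ_[p]))
      (by rw [key, key, hxy])
    exact funext fun i => Subtype.ext (congrFun this i)
  intro x y hxy
  rw [← sub_eq_zero]
  apply hE'
  rw [mulVec_zero]
  funext s
  refine PadicInt.ext_of_toZModPow.mp fun n => ?_
  let c : m → ℤ := fun i => ((PadicInt.toZModPow n ((x - y) i)).val : ℤ)
  have hc : ∀ i, PadicInt.toZModPow n (c i : ℤ_[p]) = PadicInt.toZModPow n ((x - y) i) := fun i => by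
    rw [map_intCast]; simp [c]
  have hmap : ∀ v : m → ℤ_[p], PadicInt.toZModPow n (v ⬝ᵥ fun x => (c x : ℤ_[p]))
      = PadicInt.toZModPow n (v ⬝ᵥ (x - y)) := fun v => by
    simp only [dotProduct, map_sum, map_mul, hc]
  have hdiv := h c n (fun i => by
    rw [mulVec, hmap]
    show PadicInt.toZModPow n ((B *ᵥ (x - y)) i) = 0
    rw [mulVec_sub, show B *ᵥ x = B *ᵥ y from hxy, sub_self, Pi.zero_apply, map_zero]) s
  rw [Pi.zero_apply, map_zero]
  show PadicInt.toZModPow n ((fun j => E.map (Int.castRingHom ℤ_[p]) s j) ⬝ᵥ (x - y)) = 0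
  rw [← hmap]
  show PadicInt.toZModPow n (((E.map (Int.castRingHom ℤ_[p])) *ᵥ fun x => (c x : ℤ_[p])) s) = 0
  have : ((E.map (Int.castRingHom ℤ_[p])) *ᵥ fun x => (c x : ℤ_[p])) s
      = (((E *ᵥ c) s : ℤ) : ℤ_[p]) := (RingHom.map_mulVec (Int.castRingHom ℤ_[p]) E c s).symm
  rw [this, map_intCast]
  exact (ZMod.intCast_zmod_eq_zero_iff_dvd _ _).mpr (by rwa [Nat.cast_pow])

/-- Eigenvectors for characters of a ring faithful on an integral lattice. -/
theorem exists_eigenvector_of_lattice {T : Type*} [CommRing T] {r s : ℕ}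
    (μ : T →+* Matrix (Fin r) (Fin r) ℤ_[p]) (η : T →+ Matrix (Fin s) (Fin s) ℤ)
    (hη : Function.Injective η)
    (hcong : ∀ (t : T) (n : ℕ), (∀ i j, PadicInt.toZModPow n (μ t i j) = 0) →
      ∀ i j, (p : ℤ) ^ n ∣ η t i j)
    {K : Type*} [Field K] (ι : ℤ_[p] →+* K) (hι : Function.Injective ι) (χ : T →+* K) :
    ∃ v : Fin r → K, v ≠ 0 ∧ ∀ t, (μ t).map ι *ᵥ v = χ t • v := by
  classical
  let ηl : T →ₗ[ℤ] Matrix (Fin s) (Fin s) ℤ := η.toIntLinearMap
  have : Module.Finite ℤ T := Module.Finite.of_injective ηl hη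
  have : Module.Free ℤ T := Module.Free.of_equiv (LinearEquiv.ofInjective ηl hη).symm
  let b := Module.Free.chooseBasis ℤ T
  let B : Matrix (Fin r × Fin r) _ ℤ_[p] := Matrix.of fun ij x => μ (b x) ij.1 ij.2
  let E : Matrix (Fin s × Fin s) _ ℤ := Matrix.of fun ij x => η (b x) ij.1 ij.2
  have hE : ∀ c, E *ᵥ c = fun ij => η (b.equivFun.symm c) ij.1 ij.2 := by
    intro c; funext ij
    rw [Module.Basis.equivFun_symm_apply, map_sum, Matrix.sum_apply]
    simp only [E, mulVec, dotProduct, Matrix.of_apply]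
    refine Finset.sum_congr rfl fun x _ => ?_
    rw [show η (c x • b x) = c x • η (b x) from map_zsmul η _ _, Matrix.smul_apply, zsmul_eq_mul]
    simp [mul_comm]
  have hB : ∀ c : _ → ℤ, (B *ᵥ fun x => (c x : ℤ_[p])) = fun ij => μ (b.equivFun.symm c) ij.1 ij.2 := by
    intro c; funext ij
    rw [Module.Basis.equivFun_symm_apply, map_sum, Matrix.sum_apply]
    simp only [B, mulVec, dotProduct, Matrix.of_apply]
    refine Finset.sum_congr rfl fun x _ => ?_
    rw [show μ (c x • b x) = c x • μ (b x) from map_zsmul μ _ _, Matrix.smul_apply, zsmul_eq_mul]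
    simp [mul_comm]
  have hBinj : Function.Injective B.mulVec := by
    refine injective_mulVec_of_congruent B E (fun c c' h => b.equivFun.symm.injective (hη ?_)) ?_
    · ext i j
      rw [hE, hE] at h
      exact congrFun h (i, j)
    · intro c n hn ij
      rw [hE]
      exact hcong _ n (fun i j => by have := hn (i, j); rwa [hB] at this) ij.1 ij.2
  have hBK := mulVec_injective_map ι hι B hBinj
  let μK : T →ₐ[ℤ] Matrix (Fin r) (Fin r) K :=
    (ι.mapMatrix.comp μ).toIntAlgHom
  let φ : K ⊗[ℤ] T →ₐ[K] Matrix (Fin r) (Fin r) K :=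
    Algebra.TensorProduct.lift (Algebra.ofId K _) μK fun x t => Algebra.commutes x _
  let ψ : K ⊗[ℤ] T →ₐ[K] K :=
    Algebra.TensorProduct.lift (Algebra.ofId K K) χ.toIntAlgHom fun x t => Commute.all _ _
  let bK := Algebra.TensorProduct.basis K b
  have hφinj : Function.Injective φ := by
    rw [injective_iff_map_eq_zero]
    intro z hz
    have h1 : ∀ ij : Fin r × Fin r, (B.map ι *ᵥ bK.equivFun z) ij = φ z ij.1 ij.2 := by
      intro ij
      conv_rhs => rw [← bK.sum_equivFun z, map_sum, Matrix.sum_apply]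
      simp only [mulVec, dotProduct]
      refine Finset.sum_congr rfl fun x _ => ?_
      have h3 : φ (bK x) = (μ (b x)).map ι := by
        rw [Algebra.TensorProduct.basis_apply]
        exact (Algebra.TensorProduct.lift_tmul (S := K) ..).trans (by simp [μK]; rfl)
      rw [map_smul, Matrix.smul_apply, h3, smul_eq_mul, mul_comm]
      rfl
    have h2 : bK.equivFun z = 0 := hBK (by
      rw [mulVec_zero]; funext ij; rw [h1, hz]; rfl)
    exact (LinearEquiv.map_eq_zero_iff _).mp h2
  have : Module.Finite K (K ⊗[ℤ] T) := Module.Finite.of_basis bK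
  obtain ⟨v, hv, hev⟩ := exists_eigenvector_of_injective φ hφinj ψ
  refine ⟨v, hv, fun t => ?_⟩
  have h1 : φ (1 ⊗ₜ t) = (μ t).map ι :=
    (Algebra.TensorProduct.lift_tmul (S := K) ..).trans (by simp [μK]; rfl)
  have h2 : ψ (1 ⊗ₜ t) = χ t :=
    (Algebra.TensorProduct.lift_tmul (S := K) ..).trans (by simp)
  rw [← h1, ← h2]
  exact hev _

end FermatLib.Galois.Attach
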