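import Fermat.Agent.Galois.AttachTate
import Fermat.Agent.Galois.AttachConstituent

/-!
# Torsion points fixed by a set acting unipotently on a constituent

If a set `H` acts on a two-dimensional constituent of the Tate module with characteristic
polynomial `(X - 1)²`, the Tate module has vectors fixed by `H` on which a given operator with
nonzero eigenvalue on the constituent is not killed by any nonzero integer.
-/

set_option autoImplicit false
set_option linter.unusedSectionVars false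

noncomputable section

namespace FermatLib.Galois.Attach

open Matrix Polynomial

section unipotent

variable {C : Type*} [CommRing C] [IsDomain C]

/-- The nilpotent part of a unipotent 2×2 matrix. -/
theorem unipotent_coords {M : Matrix (Fin 2) (Fin 2) C} (h : M.charpoly = (X - 1) ^ 2) :
    M 1 1 - 1 = -(M 0 0 - 1) ∧ (M 0 0 - 1) * (M 0 0 - 1) + M 0 1 * M 1 0 = 0 := by
  rw [Matrix.charpoly_fin_two] at h
  have h1 := congrArg (Polynomial.eval 1) h
  have h0 := congrArg (Polynomial.eval 0) h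
  simp [Matrix.trace_fin_two, Matrix.det_fin_two] at h1 h0
  constructor
  · linear_combination h0 - h1
  · linear_combination (M 0 0 - 1) * h0 - M 0 0 * h1

/-- A submonoid of unipotent 2×2 matrices fixes a nonzero vector. -/
theorem exists_common_fixed {G : Type*} [Monoid G] (π : G →* Matrix (Fin 2) (Fin 2) C)
    (H : Submonoid G) (h : ∀ σ ∈ H, (π σ).charpoly = (X - 1) ^ 2) :
    ∃ y : Fin 2 → C, y ≠ 0 ∧ ∀ σ ∈ H, π σ *ᵥ y = y := by
  by_cases htriv : ∀ σ ∈ H, π σ = 1
  · exact ⟨![1, 0], fun he => one_ne_zero (congrFun he 0),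
      fun σ hσ => by rw [htriv σ hσ, one_mulVec]⟩
  push Not at htriv
  obtain ⟨σ₀, hσ₀, hne⟩ := htriv
  obtain ⟨h11, hsq⟩ := unipotent_coords (h σ₀ hσ₀)
  set a' := π σ₀ 0 0 - 1 with ha'
  set b' := π σ₀ 0 1 with hb'
  set c' := π σ₀ 1 0 with hc'
  -- what a second element contributes
  have key : ∀ σ ∈ H, ((π σ 0 0 - 1) * a' + π σ 0 1 * c' = 0 ∧
      π σ 1 0 * a' + (π σ 1 1 - 1) * c' = 0) ∧
      ((π σ 0 0 - 1) * b' - π σ 0 1 * a' = 0 ∧ π σ 1 0 * b' - (π σ 1 1 - 1) * a' = 0) := by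
    intro σ hσ
    obtain ⟨e11, esq⟩ := unipotent_coords (h σ hσ)
    obtain ⟨p11, -⟩ := unipotent_coords (h (σ * σ₀) (H.mul_mem hσ hσ₀))
    simp only [map_mul, Matrix.mul_apply, Fin.sum_univ_two] at p11
    set a := π σ 0 0 - 1 with ha
    set b := π σ 0 1 with hb
    set c := π σ 1 0 with hc
    have e00 : π σ 0 0 = a + 1 := by rw [ha]; ring
    have f00 : π σ₀ 0 0 = a' + 1 := by rw [ha']; ring
    have e11' : π σ 1 1 = -a + 1 := by linear_combination e11
    have f11' : π σ₀ 1 1 = -a' + 1 := by linear_combination h11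
    rw [e00, f00, e11', f11'] at p11
    rw [e11]
    refine ⟨⟨?_, ?_⟩, ?_, ?_⟩ <;> refine pow_eq_zero_iff two_ne_zero |>.mp ?_
    · linear_combination b * c' * p11 + a' ^ 2 * esq - b * c * hsq
    · linear_combination -c * c' * p11 + c' ^ 2 * esq + c ^ 2 * hsq
    · linear_combination -b * b' * p11 + b' ^ 2 * esq + b ^ 2 * hsq
    · linear_combination b' * c * p11 + a' ^ 2 * esq - b * c * hsq
  by_cases hy : a' = 0 ∧ c' = 0
  · refine ⟨![b', -a'], fun he => hne ?_, fun σ hσ => ?_⟩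
    · have hb0 : b' = 0 := congrFun he 0
      have ha0 : π σ₀ 0 0 = 1 := by rw [← sub_eq_zero]; exact hy.1
      have hd0 : π σ₀ 1 1 = 1 := by rw [← sub_eq_zero, h11, hy.1, neg_zero]
      have hc0 : π σ₀ 1 0 = 0 := hy.2
      rw [hb'] at hb0
      ext i j
      fin_cases i <;> fin_cases j <;> simp [ha0, hb0, hd0, hc0]
    · obtain ⟨-, k1, k2⟩ := key σ hσ
      ext i
      fin_cases i <;> simp [mulVec, dotProduct, Fin.sum_univ_two]
      · linear_combination k1
      · linear_combination k2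
  · refine ⟨![a', c'], fun he => hy ⟨congrFun he 0, congrFun he 1⟩, fun σ hσ => ?_⟩
    obtain ⟨⟨k1, k2⟩, -⟩ := key σ hσ
    ext i
    fin_cases i <;> simp [mulVec, dotProduct, Fin.sum_univ_two]
    · linear_combination k1
    · linear_combination k2

variable (O : Type) [CommRing O] [IsDomain O] [IsDiscreteValuationRing O]
  [IsAdicComplete (IsLocalRing.maximalIdeal O) O] [CharZero O]

/-- A vector of the ambient module fixed by `H`, an eigenvector for the operators. -/
theorem ConstituentData.exists_fixed {C : Type} [CommRing C] [IsDomain C] [Algebra O C] {G : Type*}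
    [Group G] {r : ℕ} {ρ₀ : G →* Matrix (Fin r) (Fin r) O} {e : G →* O} {a : G → O}
    {Xs : Submodule O (Fin r → O)} {π : G →* Matrix (Fin 2) (Fin 2) C}
    (hπ : ConstituentData O C ρ₀ e a Xs π) (H : Submonoid G)
    (h : ∀ σ ∈ H, (π σ).charpoly = (X - 1) ^ 2) :
    ∃ w : Fin r → C, w ≠ 0 ∧ (∀ σ ∈ H, (ρ₀ σ).map (algebraMap O C) *ᵥ w = w) ∧
      ∀ (T : Matrix (Fin r) (Fin r) O) (c : O), (∀ x ∈ Xs, T *ᵥ x = c • x) →
        T.map (algebraMap O C) *ᵥ w = algebraMap O C c • w := by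
  rcases hπ.origin with ⟨B, hB, hBg, hBT⟩ | ⟨v, ψ, hv, hψ, hdiag, hvT⟩
  · obtain ⟨y, hy, hyH⟩ := exists_common_fixed π H h
    refine ⟨B *ᵥ y, fun h0 => hy (hB (h0.trans (mulVec_zero B).symm)), fun σ hσ => ?_,
      fun T c hT => ?_⟩
    · rw [mulVec_mulVec, hBg, ← mulVec_mulVec, hyH σ hσ]
    · rw [mulVec_mulVec, hBT T c hT, smul_mulVec]
  · refine ⟨v, hv, fun σ hσ => ?_, hvT⟩
    have h0 := congrArg (Polynomial.eval (ψ σ)) (h σ hσ)
    rw [hdiag σ, Matrix.charpoly_fin_two] at h0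
    simp [Matrix.trace_fin_two, Matrix.det_fin_two] at h0
    have h1 : ψ σ = 1 := by
      refine sub_eq_zero.mp (pow_eq_zero_iff two_ne_zero |>.mp ?_)
      linear_combination -h0
    rw [hψ σ, h1, one_smul]

end unipotent

section descent

variable {p : ℕ} [Fact p.Prime] {C : Type*} [CommRing C] [IsDomain C] [CharZero C] {r : ℕ}

/-- A nonzero entry of a vector over a domain containing `ℤ_[p]` is seen by an integral functional. -/
theorem exists_padicInt_functional (j : ℤ_[p] →+* C) (hj : Function.Injective j)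
    (w : Fin r → C) (i₀ : Fin r) (c : C) (hc : c * w i₀ ≠ 0) :
    ∃ u u' : Fin r → ℤ_[p], u' i₀ ≠ 0 ∧
      (∀ M : Matrix (Fin r) (Fin r) ℤ_[p], M.map j *ᵥ w = w → M *ᵥ u = u) ∧
      ∀ M : Matrix (Fin r) (Fin r) ℤ_[p], M.map j *ᵥ w = c • w → M *ᵥ u = u' := by
  classical
  let F := FractionRing C
  let jF : ℤ_[p] →+* F := (algebraMap C F).comp j
  have hjF : Function.Injective jF := (IsFractionRing.injective C F).comp hj
  let := (IsFractionRing.lift hjF : ℚ_[p] →+* F).toAlgebra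
  have hlift : ∀ z : ℤ_[p], algebraMap ℚ_[p] F (z : ℚ_[p]) = algebraMap C F (j z) := fun z =>
    IsFractionRing.lift_algebraMap hjF z
  have hne : algebraMap C F (c * w i₀) ≠ 0 :=
    (map_ne_zero_iff _ (IsFractionRing.injective C F)).mpr hc
  obtain ⟨f, hf⟩ := Module.Projective.exists_dual_ne_zero ℚ_[p] hne
  let v : Fin r ⊕ Fin r → ℚ_[p] :=
    Sum.elim (fun i => f (algebraMap C F (w i))) (fun i => f (algebraMap C F (c * w i)))
  obtain ⟨d, hd⟩ := IsLocalization.exist_integer_multiples (nonZeroDivisors ℤ_[p]) Finset.univ v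
  choose z hz using fun i => hd i (Finset.mem_univ i)
  have hz' : ∀ i, (z i : ℚ_[p]) = (d : ℤ_[p]) * v i := fun i => by
    have := hz i
    rw [Algebra.smul_def] at this
    exact this
  have hd0 : ((d : ℤ_[p]) : ℚ_[p]) ≠ 0 := by
    simp [nonZeroDivisors.ne_zero d.2]
  have hlin : ∀ (M : Matrix (Fin r) (Fin r) ℤ_[p]) (w' : Fin r → C), M.map j *ᵥ w = w' →
      ∀ i, ∑ k, (M i k : ℚ_[p]) * f (algebraMap C F (w k)) = f (algebraMap C F (w' i)) := by
    intro M w' h i
    rw [← h]
    simp only [mulVec, dotProduct, map_apply, map_sum, map_mul]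
    refine Finset.sum_congr rfl fun k _ => ?_
    rw [← hlift, ← Algebra.smul_def, map_smul, smul_eq_mul]
  refine ⟨fun i => z (Sum.inl i), fun i => z (Sum.inr i), fun h0 => hf ?_, fun M hM => ?_,
    fun M hM => ?_⟩
  · have := hz' (Sum.inr i₀)
    replace h0 : z (Sum.inr i₀) = 0 := h0
    rw [h0, PadicInt.coe_zero, eq_comm, mul_eq_zero] at this
    exact this.resolve_left hd0
  all_goals
    funext i
    refine Subtype.val_injective ?_
    rw [mulVec, dotProduct, PadicInt.coe_sum]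
    simp only [PadicInt.coe_mul, hz', v, Sum.elim_inl, Sum.elim_inr]
    simp only [← mul_left_comm ((d : ℤ_[p]) : ℚ_[p]), ← Finset.mul_sum]
    rw [hlin M _ hM i]
  rfl

end descent

namespace TorsionBasis

variable {J : Type*} [AddCommGroup J] {p : ℕ} [Fact p.Prime] {r : ℕ} (b : TorsionBasis J p r)

/-- The `p^n`-torsion point with coordinates a `p`-adic vector. -/
def point (n : ℕ) (u : Fin r → ℤ_[p]) : J :=
  ∑ i, ((PadicInt.toZModPow n (u i)).val : ℤ) • b.e n i

theorem torsion_point (n : ℕ) (u : Fin r → ℤ_[p]) : p ^ n • b.point n u = 0 := by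
  rw [point, Finset.smul_sum]
  refine Finset.sum_eq_zero fun i _ => ?_
  rw [smul_comm, b.torsion, smul_zero]

theorem apply_point (f : AddMonoid.End J) (n : ℕ) (u : Fin r → ℤ_[p]) :
    f (b.point n u) = b.point n (b.matHom f *ᵥ u) := by
  obtain ⟨F, hF⟩ := exists_intLift n (b.matHom f)
  rw [point, map_sum, point]
  simp only [map_zsmul, b.mat_spec f n F hF, Finset.smul_sum, smul_smul]
  rw [Finset.sum_comm]
  simp only [← Finset.sum_smul]
  refine (b.sum_eq_iff n _ _).mpr fun j => ?_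
  rw [Int.cast_sum, mulVec, dotProduct, Int.cast_natCast, ZMod.natCast_zmod_val, map_sum]
  refine Finset.sum_congr rfl fun k _ => ?_
  rw [Int.cast_mul, hF, Int.cast_natCast, ZMod.natCast_zmod_val, map_mul, mul_comm]

theorem eq_zero_of_nsmul_point (u : Fin r → ℤ_[p]) {m : ℕ} (hm : m ≠ 0)
    (h : ∀ n, m • b.point n u = 0) : u = 0 := by
  funext i
  have hmu : (m : ℤ_[p]) * u i = 0 := by
    refine PadicInt.ext_of_toZModPow.mp fun n => ?_
    have h1 : ∑ i, ((m : ℤ) * ((PadicInt.toZModPow n (u i)).val : ℤ)) • b.e n i = 0 := by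
      refine Eq.trans ?_ (h n)
      rw [point, Finset.smul_sum]
      exact Finset.sum_congr rfl fun i _ => by rw [← natCast_zsmul (n := m), smul_smul]
    have h3 := b.indep n _ h1 i
    rw [← Nat.cast_pow, ← ZMod.intCast_zmod_eq_zero_iff_dvd] at h3
    rw [Int.cast_mul, Int.cast_natCast, Int.cast_natCast, ZMod.natCast_zmod_val] at h3
    rw [map_zero, map_mul, map_natCast, h3]
  exact (mul_eq_zero.mp hmu).resolve_left (by exact_mod_cast hm)

end TorsionBasis

section point

variable {J : Type*} [AddCommGroup J] {p : ℕ} [Fact p.Prime] {r : ℕ}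
  {O : Type} [CommRing O] [IsDomain O] [IsDiscreteValuationRing O]
  [IsAdicComplete (IsLocalRing.maximalIdeal O) O] [CharZero O]
  {C : Type} [CommRing C] [IsDomain C] [Algebra O C]

/-- **Fixed torsion points.** -/
theorem exists_fixed_torsion_point {G : Type*} [Group G] (bs : TorsionBasis J p r)
    (ι : ℤ_[p] →+* O) (hι : Function.Injective ι) (hOC : Function.Injective (algebraMap O C))
    (f : G →* AddMonoid.End J) {ρ₀ : G →* Matrix (Fin r) (Fin r) O}
    (hρ₀ : ∀ g, ρ₀ g = (bs.matHom (f g)).map ι) {e : G →* O} {a : G → O}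
    {Xs : Submodule O (Fin r → O)} {π : G →* Matrix (Fin 2) (Fin 2) C}
    (hπ : ConstituentData O C ρ₀ e a Xs π) (H : Submonoid G)
    (h : ∀ σ ∈ H, (π σ).charpoly = (X - 1) ^ 2)
    (T : AddMonoid.End J) (c : O) (hc : c ≠ 0)
    (hT : ∀ x ∈ Xs, (bs.matHom T).map ι *ᵥ x = c • x) (m : ℕ) (hm : m ≠ 0) :
    ∃ (n : ℕ) (x : J), p ^ n • x = 0 ∧ (∀ σ ∈ H, f σ x = x) ∧ m • T x ≠ 0 := by
  obtain ⟨w, hw, hwH, hwT⟩ := hπ.exists_fixed O H h
  obtain ⟨i₀, hi₀⟩ := Function.ne_iff.mp hw
  have := charZero_of_injective_algebraMap hOC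
  have hcomp : ∀ M : Matrix (Fin r) (Fin r) ℤ_[p],
      (M.map ι).map (algebraMap O C) = M.map ((algebraMap O C).comp ι) := fun M => Matrix.map_map
  obtain ⟨u, u', hu', hfix, hop⟩ := exists_padicInt_functional ((algebraMap O C).comp ι)
    (hOC.comp hι) w i₀ (algebraMap O C c) (mul_ne_zero ((map_ne_zero_iff _ hOC).mpr hc) hi₀)
  obtain ⟨n, hn⟩ : ∃ n, m • T (bs.point n u) ≠ 0 := by
    by_contra hcon
    push Not at hcon
    have hTu : bs.matHom T *ᵥ u = u' := hop _ (by rw [← hcomp]; exact hwT _ c hT)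
    refine hu' (congrFun (bs.eq_zero_of_nsmul_point u' hm fun n => ?_) i₀)
    rw [← hTu, ← bs.apply_point]
    exact hcon n
  refine ⟨n, bs.point n u, bs.torsion_point n u, fun σ hσ => ?_, hn⟩
  rw [bs.apply_point, hfix _ ?_]
  rw [← hcomp, ← hρ₀]
  exact hwH σ hσ

end point

end FermatLib.Galois.Attach
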