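import Fermat.Agent.Galois.AttachTate
import Fermat.Agent.Galois.AttachEigen
import Fermat.Agent.Galois.AttachConstituent
import Fermat.Agent.Galois.AttachFixedPoint
import Fermat.Agent.Galois.AttachCyclotomic
import Fermat.Agent.Galois.FrobeniusDensity
import Fermat.Prelude.Def_GaloisRep_Adic

/-!
# Attached `p`-adic representations from torsion with a quadratic Frobenius relation

`J` is an abelian group with commuting actions of `Gal(ℚ̄/ℚ)` and of a commutative ring `P`; the
image `T` of `P` is faithful on an integral lattice congruent to `J[p^n]`; at almost all primes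
Frobenius satisfies `σ² - a σ + ℓ = 0` on the `p`-power torsion.  Then every `p`-adic character of
`T` has an attached two-dimensional representation.
-/

set_option autoImplicit false
set_option linter.unusedSectionVars false

noncomputable section

namespace FermatLib.Galois.Attach

open Matrix Polynomial

local notation "Qbar" => AlgebraicClosure ℚ
local notation "Γℚ" => (AlgebraicClosure ℚ ≃ₐ[ℚ] AlgebraicClosure ℚ)

section relation

variable {O : Type*} [CommRing O] {r : ℕ} {G : Type*} [Group G]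
  (ρ₀ : G →* Matrix (Fin r) (Fin r) O) (e : G →* O)

/-- The matrix of `g + e(g) g⁻¹`. -/
def relMat (g : G) : Matrix (Fin r) (Fin r) O := ρ₀ g + e g • ρ₀ g⁻¹

theorem relMat_mul_pow_succ (f : G) (b : ℕ) :
    relMat ρ₀ e f * relMat ρ₀ e (f ^ (b + 1)) =
      relMat ρ₀ e (f ^ (b + 2)) + e f • relMat ρ₀ e (f ^ b) := by
  simp only [relMat, add_mul, mul_add, smul_add, smul_mul_assoc, mul_smul_comm, smul_smul,
    ← map_mul]
  have h1 : f * f ^ (b + 1) = f ^ (b + 2) := (pow_succ' f (b + 1)).symm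
  have h2 : f⁻¹ * (f ^ (b + 1))⁻¹ = (f ^ (b + 2))⁻¹ := by
    rw [← _root_.mul_inv_rev, ← pow_succ]
  have h3 : f * (f ^ (b + 1))⁻¹ = (f ^ b)⁻¹ := by
    rw [pow_succ, _root_.mul_inv_rev, mul_inv_cancel_left]
  have h4 : f⁻¹ * f ^ (b + 1) = f ^ b := by rw [pow_succ', inv_mul_cancel_left]
  have h5 : f ^ (b + 1) * f = f ^ (b + 2) := (pow_succ f (b + 1)).symm
  rw [h1, h2, h3, h4, h5, ← pow_succ']
  abel

theorem exists_relMat_pow (f : G) (X : Submodule O (Fin r → O)) (a : O)
    (h : ∀ v ∈ X, relMat ρ₀ e f *ᵥ v = a • v) (b : ℕ) :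
    ∃ c : O, ∀ v ∈ X, relMat ρ₀ e (f ^ b) *ᵥ v = c • v := by
  induction b using Nat.twoStepInduction with
  | zero => exact ⟨2, fun v _ => by simp [relMat, two_smul, add_mulVec]⟩
  | one => exact ⟨a, fun v hv => by rw [pow_one]; exact h v hv⟩
  | more b h0 h1 =>
    obtain ⟨c0, h0⟩ := h0
    obtain ⟨c1, h1⟩ := h1
    refine ⟨a * c1 - e f * c0, fun v hv => ?_⟩
    rw [eq_sub_of_add_eq (relMat_mul_pow_succ ρ₀ e f b).symm, sub_mulVec, smul_mulVec, h0 v hv,
      ← mulVec_mulVec, h1 v hv, mulVec_smul, h v hv, smul_smul, smul_smul, sub_smul, mul_comm c1]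

end relation

variable {p : ℕ} [Fact p.Prime]
  {J : Type*} [AddCommGroup J] [DistribMulAction Γℚ J]
  {P T : Type*} [CommRing P] [CommRing T]

/-- The hypotheses on the torsion of `J`: size, continuity, faithfulness on an integral lattice of
the image `T` of the operators. -/
structure TorsionHeckeData (p : ℕ) (act : P →+* AddMonoid.End J) (π : P →+* T) : Prop where
  comm : ∀ (g : Γℚ) (t : P) (x : J), act t (g • x) = g • act t x
  card : ∃ r, ∀ n, Nat.card {x : J // p ^ n • x = 0} = p ^ (n * r)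
  finite_level : ∀ n, ∃ F : IntermediateField ℚ Qbar, FiniteDimensional ℚ F ∧
    ∀ σ : Γℚ, (∀ y ∈ F, σ y = y) → ∀ x : J, p ^ n • x = 0 → σ • x = x
  surjective : Function.Surjective π
  eq_zero : ∀ t, π t = 0 → ∀ (n : ℕ) (x : J), p ^ n • x = 0 → act t x = 0
  lattice : ∃ (s : ℕ) (η : T →+ Matrix (Fin s) (Fin s) ℤ), Function.Injective η ∧
    ∀ (t : P) (n : ℕ), (∀ x : J, p ^ n • x = 0 → act t x = 0) → ∀ i j, (p : ℤ) ^ n ∣ η (π t) i j

/-- `σ² - b σ + ℓ = 0` on the `p`-power torsion. -/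
def SatisfiesQuadratic (p : ℕ) (act : P →+* AddMonoid.End J) (σ : Γℚ) (b : P) (ℓ : ℕ) : Prop :=
  ∀ x : J, (∃ n : ℕ, p ^ n • x = 0) → σ • σ • x - act b (σ • x) + ℓ • x = 0

/-- An automorphism acting trivially on all `p`-power torsion. -/
def FixesTorsion (p : ℕ) (J : Type*) [AddCommGroup J] [DistribMulAction Γℚ J] (σ : Γℚ) : Prop :=
  ∀ x : J, (∃ n : ℕ, p ^ n • x = 0) → σ • x = x

/-- An attached representation, with torsion points fixed by any group of elements acting
unipotently on it. -/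
theorem exists_attached_origin (act : P →+* AddMonoid.End J) (π : P →+* T)
    (D : TorsionHeckeData p act π) (S : Finset ℕ) (a : ℕ → P)
    (hfrob : ∀ ℓ : ℕ, ℓ.Prime → ℓ ∉ S → ∀ A : ValuationSubring Qbar, A.LiesOverPrime ℓ →
      ∀ σ : Γℚ, A.IsFrobeniusAt σ ℓ → SatisfiesQuadratic p act σ (a ℓ) ℓ)
    (O : Type) [CommRing O] [IsDomain O] [IsDiscreteValuationRing O]
    [IsAdicComplete (IsLocalRing.maximalIdeal O) O] [Finite (IsLocalRing.ResidueField O)]
    [CharZero O] (hpO : (p : O) ∈ IsLocalRing.maximalIdeal O) (χ : T →+* O) :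
    ∃ (O' : Type) (_ : CommRing O') (_ : IsDomain O') (_ : IsDiscreteValuationRing O')
      (_ : IsAdicComplete (IsLocalRing.maximalIdeal O') O')
      (_ : Finite (IsLocalRing.ResidueField O')) (_ : CharZero O')
      (_ : Algebra O O') (_ : Module.Finite O O') (_ : IsLocalHom (algebraMap O O')),
    Function.Injective (algebraMap O O') ∧ ∃ ρ : GaloisRepAdic O',
      (∀ (ℓ : ℕ), ℓ.Prime → ℓ ≠ p → ∀ A : ValuationSubring Qbar, A.LiesOverPrime ℓ →
        ∀ σ : Γℚ, A.IsFrobeniusAt σ ℓ → ∀ b : P, SatisfiesQuadratic p act σ b ℓ →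
          LinearMap.charpoly (ρ.ρ σ) =
            X ^ 2 - C (algebraMap O O' (χ (π b))) * X + C ((ℓ : O'))) ∧
      (∀ q : ℕ, q.Prime → q ≠ p →
        (∀ A : ValuationSubring Qbar, A.LiesOverPrime q →
          ∀ σ ∈ A.inertiaSubgroupIn ℚ, FixesTorsion p J σ) → ρ.IsUnramifiedAt q) ∧
      (∀ H : Subgroup Γℚ, (∀ σ ∈ H, LinearMap.charpoly (ρ.ρ σ) = (X - 1) ^ 2) →
        ∀ t : P, χ (π t) ≠ 0 → ∀ m : ℕ, m ≠ 0 →
          ∃ (n : ℕ) (x : J), p ^ n • x = 0 ∧ (∀ σ ∈ H, σ • x = x) ∧ m • act t x ≠ 0) := by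
  classical
  obtain ⟨r, hcard⟩ := D.card
  obtain ⟨bs⟩ := exists_torsionBasis hcard
  obtain ⟨ι, hι⟩ := exists_padicIntHom (p := p) O hpO
  have hιinj := injective_of_padicIntHom O ι
  -- Galois and Hecke matrices
  let galEnd : Γℚ →* AddMonoid.End J :=
    { toFun := fun g => DistribSMul.toAddMonoidHom J g
      map_one' := AddMonoidHom.ext fun x => one_smul Γℚ x
      map_mul' := fun g h => AddMonoidHom.ext fun x => mul_smul g h x }
  have hgal : ∀ g x, galEnd g x = g • x := fun _ _ => rfl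
  let μg : Γℚ →* Matrix (Fin r) (Fin r) ℤ_[p] := bs.matHom.toMonoidHom.comp galEnd
  let μP : P →+* Matrix (Fin r) (Fin r) ℤ_[p] := bs.matHom.comp act
  have hker : ∀ t, π t = 0 → μP t = 0 := fun t ht =>
    (bs.matHom_eq_zero_iff _).mpr fun x n hx => D.eq_zero t ht n x hx
  let μT : T →+* Matrix (Fin r) (Fin r) ℤ_[p] :=
    π.liftOfSurjective D.surjective ⟨μP, fun t ht => RingHom.mem_ker.mpr (hker t ht)⟩
  have hμT : ∀ t, μT (π t) = μP t := fun t => RingHom.liftOfSurjective_comp_apply π _ _ t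
  obtain ⟨s, η, hη, hηc⟩ := D.lattice
  have hcong : ∀ (t : T) (n : ℕ), (∀ i j, PadicInt.toZModPow n (μT t i j) = 0) →
      ∀ i j, (p : ℤ) ^ n ∣ η t i j := by
    intro t n h
    obtain ⟨t, rfl⟩ := D.surjective t
    refine hηc t n ?_
    rw [bs.matHom_toZModPow_eq_zero_iff]
    rwa [hμT] at h
  -- over `O`
  let ρ₀ : Γℚ →* Matrix (Fin r) (Fin r) O := ι.mapMatrix.toMonoidHom.comp μg
  let e : Γℚ →* O := ι.toMonoidHom.comp (cycloChar p)
  have hTcomm : ∀ g t, ρ₀ g * (μT t).map ι = (μT t).map ι * ρ₀ g := by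
    intro g t
    obtain ⟨t, rfl⟩ := D.surjective t
    show (μg g).map ι * (μT (π t)).map ι = (μT (π t)).map ι * (μg g).map ι
    rw [← Matrix.map_mul, ← Matrix.map_mul, hμT]
    show (bs.matHom (galEnd g) * bs.matHom (act t)).map ι =
      (bs.matHom (act t) * bs.matHom (galEnd g)).map ι
    rw [← map_mul, ← map_mul]
    congr 2
    exact AddMonoidHom.ext fun x => (D.comm g t x).symm
  let X₀ : Submodule O (Fin r → O) :=
    { carrier := {v | ∀ t, (μT t).map ι *ᵥ v = χ t • v}
      add_mem' := fun {v w} hv hw t => by rw [mulVec_add, hv t, hw t, smul_add]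
      zero_mem' := fun t => by rw [mulVec_zero, smul_zero]
      smul_mem' := fun c v hv t => by rw [mulVec_smul, hv t, smul_comm] }
  have hstab : ∀ g, ∀ v ∈ X₀, ρ₀ g *ᵥ v ∈ X₀ := fun g v hv t => by
    rw [mulVec_mulVec, ← hTcomm, ← mulVec_mulVec, hv t, mulVec_smul]
  -- an eigenvector with a unit coordinate
  obtain ⟨v₀, hv₀, i₀, hi₀⟩ : ∃ v₀ ∈ X₀, ∃ i, IsUnit (v₀ i) := by
    let K := FractionRing O
    obtain ⟨w, hw0, hw⟩ := exists_eigenvector_of_lattice μT η hη hcong
      ((algebraMap O K).comp ι) ((IsFractionRing.injective O K).comp hιinj)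
      ((algebraMap O K).comp χ)
    obtain ⟨c, hc⟩ := IsLocalization.exist_integer_multiples (nonZeroDivisors O) Finset.univ w
    choose x hx using fun i => hc i (Finset.mem_univ i)
    have hxK : (algebraMap O K) ∘ x = algebraMap O K c • w := by
      funext i; rw [Function.comp_apply, hx, Pi.smul_apply, smul_eq_mul, Algebra.smul_def]
    have hxX : x ∈ X₀ := fun t => by
      funext i
      apply IsFractionRing.injective O K
      rw [RingHom.map_mulVec, Matrix.map_map, hxK, ← RingHom.coe_comp, mulVec_smul, hw t,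
        Pi.smul_apply, Pi.smul_apply, smul_eq_mul, smul_eq_mul, Pi.smul_apply, smul_eq_mul,
        map_mul, hx, Algebra.smul_def, RingHom.comp_apply]
      ring
    have hx0 : x ≠ 0 := by
      rintro rfl
      obtain ⟨i, hi⟩ := Function.ne_iff.mp hw0
      have := congrFun hxK i
      simp only [Function.comp_apply, Pi.zero_apply, map_zero, Pi.smul_apply, smul_eq_mul,
        eq_comm (a := (0 : K)), mul_eq_zero] at this
      exact this.elim
        ((map_ne_zero_iff _ (IsFractionRing.injective O K)).mpr (nonZeroDivisors.ne_zero c.2)) hi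
    obtain ⟨d, hd⟩ := (IsPrincipalIdealRing.principal (Ideal.span (Set.range x))).principal
    rw [Ideal.submodule_span_eq] at hd
    have hd0 : d ≠ 0 := by
      rintro rfl
      refine hx0 (funext fun i => ?_)
      have := Ideal.subset_span (α := O) (Set.mem_range_self (f := x) i)
      rw [hd] at this
      obtain ⟨z, hz⟩ := Ideal.mem_span_singleton'.mp this
      rw [← hz, mul_zero]
      rfl
    have hdiv : ∀ i, ∃ z, x i = d * z := fun i =>
      Ideal.mem_span_singleton.mp (hd ▸ Ideal.subset_span (Set.mem_range_self i))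
    choose z hz using hdiv
    have hzX : z ∈ X₀ := fun t => by
      have h := hxX t
      rw [show x = d • z from funext hz, mulVec_smul, smul_comm] at h
      exact (smul_right_injective _ hd0) h
    refine ⟨z, hzX, ?_⟩
    by_contra hno
    push Not at hno
    have hle : Ideal.span (Set.range x) ≤ Ideal.span {d} * IsLocalRing.maximalIdeal O := by
      rw [Ideal.span_le]
      rintro _ ⟨i, rfl⟩
      rw [hz i]
      exact Ideal.mul_mem_mul (Ideal.mem_span_singleton_self d) (hno i)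
    have hmem := hle (hd ▸ Ideal.mem_span_singleton_self d)
    obtain ⟨m, hm, hdm⟩ := Ideal.mem_span_singleton_mul.mp hmem
    exact hm (IsUnit.of_mul_eq_one 1 (by rw [mul_one]; exact mul_left_cancel₀ hd0 (by rwa [mul_one])))
  -- the relation at Frobenius elements
  have hFrobRel : ∀ (ℓ : ℕ) (σ : Γℚ) (b : P), cycloChar p σ = (ℓ : ℤ_[p]) →
      SatisfiesQuadratic p act σ b ℓ →
        ∀ v ∈ X₀, relMat ρ₀ e σ *ᵥ v = χ (π b) • v := by
    intro ℓ σ b hℓ hq v hv
    have h0 : bs.matHom (galEnd σ * galEnd σ - act b * galEnd σ + ℓ) = 0 := by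
      rw [bs.matHom_eq_zero_iff]
      intro x n hx
      exact hq x ⟨n, hx⟩
    rw [map_add, map_sub, map_mul, map_mul, map_natCast] at h0
    have h1 : ρ₀ σ * ρ₀ σ - (μT (π b)).map ι * ρ₀ σ + (ℓ : Matrix (Fin r) (Fin r) O) = 0 := by
      have h2 := congrArg ι.mapMatrix h0
      rw [map_add, map_sub, map_mul, map_mul, map_natCast, map_zero] at h2
      rw [hμT]
      exact h2
    have h3 : relMat ρ₀ e σ = (μT (π b)).map ι := by
      have he : e σ = (ℓ : O) := (congrArg ι hℓ).trans (map_natCast ι ℓ)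
      have h4 := congrArg (fun M => M * ρ₀ σ⁻¹) h1
      simp only [add_mul, sub_mul, zero_mul, mul_assoc, ← map_mul, mul_inv_cancel, map_one,
        mul_one, ← nsmul_eq_mul] at h4
      rw [relMat, he, Nat.cast_smul_eq_nsmul, eq_comm, ← sub_eq_zero]
      linear_combination (norm := abel) (-1 : ℤ) • h4
    rw [h3]
    exact hv _
  -- density
  have hlevel : ∀ n, ∃ F : IntermediateField ℚ Qbar, FiniteDimensional ℚ F ∧
      ∀ σ : Γℚ, (∀ y ∈ F, σ y = y) → (∀ i j, (ρ₀ σ - 1) i j ∈ IsLocalRing.maximalIdeal O ^ n) ∧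
        e σ - 1 ∈ IsLocalRing.maximalIdeal O ^ n := by
    intro n
    obtain ⟨F₁, _, hF₁⟩ := D.finite_level n
    obtain ⟨F₂, _, hF₂⟩ := exists_finite_level_cycloChar p n
    refine ⟨F₁ ⊔ F₂, inferInstance, fun σ hσ => ⟨fun i j => ?_, ?_⟩⟩
    · have h := (bs.matHom_toZModPow_eq_zero_iff (galEnd σ - 1) n).mp
        (fun x hx => sub_eq_zero.mpr (hF₁ σ (fun y hy => hσ y (le_sup_left (a := F₁) hy)) x hx)) i j
      have h2 := hι n _ h
      rw [map_sub, map_one] at h2
      have h3 : (ρ₀ σ - 1) i j = ι ((bs.matHom (galEnd σ) - 1) i j) := by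
        have h4 : (bs.matHom (galEnd σ) - 1).map ι = ρ₀ σ - 1 := by
          rw [Matrix.map_sub _ (map_sub ι), Matrix.map_one _ (map_zero ι) (map_one ι)]
          rfl
        exact (congrFun (congrFun h4 i) j).symm
      rw [h3]
      exact h2
    · have h := hF₂ σ (fun y hy => hσ y (le_sup_right (a := F₁) hy))
      have h2 := hι n (cycloChar p σ - 1) (by rw [map_sub, h, map_one, sub_self])
      rwa [map_sub, map_one] at h2
  let aO : Γℚ → O := fun g => ((relMat ρ₀ e g *ᵥ v₀) i₀) * (hi₀.unit⁻¹ : Oˣ)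
  have hrel : ∀ g, ∀ v ∈ X₀, relMat ρ₀ e g *ᵥ v = aO g • v := by
    intro g v hv
    funext i
    rw [← sub_eq_zero]
    refine IsHausdorff.haus (I := IsLocalRing.maximalIdeal O) inferInstance _ fun n => ?_
    rw [SModEq.sub_mem, sub_zero, Ideal.smul_eq_mul, Ideal.mul_top]
    obtain ⟨F, _, hF⟩ := hlevel n
    obtain ⟨ℓ, hℓ, hℓS, A, hA, σ, hσ, -, b, -, hb⟩ :=
      exists_isFrobeniusAt_agreeOn F g (insert p S)
    rw [Finset.mem_insert, not_or] at hℓS
    obtain ⟨c, hc⟩ := exists_relMat_pow ρ₀ e σ X₀ _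
      (hFrobRel ℓ σ (a ℓ) (cycloChar_frobenius p hℓ hℓS.1 hA hσ) (hfrob ℓ hℓ hℓS.2 A hA σ hσ)) b
    let qm := Ideal.Quotient.mk (IsLocalRing.maximalIdeal O ^ n)
    have hfix : ∀ y ∈ F, (g⁻¹ * σ ^ b) y = y := fun y hy => by
      rw [AlgEquiv.mul_apply, hb y hy]
      exact g.symm_apply_apply y
    have hfix' : ∀ y ∈ F, ((σ ^ b)⁻¹ * g) y = y := fun y hy => by
      rw [AlgEquiv.mul_apply, ← hb y hy]
      exact (σ ^ b).symm_apply_apply y
    have hone : ∀ h : Γℚ, (∀ y ∈ F, h y = y) → (ρ₀ h).map qm = 1 ∧ qm (e h) = 1 := by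
      intro h hh
      refine ⟨?_, ?_⟩
      · rw [← Matrix.map_one qm (map_zero _) (map_one _)]
        refine Matrix.ext fun i j => Ideal.Quotient.eq.mpr ?_
        exact (hF h hh).1 i j
      · rw [← map_one qm]
        exact Ideal.Quotient.eq.mpr (hF h hh).2
    have hgeq : (ρ₀ g).map qm = (ρ₀ (σ ^ b)).map qm := by
      conv_lhs => rw [show g = σ ^ b * ((σ ^ b)⁻¹ * g) by rw [mul_inv_cancel_left], map_mul,
        Matrix.map_mul, (hone _ hfix').1, mul_one]
    have hgeq' : (ρ₀ g⁻¹).map qm = (ρ₀ (σ ^ b)⁻¹).map qm := by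
      conv_lhs => rw [show g⁻¹ = (g⁻¹ * σ ^ b) * (σ ^ b)⁻¹ by rw [mul_assoc, mul_inv_cancel, mul_one],
        map_mul, Matrix.map_mul, (hone _ hfix).1, one_mul]
    have hgeq'' : qm (e g) = qm (e (σ ^ b)) := by
      conv_lhs => rw [show g = σ ^ b * ((σ ^ b)⁻¹ * g) by rw [mul_inv_cancel_left], map_mul,
        map_mul, (hone _ hfix').2, mul_one]
    have hrm : (relMat ρ₀ e g).map qm = (relMat ρ₀ e (σ ^ b)).map qm := by
      refine Matrix.ext fun i j => ?_
      simp only [relMat, Matrix.map_apply, Matrix.add_apply, Matrix.smul_apply, smul_eq_mul,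
        map_add, map_mul, hgeq'']
      rw [show qm (ρ₀ g i j) = qm (ρ₀ (σ ^ b) i j) from congrFun (congrFun hgeq i) j,
        show qm (ρ₀ g⁻¹ i j) = qm (ρ₀ (σ ^ b)⁻¹ i j) from congrFun (congrFun hgeq' i) j]
    have key : ∀ w ∈ X₀, ∀ k, qm ((relMat ρ₀ e g *ᵥ w) k) = qm c * qm (w k) := by
      intro w hw k
      rw [RingHom.map_mulVec, hrm, ← RingHom.map_mulVec, hc w hw, Pi.smul_apply, smul_eq_mul,
        map_mul]
    rw [← Ideal.Quotient.eq_zero_iff_mem]
    show qm _ = 0
    simp only [map_sub, Pi.smul_apply, smul_eq_mul, map_mul, aO, key v hv i, key v₀ hv₀ i₀]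
    rw [mul_assoc (qm c), ← map_mul qm (v₀ i₀), IsUnit.mul_val_inv, map_one, mul_one, sub_self]
  have hX0 : X₀ ≠ ⊥ := fun h => by
    rw [h, Submodule.mem_bot] at hv₀
    subst hv₀
    exact not_isUnit_zero hi₀
  obtain ⟨L, _, _, _, _, _, πr, hπr⟩ := exists_constituent O ρ₀ e aO X₀ hX0 hstab
    (fun g v hv => by rw [← smul_mulVec, ← add_mulVec]; exact hrel g v hv)
  have := isLocalRing_integralClosure O L
  have := isDiscreteValuationRing_integralClosure O L
  have := finite_integralClosure O L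
  have := isLocalHom_integralClosure O L
  have := isAdicComplete_integralClosure O L
  have := charZero_integralClosure O L
  have := finite_residueField_integralClosure O L
  let C' := integralClosure O L
  let ρC : Γℚ →* Module.End C' (Fin 2 → C') :=
    (Matrix.toLinAlgEquiv' (R := C') (n := Fin 2)).toMonoidHom.comp πr
  have hcont : GaloisActionIsAdicContinuous C' ρC := by
    intro n
    obtain ⟨F, hFfin, hF⟩ := hlevel n
    refine ⟨F, hFfin, fun σ hσ v => ?_⟩
    have hmap : (IsLocalRing.maximalIdeal O ^ n).map (algebraMap O C') ≤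
        IsLocalRing.maximalIdeal C' ^ n := by
      rw [Ideal.map_pow]
      exact Ideal.pow_right_mono (Ideal.map_le_iff_le_comap.mpr fun x hx =>
        Ideal.mem_comap.mpr (map_nonunit (algebraMap O C') x hx)) n
    have hI := hπr.congr_one σ (IsLocalRing.maximalIdeal C' ^ n)
      (fun i j => hmap (Ideal.mem_map_of_mem _ ((hF σ hσ).1 i j)))
      (hmap (Ideal.mem_map_of_mem _ (hF σ hσ).2))
    have hv : ρC σ v - v = (πr σ - 1) *ᵥ v := by
      rw [sub_mulVec, one_mulVec]; rfl
    rw [hv, mulVec_eq_sum]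
    refine Submodule.sum_mem _ fun j _ => ?_
    rw [op_smul_eq_smul, ← (Pi.basisFun C' (Fin 2)).sum_repr ((πr σ - 1).transpose j)]
    refine Submodule.smul_mem _ _ (Submodule.sum_mem _ fun i _ => ?_)
    refine Submodule.smul_mem_smul ?_ Submodule.mem_top
    rw [Pi.basisFun_repr]
    exact hI i j
  refine ⟨C', inferInstance, inferInstance, inferInstance, inferInstance, inferInstance,
    inferInstance, inferInstance, inferInstance, inferInstance,
    injective_algebraMap_integralClosure O L,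
    { V := Fin 2 → C', finrank_eq := Module.finrank_fin_fun _, ρ := ρC,
      isAdicContinuous := hcont }, ?_, ?_, ?_⟩
  · intro ℓ hℓ hℓp A hA σ hσ b hb
    have he : cycloChar p σ = (ℓ : ℤ_[p]) := cycloChar_frobenius p hℓ hℓp hA hσ
    have ha : aO σ = χ (π b) := by
      simp only [aO]
      rw [hFrobRel ℓ σ b he hb v₀ hv₀, Pi.smul_apply, smul_eq_mul, mul_assoc,
        IsUnit.mul_val_inv, mul_one]
    show LinearMap.charpoly (Matrix.toLin' (πr σ)) = _
    rw [Matrix.charpoly_toLin', hπr.charpoly_eq σ, ha]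
    congr 2
    show algebraMap O C' (ι (cycloChar p σ)) = _
    rw [he, map_natCast, map_natCast]
  · intro q hq hqp hfix A hA σ hσ
    have h1 : μg σ = 1 := by
      rw [← sub_eq_zero]
      show bs.matHom (galEnd σ) - 1 = 0
      rw [← map_one bs.matHom, ← map_sub, bs.matHom_eq_zero_iff]
      exact fun x n hx => sub_eq_zero.mpr (hfix A hA σ hσ x ⟨n, hx⟩)
    have h2 : e σ = 1 := by
      show ι (cycloChar p σ) = 1
      rw [cycloChar_inertia p hq hqp hA hσ, map_one]
    have hI := hπr.congr_one σ ⊥ (fun i j => by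
        show algebraMap O C' ((ι.mapMatrix (μg σ) - 1 : Matrix (Fin r) (Fin r) O) i j) ∈
          (⊥ : Ideal C')
        rw [h1, map_one, sub_self, Matrix.zero_apply, map_zero]
        exact zero_mem _)
      (by rw [h2, sub_self, map_zero]; exact zero_mem _)
    show Matrix.toLinAlgEquiv' (πr σ) = 1
    rw [show πr σ = 1 from sub_eq_zero.mp (Matrix.ext fun i j => (Submodule.mem_bot C').mp (hI i j)),
      map_one]
  · intro H hH t ht m hm
    refine exists_fixed_torsion_point bs ι hιinj (injective_algebraMap_integralClosure O L) galEnd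
      (fun g => rfl) hπr H.toSubmonoid (fun σ hσ => ?_) (act t) (χ (π t)) ht (fun x hx => ?_) m hm
    · rw [← hH σ hσ]
      exact (Matrix.charpoly_toLin' (πr σ)).symm
    · rw [show bs.matHom (act t) = μT (π t) from (hμT t).symm]
      exact hx (π t)

theorem exists_attached (act : P →+* AddMonoid.End J) (π : P →+* T)
    (D : TorsionHeckeData p act π) (S : Finset ℕ) (a : ℕ → P)
    (hfrob : ∀ ℓ : ℕ, ℓ.Prime → ℓ ∉ S → ∀ A : ValuationSubring Qbar, A.LiesOverPrime ℓ →
      ∀ σ : Γℚ, A.IsFrobeniusAt σ ℓ → SatisfiesQuadratic p act σ (a ℓ) ℓ)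
    (O : Type) [CommRing O] [IsDomain O] [IsDiscreteValuationRing O]
    [IsAdicComplete (IsLocalRing.maximalIdeal O) O] [Finite (IsLocalRing.ResidueField O)]
    [CharZero O] (hpO : (p : O) ∈ IsLocalRing.maximalIdeal O) (χ : T →+* O) :
    ∃ (O' : Type) (_ : CommRing O') (_ : IsDomain O') (_ : IsDiscreteValuationRing O')
      (_ : IsAdicComplete (IsLocalRing.maximalIdeal O') O')
      (_ : Finite (IsLocalRing.ResidueField O')) (_ : CharZero O')
      (_ : Algebra O O') (_ : Module.Finite O O') (_ : IsLocalHom (algebraMap O O')),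
    Function.Injective (algebraMap O O') ∧ ∃ ρ : GaloisRepAdic O',
      (∀ (ℓ : ℕ), ℓ.Prime → ℓ ≠ p → ∀ A : ValuationSubring Qbar, A.LiesOverPrime ℓ →
        ∀ σ : Γℚ, A.IsFrobeniusAt σ ℓ → ∀ b : P, SatisfiesQuadratic p act σ b ℓ →
          LinearMap.charpoly (ρ.ρ σ) =
            X ^ 2 - C (algebraMap O O' (χ (π b))) * X + C ((ℓ : O'))) ∧
      (∀ q : ℕ, q.Prime → q ≠ p →
        (∀ A : ValuationSubring Qbar, A.LiesOverPrime q →
          ∀ σ ∈ A.inertiaSubgroupIn ℚ, FixesTorsion p J σ) → ρ.IsUnramifiedAt q) := by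
  obtain ⟨O', i1, i2, i3, i4, i5, i6, i7, i8, i9, hinj, ρ, h1, h2, -⟩ :=
    exists_attached_origin act π D S a hfrob O hpO χ
  exact ⟨O', i1, i2, i3, i4, i5, i6, i7, i8, i9, hinj, ρ, h1, h2⟩

end FermatLib.Galois.Attach
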