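import Mathlib

/-!
# Irreducible families satisfying a quadratic relation

If a group acts irreducibly on a finite dimensional space over an algebraically closed field and
every element `g` satisfies `R g + e g • (R g)⁻¹ = a g` (a scalar), then the space has dimension at
most two, and in dimension two the characteristic polynomial of `R g` is `X² - a g X + e g`.
This replaces the freeness of rank two in the construction of attached representations.
-/

set_option autoImplicit false

noncomputable section

namespace FermatLib.Galois.Attach

open Polynomial Module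

variable {G k V : Type*} [Group G] [Field k] [AddCommGroup V] [Module k V]

/-- An invariant subspace for a monoid hom into endomorphisms. -/
def IsInvariantSubspace (R : G →* Module.End k V) (U : Submodule k V) : Prop :=
  ∀ g, ∀ x ∈ U, R g x ∈ U

variable [FiniteDimensional k V] [IsAlgClosed k]

/-- Burnside: the image of an irreducible monoid hom spans all endomorphisms. -/
theorem span_range_eq_top_of_irreducible (R : G →* Module.End k V) [Nontrivial V]
    (hirr : ∀ U, IsInvariantSubspace R U → U = ⊥ ∨ U = ⊤) :
    Submodule.span k (Set.range R) = ⊤ := by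
  have h1 : Algebra.adjoin k (Set.range R) = ⊤ := by
    set A := Algebra.adjoin k (Set.range R)
    have hsimple : IsSimpleModule A V := by
      rw [isSimpleModule_iff]
      refine ⟨fun U => ?_⟩
      have hU : IsInvariantSubspace R (U.restrictScalars k) := fun g x hx =>
        U.smul_mem (⟨R g, Algebra.subset_adjoin (Set.mem_range_self g)⟩ : A) hx
      rcases hirr _ hU with h | h
      · left; exact (Submodule.restrictScalars_eq_bot_iff k A V).mp h
      · right; exact (Submodule.restrictScalars_eq_top_iff k A V).mp h
    rw [Algebra.eq_top_iff]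
    intro φ
    have hbij := IsSimpleModule.algebraMap_end_bijective_of_isAlgClosed (A := A) (V := V) k
    have hfin : Module.Finite (Module.End A V) V := Module.Finite.of_restrictScalars_finite k _ _
    let φ' : Module.End (Module.End A V) V :=
      { toFun := φ
        map_add' := map_add φ
        map_smul' := fun e x => by
          obtain ⟨c, rfl⟩ := hbij.2 e
          simp }
    obtain ⟨⟨r, hr⟩, hr'⟩ := Module.Finite.toModuleEnd_moduleEnd_surjective (R := A) (M := V) φ'
    have hrφ : r = φ := LinearMap.ext fun x => congr($hr' x)
    exact hrφ ▸ hr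
  have h2 := congrArg Subalgebra.toSubmodule h1
  rw [Algebra.adjoin_eq_span, Algebra.top_toSubmodule] at h2
  have h3 : Submonoid.closure (Set.range R) = MonoidHom.mrange R := by
    rw [← MonoidHom.coe_mrange, Submonoid.closure_eq]
  rwa [h3, MonoidHom.coe_mrange] at h2

section relation

variable (R : G →* Module.End k V) (e : G →* k) (a : G → k)

/-- The relation `g + e(g) g⁻¹ = a(g)`. -/
def HasTraceRelation : Prop := ∀ g, R g + e g • R g⁻¹ = a g • 1

variable {R e a}

omit [FiniteDimensional k V] [IsAlgClosed k] in
theorem HasTraceRelation.sq_eq (h : HasTraceRelation R e a) (g : G) :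
    R g * R g - a g • R g + e g • 1 = 0 := by
  have := congrArg (fun x => R g * x) (h g)
  simp only [mul_add, mul_smul_comm, ← map_mul, mul_inv_cancel, map_one, mul_one] at this
  rw [← map_mul, ← this]
  abel

theorem finrank_le_two_and_charpoly (h : HasTraceRelation R e a)
    (hirr : ∀ U, IsInvariantSubspace R U → U = ⊥ ∨ U = ⊤) (hd : 2 ≤ finrank k V) :
    finrank k V = 2 ∧ ∀ g, LinearMap.charpoly (R g) = X ^ 2 - C (a g) * X + C (e g) := by
  classical
  have : Nontrivial V := Module.nontrivial_of_finrank_pos (R := k) (by omega)
  have hspan := span_range_eq_top_of_irreducible R hirr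
  -- some element does not act as a scalar
  have hns : ∃ g, ∀ c : k, R g ≠ c • 1 := by
    by_contra hc
    push Not at hc
    have hle : Submodule.span k (Set.range R) ≤ Submodule.span k {(1 : Module.End k V)} := by
      rw [Submodule.span_le]
      rintro _ ⟨g, rfl⟩
      obtain ⟨c, hc⟩ := hc g
      exact Submodule.mem_span_singleton.mpr ⟨c, hc.symm⟩
    rw [hspan] at hle
    have h1 := Submodule.finrank_mono hle
    rw [finrank_top, Module.finrank_linearMap] at h1
    have h2 : finrank k (Submodule.span k {(1 : Module.End k V)}) ≤ 1 := by
      rw [finrank_span_singleton (one_ne_zero)]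
    nlinarith
  -- the functional `a` extends linearly
  let φ : (G →₀ k) →ₗ[k] Module.End k V := Finsupp.linearCombination k R
  let α : (G →₀ k) →ₗ[k] k := Finsupp.linearCombination k a
  let φi : (G →₀ k) →ₗ[k] Module.End k V := Finsupp.linearCombination k fun g => e g • R g⁻¹
  have hαi : ∀ c, φi c = α c • 1 - φ c := by
    intro c
    induction c using Finsupp.induction_linear with
    | zero => simp
    | add x y hx hy => simp only [map_add, hx, hy, add_smul]; abel
    | single g c =>
      simp only [φi, α, φ, Finsupp.linearCombination_single]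
      rw [smul_assoc c (a g), ← h g, smul_add, add_sub_cancel_left]
  have hker : LinearMap.ker φ ≤ LinearMap.ker α := by
    intro c hc
    rw [LinearMap.mem_ker] at hc ⊢
    obtain ⟨g₀, hg₀⟩ := hns
    by_contra hA
    -- multiply the relation by every `R g`
    have key : ∀ g, ∃ s : k, α c • (e g • R g⁻¹) = s • 1 := by
      intro g
      refine ⟨Finsupp.linearCombination k (fun x => a (x * g)) c, ?_⟩
      have : ∀ c' : G →₀ k, φ c' * R g + (e g • R g⁻¹) * φi c' =
          (Finsupp.linearCombination k (fun x => a (x * g)) c') • (1 : Module.End k V) := by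
        intro c'
        induction c' using Finsupp.induction_linear with
        | zero => simp
        | add x y hx hy => simp only [map_add, add_mul, mul_add, add_smul, ← hx, ← hy]; abel
        | single x r =>
          simp only [φi, φ, Finsupp.linearCombination_single]
          rw [smul_assoc r (a (x * g)), ← h (x * g)]
          simp only [map_mul, mul_inv_rev, smul_add, smul_mul_assoc, mul_smul_comm, smul_smul]
          congr 2
          ring
      have hc' := this c
      rw [hαi, hc, zero_mul, zero_add, sub_zero, mul_smul_comm, mul_one] at hc'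
      exact hc'
    obtain ⟨s, hs⟩ := key g₀
    have h0 := h g₀
    have h1 : e g₀ • R g₀⁻¹ = ((α c)⁻¹ * s) • 1 := by
      rw [← smul_smul, ← hs, smul_smul, inv_mul_cancel₀ hA, one_smul]
    rw [h1] at h0
    exact hg₀ (a g₀ - (α c)⁻¹ * s) (by rw [sub_smul, ← h0]; abel)
  have hsurj : Function.Surjective φ := by
    rw [← LinearMap.range_eq_top, Finsupp.range_linearCombination, hspan]
  obtain ⟨σ, hσ⟩ := φ.exists_rightInverse_of_surjective (LinearMap.range_eq_top.mpr hsurj)
  let L : Module.End k V →ₗ[k] k := α ∘ₗ σ
  have hL : ∀ c, L (φ c) = α c := by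
    intro c
    have : σ (φ c) - c ∈ LinearMap.ker φ := by
      rw [LinearMap.mem_ker, map_sub, sub_eq_zero]
      exact congr($hσ (φ c))
    have := hker this
    rwa [LinearMap.mem_ker, map_sub, sub_eq_zero] at this
  have hLg : ∀ g, L (R g) = a g := by
    intro g
    have := hL (Finsupp.single g 1)
    simpa [φ, α] using this
  let ι : Module.End k V →ₗ[k] Module.End k V :=
    L.smulRight (1 : Module.End k V) - LinearMap.id
  have hιg : ∀ g, ι (R g) = e g • R g⁻¹ := by
    intro g
    simp only [ι, LinearMap.sub_apply, LinearMap.smulRight_apply, LinearMap.id_apply, hLg]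
    rw [← h g, add_sub_cancel_left]
  have hιmul : ∀ x y, ι (x * y) = ι y * ι x := by
    intro x y
    have hx : x ∈ Submodule.span k (Set.range R) := hspan ▸ Submodule.mem_top
    have hy : y ∈ Submodule.span k (Set.range R) := hspan ▸ Submodule.mem_top
    induction hx, hy using Submodule.span_induction₂ with
    | mem_mem x y hx hy =>
      obtain ⟨g, rfl⟩ := hx
      obtain ⟨g', rfl⟩ := hy
      rw [← map_mul, hιg, hιg, hιg, smul_mul_smul_comm, ← map_mul R, mul_inv_rev, map_mul e,
        mul_comm (e g)]
    | zero_left y _ => simp
    | zero_right x _ => simp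
    | add_left x x' y _ _ _ h1 h2 => simp [add_mul, mul_add, h1, h2]
    | add_right x y y' _ _ _ h1 h2 => simp [mul_add, add_mul, h1, h2]
    | smul_left c x y _ _ h1 => simp [h1]
    | smul_right c x y _ _ h1 => simp [h1]
  have hiden : ∀ x y : Module.End k V, ∀ v : V,
      x (y v) + y (x v) - L x • y v - L y • x v + (L x * L y - L (x * y)) • v = 0 := by
    intro x y v
    have h1 : ι (x * y) v = ι y (ι x v) := by rw [hιmul]; rfl
    simp only [ι, LinearMap.sub_apply, LinearMap.smulRight_apply, LinearMap.id_apply,
      LinearMap.smul_apply, Module.End.one_apply, Module.End.mul_apply, map_sub, map_smul] at h1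
    linear_combination (norm := module) -h1
  -- bases
  let b := Module.finBasis k V
  have hd2 : finrank k V = 2 := by
    by_contra hne
    have h3 : 3 ≤ finrank k V := by omega
    let i : Fin (finrank k V) := ⟨0, by omega⟩
    let j : Fin (finrank k V) := ⟨1, by omega⟩
    let l : Fin (finrank k V) := ⟨2, by omega⟩
    have hij : i ≠ j := by simp [i, j]
    have hil : i ≠ l := by simp [i, l]
    have hjl : j ≠ l := by simp [j, l]
    -- off-diagonal rank one maps
    let F : Fin (finrank k V) → Fin (finrank k V) → Module.End k V :=
      fun s t => (b.coord t).smulRight (b s)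
    have hF : ∀ s t, F s t (b t) = b s := fun s t => by simp [F]
    have hF' : ∀ s t u, u ≠ t → F s t (b u) = 0 := fun s t u hu => by
      simp [F, Finsupp.single_eq_of_ne (Ne.symm hu)]
    have h1 := hiden (F i j) (F j l) (b l)
    rw [hF, hF, hF' _ _ _ hjl.symm, map_zero, smul_zero, add_zero, sub_zero] at h1
    have h2 := congrArg (b.coord i) h1
    simp [hij, hil, Finsupp.single_eq_of_ne] at h2
  refine ⟨hd2, fun g => ?_⟩
  have htr : LinearMap.trace k V (1 : Module.End k V) = 2 := by
    rw [LinearMap.trace_one, hd2]; norm_num
  have ha1 : L 1 = 2 := by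
    have h1 := hLg 1
    rw [map_one] at h1
    have h2 := h 1
    rw [inv_one, map_one, map_one, one_smul, ← h1] at h2
    obtain ⟨v, hv⟩ := exists_ne (0 : V)
    have h3 : (2 - L 1) • v = 0 := by
      have := congr($h2 v)
      simp only [LinearMap.add_apply, Module.End.one_apply, LinearMap.smul_apply] at this
      linear_combination (norm := module) this
    simp only [smul_eq_zero, hv, or_false, sub_eq_zero] at h3
    exact h3.symm
  have hcp : LinearMap.charpoly (R g) =
      X ^ 2 - C (LinearMap.trace k V (R g)) * X + C (LinearMap.det (R g)) := by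
    let b' := Module.finBasisOfFinrankEq k V hd2
    rw [← LinearMap.charpoly_toMatrix (R g) b', Matrix.charpoly_fin_two,
      LinearMap.trace_eq_matrix_trace k b' (R g), ← LinearMap.det_toMatrix b' (R g)]
  have hCH := LinearMap.aeval_self_charpoly (R g)
  rw [hcp] at hCH
  simp only [map_add, map_sub, map_mul, map_pow, aeval_X, aeval_C,
    Algebra.algebraMap_eq_smul_one, smul_mul_assoc, one_mul] at hCH
  have hsq := h.sq_eq g
  have hdiff : (a g - LinearMap.trace k V (R g)) • R g
      = (e g - LinearMap.det (R g)) • (1 : Module.End k V) := by
    linear_combination (norm := module) (-1 : k) • hsq + (1:k) • hCH - (sq (R g))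
  rw [hcp]
  by_cases hsc : ∃ c : k, R g = c • 1
  · obtain ⟨c, hc⟩ := hsc
    have hag : a g = 2 * c := by rw [← hLg, hc, map_smul, ha1, smul_eq_mul, mul_comm]
    have ht : LinearMap.trace k V (R g) = 2 * c := by rw [hc, map_smul, htr, smul_eq_mul, mul_comm]
    rw [ht, hag, sub_self, zero_smul] at hdiff
    have hde : e g - LinearMap.det (R g) = 0 := by
      have := (smul_eq_zero.mp hdiff.symm).resolve_right one_ne_zero
      exact this
    rw [ht, hag, sub_eq_zero.mp hde]
  · push Not at hsc
    have h1 : a g - LinearMap.trace k V (R g) = 0 := by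
      by_contra hne
      refine hsc ((a g - LinearMap.trace k V (R g))⁻¹ * (e g - LinearMap.det (R g))) ?_
      rw [← smul_smul, ← hdiff, smul_smul, inv_mul_cancel₀ hne, one_smul]
    rw [h1, zero_smul] at hdiff
    have h2 := (smul_eq_zero.mp hdiff.symm).resolve_right one_ne_zero
    rw [sub_eq_zero.mp h1, sub_eq_zero.mp h2]

end relation

end FermatLib.Galois.Attach
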