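import Mathlib

/-!
# Matrices of endomorphisms on the Tate module

If the `p^n`-torsion of an abelian group has `p^(n r)` elements for every `n`, every endomorphism
has a matrix over `ℤ_[p]`, vanishing modulo `p^n` exactly when it kills the `p^n`-torsion.
-/

set_option autoImplicit false
set_option linter.unusedSectionVars false

noncomputable section

namespace FermatLib.Galois.Attach

variable {J : Type*} [AddCommGroup J] {p : ℕ} [hp : Fact p.Prime] {r : ℕ}

/-- A compatible family of bases of the `p`-power torsion. -/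
structure TorsionBasis (J : Type*) [AddCommGroup J] (p r : ℕ) where
  e : ℕ → Fin r → J
  torsion : ∀ n i, p ^ n • e n i = 0
  compat : ∀ n i, p • e (n + 1) i = e n i
  indep : ∀ n (c : Fin r → ℤ), ∑ i, c i • e n i = 0 → ∀ i, (p : ℤ) ^ n ∣ c i
  span : ∀ n x, p ^ n • x = 0 → ∃ c : Fin r → ℤ, ∑ i, c i • e n i = x

theorem torsion_surjective_of_card
    (hcard : ∀ n, Nat.card {x : J // p ^ n • x = 0} = p ^ (n * r)) (n : ℕ) (y : J)
    (hy : p ^ n • y = 0) : ∃ x : J, p ^ (n + 1) • x = 0 ∧ p • x = y := by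
  let A : ℕ → AddSubgroup J := fun n => (nsmulAddMonoidHom (α := J) (p ^ n)).ker
  have hA : ∀ n x, x ∈ A n ↔ p ^ n • x = 0 := fun n x => AddMonoidHom.mem_ker
  have hcA : ∀ n, Nat.card (A n) = p ^ (n * r) := fun n => by
    rw [← hcard n]
    exact Nat.card_congr (Equiv.subtypeEquivRight (hA n))
  have hfin : ∀ n, Finite (A n) := fun n => Nat.finite_of_card_ne_zero
    (by rw [hcA]; exact pow_ne_zero _ hp.out.ne_zero)
  let f : A (n + 1) →+ A n := ((nsmulAddMonoidHom (α := J) p).comp (A (n + 1)).subtype).codRestrict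
    (A n) fun x => by
      rw [hA]
      show p ^ n • p • (x : J) = 0
      rw [smul_smul, ← pow_succ]
      exact (hA _ _).mp x.2
  have hk : Nat.card f.ker = p ^ r := by
    rw [← one_mul r, ← hcA 1]
    refine Nat.card_congr
      { toFun := fun x => ⟨x.1.1, (hA _ _).mpr (by
          rw [pow_one]; exact congrArg Subtype.val (AddMonoidHom.mem_ker.mp x.2))⟩
        invFun := fun x => ⟨⟨x.1, (hA _ _).mpr (by
          rw [pow_succ, ← smul_smul, show p • (x : J) = 0 by
            have := (hA _ _).mp x.2; rwa [pow_one] at this, smul_zero])⟩,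
          AddMonoidHom.mem_ker.mpr (Subtype.ext (by
            have := (hA _ _).mp x.2; rwa [pow_one] at this))⟩
        left_inv := fun x => rfl
        right_inv := fun x => rfl }
  have hmul := AddSubgroup.card_eq_card_quotient_mul_card_addSubgroup f.ker
  rw [Nat.card_congr (QuotientAddGroup.quotientKerEquivRange f).toEquiv, hk, hcA] at hmul
  have hrange : Nat.card f.range = Nat.card (A n) := by
    have hne : p ^ r ≠ 0 := pow_ne_zero _ hp.out.ne_zero
    rw [hcA]
    refine Nat.eq_of_mul_eq_mul_right (Nat.pos_of_ne_zero hne) ?_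
    rw [← hmul, ← pow_add]
    ring_nf
  have := hfin n
  have htop := AddSubgroup.eq_top_of_card_eq f.range hrange
  obtain ⟨x, hx⟩ : (⟨y, (hA _ _).mpr hy⟩ : A n) ∈ f.range := htop ▸ AddSubgroup.mem_top _
  exact ⟨x, (hA _ _).mp x.2, congrArg Subtype.val hx⟩

theorem nonempty_basis_of_card (A : Type*) [AddCommGroup A] [Module (ZMod p) A]
    (hcA : Nat.card A = p ^ r) : Nonempty (Module.Basis (Fin r) (ZMod p) A) := by
  have : Finite A := Nat.finite_of_card_ne_zero (by rw [hcA]; exact pow_ne_zero _ hp.out.ne_zero)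
  have : Module.Finite (ZMod p) A := Module.Finite.of_finite
  have hrk : Module.finrank (ZMod p) A = r := by
    have h := Module.natCard_eq_pow_finrank (K := ZMod p) (V := A)
    rw [hcA, Nat.card_zmod] at h
    exact (Nat.pow_right_injective hp.out.two_le h).symm
  exact ⟨Module.finBasisOfFinrankEq (ZMod p) A hrk⟩

theorem exists_torsionBasis (hcard : ∀ n, Nat.card {x : J // p ^ n • x = 0} = p ^ (n * r)) :
    Nonempty (TorsionBasis J p r) := by
  classical
  have hp0 : p ≠ 0 := hp.out.ne_zero
  let A : AddSubgroup J := (nsmulAddMonoidHom (α := J) p).ker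
  have hA : ∀ x, x ∈ A ↔ p • x = 0 := fun x => AddMonoidHom.mem_ker
  let := AddCommGroup.zmodModule (n := p) (G := A) fun x => Subtype.ext ((hA _).mp x.2)
  have hcA : Nat.card A = p ^ r := by
    rw [← one_mul r, ← hcard 1]
    exact Nat.card_congr (Equiv.subtypeEquivRight fun x => by rw [hA, pow_one])
  obtain ⟨b⟩ := nonempty_basis_of_card (p := p) A hcA
  choose lift hlift using torsion_surjective_of_card (J := J) (r := r) (p := p) hcard
  let e : ∀ n, {f : Fin r → J // ∀ i, p ^ (n + 1) • f i = 0} := fun n => Nat.rec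
    ⟨fun i => (b i : J), fun i => by
      show p ^ (0 + 1) • (b i : J) = 0
      rw [zero_add, pow_one]; exact (hA _).mp (b i).2⟩
    (fun n f => ⟨fun i => lift (n + 1) (f.1 i) (f.2 i), fun i => (hlift _ _ (f.2 i)).1⟩) n
  let E : ℕ → Fin r → J := fun n => match n with
    | 0 => fun _ => 0
    | n + 1 => (e n).1
  have htor : ∀ n i, p ^ n • E n i = 0 := fun n i => by
    match n with
    | 0 => exact smul_zero _
    | n + 1 => exact (e n).2 i
  have hcompat : ∀ n i, p • E (n + 1) i = E n i := fun n i => by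
    match n with
    | 0 => exact (hA _).mp (b i).2
    | n + 1 => exact (hlift (n + 1) _ ((e n).2 i)).2
  have hbase : ∀ c : Fin r → ℤ, ((∑ i, c i • E 1 i : J)) = ((∑ i, (c i : ZMod p) • b i : A) : J) := by
    intro c
    rw [AddSubmonoidClass.coe_finsetSum]
    refine Finset.sum_congr rfl fun i _ => ?_
    rw [Int.cast_smul_eq_zsmul, AddSubgroupClass.coe_zsmul]
  have h4 : ∀ m i, p ^ m • E (m + 1) i = E 1 i := by
    intro m
    induction m with
    | zero => intro i; rw [pow_zero, one_smul]
    | succ m ihm => intro i; rw [pow_succ, ← smul_smul, hcompat, ihm]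
  have hindep : ∀ n (c : Fin r → ℤ), ∑ i, c i • E n i = 0 → ∀ i, (p : ℤ) ^ n ∣ c i := by
    intro n
    induction n with
    | zero => intro c _ i; rw [pow_zero]; exact one_dvd _
    | succ n ih =>
      intro c hc i
      have h1 : ∑ i, c i • E n i = 0 := by
        rw [← smul_zero p, ← hc, Finset.smul_sum]
        refine Finset.sum_congr rfl fun i _ => ?_
        rw [smul_comm, hcompat]
      choose d hd using ih c h1
      have h2 : ∀ i, c i • E (n + 1) i = d i • E 1 i := by
        intro i
        rw [hd i, mul_comm, mul_smul]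
        congr 1
        rw [← Nat.cast_pow, natCast_zsmul]
        exact h4 n i
      have h3 : ((∑ i, (d i : ZMod p) • b i : A) : J) = 0 := by
        rw [← hbase, ← hc]
        exact Finset.sum_congr rfl fun i _ => (h2 i).symm
      have h4 := (Fintype.linearIndependent_iff.mp b.linearIndependent _ (Subtype.ext h3)) i
      rw [hd i, pow_succ]
      exact mul_dvd_mul_left _ ((ZMod.intCast_zmod_eq_zero_iff_dvd _ _).mp h4)
  refine ⟨⟨E, htor, hcompat, hindep, ?_⟩⟩
  intro n
  induction n with
  | zero => intro x hx; exact ⟨0, by simpa using hx.symm⟩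
  | succ n ih =>
    intro x hx
    obtain ⟨c, hc⟩ := ih (p • x) (by rwa [smul_smul, ← pow_succ])
    have h1 : p • (x - ∑ i, c i • E (n + 1) i) = 0 := by
      rw [smul_sub, Finset.smul_sum, sub_eq_zero, ← hc]
      exact Finset.sum_congr rfl fun i _ => by rw [smul_comm, hcompat]
    have h2 := b.sum_repr ⟨_, (hA _).mpr h1⟩
    choose d hd using fun i => ZMod.intCast_surjective (b.repr ⟨_, (hA _).mpr h1⟩ i)
    have h3 : ∑ i, d i • E 1 i = x - ∑ i, c i • E (n + 1) i := by
      rw [hbase, show (∑ i, (d i : ZMod p) • b i : A) = ⟨_, (hA _).mpr h1⟩ by simp only [hd, h2]]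
    refine ⟨fun i => c i + d i * (p : ℤ) ^ n, ?_⟩
    simp only [add_smul, mul_smul, ← Nat.cast_pow, natCast_zsmul, h4, Finset.sum_add_distrib, h3]
    abel

theorem exists_padicInt_of_compat (c : ℕ → ℤ) (h : ∀ n, (p : ℤ) ^ n ∣ c (n + 1) - c n) :
    ∃ x : ℤ_[p], ∀ n, PadicInt.toZModPow n x = (c n : ZMod (p ^ n)) := by
  have hmn : ∀ n m, n ≤ m → (p : ℤ) ^ n ∣ c m - c n := by
    intro n m hm
    induction m, hm using Nat.le_induction with
    | base => simp
    | succ m hm ih =>
      have h2 := (pow_dvd_pow (p : ℤ) hm).trans (h m)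
      have h3 := dvd_add h2 ih
      rwa [sub_add_sub_cancel] at h3
  obtain ⟨x, hx⟩ := IsPrecomplete.prec (I := IsLocalRing.maximalIdeal ℤ_[p]) inferInstance
    (f := fun n => (c n : ℤ_[p])) (fun {m n} hmn' => by
      rw [SModEq.sub_mem, PadicInt.maximalIdeal_eq_span_p, Ideal.span_singleton_pow,
        Ideal.smul_eq_mul, Ideal.mul_top, Ideal.mem_span_singleton]
      have := (Int.castRingHom ℤ_[p]).map_dvd (dvd_sub_comm.mp (hmn m n hmn'))
      simpa using this)
  refine ⟨x, fun n => ?_⟩
  have := hx n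
  rw [SModEq.sub_mem, PadicInt.maximalIdeal_eq_span_p, Ideal.span_singleton_pow,
    Ideal.smul_eq_mul, Ideal.mul_top, ← PadicInt.ker_toZModPow, RingHom.mem_ker, map_sub,
    map_intCast, sub_eq_zero] at this
  exact this.symm

namespace TorsionBasis

variable (b : TorsionBasis J p r)

/-- `M` is the matrix of `f` in the basis `b`. -/
def IsMatrixOf (f : AddMonoid.End J) (M : Matrix (Fin r) (Fin r) ℤ_[p]) : Prop :=
  ∀ n (C : Matrix (Fin r) (Fin r) ℤ), (∀ j i, (C j i : ZMod (p ^ n)) = PadicInt.toZModPow n (M j i)) →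
    ∀ i, f (b.e n i) = ∑ j, C j i • b.e n j

theorem sum_eq_iff (n : ℕ) (c c' : Fin r → ℤ) :
    ∑ j, c j • b.e n j = ∑ j, c' j • b.e n j ↔
      ∀ j, (c j : ZMod (p ^ n)) = (c' j : ZMod (p ^ n)) := by
  constructor
  · intro h j
    rw [ZMod.intCast_eq_intCast_iff_dvd_sub, Nat.cast_pow]
    refine b.indep n (fun j => c' j - c j) ?_ j
    simp only [sub_smul, Finset.sum_sub_distrib, h, sub_self]
  · intro h
    refine Finset.sum_congr rfl fun j _ => ?_
    obtain ⟨k, hk⟩ := (ZMod.intCast_eq_intCast_iff_dvd_sub _ _ _).mp (h j).symm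
    rw [sub_eq_iff_eq_add] at hk
    rw [hk, add_smul, mul_comm, mul_smul, natCast_zsmul, b.torsion, smul_zero, zero_add]

theorem existsUnique_matrix (f : AddMonoid.End J) :
    ∃! M, b.IsMatrixOf f M := by
  have hex : ∀ n i, ∃ c : Fin r → ℤ, ∑ j, c j • b.e n j = f (b.e n i) := fun n i =>
    b.span n _ (by rw [← map_nsmul, b.torsion, map_zero])
  choose c hc using hex
  have hcomp : ∀ i j n, (p : ℤ) ^ n ∣ c (n + 1) i j - c n i j := by
    intro i j n
    have h1 : ∑ j, c (n + 1) i j • b.e n j = ∑ j, c n i j • b.e n j := by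
      calc ∑ j, c (n + 1) i j • b.e n j = p • ∑ j, c (n + 1) i j • b.e (n + 1) j := by
            rw [Finset.smul_sum]
            exact Finset.sum_congr rfl fun j _ => by rw [← b.compat n j, smul_comm]
        _ = f (b.e n i) := by rw [hc, ← map_nsmul, b.compat]
        _ = _ := (hc n i).symm
    have h2 := ((b.sum_eq_iff n _ _).mp h1 j).symm
    rw [ZMod.intCast_eq_intCast_iff_dvd_sub, Nat.cast_pow] at h2
    exact h2
  choose x hx using fun i j => exists_padicInt_of_compat (fun n => c n i j) (hcomp i j)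
  refine ⟨Matrix.of fun j i => x i j, fun n C hC i => ?_, fun M hM => ?_⟩
  · rw [← hc n i]
    exact (b.sum_eq_iff n _ _).mpr fun j => by rw [hC j i]; exact (hx i j n).symm
  · ext j i
    refine PadicInt.ext_of_toZModPow.mp fun n => ?_
    let C : Matrix (Fin r) (Fin r) ℤ := fun j i => ((PadicInt.toZModPow n (M j i)).val : ℤ)
    have hC : ∀ j i, (C j i : ZMod (p ^ n)) = PadicInt.toZModPow n (M j i) := fun j i => by
      simp [C]
    have := (b.sum_eq_iff n _ _).mp ((hM n C hC i).symm.trans (hc n i).symm) j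
    rw [← hC j i, this]
    exact (hx i j n).symm

/-- The matrix of an endomorphism on the Tate module. -/
def mat (f : AddMonoid.End J) : Matrix (Fin r) (Fin r) ℤ_[p] := (b.existsUnique_matrix f).choose

theorem mat_spec (f : AddMonoid.End J) : b.IsMatrixOf f (b.mat f) :=
  (b.existsUnique_matrix f).choose_spec.1

theorem mat_eq (f : AddMonoid.End J) {M : Matrix (Fin r) (Fin r) ℤ_[p]}
    (h : b.IsMatrixOf f M) : b.mat f = M :=
  ((b.existsUnique_matrix f).choose_spec.2 M h).symm

theorem exists_intLift (n : ℕ) (M : Matrix (Fin r) (Fin r) ℤ_[p]) :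
    ∃ C : Matrix (Fin r) (Fin r) ℤ, ∀ j i, (C j i : ZMod (p ^ n)) = PadicInt.toZModPow n (M j i) :=
  ⟨Matrix.of fun j i => ((PadicInt.toZModPow n (M j i)).val : ℤ), fun j i => by simp⟩

/-- The ring homomorphism to matrices over `ℤ_[p]`. -/
def matHom : AddMonoid.End J →+* Matrix (Fin r) (Fin r) ℤ_[p] where
  toFun := b.mat
  map_one' := b.mat_eq 1 fun n C hC i => by
    show b.e n i = _
    have h1 : b.e n i = ∑ j, (if j = i then (1 : ℤ) else 0) • b.e n j := by simp
    refine h1.trans ((b.sum_eq_iff n _ _).mpr fun j => ?_)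
    rw [hC, Matrix.one_apply]
    split_ifs <;> simp
  map_mul' f g := b.mat_eq (f * g) fun n C hC i => by
    obtain ⟨F, hF⟩ := exists_intLift n (b.mat f)
    obtain ⟨H, hH⟩ := exists_intLift n (b.mat g)
    show f (g (b.e n i)) = _
    rw [b.mat_spec g n H hH i, map_sum]
    simp only [map_zsmul, b.mat_spec f n F hF, Finset.smul_sum, smul_smul]
    rw [Finset.sum_comm]
    simp only [← Finset.sum_smul]
    refine (b.sum_eq_iff n _ _).mpr fun j => ?_
    rw [hC, Matrix.mul_apply, map_sum, Int.cast_sum]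
    refine Finset.sum_congr rfl fun k _ => ?_
    rw [map_mul, Int.cast_mul, hF, hH, mul_comm]
  map_zero' := b.mat_eq 0 fun n C hC i => by
    show (0 : J) = _
    have h1 : (0 : J) = ∑ j, (0 : ℤ) • b.e n j := by simp
    refine h1.trans ((b.sum_eq_iff n _ _).mpr fun j => ?_)
    rw [hC]; simp
  map_add' f g := b.mat_eq (f + g) fun n C hC i => by
    obtain ⟨F, hF⟩ := exists_intLift n (b.mat f)
    obtain ⟨H, hH⟩ := exists_intLift n (b.mat g)
    show f (b.e n i) + g (b.e n i) = _
    rw [b.mat_spec f n F hF i, b.mat_spec g n H hH i, ← Finset.sum_add_distrib]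
    simp only [← add_smul]
    refine (b.sum_eq_iff n _ _).mpr fun j => ?_
    rw [hC, Int.cast_add, hF, hH, Matrix.add_apply, map_add]

theorem matHom_toZModPow_eq_zero_iff (f : AddMonoid.End J) (n : ℕ) :
    (∀ x, p ^ n • x = 0 → f x = 0) ↔ ∀ i j, PadicInt.toZModPow n (b.matHom f i j) = 0 := by
  obtain ⟨F, hF⟩ := exists_intLift n (b.mat f)
  constructor
  · intro h i j
    have h1 := b.mat_spec f n F hF j
    rw [h _ (b.torsion n j)] at h1
    have h2 : ∑ k, F k j • b.e n k = ∑ k, (0 : ℤ) • b.e n k := by rw [← h1]; simp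
    have h3 := (b.sum_eq_iff n _ _).mp h2 i
    rw [hF, Int.cast_zero] at h3
    exact h3
  · intro h x hx
    obtain ⟨c, rfl⟩ := b.span n x hx
    rw [map_sum]
    refine Finset.sum_eq_zero fun i _ => ?_
    have h2 : ∑ k, F k i • b.e n k = ∑ k, (0 : ℤ) • b.e n k :=
      (b.sum_eq_iff n _ _).mpr fun k => by rw [hF, Int.cast_zero]; exact h k i
    rw [map_zsmul, b.mat_spec f n F hF i, h2]
    simp

theorem matHom_eq_zero_iff (f : AddMonoid.End J) :
    b.matHom f = 0 ↔ ∀ x n, p ^ n • x = 0 → f x = 0 := by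
  constructor
  · intro h x n hx
    exact (b.matHom_toZModPow_eq_zero_iff f n).mpr (by simp [h]) x hx
  · intro h
    ext i j
    exact PadicInt.ext_of_toZModPow.mp fun n => by
      rw [(b.matHom_toZModPow_eq_zero_iff f n).mp (fun x hx => h x n hx) i j]; simp

end TorsionBasis

end FermatLib.Galois.Attach
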