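import Mathlib.RingTheory.AdicCompletion.LocalRing
import Mathlib.RingTheory.AdicCompletion.Noetherian
import Mathlib.RingTheory.DiscreteValuationRing.Basic

/-!
# The completion of a discrete valuation ring

The adic completion of a discrete valuation ring is a complete discrete valuation ring.
-/

set_option autoImplicit false

open IsLocalRing

namespace FermatLib.Galois

variable (A : Type*) [CommRing A] [IsDomain A] [IsDiscreteValuationRing A]

local notation "Ahat" => AdicCompletion (IsLocalRing.maximalIdeal A) A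

theorem dvrCompletion_algebraMap_injective :
    Function.Injective (algebraMap A Ahat) := by
  intro a b h
  apply AdicCompletion.of_injective (IsLocalRing.maximalIdeal A) A
  simpa [AdicCompletion.algebraMap_apply] using h

theorem maximalIdeal_dvrCompletion {ϖ : A} (hϖ : Irreducible ϖ) :
    maximalIdeal Ahat = Ideal.span {algebraMap A Ahat ϖ} := by
  rw [AdicCompletion.maximalIdeal_eq_map, hϖ.maximalIdeal_eq, Ideal.map_span, Set.image_singleton]

theorem exists_unit_mul_pow_dvrCompletion {ϖ : A} (hϖ : Irreducible ϖ) (x : Ahat) (hx : x ≠ 0) :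
    ∃ (n : ℕ) (u : Ahatˣ), x = u * algebraMap A Ahat ϖ ^ n := by
  classical
  have hex : ∃ n, x ∉ maximalIdeal Ahat ^ n := by
    by_contra hcon
    push Not at hcon
    refine hx (IsHausdorff.haus (inferInstance : IsHausdorff (maximalIdeal Ahat) Ahat) x fun n => ?_)
    rw [SModEq.zero, smul_eq_mul, Ideal.mul_top]
    exact hcon n
  obtain ⟨m, hm⟩ : ∃ m, Nat.find hex = m + 1 := by
    refine Nat.exists_eq_succ_of_ne_zero fun h0 => ?_
    have := Nat.find_spec hex
    simp [h0] at this
  have hmem : x ∈ maximalIdeal Ahat ^ m := by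
    simpa using Nat.find_min hex (by omega : m < Nat.find hex)
  rw [maximalIdeal_dvrCompletion A hϖ, Ideal.span_singleton_pow,
    Ideal.mem_span_singleton'] at hmem
  obtain ⟨w, hw⟩ := hmem
  have hwu : IsUnit w := by
    by_contra hnu
    apply Nat.find_spec hex
    have hwm : w ∈ maximalIdeal Ahat := (IsLocalRing.mem_maximalIdeal w).mpr hnu
    rw [hm, ← hw, pow_succ']
    refine Ideal.mul_mem_mul hwm (Ideal.pow_mem_pow ?_ m)
    rw [maximalIdeal_dvrCompletion A hϖ]
    exact Ideal.mem_span_singleton_self _
  exact ⟨m, hwu.unit, by rw [← hw]; rfl⟩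

theorem isDomain_dvrCompletion : IsDomain Ahat := by
  haveI : Nontrivial Ahat := (dvrCompletion_algebraMap_injective A).nontrivial
  haveI : NoZeroDivisors Ahat := ⟨fun {a b} hab => by
    by_contra hcon
    push Not at hcon
    obtain ⟨ϖ, hϖ⟩ := IsDiscreteValuationRing.exists_irreducible A
    obtain ⟨n, u, rfl⟩ := exists_unit_mul_pow_dvrCompletion A hϖ a hcon.1
    obtain ⟨m, w, rfl⟩ := exists_unit_mul_pow_dvrCompletion A hϖ b hcon.2
    have h0 : (↑(u * w) : Ahat) * algebraMap A Ahat (ϖ ^ (n + m)) = 0 := by
      rw [← hab, map_pow, Units.val_mul, pow_add]; ring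
    rw [Units.mul_right_eq_zero, ← map_zero (algebraMap A Ahat)] at h0
    exact pow_ne_zero _ hϖ.ne_zero (dvrCompletion_algebraMap_injective A h0)⟩
  exact NoZeroDivisors.to_isDomain _

theorem isDiscreteValuationRing_dvrCompletion :
    haveI := isDomain_dvrCompletion A
    IsDiscreteValuationRing Ahat := by
  haveI := isDomain_dvrCompletion A
  obtain ⟨ϖ, hϖ⟩ := IsDiscreteValuationRing.exists_irreducible A
  have hne : algebraMap A Ahat ϖ ≠ 0 :=
    (map_ne_zero_iff _ (dvrCompletion_algebraMap_injective A)).mpr hϖ.ne_zero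
  have hirr : Irreducible (algebraMap A Ahat ϖ) := by
    refine Prime.irreducible ((Ideal.span_singleton_prime hne).mp ?_)
    rw [← maximalIdeal_dvrCompletion A hϖ]
    exact Ideal.IsMaximal.isPrime' _
  refine IsDiscreteValuationRing.ofHasUnitMulPowIrreducibleFactorization
    ⟨algebraMap A Ahat ϖ, hirr, fun {x} hx => ?_⟩
  obtain ⟨n, u, hu⟩ := exists_unit_mul_pow_dvrCompletion A hϖ x hx
  exact ⟨n, u, by rw [hu]; ring⟩

theorem charZero_dvrCompletion [CharZero A] : CharZero Ahat :=
  (RingHom.charZero_iff (dvrCompletion_algebraMap_injective A)).mp inferInstance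

end FermatLib.Galois
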