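import Mathlib
import Fermat.Agent.Galois.DVRCompletion

/-!
# Lifting residual points to complete discrete valuation rings

A finite `ℤ`-algebra point with values in the ring of all algebraic integers, reduced modulo a
prime above `p`, is the reduction of a point with values in a complete discrete valuation ring
of characteristic zero with finite residue field.
-/

set_option autoImplicit false

open IsLocalRing

namespace FermatLib.Galois

local notation "ZbarC" => integralClosure ℤ ℂ

theorem isMaximal_ker_of_charP {p : ℕ} (hp : p.Prime) {k : Type} [Field k] [CharP k p]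
    (φ : ZbarC →+* k) : (RingHom.ker φ).IsMaximal := by
  haveI : (RingHom.ker φ).IsPrime := RingHom.ker_isPrime φ
  refine Ideal.isMaximal_of_isIntegral_of_isMaximal_comap (R := ℤ) (RingHom.ker φ) ?_
  haveI : Fact p.Prime := ⟨hp⟩
  have hle : Ideal.span {(p : ℤ)} ≤ (RingHom.ker φ).comap (algebraMap ℤ ZbarC) := by
    rw [Ideal.span_singleton_le_iff_mem, Ideal.mem_comap, RingHom.mem_ker, map_natCast,
      map_natCast, CharP.cast_eq_zero]
  have hmax : (Ideal.span {(p : ℤ)}).IsMaximal :=
    PrincipalIdealRing.isMaximal_of_irreducible (Nat.prime_iff_prime_int.mp hp).irreducible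
  rw [← hmax.eq_of_le (Ideal.IsPrime.ne_top inferInstance) hle]
  exact hmax

theorem isAlgClosed_quotient_integralClosure (𝔪 : Ideal ZbarC) [𝔪.IsMaximal] :
    letI := Ideal.Quotient.field 𝔪
    IsAlgClosed (ZbarC ⧸ 𝔪) := by
  letI := Ideal.Quotient.field 𝔪
  refine IsAlgClosed.of_exists_root _ fun P hP hirr => ?_
  obtain ⟨Q, hQmap, hQdeg, hQmonic⟩ := Polynomial.lifts_and_degree_eq_and_monic
    (Polynomial.map_surjective (Ideal.Quotient.mk 𝔪) Ideal.Quotient.mk_surjective P) hP
  obtain ⟨z, hz⟩ := IsAlgClosed.exists_aeval_eq_zero ℂ Q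
    (by rw [hQdeg]; exact (Polynomial.degree_pos_of_irreducible hirr).ne')
  have hzint : IsIntegral ℤ z := isIntegral_trans (A := ZbarC) z ⟨Q, hQmonic, hz⟩
  refine ⟨Ideal.Quotient.mk 𝔪 ⟨z, hzint⟩, ?_⟩
  rw [← hQmap, Polynomial.eval_map_apply]
  have : Q.eval (⟨z, hzint⟩ : ZbarC) = 0 := by
    apply Subtype.ext
    rw [ZeroMemClass.coe_zero, ← hz]
    exact (Polynomial.aeval_algebraMap_apply_eq_algebraMap_eval (A := ℂ) (⟨z, hzint⟩ : ZbarC) Q).symm
  rw [this, map_zero]

/-- A reduction of a finite `ℤ`-algebra point in `ℤ̄` lifts to a complete DVR. -/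
theorem exists_padicPoint {T : Type*} [CommRing T] [Module.Finite ℤ T] (ξ : T →+* ZbarC)
    {p : ℕ} (hp : p.Prime) {k : Type} [Field k] [CharP k p] (φ : ZbarC →+* k) :
    ∃ (O : Type) (_ : CommRing O) (_ : IsDomain O) (_ : IsDiscreteValuationRing O)
      (_ : IsAdicComplete (maximalIdeal O) O) (_ : Finite (ResidueField O)) (_ : CharZero O),
      (p : O) ∈ maximalIdeal O ∧
      ∃ (χ : T →+* O) (j : ResidueField O →+* k), ∀ t : T, j (residue O (χ t)) = φ (ξ t) := by
  obtain ⟨s, hs⟩ := Module.finite_def.mp ‹Module.Finite ℤ T›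
  let g : T →+* ℂ := (integralClosure ℤ ℂ).toSubring.subtype.comp ξ
  let K : IntermediateField ℚ ℂ := IntermediateField.adjoin ℚ (g '' (s : Set T))
  haveI : FiniteDimensional ℚ K := by
    haveI : Finite (g '' (s : Set T)) := (s.finite_toSet.image g).to_subtype
    refine IntermediateField.finiteDimensional_adjoin fun x hx => ?_
    obtain ⟨t, -, rfl⟩ := hx
    exact ((ξ t).2 : IsIntegral ℤ (ξ t : ℂ)).tower_top
  haveI : NumberField K := ⟨⟩
  have hmemK : ∀ t : T, g t ∈ K := fun t => by
    have ht : t ∈ Submodule.span ℤ (s : Set T) := hs ▸ Submodule.mem_top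
    induction ht using Submodule.span_induction with
    | mem x hx => exact IntermediateField.subset_adjoin ℚ _ ⟨x, hx, rfl⟩
    | zero => rw [map_zero]; exact zero_mem K
    | add x y _ _ hx hy => rw [map_add]; exact add_mem hx hy
    | smul n x _ hx => rw [map_zsmul]; exact zsmul_mem hx n
  let gK : T →+* K := g.codRestrict K hmemK
  have hgKint : ∀ t : T, IsIntegral ℤ (gK t) := fun t =>
    (isIntegral_algHom_iff (K.val.restrictScalars ℤ) Subtype.val_injective).mp (ξ t).2
  let R := NumberField.RingOfIntegers K
  let η : T →+* R :=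
    { toFun := fun t => ⟨gK t, hgKint t⟩
      map_one' := NumberField.RingOfIntegers.ext (map_one gK)
      map_zero' := NumberField.RingOfIntegers.ext (map_zero gK)
      map_add' := fun x y => NumberField.RingOfIntegers.ext (map_add gK x y)
      map_mul' := fun x y => NumberField.RingOfIntegers.ext (map_mul gK x y) }
  let e : R →+* ZbarC :=
    { toFun := fun x => ⟨((x : K) : ℂ),
        (NumberField.RingOfIntegers.isIntegral_coe x).map (K.val.restrictScalars ℤ)⟩
      map_one' := by ext; simp
      map_zero' := by ext; simp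
      map_add' := fun x y => by ext; simp
      map_mul' := fun x y => by ext; simp }
  have heη : ∀ t, e (η t) = ξ t := fun t => rfl
  let ψ : R →+* k := φ.comp e
  let v : Ideal R := RingHom.ker ψ
  haveI hvprime : v.IsPrime := RingHom.ker_isPrime ψ
  have hvp : (p : R) ∈ v := by rw [RingHom.mem_ker, map_natCast, CharP.cast_eq_zero]
  have hvne : v ≠ ⊥ := fun h => by
    rw [h, Ideal.mem_bot, Nat.cast_eq_zero] at hvp
    exact hp.ne_zero hvp
  haveI : v.IsMaximal := hvprime.isMaximal hvne
  let A := Localization.AtPrime v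
  haveI : IsDiscreteValuationRing A :=
    IsLocalization.AtPrime.isDiscreteValuationRing_of_dedekind_domain R hvne A
  let O := AdicCompletion (maximalIdeal A) A
  haveI : IsDomain O := isDomain_dvrCompletion A
  haveI : IsDiscreteValuationRing O := isDiscreteValuationRing_dvrCompletion A
  haveI : CharZero A :=
    charZero_of_injective_ringHom (IsLocalization.injective A v.primeCompl_le_nonZeroDivisors)
  haveI : CharZero O := charZero_dvrCompletion A
  -- residue field of `A`
  haveI : Finite (R ⧸ v) := Ideal.finiteQuotientOfFreeOfNeBot v hvne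
  haveI : Finite (ResidueField A) :=
    Finite.of_equiv _ (IsLocalization.AtPrime.equivQuotMaximalIdeal v A).toEquiv
  let e₀ : ResidueField A ≃+* ResidueField O :=
    RingEquiv.ofBijective _ (AdicCompletion.residueField_map_bijective A)
  haveI : Finite (ResidueField O) := Finite.of_equiv _ e₀.toEquiv
  -- the map to `k`
  have hunit : ∀ y : v.primeCompl, IsUnit (ψ y) := fun y =>
    IsUnit.mk0 _ fun h => y.2 (RingHom.mem_ker.mpr h)
  let ψA : A →+* k := IsLocalization.lift hunit
  haveI : IsLocalHom ψA := ⟨fun a ha => by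
    by_contra hna
    obtain ⟨⟨x, y⟩, hxy⟩ := IsLocalization.surj v.primeCompl a
    have hmax : a ∈ maximalIdeal A := (mem_maximalIdeal a).mpr hna
    have : algebraMap R A x ∈ maximalIdeal A := hxy ▸ Ideal.mul_mem_right _ _ hmax
    have hxv : x ∈ v := (IsLocalization.AtPrime.to_map_mem_maximal_iff A v x).mp this
    have := congrArg ψA hxy
    rw [map_mul, IsLocalization.lift_eq, IsLocalization.lift_eq, RingHom.mem_ker.mp hxv] at this
    exact ((ha.mul (hunit y)).ne_zero) this⟩
  refine ⟨O, inferInstance, inferInstance, inferInstance, inferInstance, inferInstance,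
    inferInstance, ?_, (algebraMap A O).comp ((algebraMap R A).comp η),
    (ResidueField.lift ψA).comp e₀.symm.toRingHom, fun t => ?_⟩
  · have : (p : A) ∈ maximalIdeal A := by
      rw [← map_natCast (algebraMap R A), IsLocalization.AtPrime.to_map_mem_maximal_iff A v]
      exact hvp
    rw [← map_natCast (algebraMap A O)]
    exact map_nonunit (algebraMap A O) _ this
  · have hsymm : e₀.symm (residue O (algebraMap A O (algebraMap R A (η t)))) =
        residue A (algebraMap R A (η t)) := by
      rw [RingEquiv.symm_apply_eq]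
      exact (ResidueField.map_residue (algebraMap A O) _).symm
    simp only [RingHom.comp_apply, RingEquiv.toRingHom_eq_coe, RingHom.coe_coe, hsymm,
      ResidueField.lift_residue_apply]
    rw [IsLocalization.lift_eq]
    rfl

end FermatLib.Galois
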