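import Fermat.Agent.Galois.ResidualAttached
import Fermat.Prelude.Def_FreyPackage_EigenformResidualAttachment

/-!
# The Frey package form of residual attachment
-/

set_option autoImplicit false

noncomputable section

open Polynomial WeierstrassCurve WeierstrassCurve.Affine.Point

namespace FermatLib.Galois

local notation "Qbar" => AlgebraicClosure ℚ
local notation "Γℚ" => (AlgebraicClosure ℚ ≃ₐ[ℚ] AlgebraicClosure ℚ)
local notation "ZbarC" => integralClosure ℤ ℂ

local instance attachmentAt_isAlgebraic : Algebra.IsAlgebraic ℚ Qbar :=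
  AlgebraicClosure.isAlgebraic ℚ

local instance attachmentAt_isAlgClosure : IsAlgClosure ℚ Qbar :=
  ⟨inferInstance, inferInstance⟩

local instance attachmentAt_normal : Normal ℚ Qbar :=
  IsAlgClosure.normal ℚ Qbar

local instance attachmentAt_isGalois : IsGalois ℚ Qbar := ⟨⟩

/-- Trace and determinant read from a quadratic characteristic polynomial. -/
theorem trace_det_of_linearMap_charpoly_eq {K V : Type} [Field K] [AddCommGroup V] [Module K V]
    [Module.Finite K V] (hV : Module.finrank K V = 2) (f : Module.End K V) {a b : K}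
    (h : LinearMap.charpoly f = X ^ 2 - C a * X + C b) :
    LinearMap.trace K V f = a ∧ LinearMap.det f = b := by
  constructor
  · rw [LinearMap.trace_eq_matrix_trace K (Module.finBasisOfFinrankEq K V hV),
      Matrix.trace_eq_neg_charpoly_coeff, LinearMap.charpoly_toMatrix, h]
    simp
  · rw [LinearMap.det_eq_sign_charpoly_coeff, hV, h]
    simp

/-- The finite Galois field over which two finite-level actions are trivial. -/
theorem exists_numberField_kernel_le {M M' : Type} [MulOneClass M] [MulOneClass M']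
    (ρ : Γℚ →* M) (ρ' : Γℚ →* M') (hρ : GaloisFactorsThroughFiniteLevel ρ)
    (hρ' : GaloisFactorsThroughFiniteLevel ρ') :
    ∃ (F : Type) (_ : Field F) (_ : NumberField F) (_ : IsGalois ℚ F)
      (_ : Algebra F Qbar) (_ : IsScalarTower ℚ F Qbar),
      (AlgEquiv.restrictNormalHom (F := ℚ) (K₁ := Qbar) F).ker ≤ ρ.ker ⊓ ρ'.ker := by
  obtain ⟨L, hL, h1⟩ := hρ
  obtain ⟨L', hL', h1'⟩ := hρ'
  haveI := hL
  haveI := hL'
  let F : IntermediateField ℚ Qbar := IntermediateField.normalClosure ℚ ↥(L ⊔ L') Qbar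
  haveI : NumberField F := ⟨⟩
  haveI : Normal ℚ F := normalClosure.normal ℚ ↥(L ⊔ L') Qbar
  haveI : IsGalois ℚ F := ⟨⟩
  refine ⟨F, inferInstance, inferInstance, inferInstance, F.toAlgebra, inferInstance,
    fun σ hσ => ?_⟩
  have hfix : ∀ x ∈ L ⊔ L', σ x = x := fun x hx => by
    have hxF : x ∈ F := IntermediateField.le_normalClosure (L ⊔ L') hx
    have h := AlgEquiv.restrictNormal_commutes σ F ⟨x, hxF⟩
    rw [show σ.restrictNormal F = 1 from hσ] at h
    exact h.symm
  exact ⟨h1 σ fun x hx => hfix x (le_sup_left (a := L) hx),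
    h1' σ fun x hx => hfix x (le_sup_right (a := L) hx)⟩

/-- Residual attachment for the Frey package at every positive level. -/
theorem eigenformResidualAttachmentAt_of (hattach : PadicAttachment)
    (hfinT : ∀ (N : ℕ) [NeZero N] (S : Set ℕ), Module.Finite ℤ ↥(CuspForm.heckeAlgebra N 2 S))
    (P : FreyPackage)
    (hfrey : GaloisFactorsThroughFiniteLevel
      (galoisRepModuleEnd (S := ℚ) (K := Qbar) P.freyCurve P.p))
    (M : ℕ) : P.EigenformResidualAttachmentAt M := by
  intro g hg 𝔪 h𝔪 hp𝔪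
  haveI := h𝔪
  letI : Field (ZbarC ⧸ 𝔪) := Ideal.Quotient.field 𝔪
  haveI : Fact P.p.Prime := ⟨P.pp⟩
  haveI : CharP (ZbarC ⧸ 𝔪) P.p := by
    refine (CharP.charP_iff_prime_eq_zero P.pp).mpr ?_
    rw [← map_natCast (Ideal.Quotient.mk 𝔪), Ideal.Quotient.eq_zero_iff_mem]
    exact hp𝔪
  letI : Algebra (ZMod P.p) (ZbarC ⧸ 𝔪) := ZMod.algebra _ P.p
  obtain ⟨ρ, hatt, -⟩ :=
    exists_residual_attached hattach hfinT hg P.pp (Ideal.Quotient.mk 𝔪)
  obtain ⟨F, _, _, _, _, _, hF⟩ := exists_numberField_kernel_le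
    (galoisRepModuleEnd (S := ℚ) (K := Qbar) P.freyCurve P.p) ρ.ρ hfrey
    ρ.factorsThroughFiniteLevel
  refine ⟨ZbarC ⧸ 𝔪, inferInstance, inferInstance, ρ.V, inferInstance, inferInstance, ρ.ρ,
    Ideal.Quotient.mk 𝔪, F, inferInstance, inferInstance, inferInstance, inferInstance,
    inferInstance, ?_, ρ.finrank_eq, hF, ?_, ?_⟩
  · rw [Ideal.mk_ker]
  all_goals
    intro ℓ hℓ hℓM hℓp A hA τ hτ
    have hℓk : (ℓ : ZbarC ⧸ 𝔪) ≠ 0 := fun h0 => hℓp
      ((Nat.prime_dvd_prime_iff_eq P.pp hℓ).mp ((CharP.cast_eq_zero_iff _ P.p ℓ).mp h0)).symm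
    obtain ⟨a, ha, hch⟩ := hatt ℓ hℓ hℓM hℓk A hA τ hτ
    obtain ⟨htr, hdet⟩ := trace_det_of_linearMap_charpoly_eq ρ.finrank_eq (ρ.ρ τ) hch
  · exact ⟨a, ha, htr⟩
  · exact hdet

end FermatLib.Galois
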