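import Mathlib
import Fermat.Prelude.Def_GaloisRep_Flat
import Fermat.Agent.Galois.TransferHecke

/-!
# The reductions of a datum are Galois subquotients of powers of `J₀(N)[p^k]`

For an ideal `I` of finite index, `V ⧸ I V` is a Galois-equivariant quotient of a Galois-stable
subgroup of a finite power of `J₀(N)[p^k]`.
-/

set_option autoImplicit false

open ModularCurve CuspForm

namespace FermatLib.Galois

local notation "Qbar" => AlgebraicClosure ℚ
local notation "Γℚ" => (AlgebraicClosure ℚ ≃ₐ[ℚ] AlgebraicClosure ℚ)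

/-- An ideal of finite index in a local ring contains a power of the maximal ideal. -/
theorem exists_maximalIdeal_pow_le {T : Type*} [CommRing T] [IsLocalRing T] (I : Ideal T)
    [Finite (T ⧸ I)] : ∃ n, IsLocalRing.maximalIdeal T ^ n ≤ I := by
  obtain ⟨n, hn⟩ := IsArtinianRing.isNilpotent_jacobson_bot (R := T ⧸ I)
  refine ⟨n, ?_⟩
  have hle : (IsLocalRing.maximalIdeal T).map (Ideal.Quotient.mk I) ≤ Ideal.jacobson ⊥ := by
    rw [Ideal.jacobson, le_sInf_iff]
    rintro Q ⟨-, hQ⟩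
    rw [Ideal.map_le_iff_le_comap]
    exact (IsLocalRing.eq_maximalIdeal
      (Ideal.comap_isMaximal_of_surjective _ Ideal.Quotient.mk_surjective)).ge
  have h := Ideal.pow_right_mono hle n
  rw [hn, ← Ideal.map_pow, Ideal.zero_eq_bot, le_bot_iff, Ideal.map_eq_bot_iff_le_ker,
    Ideal.mk_ker] at h
  exact h

variable {N : ℕ} [NeZero N]
variable {p : ℕ} {S : Finset ℕ} {𝒪 : Type} [CommRing 𝒪] [IsDomain 𝒪] [IsDiscreteValuationRing 𝒪]
  [IsAdicComplete (IsLocalRing.maximalIdeal 𝒪) 𝒪]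
  {θ : CuspForm.heckeAlgebra N 2 (↑S : Set ℕ) →+* IsLocalRing.ResidueField 𝒪}
  {T : Type} [CommRing T] [IsLocalRing T] [IsNoetherianRing T]
  [IsAdicComplete (IsLocalRing.maximalIdeal T) T] [Algebra 𝒪 T] [IsLocalHom (algebraMap 𝒪 T)]
  [Module.Finite 𝒪 T] [Module.Free 𝒪 T]

/-- `V ⧸ I V` is a Galois subquotient of a finite power of `J₀(N)[p^k]`. -/
theorem exists_torsion_subquotient (hp : p.Prime)
    (hp𝒪 : (p : 𝒪) ∈ IsLocalRing.maximalIdeal 𝒪) (hpS : p ∈ S)
    (hNS : ∀ q : ℕ, q.Prime → q ∣ N → q ∈ S) (hJ : TorsionGaloisInputs N p)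
    (H : HeckeGaloisRepDatum N (↑S : Set ℕ) 𝒪 θ T) (I : Ideal T) [Finite (T ⧸ I)] :
    ∃ (k : ℕ) (ι : Type) (_ : Fintype ι) (W : AddSubgroup (ι → JZero N)),
      (∀ w ∈ W, ∀ i, p ^ k • w i = 0) ∧ (∀ σ : Γℚ, ∀ w ∈ W, σ • w ∈ W) ∧
      ∃ f : W →+ H.ρ.V ⧸ (I • (⊤ : Submodule T H.ρ.V)), Function.Surjective f ∧
        ∀ (σ : Γℚ) (w w' : W), (w' : ι → JZero N) = σ • (w : ι → JZero N) →
          f w' = H.ρ.levelAction I σ (f w) := by
  classical
  letI := heckeModuleBar N
  haveI : SMulCommClass Γℚ HeckeAlg (JZero N) := ⟨hJ.galoisCommute⟩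
  haveI : SMulCommClass HeckeAlg Γℚ (JZero N) := SMulCommClass.symm _ _ _
  obtain ⟨k, hk⟩ := exists_level_transfer hp hp𝒪 hpS hNS hJ H I (exists_maximalIdeal_pow_le I)
  let Q := H.ρ.V ⧸ (I • (⊤ : Submodule T H.ρ.V))
  have : Finite Q := by
    let b := Module.finBasisOfFinrankEq T H.ρ.V H.ρ.finrank_eq
    refine Finite.of_surjective
      (fun c : Fin 2 → T ⧸ I => Submodule.Quotient.mk (∑ i, Quotient.out (c i) • b i)) fun q => ?_
    obtain ⟨v, rfl⟩ := Submodule.Quotient.mk_surjective _ q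
    refine ⟨fun i => Ideal.Quotient.mk I (b.repr v i), ?_⟩
    rw [Submodule.Quotient.eq]
    nth_rewrite 2 [← b.sum_repr v]
    rw [← Finset.sum_sub_distrib]
    refine Submodule.sum_mem _ fun i _ => ?_
    rw [← sub_smul]
    exact Submodule.smul_mem_smul (Ideal.Quotient.eq.mp (Ideal.Quotient.mk_out _))
      Submodule.mem_top
  have : Fintype Q := Fintype.ofFinite Q
  have : Fintype {x : JZero N // p ^ k • x = 0} :=
    (hJ.finite_torsion k).fintype
  let F := (awayHeckeAlg (↑S : Set ℕ) × Γℚ) →₀ ℤ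
  let ι := Q × {x : JZero N // p ^ k • x = 0}
  let A : (Q → F) →+ (ι → JZero N) :=
    { toFun := fun c i => (c i.1).sum fun tg m => m • (tg.1 : HeckeAlg) • tg.2 • (i.2 : JZero N)
      map_zero' := by ext; simp
      map_add' := fun c c' => by
        ext i
        exact Finsupp.sum_add_index' (fun _ => zero_zsmul _) (fun _ _ _ => add_zsmul _ _ _) }
  let B : (Q → F) →+ Q :=
    { toFun := fun c => ∑ q, (c q).sum fun tg m => m • datumEval H tg.1 • H.ρ.levelAction I tg.2 q
      map_zero' := by simp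
      map_add' := fun c c' => by
        rw [← Finset.sum_add_distrib]
        exact Finset.sum_congr rfl fun q _ =>
          Finsupp.sum_add_index' (fun _ => zero_zsmul _) (fun _ _ _ => add_zsmul _ _ _) }
  have hker : A.ker ≤ B.ker := by
    intro c hc
    refine Finset.sum_eq_zero fun q _ => ?_
    obtain ⟨v, rfl⟩ := Submodule.Quotient.mk_surjective _ q
    have h := hk (ι := (c (Submodule.Quotient.mk v)).support)
      (fun tg => (c (Submodule.Quotient.mk v)) tg.1 • tg.1.1) (fun tg => tg.1.2) (fun x hx => by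
        have hx' := congrFun (AddMonoidHom.mem_ker.mp hc) (Submodule.Quotient.mk v, ⟨x, hx⟩)
        change ((c (Submodule.Quotient.mk v)).sum fun tg m =>
          m • (tg.1 : HeckeAlg) • tg.2 • x) = 0 at hx'
        rw [Finsupp.sum, ← Finset.sum_coe_sort] at hx'
        rw [← hx']
        exact Finset.sum_congr rfl fun tg _ => by rw [SetLike.val_smul, smul_assoc]) v
    rw [Finsupp.sum, ← Finset.sum_coe_sort]
    rw [← Submodule.Quotient.mk_eq_zero, ← Submodule.mkQ_apply, map_sum] at h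
    rw [← h]
    refine Finset.sum_congr rfl fun tg _ => ?_
    rw [map_zsmul, smul_assoc]
    rfl
  let A' := A.rangeRestrict
  have hA' : Function.Surjective A' := A.rangeRestrict_surjective
  have hker' : A'.ker ≤ B.ker := fun c hc => hker (congrArg Subtype.val hc)
  let f : A.range →+ Q := A'.liftOfSurjective hA' ⟨B, hker'⟩
  have hf : ∀ c, f (A' c) = B c :=
    AddMonoidHom.liftOfRightInverse_comp_apply A' _ _ ⟨B, hker'⟩
  let shift : Γℚ → (Q → F) → (Q → F) := fun σ c q =>
    Finsupp.mapDomain (fun tg => (tg.1, σ * tg.2)) (c q)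
  have hAshift : ∀ σ c, A (shift σ c) = σ • A c := by
    intro σ c
    ext i
    change ((Finsupp.mapDomain
        (fun tg : awayHeckeAlg (↑S : Set ℕ) × Γℚ => (tg.1, σ * tg.2)) (c i.1)).sum
        fun tg m => m • (tg.1 : HeckeAlg) • tg.2 • (i.2 : JZero N)) =
      σ • (c i.1).sum fun tg m => m • (tg.1 : HeckeAlg) • tg.2 • (i.2 : JZero N)
    rw [Finsupp.sum_mapDomain_index (fun _ => zero_zsmul _) (fun _ _ _ => add_zsmul _ _ _),
      Finsupp.smul_sum]
    refine Finsupp.sum_congr fun tg _ => ?_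
    rw [mul_smul, ← hJ.galoisCommute, ← smul_comm (c i.1 tg) σ]
  have hBshift : ∀ σ c, B (shift σ c) = H.ρ.levelAction I σ (B c) := by
    intro σ c
    change ∑ q, ((Finsupp.mapDomain _ (c q)).sum fun tg m => _) = H.ρ.levelAction I σ (∑ q, _)
    rw [map_sum]
    refine Finset.sum_congr rfl fun q _ => ?_
    rw [Finsupp.sum_mapDomain_index (fun _ => zero_zsmul _) (fun _ _ _ => add_zsmul _ _ _),
      map_finsuppSum]
    refine Finsupp.sum_congr fun tg _ => ?_
    obtain ⟨v, rfl⟩ := Submodule.Quotient.mk_surjective _ q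
    rw [map_zsmul, map_smul]
    simp only [GaloisRepAdic.levelAction, Submodule.mapQ_apply, map_mul, Module.End.mul_apply]
  refine ⟨k, ι, inferInstance, A.range, ?_, ?_, f, ?_, ?_⟩
  · rintro _ ⟨c, rfl⟩ i
    change p ^ k • ((c i.1).sum fun tg m => m • (tg.1 : HeckeAlg) • tg.2 • (i.2 : JZero N)) = 0
    rw [Finsupp.smul_sum]
    refine Finset.sum_eq_zero fun tg _ => ?_
    dsimp only
    rw [smul_comm (p ^ k), smul_comm (p ^ k) (tg.1 : HeckeAlg), smul_comm (p ^ k) tg.2, i.2.2]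
    have e1 : tg.2 • (0 : JZero N) = 0 := smul_zero (A := JZero N) tg.2
    have e2 : (tg.1 : HeckeAlg) • (0 : JZero N) = 0 := smul_zero (A := JZero N) (tg.1 : HeckeAlg)
    rw [e1, e2]
    exact zsmul_zero _
  · rintro σ _ ⟨c, rfl⟩
    exact ⟨shift σ c, hAshift σ c⟩
  · intro q
    refine ⟨A' fun q' => if q' = q then Finsupp.single (1, 1) 1 else 0, ?_⟩
    rw [hf]
    change ∑ q', _ = q
    rw [Finset.sum_eq_single q (fun q' _ hq' => by simp [hq']) (by simp)]
    obtain ⟨v, rfl⟩ := Submodule.Quotient.mk_surjective _ q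
    simp [GaloisRepAdic.levelAction]
  · intro σ w w' hw
    obtain ⟨c, rfl⟩ := hA' w
    have hw' : w' = A' (shift σ c) := Subtype.ext (hw.trans (hAshift σ c).symm)
    rw [hw', hf, hf, hBshift]

end FermatLib.Galois
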