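import Fermat.Agent.Galois.FlatTransferRep
import Fermat.Agent.Galois.TransferSubquotient

/-!
S32 modulo the inputs on `J₀(N)`: flatness at `p` of the representation of a Hecke–Galois datum.
-/

noncomputable section

open ModularCurve

namespace FermatLib.Galois.FlatModel

local notation "Qbar" => AlgebraicClosure ℚ
local notation "Γℚ" => (AlgebraicClosure ℚ ≃ₐ[ℚ] AlgebraicClosure ℚ)

variable {p N : ℕ} [NeZero N] {S : Finset ℕ}
  {𝒪 : Type} [CommRing 𝒪] [IsDomain 𝒪] [IsDiscreteValuationRing 𝒪]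
  [IsAdicComplete (IsLocalRing.maximalIdeal 𝒪) 𝒪]
  {θ : CuspForm.heckeAlgebra N 2 (↑S : Set ℕ) →+* IsLocalRing.ResidueField 𝒪}
  {T : Type} [CommRing T] [IsLocalRing T] [IsNoetherianRing T]
  [IsAdicComplete (IsLocalRing.maximalIdeal T) T] [Algebra 𝒪 T] [IsLocalHom (algebraMap 𝒪 T)]
  [Module.Finite 𝒪 T] [Module.Free 𝒪 T]

theorem finite_residueField_of_datum [Finite (IsLocalRing.ResidueField 𝒪)]
    (H : CuspForm.HeckeGaloisRepDatum N (↑S : Set ℕ) 𝒪 θ T) :
    Finite (IsLocalRing.ResidueField T) := by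
  refine Finite.of_surjective (IsLocalRing.ResidueField.map (algebraMap 𝒪 T)) fun y => ?_
  obtain ⟨x, rfl⟩ := H.residue_surjective y
  exact ⟨IsLocalRing.residue 𝒪 x, rfl⟩

/-- Flatness at `p` of a datum, given the inputs on `J₀(N)` and models for its `p`-power torsion. -/
theorem isFlatAt_datum [Finite (IsLocalRing.ResidueField 𝒪)] (hp : p.Prime)
    (hp𝒪 : (p : 𝒪) ∈ IsLocalRing.maximalIdeal 𝒪) (hpS : p ∈ S)
    (hNS : ∀ q : ℕ, q.Prime → q ∣ N → q ∈ S) (hJ : TorsionGaloisInputs N p)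
    (hmodel : ∀ k : ℕ, HasModelAt p
      (Submodule.torsionBy ℤ (JZero N) ((p : ℤ) ^ k)).toAddSubgroup (torsionAct _))
    (H : CuspForm.HeckeGaloisRepDatum N (↑S : Set ℕ) 𝒪 θ T) : H.ρ.IsFlatAt p := by
  refine (isFlatAt_iff_hasModelAt H.ρ p).2 ⟨finite_residueField_of_datum H, fun I hI => ?_⟩
  obtain ⟨k, ι, _, W, hW, hWg, f, hf, hfact⟩ :=
    exists_torsion_subquotient hp hp𝒪 hpS hNS hJ H I
  let e := Fintype.equivFin ι
  have hmem : ∀ w : W, ∀ i, (w : ι → JZero N) i ∈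
      (Submodule.torsionBy ℤ (JZero N) ((p : ℤ) ^ k)).toAddSubgroup := fun w i => by
    rw [Submodule.mem_toAddSubgroup, Submodule.mem_torsionBy_iff,
      show ((p : ℤ) ^ k) = ((p ^ k : ℕ) : ℤ) by push_cast; ring, natCast_zsmul]
    exact hW w w.2 i
  let incl : W →+ (Fin (Fintype.card ι) →
      (Submodule.torsionBy ℤ (JZero N) ((p : ℤ) ^ k)).toAddSubgroup) :=
    { toFun := fun w j => ⟨(w : ι → JZero N) (e.symm j), hmem w _⟩
      map_zero' := rfl
      map_add' := fun _ _ => rfl }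
  have hincl : Function.Injective incl := fun w w' h =>
    Subtype.ext (funext fun i => by
      simpa [incl] using congrArg Subtype.val (congr_fun h (e i)))
  exact HasModelAt.subquotient ((hmodel k).pi_fin _) (actN := fun σ w => ⟨σ • (w : ι → JZero N), hWg σ _ w.2⟩)
    incl hincl (fun σ w => rfl) f hf (fun σ w => hfact σ w _ rfl)

end FermatLib.Galois.FlatModel
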