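import Mathlib.RingTheory.HopfAlgebra.Convolution
import Mathlib.RingTheory.Flat.TorsionFree
import Fermat.Agent.Galois.FlatModelEval

/-!
A criterion for a finite Galois module to be the group of points of a finite flat commutative
group scheme: it suffices to give a finite algebra of "functions" on the module, closed under the
co-operations. The Hopf algebra axioms are then automatic.
-/

noncomputable section

open scoped TensorProduct
open WithConv

namespace FermatLib.Galois.FlatModel

/-- `M`, with the given action of `Gal(K/k)`, is the group of `K`-points of a finite flat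
commutative group scheme over `R`. -/
def HasModel (R : Type*) [CommRing R] (k K : Type*) [Field k] [Field K] [Algebra k K] [Algebra R K]
    (M : Type*) [AddCommGroup M] (act : (K ≃ₐ[k] K) → M → M) : Prop :=
  ∃ (H : Type) (_ : CommRing H) (_ : HopfAlgebra R H),
    Module.Finite R H ∧ Module.Flat R H ∧ Coalgebra.IsCocomm R H ∧
      ∃ e : WithConv (H →ₐ[R] K) ≃ M,
        (∀ f g : WithConv (H →ₐ[R] K), e (f * g) = e f + e g) ∧
        ∀ (σ : K ≃ₐ[k] K) (f g : WithConv (H →ₐ[R] K)),
          (∀ h : H, g h = σ (f h)) → e g = act σ (e f)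

variable {R : Type*} {k K : Type*} [CommRing R] [Field k] [Field K]
  [Algebra R k] [Algebra R K] [Algebra k K] [IsScalarTower R k K]

section

variable {B : Type*} [CommRing B]

omit [Field k] [Algebra R k] [Algebra k K] [IsScalarTower R k K] in
/-- The convolution product of two points, through `productMap`. -/
theorem convMul_apply_productMap [Bialgebra R B] (f g : WithConv (B →ₐ[R] K)) (b : B) :
    (f * g) b = Algebra.TensorProduct.productMap f.ofConv g.ofConv (CoalgebraStruct.comul b) := by
  rw [AlgHom.convMul_apply]
  rfl

end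

variable {A : Type} [CommRing A] [Algebra R A] [Module.Finite R A]
  [IsFractionRing R k] [IsGalois k K] [IsDomain R] [IsPrincipalIdealRing R]
  {M : Type*} [AddCommGroup M] [Finite M] {act : (K ≃ₐ[k] K) → M → M}

open Algebra.TensorProduct in
/-- Criterion for a finite flat model: an algebra of functions `φ` on `M` which separates points,
is separated by them, is Galois equivariant, and is closed under the three co-operations. -/
theorem HasModel.of_evaluation (φ : M → A →ₐ[R] K) (hinj : Function.Injective φ)
    (hsep : Separates φ) (hgal : ∀ σ m, φ (act σ m) = galComp k σ (φ m))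
    (hcomul : ∀ a, ∃ x : A ⊗[R] A, ∀ m n, productMap (φ m) (φ n) x = φ (m + n) a)
    (hcounit : ∀ a, φ 0 a ∈ Set.range (algebraMap R K))
    (hneg : ∀ a, ∃ b, ∀ m, φ m b = φ (-m) a) :
    HasModel R k K M act := by
  have hs : IsGalStable k φ := fun σ m => ⟨act σ m, hgal σ m⟩
  have hR : Function.Injective (algebraMap R K) := algebraMap_injective_of_tower (k := k)
  have hsep₂ := hsep.tensor hsep hs
  have hsep₃ := hsep₂.tensor hsep hs
  choose Δ hΔ using hcomul
  choose ε hε using hcounit
  choose S hS using hneg
  let Δ' : A →ₐ[R] A ⊗[R] A :=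
    { toFun := Δ
      map_one' := hsep₂.eq fun x => by simp [hΔ]
      map_mul' := fun a b => hsep₂.eq fun x => by simp [hΔ]
      map_zero' := hsep₂.eq fun x => by simp [hΔ]
      map_add' := fun a b => hsep₂.eq fun x => by simp [hΔ]
      commutes' := fun r => hsep₂.eq fun x => by simp [hΔ] }
  let ε' : A →ₐ[R] R :=
    { toFun := ε
      map_one' := hR (by simp [hε])
      map_mul' := fun a b => hR (by simp [hε])
      map_zero' := hR (by simp [hε])
      map_add' := fun a b => hR (by simp [hε])
      commutes' := fun r => hR (by simp [hε]) }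
  let S' : A →ₐ[R] A :=
    { toFun := S
      map_one' := hsep.eq fun x => by simp [hS]
      map_mul' := fun a b => hsep.eq fun x => by simp [hS]
      map_zero' := hsep.eq fun x => by simp [hS]
      map_add' := fun a b => hsep.eq fun x => by simp [hS]
      commutes' := fun r => hsep.eq fun x => by simp [hS] }
  have hΔ' : ∀ m n, (productMap (φ m) (φ n)).comp Δ' = φ (m + n) := fun m n =>
    AlgHom.ext fun a => hΔ a m n
  have hε' : ∀ a, algebraMap R K (ε' a) = φ 0 a := hε
  have hS' : ∀ m, (φ m).comp S' = φ (-m) := fun m => AlgHom.ext fun a => hS a m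
  have hl : ∀ m, (φ m).comp (Algebra.TensorProduct.lift S' (.id R A) fun _ _ ↦ Commute.all _ _) =
      productMap (φ (-m)) (φ m) := fun m =>
    Algebra.TensorProduct.ext' fun x y => by simp [← hS' m]
  have hr : ∀ m, (φ m).comp (Algebra.TensorProduct.lift (.id R A) S' fun _ _ ↦ Commute.all _ _) =
      productMap (φ m) (φ (-m)) := fun m =>
    Algebra.TensorProduct.ext' fun x y => by simp [← hS' m]
  let bA : Bialgebra R A := Bialgebra.ofAlgHom Δ' ε'
    (by
      refine AlgHom.ext fun a => (Algebra.TensorProduct.assoc R R R A A A).symm.injective ?_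
      refine hsep₃.eq fun ⟨⟨l, m⟩, n⟩ => ?_
      have h1 : (productMap (productMap (φ l) (φ m)) (φ n)).comp
          (Algebra.TensorProduct.map Δ' (.id R A)) = productMap (φ (l + m)) (φ n) :=
        Algebra.TensorProduct.ext' fun x y => by simp [← hΔ' l m]
      have h2 : ((productMap (productMap (φ l) (φ m)) (φ n)).comp
          (Algebra.TensorProduct.assoc R R R A A A).symm.toAlgHom).comp
            (Algebra.TensorProduct.map (.id R A) Δ') = productMap (φ l) (φ (m + n)) := by
        have h3 : (productMap (productMap (φ l) (φ m)) (φ n)).comp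
            (Algebra.TensorProduct.assoc R R R A A A).symm.toAlgHom =
              productMap (φ l) (productMap (φ m) (φ n)) := by
          ext x <;> simp [Algebra.TensorProduct.one_def]
        rw [h3]
        exact Algebra.TensorProduct.ext' fun x y => by simp [← hΔ' m n]
      have e1 := AlgHom.congr_fun h1 (Δ' a)
      have e2 := AlgHom.congr_fun h2 (Δ' a)
      refine (congrArg _ (AlgEquiv.symm_apply_apply _ _)).trans (e1.trans ?_)
      refine ((hΔ a (l + m) n).trans ?_).trans e2.symm
      rw [add_assoc]
      exact (hΔ a l (m + n)).symm)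
    (by
      refine AlgHom.ext fun a => (Algebra.TensorProduct.lid R A).injective ?_
      refine hsep.eq fun m => ?_
      have h1 : ((φ m).comp (Algebra.TensorProduct.lid R A).toAlgHom).comp
          (Algebra.TensorProduct.map ε' (.id R A)) = productMap (φ 0) (φ m) :=
        Algebra.TensorProduct.ext' fun x y => by simp [Algebra.smul_def, hε']
      have e1 := AlgHom.congr_fun h1 (Δ' a)
      refine e1.trans ((hΔ a 0 m).trans ?_)
      rw [zero_add]
      exact congrArg _ (AlgEquiv.apply_symm_apply _ _).symm)
    (by
      refine AlgHom.ext fun a => (Algebra.TensorProduct.rid R R A).injective ?_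
      refine hsep.eq fun m => ?_
      have h1 : ((φ m).comp (Algebra.TensorProduct.rid R R A).toAlgHom).comp
          (Algebra.TensorProduct.map (.id R A) ε') = productMap (φ m) (φ 0) :=
        Algebra.TensorProduct.ext' fun x y => by simp [Algebra.smul_def, hε', mul_comm]
      have e1 := AlgHom.congr_fun h1 (Δ' a)
      refine e1.trans ((hΔ a m 0).trans ?_)
      rw [add_zero]
      exact congrArg _ (AlgEquiv.apply_symm_apply _ _).symm)
  let hA : HopfAlgebra R A := @HopfAlgebra.ofAlgHom R A _ _ bA S'
    (by
      refine AlgHom.ext fun a => hsep.eq fun m => ?_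
      have h1 := hl m
      have e1 := AlgHom.congr_fun h1 (Δ' a)
      refine e1.trans ((hΔ a (-m) m).trans ?_)
      rw [neg_add_cancel]
      exact (hε' a).symm.trans ((φ m).commutes _).symm)
    (by
      refine AlgHom.ext fun a => hsep.eq fun m => ?_
      have h1 := hr m
      have e1 := AlgHom.congr_fun h1 (Δ' a)
      refine e1.trans ((hΔ a m (-m)).trans ?_)
      rw [add_neg_cancel]
      exact (hε' a).symm.trans ((φ m).commutes _).symm)
  have hcocomm : @Coalgebra.IsCocomm R A _ _ _ hA.toBialgebra.toCoalgebra := by
    refine ⟨LinearMap.ext fun a => hsep₂.eq fun ⟨m, n⟩ => ?_⟩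
    have h1 : (productMap (φ m) (φ n)).toLinearMap ∘ₗ (TensorProduct.comm R A A).toLinearMap =
        (productMap (φ n) (φ m)).toLinearMap :=
      TensorProduct.ext' fun x y => by simp [mul_comm]
    refine (LinearMap.congr_fun h1 (Δ' a)).trans ((hΔ a n m).trans ?_)
    rw [add_comm]
    exact (hΔ a m n).symm
  refine ⟨A, inferInstance, hA, inferInstance, ?_, hcocomm, ?_⟩
  · have := hsep.isTorsionFree (k := k)
    infer_instance
  have hbij : Function.Bijective fun m => toConv (φ m) :=
    (WithConv.equiv _).symm.bijective.comp ⟨hinj, hsep.surjective hs⟩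
  refine ⟨(Equiv.ofBijective _ hbij).symm, fun f g => ?_, fun σ f g hfg => ?_⟩
  · obtain ⟨m, rfl⟩ := hbij.2 f
    obtain ⟨n, rfl⟩ := hbij.2 g
    simp only [Equiv.ofBijective_symm_apply_apply]
    rw [Equiv.symm_apply_eq]
    refine WithConv.ext (AlgHom.ext fun a => ?_)
    exact (convMul_apply_productMap _ _ a).trans (hΔ a m n)
  · obtain ⟨m, rfl⟩ := hbij.2 f
    obtain ⟨n, rfl⟩ := hbij.2 g
    simp only [Equiv.ofBijective_symm_apply_apply]
    refine hinj (AlgHom.ext fun a => ?_)
    rw [hgal]
    exact hfg a

end FermatLib.Galois.FlatModel
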