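import Fermat.Agent.Galois.FlatTwistCore
import Fermat.Agent.Galois.FlatModelRat
import Fermat.Agent.Galois.FlatCondition
import Fermat.Agent.EC.InertiaMinkowski
import Mathlib.RingTheory.Ideal.Norm.AbsNorm
import Mathlib.NumberTheory.NumberField.Ideal.Basic

/-!
Flatness at `p` is preserved by twisting with characters unramified at `p`.
-/

noncomputable section

open scoped nonZeroDivisors

namespace FermatLib.Galois.FlatModel

local notation "Qbar" => AlgebraicClosure ℚ
local notation "Γℚ" => (AlgebraicClosure ℚ ≃ₐ[ℚ] AlgebraicClosure ℚ)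

/-- The inverse of a natural number prime to `p`, in `ℤ_(p)`. -/
def invNatCast {p : ℕ} (u : ℕ) (hu : u.Coprime p) : GaloisRep.ratLocalizedAt p :=
  ⟨(u : ℚ)⁻¹, by
    show ((u : ℚ)⁻¹).den.Coprime p
    rw [Rat.inv_natCast_den]
    split_ifs with h
    · exact Nat.coprime_one_left p
    · exact hu⟩

open NumberField in
/-- An unramified number field provides a cover of `ℤ_(p)` with a separability idempotent. -/
theorem exists_cover_of_unramified {p : ℕ} (hp : p.Prime) (H : Subgroup Γℚ) [H.Normal]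
    (L₀ : IntermediateField ℚ Qbar) [FiniteDimensional ℚ L₀] (hL₀ : L₀.fixingSubgroup ≤ H)
    (hunr : ∀ A : ValuationSubring Qbar, A.LiesOverPrime p → A.inertiaSubgroupIn ℚ ≤ H) :
    ∃ S : Subalgebra (GaloisRep.ratLocalizedAt p) Qbar,
      Module.Finite (GaloisRep.ratLocalizedAt p) S ∧
      (∀ σ : Γℚ, ∀ y ∈ S, σ y ∈ S) ∧
      (∀ σ ∈ coverFixator (k := ℚ) S, σ ∈ H) ∧
      ∀ σ : Γℚ, σ ∉ coverFixator (k := ℚ) S →
        ∃ l : List (Qbar × Qbar), (∀ z ∈ l, z.1 ∈ S ∧ z.2 ∈ S) ∧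
          (l.map fun z => z.1 * (z.2 - σ z.2)).sum = 1 := by
  classical
  have hopen : IsOpen (H : Set Γℚ) :=
    Subgroup.isOpen_mono hL₀ (IntermediateField.fixingSubgroup_isOpen L₀)
  let L : IntermediateField ℚ Qbar := IntermediateField.fixedField H
  have hL : L.fixingSubgroup = H :=
    InfiniteGalois.fixingSubgroup_fixedField ⟨H, Subgroup.isClosed_of_isOpen H hopen⟩
  have : IsGalois ℚ L := (InfiniteGalois.normal_iff_isGalois L).mp (by rw [hL]; infer_instance)
  have : FiniteDimensional ℚ L :=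
    (InfiniteGalois.isOpen_iff_finite L).mp (by rw [hL]; exact hopen)
  have : NumberField L := ⟨⟩
  let ι : (𝓞 L) →+* Qbar := (algebraMap L Qbar).comp (algebraMap (𝓞 L) L)
  obtain ⟨s, hs⟩ := Module.Finite.fg_top (R := ℤ) (M := 𝓞 L)
  let gens : Set Qbar := ι '' (s : Set (𝓞 L))
  let S : Subalgebra (GaloisRep.ratLocalizedAt p) Qbar := Algebra.adjoin _ gens
  have hS : ∀ a, ι a ∈ S := by
    intro a
    have ha : a ∈ Submodule.span ℤ (s : Set (𝓞 L)) := hs ▸ Submodule.mem_top
    induction ha using Submodule.span_induction with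
    | mem x hx => exact Algebra.subset_adjoin ⟨x, hx, rfl⟩
    | zero => rw [map_zero]; exact zero_mem S
    | add x y _ _ hx hy => rw [map_add]; exact add_mem hx hy
    | smul n x _ hx => rw [map_zsmul]; exact zsmul_mem hx n
  have hint : ∀ a, IsIntegral (GaloisRep.ratLocalizedAt p) (ι a) := fun a =>
    ((RingOfIntegers.isIntegral_coe a).map (algebraMap L Qbar).toIntAlgHom).tower_top
  have hfin : Module.Finite (GaloisRep.ratLocalizedAt p) S :=
    Algebra.finite_adjoin_of_finite_of_isIntegral (s.finite_toSet.image _)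
      (by rintro _ ⟨a, -, rfl⟩; exact hint a)
  -- the action on integers of `L`
  have hgal : ∀ (σ : Γℚ) (a : 𝓞 L), ∃ b : 𝓞 L,
      (b : L) = σ.restrictNormal L (a : L) ∧ ι b = σ (ι a) := by
    intro σ a
    refine ⟨⟨σ.restrictNormal L (a : L), (RingOfIntegers.isIntegral_coe a).map
      (σ.restrictNormal L).toRingEquiv.toRingHom.toIntAlgHom⟩, rfl, ?_⟩
    exact AlgEquiv.restrictNormal_commutes σ L (a : L)
  have hstab : ∀ σ : Γℚ, ∀ y ∈ S, σ y ∈ S := by
    intro σ y hy
    let σR : Qbar →ₐ[GaloisRep.ratLocalizedAt p] Qbar :=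
      (σ.restrictScalars (GaloisRep.ratLocalizedAt p) :
        Qbar ≃ₐ[GaloisRep.ratLocalizedAt p] Qbar).toAlgHom
    have hle : S ≤ S.comap σR := Algebra.adjoin_le fun x hx => by
      obtain ⟨a, -, rfl⟩ := hx
      obtain ⟨b, -, hb⟩ := hgal σ a
      show σ (ι a) ∈ S
      rw [← hb]
      exact hS b
    exact hle hy
  refine ⟨S, hfin, hstab, fun σ hσ => ?_, fun σ hσ => ?_⟩
  · rw [← hL, IntermediateField.mem_fixingSubgroup_iff]
    intro x hx
    obtain ⟨a, b, hb, hab⟩ := IsFractionRing.div_surjective (𝓞 L) (⟨x, hx⟩ : L)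
    have hx' : x = ι a / ι b := by
      have := congrArg (algebraMap L Qbar) hab
      rw [map_div₀] at this
      exact this.symm
    rw [hx', map_div₀, hσ _ (hS a), hσ _ (hS b)]
  · set τ := σ.restrictNormal L with hτdef
    let gensJ : Set (𝓞 L) := {j | ∃ a b : 𝓞 L, (b : L) = τ (a : L) ∧ j = b - a}
    let J : Ideal (𝓞 L) := Ideal.span gensJ
    have hτ : τ ≠ 1 := by
      intro h
      apply hσ
      intro y hy
      let σR : Qbar →ₐ[GaloisRep.ratLocalizedAt p] Qbar :=
        (σ.restrictScalars (GaloisRep.ratLocalizedAt p) :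
          Qbar ≃ₐ[GaloisRep.ratLocalizedAt p] Qbar).toAlgHom
      have hle : S ≤ AlgHom.equalizer σR (AlgHom.id _ Qbar) := Algebra.adjoin_le fun x hx => by
        obtain ⟨a, -, rfl⟩ := hx
        show σ (ι a) = ι a
        rw [show σ (ι a) = algebraMap L Qbar (τ (a : L)) from
          (AlgEquiv.restrictNormal_commutes σ L (a : L)).symm, h]
        rfl
      exact hle hy
    have hJ0 : J ≠ ⊥ := by
      intro h
      apply hτ
      refine AlgEquiv.ext fun x => ?_
      obtain ⟨a, b, -, rfl⟩ := IsFractionRing.div_surjective (𝓞 L) x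
      have hz : ∀ a : 𝓞 L, τ (a : L) = (a : L) := fun a => by
        obtain ⟨c, hc, -⟩ := hgal σ a
        have hmem : c - a ∈ J := Ideal.subset_span ⟨a, c, hc, rfl⟩
        rw [h, Ideal.mem_bot, sub_eq_zero] at hmem
        rw [← hc, hmem]
      simp only [map_div₀, AlgEquiv.one_apply]
      exact congrArg₂ (· / ·) (hz a) (hz b)
    have hcop : J ⊔ Ideal.span {(p : 𝓞 L)} = ⊤ := by
      by_contra hne
      obtain ⟨P, hP, hle⟩ := Ideal.exists_le_maximal _ hne
      obtain ⟨A, hA, σ', hσ', hσL⟩ := EC.exists_inertia_lift L hp P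
        (hle (Ideal.mem_sup_right (Ideal.mem_span_singleton_self _))) τ
        (fun a a' h => hle (Ideal.mem_sup_left (Ideal.subset_span ⟨a, a', h, rfl⟩)))
      have hfix : σ' ∈ L.fixingSubgroup := hL.symm ▸ hunr A hA hσ'
      exact hτ (AlgEquiv.ext fun x => Subtype.ext
        ((hσL x).symm.trans ((IntermediateField.mem_fixingSubgroup_iff L σ').1 hfix _ x.2)))
    -- an integer prime to `p` in `J`
    have hn : Ideal.absNorm J ≠ 0 := fun h => hJ0 (Ideal.absNorm_eq_zero_iff.mp h)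
    obtain ⟨e, u, hpu, hnu⟩ := Nat.exists_eq_pow_mul_and_not_dvd hn p hp.ne_one
    have hu : ((u : 𝓞 L)) ∈ J := by
      have hcop' : J ⊔ Ideal.span {(p : 𝓞 L) ^ e} = ⊤ := by
        rw [← Ideal.span_singleton_pow]
        exact Ideal.sup_pow_eq_top hcop
      have h1 : (1 : 𝓞 L) ∈ J ⊔ Ideal.span {(p : 𝓞 L) ^ e} := hcop' ▸ Submodule.mem_top
      obtain ⟨j, hj, i, hi, hji⟩ := Submodule.mem_sup.1 h1
      obtain ⟨t, rfl⟩ := Ideal.mem_span_singleton.1 hi
      have hN : ((Ideal.absNorm J : ℕ) : 𝓞 L) ∈ J := Ideal.absNorm_mem J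
      rw [hnu, Nat.cast_mul, Nat.cast_pow] at hN
      have hu' : (u : 𝓞 L) = (u : 𝓞 L) * j + t * ((p : 𝓞 L) ^ e * u) := by
        linear_combination (-(u : 𝓞 L)) * hji
      rw [hu']
      exact J.add_mem (J.mul_mem_left _ hj) (J.mul_mem_left _ hN)
    have key : ∀ j ∈ J, ∀ c ∈ S, ∃ l : List (Qbar × Qbar), (∀ z ∈ l, z.1 ∈ S ∧ z.2 ∈ S) ∧
        (l.map fun z => z.1 * (z.2 - σ z.2)).sum = c * ι j := by
      intro j hj
      induction hj using Submodule.span_induction with
      | mem x hx =>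
        obtain ⟨a, b, hb, rfl⟩ := hx
        have hb' : ι b = σ (ι a) := by
          show algebraMap L Qbar (b : L) = _
          rw [hb]
          exact AlgEquiv.restrictNormal_commutes σ L (a : L)
        refine fun c hc => ⟨[(-c, ι a)], by simp [neg_mem hc, hS], ?_⟩
        simp [hb']
        ring
      | zero => exact fun c _ => ⟨[], by simp, by simp⟩
      | add x y _ _ hx hy =>
        intro c hc
        obtain ⟨l₁, h₁, e₁⟩ := hx c hc
        obtain ⟨l₂, h₂, e₂⟩ := hy c hc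
        exact ⟨l₁ ++ l₂, fun z hz => (List.mem_append.1 hz).elim (h₁ z) (h₂ z),
          by rw [List.map_append, List.sum_append, e₁, e₂, map_add, mul_add]⟩
      | smul r x _ hx =>
        intro c hc
        obtain ⟨l, h, e⟩ := hx (c * ι r) (mul_mem hc (hS r))
        exact ⟨l, h, by rw [e, smul_eq_mul, map_mul, mul_assoc]⟩
    have hu0 : u ≠ 0 := fun h => hpu (h ▸ dvd_zero p)
    obtain ⟨l, hl, he⟩ := key _ hu
      (algebraMap (GaloisRep.ratLocalizedAt p) Qbar
        (invNatCast u ((hp.coprime_iff_not_dvd.2 hpu).symm))) (S.algebraMap_mem _)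
    refine ⟨l, hl, he.trans ?_⟩
    rw [IsScalarTower.algebraMap_apply (GaloisRep.ratLocalizedAt p) ℚ Qbar, map_natCast]
    show algebraMap ℚ Qbar (u : ℚ)⁻¹ * (u : Qbar) = 1
    rw [map_inv₀, map_natCast, inv_mul_cancel₀ (Nat.cast_ne_zero.mpr hu0)]

/-- Twisting by a finite character with values in equivariant automorphisms, unramified at `p`,
preserves having a finite flat model over `ℤ_(p)`. -/
theorem HasModelAt.twist {p : ℕ} (hp : p.Prime) {M : Type} [AddCommGroup M]
    {act act' : Γℚ → M → M} (h : HasModelAt p M act) (ψ : Γℚ →* AddMonoid.End M)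
    (hcomm : ∀ σ τ m, ψ σ (act τ m) = act τ (ψ σ m))
    (hact' : ∀ σ m, act' σ m = ψ σ (act σ m))
    (L₀ : IntermediateField ℚ Qbar) [FiniteDimensional ℚ L₀]
    (hL₀ : ∀ σ ∈ L₀.fixingSubgroup, ψ σ = 1)
    (hunr : ∀ A : ValuationSubring Qbar, A.LiesOverPrime p →
      ∀ σ ∈ A.inertiaSubgroupIn ℚ, ψ σ = 1) :
    HasModelAt p M act' := by
  obtain ⟨S, hfin, hstab, hker, hunit⟩ := exists_cover_of_unramified hp ψ.ker L₀
    (fun σ hσ => MonoidHom.mem_ker.2 (hL₀ σ hσ))
    (fun A hA σ hσ => MonoidHom.mem_ker.2 (hunr A hA σ hσ))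
  exact HasModel.twist_of_cover h ψ hcomm hact' S hstab
    (fun σ hσ => MonoidHom.mem_ker.1 (hker σ hσ)) hunit

variable {A : Type} [CommRing A] [IsLocalRing A]

/-- Flatness at `p` of adic representations is preserved by twisting with a character unramified
at `p` (no continuity assumption: it follows from that of the two representations). -/
theorem isFlatAt_twist {p : ℕ} (hp : p.Prime) {ρ ρ' : GaloisRepAdic A} (χ : Γℚ →* Aˣ)
    (hχ : ∀ P : ValuationSubring Qbar, P.LiesOverPrime p →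
      ∀ σ ∈ P.inertiaSubgroupIn ℚ, χ σ = 1)
    (e : ρ.V ≃ₗ[A] ρ'.V) (he : ∀ σ v, e ((χ σ : A) • ρ.ρ σ v) = ρ'.ρ σ (e v))
    (hflat : ρ.IsFlatAt p) : ρ'.IsFlatAt p := by
  rw [isFlatAt_iff_hasModelAt] at hflat ⊢
  refine ⟨hflat.1, fun I hI => ?_⟩
  obtain ⟨n, hn⟩ :=
    IsLocalRing.exists_maximalIdeal_pow_le_of_isArtinianRing_quotient I
  obtain ⟨L₁, hL₁, h₁⟩ := ρ.isAdicContinuous n
  obtain ⟨L₂, hL₂, h₂⟩ := ρ'.isAdicContinuous n
  let ψ : Γℚ →* AddMonoid.End (ρ.V ⧸ (I • ⊤ : Submodule A ρ.V)) :=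
    (Module.toAddMonoidEnd A _).toMonoidHom.comp ((Units.coeHom A).comp χ)
  have hψ : ∀ σ x, ψ σ x = (χ σ : A) • x := fun σ x => rfl
  have hmap : (I • (⊤ : Submodule A ρ.V)).map (e : ρ.V →ₗ[A] ρ'.V) = I • ⊤ := by
    rw [Submodule.map_smul'', Submodule.map_top, LinearMap.range_eq_top.2 e.surjective]
  let eI := Submodule.Quotient.equiv _ _ e hmap
  have hmodel : HasModelAt p (ρ.V ⧸ (I • ⊤ : Submodule A ρ.V))
      fun σ x => (χ σ : A) • ρ.levelAction I σ x := by
    refine HasModelAt.twist hp (hflat.2 I hI) ψ (fun σ τ m => ?_) (fun σ m => rfl)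
      (L₁ ⊔ L₂) (fun σ hσ => ?_) (fun P hP σ hσ => ?_)
    · rw [hψ, hψ, map_smul]
    · have hσ₁ : ∀ x ∈ L₁, σ x = x := fun x hx =>
        (IntermediateField.mem_fixingSubgroup_iff _ σ).1 hσ x
          ((le_sup_left : L₁ ≤ L₁ ⊔ L₂) hx)
      have hσ₂ : ∀ x ∈ L₂, σ x = x := fun x hx =>
        (IntermediateField.mem_fixingSubgroup_iff _ σ).1 hσ x
          ((le_sup_right : L₂ ≤ L₁ ⊔ L₂) hx)
      refine AddMonoidHom.ext fun x => ?_
      obtain ⟨v, rfl⟩ := Submodule.Quotient.mk_surjective _ x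
      refine (hψ σ _).trans ?_
      show (χ σ : A) • Submodule.Quotient.mk v = Submodule.Quotient.mk v
      rw [← Submodule.Quotient.mk_smul, Submodule.Quotient.eq]
      set w := (ρ.ρ σ⁻¹) v
      have hw : ρ.ρ σ w = v := by
        show ρ.ρ σ (ρ.ρ σ⁻¹ v) = v
        rw [← Module.End.mul_apply, ← map_mul, mul_inv_cancel, map_one, Module.End.one_apply]
      have hle : (IsLocalRing.maximalIdeal A ^ n) • (⊤ : Submodule A ρ.V) ≤ I • ⊤ :=
        Submodule.smul_mono hn le_rfl
      have a1 : v - w ∈ I • (⊤ : Submodule A ρ.V) := hw ▸ hle (h₁ σ hσ₁ w)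
      have a2 : (χ σ : A) • v - w ∈ I • (⊤ : Submodule A ρ.V) := by
        have h := h₂ σ hσ₂ (e w)
        rw [← he, ← map_sub, hw] at h
        have := (Submodule.smul_mono hn (le_refl (⊤ : Submodule A ρ'.V))) h
        rw [← hmap, Submodule.mem_map] at this
        obtain ⟨z, hz, hze⟩ := this
        rwa [e.injective hze] at hz
      have := Submodule.sub_mem _ a2 a1
      rwa [sub_sub_sub_cancel_right] at this
    · refine AddMonoidHom.ext fun x => ?_
      show (χ σ : A) • x = x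
      rw [hχ P hP σ hσ, Units.val_one, one_smul]
  refine hmodel.congr eI.toAddEquiv fun σ x => ?_
  obtain ⟨v, rfl⟩ := Submodule.Quotient.mk_surjective _ x
  show eI ((χ σ : A) • Submodule.Quotient.mk (ρ.ρ σ v)) =
    ρ'.levelAction I σ (eI (Submodule.Quotient.mk v))
  rw [← Submodule.Quotient.mk_smul]
  show Submodule.Quotient.mk (e ((χ σ : A) • ρ.ρ σ v)) = Submodule.Quotient.mk (ρ'.ρ σ (e v))
  rw [he]

end FermatLib.Galois.FlatModel
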