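import Fermat.Agent.Galois.FlatModelOps
import Mathlib.RingTheory.Adjoin.Tower
import Mathlib.RingTheory.IntegralClosure.IntegrallyClosed
import Mathlib.RingTheory.Ideal.GoingUp
import Mathlib.RingTheory.PrincipalIdealDomain
import Mathlib.GroupTheory.Coset.Defs

/-!
Twisting a module with a finite flat model by a finite automorphism character that factors through
an étale cover of the base: descent of the model.
-/

noncomputable section

open scoped TensorProduct
open WithConv Algebra.TensorProduct

namespace FermatLib.Galois.FlatModel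

variable {R : Type} {k K : Type} [CommRing R] [Field k] [Field K]
  [Algebra R k] [Algebra R K] [Algebra k K] [IsScalarTower R k K]
  [IsFractionRing R k] [IsGalois k K] [IsDomain R] [IsPrincipalIdealRing R]

section Cover

variable (S : Subalgebra R K)

/-- The automorphisms fixing `S` pointwise. -/
def coverFixator : Subgroup (K ≃ₐ[k] K) where
  carrier := {σ | ∀ y ∈ S, σ y = y}
  one_mem' _ _ := rfl
  mul_mem' {σ τ} hσ hτ y hy := by rw [AlgEquiv.mul_apply, hτ y hy, hσ y hy]
  inv_mem' {σ} hσ y hy := by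
    have := σ.symm_apply_apply y
    rwa [hσ y hy] at this

omit [IsFractionRing R k] [IsGalois k K] [IsDomain R] [IsPrincipalIdealRing R] in
theorem finite_quotient_coverFixator [Module.Finite R S] :
    Finite ((K ≃ₐ[k] K) ⧸ coverFixator (k := k) S) := by
  have := finite_algHom_field (R := R) (A := S) (K := K)
  let r : (K ≃ₐ[k] K) → S →ₐ[R] K := fun σ => galComp k σ S.val
  have hr : ∀ σ τ, (QuotientGroup.mk σ : (K ≃ₐ[k] K) ⧸ coverFixator (k := k) S)
      = QuotientGroup.mk τ ↔ r σ = r τ := by
    intro σ τ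
    rw [QuotientGroup.eq]
    constructor
    · intro h
      refine AlgHom.ext fun y => ?_
      have h2 : σ⁻¹ (τ (y : K)) = y := h y y.2
      have h3 := congrArg σ h2
      simp only [r, galComp_apply, Subalgebra.coe_val]
      rw [← h3]
      exact σ.apply_symm_apply _
    · intro h y hy
      have h2 : σ y = τ y := AlgHom.congr_fun h ⟨y, hy⟩
      show σ⁻¹ (τ y) = y
      rw [← h2]
      exact σ.symm_apply_apply y
  refine Finite.of_injective (fun q => r q.out) fun q q' h => ?_
  have := (hr q.out q'.out).2 h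
  rwa [QuotientGroup.out_eq', QuotientGroup.out_eq'] at this

omit [IsPrincipalIdealRing R] [IsDomain R] in
/-- A Galois fixed element integral over `R` comes from `R`. -/
theorem mem_range_of_fixed [IsIntegrallyClosed R] {x : K} (hx : IsIntegral R x)
    (hfix : ∀ σ : K ≃ₐ[k] K, σ x = x) : x ∈ Set.range (algebraMap R K) := by
  obtain ⟨y, rfl⟩ := (InfiniteGalois.mem_range_algebraMap_iff_fixed x).2 hfix
  have hy : IsIntegral R y :=
    (isIntegral_algHom_iff (IsScalarTower.toAlgHom R k K) (algebraMap k K).injective).1 hx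
  obtain ⟨r, rfl⟩ := IsIntegrallyClosed.isIntegral_iff.1 hy
  exact ⟨r, IsScalarTower.algebraMap_apply R k K r⟩

omit [Algebra R k] [IsScalarTower R k K] [IsFractionRing R k] [IsGalois k K] [IsDomain R]
  [IsPrincipalIdealRing R] in
/-- If the cover is unramified outside the fixator, it has a separability idempotent. -/
theorem exists_separating_pairs
    (hunit : ∀ σ : K ≃ₐ[k] K, σ ∉ coverFixator (k := k) S →
      ∃ l : List (K × K), (∀ z ∈ l, z.1 ∈ S ∧ z.2 ∈ S) ∧
        (l.map fun z => z.1 * (z.2 - σ z.2)).sum = 1)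
    (s : Finset (K ≃ₐ[k] K))
    (hs : ∀ σ ∈ s, σ ∉ coverFixator (k := k) S) :
    ∃ l : List (K × K), (∀ z ∈ l, z.1 ∈ S ∧ z.2 ∈ S) ∧
      (l.map fun z => z.1 * z.2).sum = 1 ∧ ∀ σ ∈ s, (l.map fun z => z.1 * σ z.2).sum = 0 := by
  classical
  induction s using Finset.induction with
  | empty => exact ⟨[(1, 1)], by simp [one_mem], by simp, by simp⟩
  | insert σ s hσs ih =>
    obtain ⟨l, hl, hl1, hl0⟩ := ih fun τ hτ => hs τ (Finset.mem_insert_of_mem hτ)
    obtain ⟨m, hm, hm1⟩ := hunit σ (hs σ (Finset.mem_insert_self _ _))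
    -- value at `τ` of `1 - Σ a (y ⊗ 1 - 1 ⊗ y)`
    let g : List (K × K) := (1 - (m.map fun z => z.1 * z.2).sum, 1) :: m
    have hval : ∀ τ : K ≃ₐ[k] K, (g.map fun z => z.1 * τ z.2).sum
        = 1 - (m.map fun z => z.1 * z.2).sum + (m.map fun z => z.1 * τ z.2).sum := by
      intro τ
      simp [g]
    have hval1 : (g.map fun z => z.1 * z.2).sum = 1 := by simp [g]
    have hvalσ : (g.map fun z => z.1 * σ z.2).sum = 0 := by
      have : (m.map fun z => z.1 * (z.2 - σ z.2)).sum
          = (m.map fun z => z.1 * z.2).sum - (m.map fun z => z.1 * σ z.2).sum := by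
        clear hm1 hm hval hval1 g
        induction m with
        | nil => simp
        | cons a m ih => simp only [List.map_cons, List.sum_cons, ih]; ring
      rw [hm1] at this
      rw [hval]
      linear_combination this
    have hgmem : ∀ z ∈ g, z.1 ∈ S ∧ z.2 ∈ S := by
      intro z hz
      rcases List.mem_cons.1 hz with rfl | hz
      · refine ⟨sub_mem (one_mem S) (list_sum_mem fun x hx => ?_), one_mem S⟩
        obtain ⟨w, hw, rfl⟩ := List.mem_map.1 hx
        exact mul_mem (hm w hw).1 (hm w hw).2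
      · exact hm z hz
    let prod : List (K × K) := l.flatMap fun z => g.map fun w => (z.1 * w.1, z.2 * w.2)
    have hprod : ∀ τ : K →* K, (prod.map fun z => z.1 * τ z.2).sum
        = (l.map fun z => z.1 * τ z.2).sum * (g.map fun z => z.1 * τ z.2).sum := by
      intro τ
      simp only [prod]
      clear hl hl1 hl0
      induction l with
      | nil => simp
      | cons a l ih =>
        simp only [List.flatMap_cons, List.map_append, List.sum_append, List.map_cons,
          List.sum_cons, ih, add_mul, List.map_map]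
        congr 1
        rw [← List.sum_map_mul_left]
        refine congrArg List.sum (List.map_congr_left fun w _ => ?_)
        simp only [Function.comp_apply, map_mul]
        ring
    refine ⟨prod, fun z hz => ?_, ?_, fun τ hτ => ?_⟩
    · obtain ⟨a, ha, hz⟩ := List.mem_flatMap.1 hz
      obtain ⟨w, hw, rfl⟩ := List.mem_map.1 hz
      exact ⟨mul_mem (hl a ha).1 (hgmem w hw).1, mul_mem (hl a ha).2 (hgmem w hw).2⟩
    · have := hprod (MonoidHom.id K)
      simp only [MonoidHom.id_apply] at this
      rw [this, hl1, hval1, one_mul]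
    · have := hprod (τ : K →* K)
      simp only [MonoidHom.coe_coe] at this
      rw [this]
      rcases Finset.mem_insert.1 hτ with rfl | hτ
      · rw [hvalσ, mul_zero]
      · rw [hl0 τ hτ, zero_mul]

end Cover

variable {M : Type} [AddCommGroup M] {act act' : (K ≃ₐ[k] K) → M → M}

/-- Twist of a model by a character with values in equivariant automorphisms, trivial on the
fixator of an unramified cover `S` of `R`. -/
theorem HasModel.twist_of_cover (h : HasModel R k K M act)
    (ψ : (K ≃ₐ[k] K) →* AddMonoid.End M)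
    (hcomm : ∀ σ τ m, ψ σ (act τ m) = act τ (ψ σ m))
    (hact' : ∀ σ m, act' σ m = ψ σ (act σ m))
    (S : Subalgebra R K) [Module.Finite R S]
    (hstab : ∀ σ : K ≃ₐ[k] K, ∀ y ∈ S, σ y ∈ S)
    (hker : ∀ σ ∈ coverFixator (k := k) S, ψ σ = 1)
    (hunit : ∀ σ : K ≃ₐ[k] K, σ ∉ coverFixator (k := k) S →
      ∃ l : List (K × K), (∀ z ∈ l, z.1 ∈ S ∧ z.2 ∈ S) ∧
        (l.map fun z => z.1 * (z.2 - σ z.2)).sum = 1) :
    HasModel R k K M act' := by
  classical
  obtain ⟨A, _, _, _, φ, hφ⟩ := h.exists_pointFamily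
  have : Finite M := hφ.finite
  have : Finite (AddMonoid.End M) :=
    Finite.of_injective (fun f : AddMonoid.End M => (f : M → M)) DFunLike.coe_injective
  have hR : Function.Injective (algebraMap R K) := algebraMap_injective_of_tower (k := k)
  -- properties of the action
  have hact_mul : ∀ σ τ m, act (σ * τ) m = act σ (act τ m) := fun σ τ m => hφ.injective <|
    AlgHom.ext fun a => by simp [hφ.gal]
  have hact_add : ∀ σ m n, act σ (m + n) = act σ m + act σ n := fun σ m n => hφ.injective <| by
    refine AlgHom.ext fun a => ?_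
    obtain ⟨x, hx⟩ := hφ.comul a
    have hpm : productMap (φ (act σ m)) (φ (act σ n)) = galComp k σ (productMap (φ m) (φ n)) :=
      Algebra.TensorProduct.ext' fun u v => by simp [hφ.gal]
    rw [hφ.gal, galComp_apply, ← hx, ← hx, hpm, galComp_apply]
  have hact_zero : ∀ σ, act σ 0 = 0 := fun σ => by
    have := hact_add σ 0 0
    rwa [add_zero, eq_comm, add_eq_left] at this
  have hact_neg : ∀ σ m, act σ (-m) = -act σ m := fun σ m => by
    rw [eq_neg_iff_add_eq_zero, ← hact_add, neg_add_cancel, hact_zero]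
  have hact'_mul : ∀ σ τ m, act' (σ * τ) m = act' σ (act' τ m) := fun σ τ m => by
    rw [hact', hact', hact', map_mul, hact_mul, ← hcomm τ σ]
    rfl
  have hact'_one : ∀ m, act' 1 m = m := fun m => by
    have h1 : act 1 m = m := hφ.injective <| AlgHom.ext fun a => by simp [hφ.gal]
    rw [hact', map_one, h1]
    rfl
  have hact'_add : ∀ σ m n, act' σ (m + n) = act' σ m + act' σ n := fun σ m n => by
    rw [hact', hact', hact', hact_add, map_add]
  have hact'_zero : ∀ σ, act' σ 0 = 0 := fun σ => by rw [hact', hact_zero, map_zero]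
  have hact'_neg : ∀ σ m, act' σ (-m) = -act' σ m := fun σ m => by
    rw [hact', hact', hact_neg, map_neg]
  -- cosets of the fixator
  have := finite_quotient_coverFixator (k := k) S
  let G := (K ≃ₐ[k] K) ⧸ coverFixator (k := k) S
  let : Fintype G := Fintype.ofFinite G
  have hout : ∀ (τ : K ≃ₐ[k] K) (q : G),
      ((τ • q).out)⁻¹ * (τ * q.out) ∈ coverFixator (k := k) S := fun τ q => by
    refine QuotientGroup.eq.1 ?_
    rw [QuotientGroup.out_eq', ← smul_eq_mul, ← MulAction.Quotient.smul_coe, QuotientGroup.out_eq']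
  have hout1 : ((1 : K ≃ₐ[k] K) : G).out ∈ coverFixator (k := k) S := by
    have := QuotientGroup.eq.1 (QuotientGroup.out_eq' ((1 : K ≃ₐ[k] K) : G))
    simpa using inv_mem this
  -- the semilinear action on functions
  let star : (K ≃ₐ[k] K) → (M → K) →ₐ[R] (M → K) := fun σ => AlgHom.pi
    fun m => galComp k σ (Pi.evalAlgHom R (fun _ : M => K) (act' σ⁻¹ m))
  have hstar : ∀ σ F m, star σ F m = σ (F (act' σ⁻¹ m)) := fun σ F m => rfl
  have hstar_mul : ∀ σ τ F, star (σ * τ) F = star σ (star τ F) := fun σ τ F => funext fun m => by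
    rw [hstar, hstar, hstar, mul_inv_rev, hact'_mul]
    rfl
  -- generators
  obtain ⟨sA, hsA⟩ := Module.Finite.fg_top (R := R) (M := A)
  obtain ⟨sS, hsS⟩ := Module.Finite.fg_top (R := R) (M := S)
  let pull : AddMonoid.End M → A →ₐ[R] (M → K) := fun v =>
    AlgHom.pi fun m => φ (v m)
  let const : S →ₐ[R] (M → K) := AlgHom.pi fun _ => S.val
  let gens : Set (M → K) :=
    (⋃ v ∈ Set.range ψ, pull v '' (sA : Set A)) ∪ const '' (sS : Set S)
  have hgfin : gens.Finite :=
    ((Set.toFinite (Set.range ψ)).biUnion fun v _ => sA.finite_toSet.image _).union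
      (sS.finite_toSet.image _)
  let B : Subalgebra R (M → K) := Algebra.adjoin R gens
  have hgint : ∀ F ∈ gens, IsIntegral R F := by
    rintro F (hF | ⟨y, -, rfl⟩)
    · obtain ⟨v, -, a, -, rfl⟩ := Set.mem_iUnion₂.1 hF
      exact (Algebra.IsIntegral.isIntegral a).map (pull v)
    · exact (Algebra.IsIntegral.isIntegral y).map const
  have : Module.Finite R B :=
    Algebra.finite_adjoin_of_finite_of_isIntegral hgfin hgint
  have hpullB : ∀ σ a, pull (ψ σ) a ∈ B := by
    intro σ a
    have ha : a ∈ Submodule.span R (sA : Set A) := hsA ▸ Submodule.mem_top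
    have hle : Submodule.span R (sA : Set A) ≤
        (Subalgebra.toSubmodule B).comap (pull (ψ σ)).toLinearMap :=
      Submodule.span_le.2 fun x hx => Algebra.subset_adjoin
        (Or.inl (Set.mem_iUnion₂.2 ⟨_, ⟨σ, rfl⟩, x, hx, rfl⟩))
    exact hle ha
  have hconstB : ∀ y, const y ∈ B := by
    intro y
    have hy : y ∈ Submodule.span R (sS : Set S) := hsS ▸ Submodule.mem_top
    have hle : Submodule.span R (sS : Set S) ≤
        (Subalgebra.toSubmodule B).comap const.toLinearMap :=
      Submodule.span_le.2 fun x hx => Algebra.subset_adjoin (Or.inr ⟨x, hx, rfl⟩)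
    exact hle hy
  have hstar_pull : ∀ σ τ a, star σ (pull (ψ τ) a) = pull (ψ (τ * σ⁻¹)) a :=
    fun σ τ a => funext fun m => by
      show σ (φ (ψ τ (act' σ⁻¹ m)) a) = φ (ψ (τ * σ⁻¹) m) a
      rw [hact', hcomm σ⁻¹, hcomm τ, hφ.gal, map_mul]
      simp
  have hstarB : ∀ σ F, F ∈ B → star σ F ∈ B := by
    intro σ F hF
    have hle : B ≤ B.comap (star σ) := Algebra.adjoin_le fun F hF => by
      rcases hF with hF | ⟨y, -, rfl⟩
      · obtain ⟨_, ⟨τ, rfl⟩, a, -, rfl⟩ := Set.mem_iUnion₂.1 hF
        show star σ (pull (ψ τ) a) ∈ B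
        rw [hstar_pull]
        exact hpullB _ _
      · exact hconstB ⟨σ (y : K), hstab σ y y.2⟩
    exact hle hF
  have hstar_fix : ∀ σ ∈ coverFixator (k := k) S, ∀ F ∈ B, star σ F = F := by
    intro σ hσ
    have hle : B ≤ AlgHom.equalizer (star σ) (AlgHom.id R (M → K)) :=
      Algebra.adjoin_le fun F hF => by
        rcases hF with hF | ⟨y, -, rfl⟩
        · obtain ⟨_, ⟨τ, rfl⟩, a, -, rfl⟩ := Set.mem_iUnion₂.1 hF
          show star σ (pull (ψ τ) a) = pull (ψ τ) a
          rw [hstar_pull, map_mul, hker _ (inv_mem hσ), mul_one]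
        · exact funext fun m => hσ y y.2
    exact fun F hF => hle hF
  -- the descended algebra
  let A' : Subalgebra R (M → K) := B ⊓ ⨅ σ, AlgHom.equalizer (star σ) (AlgHom.id R (M → K))
  have hA' : ∀ F, F ∈ A' ↔ F ∈ B ∧ ∀ σ, star σ F = F := fun F => by
    simp [A', Algebra.mem_inf, Algebra.mem_iInf, AlgHom.mem_equalizer]
  have : IsNoetherian R B := isNoetherian_of_isNoetherianRing_of_finite R B
  have : Module.Finite R A' :=
    Module.Finite.of_injective (Subalgebra.inclusion (inf_le_left : A' ≤ B)).toLinearMap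
      (Subalgebra.inclusion_injective (inf_le_left : A' ≤ B))
  let tr : (M → K) → (M → K) := fun F => ∑ q : G, star q.out F
  have htr : ∀ F ∈ B, tr F ∈ A' := by
    intro F hF
    refine (hA' _).2 ⟨sum_mem fun q _ => hstarB _ _ hF, fun τ => ?_⟩
    rw [map_sum]
    refine Fintype.sum_equiv (MulAction.toPerm τ) _ _ fun q => ?_
    show star τ (star q.out F) = star (τ • q).out F
    rw [← hstar_mul]
    conv_lhs => rw [← mul_inv_cancel_left (τ • q).out (τ * q.out), hstar_mul,
      hstar_fix _ (hout τ q) F hF]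
  -- the separability idempotent
  obtain ⟨l, hlS, hl1, hl0⟩ := exists_separating_pairs (k := k) S hunit
    ((Finset.univ.filter fun q : G => q ≠ ((1 : K ≃ₐ[k] K) : G)).image Quotient.out) (by
      intro σ hσ hmem
      obtain ⟨q, hq, rfl⟩ := Finset.mem_image.1 hσ
      refine (Finset.mem_filter.1 hq).2 ?_
      rw [← QuotientGroup.out_eq' q, QuotientGroup.eq]
      simpa using inv_mem hmem)
  have hdelta : ∀ q : G, (l.map fun z => z.1 * q.out z.2).sum
      = if q = ((1 : K ≃ₐ[k] K) : G) then 1 else 0 := by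
    intro q
    split_ifs with hq
    · subst hq
      rw [← hl1]
      exact congrArg List.sum (List.map_congr_left fun z hz => by rw [hout1 _ (hlS z hz).2])
    · exact hl0 _ (Finset.mem_image.2 ⟨q, Finset.mem_filter.2 ⟨Finset.mem_univ _, hq⟩, rfl⟩)
  -- every function in `B` is an `S`-combination of descended ones
  have hdecomp : ∀ F ∈ B, ∃ n : ℕ, ∃ (x : Fin n → K) (T : Fin n → (M → K)),
      (∀ i, x i ∈ S) ∧ (∀ i, T i ∈ A') ∧ ∀ m, F m = ∑ i, x i * T i m := by
    intro F hF
    refine ⟨l.length, fun i => l[i].1, fun i => tr ((fun _ => l[i].2) * F),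
      fun i => (hlS _ (List.getElem_mem i.isLt)).1,
      fun i => htr _ (mul_mem (hconstB ⟨_, (hlS _ (List.getElem_mem i.isLt)).2⟩) hF), fun m => ?_⟩
    calc F m = ∑ q : G, (if q = ((1 : K ≃ₐ[k] K) : G) then 1 else 0) * star q.out F m := by
          rw [Finset.sum_eq_single ((1 : K ≃ₐ[k] K) : G) (fun q _ hq => by simp [hq])
            (fun h => absurd (Finset.mem_univ _) h), if_pos rfl, one_mul,
            hstar_fix _ hout1 F hF]
      _ = ∑ q : G, ∑ i : Fin l.length, l[i].1 * q.out l[i].2 * star q.out F m := by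
          refine Finset.sum_congr rfl fun q _ => ?_
          rw [← hdelta q, ← Fin.sum_univ_fun_getElem, Finset.sum_mul]
          rfl
      _ = _ := by
          rw [Finset.sum_comm]
          refine Finset.sum_congr rfl fun i _ => ?_
          simp only [tr, Finset.sum_apply, Finset.mul_sum]
          refine Finset.sum_congr rfl fun q _ => ?_
          simp only [hstar, Pi.mul_apply, map_mul, mul_assoc]
  -- an element of trace one
  have hint : ∀ z ∈ S, IsIntegral R z := fun z hz =>
    (Algebra.IsIntegral.isIntegral (⟨z, hz⟩ : S)).map S.val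
  have htrace : ∀ z ∈ S, ∃ r : R, algebraMap R K r = ∑ q : G, q.out z := by
    intro z hz
    refine mem_range_of_fixed (k := k) (IsIntegral.sum _ fun q _ => hint _ (hstab _ z hz))
      fun τ => ?_
    rw [map_sum]
    refine Fintype.sum_equiv (MulAction.toPerm τ) _ _ fun q => ?_
    show τ (q.out z) = (τ • q).out z
    have := congrArg (τ • q).out (hout τ q z hz)
    simpa using this
  obtain ⟨θ, hθS, hθ⟩ : ∃ θ ∈ S, ∑ q : G, q.out θ = 1 := by
    have : ∀ i : Fin l.length, ∃ r : R, algebraMap R K r = ∑ q : G, q.out l[i].2 :=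
      fun i => htrace _ (hlS _ (List.getElem_mem i.isLt)).2
    choose r hr using this
    have hsum : ∑ i : Fin l.length, l[i].1 * algebraMap R K (r i) = 1 := by
      simp_rw [hr, Finset.mul_sum]
      rw [Finset.sum_comm]
      have : ∀ q : G, ∑ i : Fin l.length, l[i].1 * q.out l[i].2
          = if q = ((1 : K ≃ₐ[k] K) : G) then 1 else 0 := fun q => by
        rw [← hdelta q, ← Fin.sum_univ_fun_getElem]
        rfl
      rw [Finset.sum_congr rfl fun q _ => this q, Finset.sum_ite_eq', if_pos (Finset.mem_univ _)]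
    have : Algebra.IsIntegral R S := Algebra.IsIntegral.of_finite R S
    have hI : Ideal.span (Set.range r) = ⊤ := by
      by_contra hI
      obtain ⟨P, hP, hle⟩ := Ideal.exists_le_maximal _ hI
      have hRS : RingHom.ker (algebraMap R S) ≤ P := fun a ha => by
        have : algebraMap R K a = 0 := congrArg Subtype.val (RingHom.mem_ker.1 ha)
        rw [(map_eq_zero_iff _ hR).1 this]
        exact zero_mem P
      obtain ⟨Q, hQ, hQP⟩ := Ideal.exists_ideal_over_maximal_of_isIntegral P hRS
      refine hQ.ne_top ((Ideal.eq_top_iff_one _).2 ?_)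
      have hone : (1 : S) = ∑ i : Fin l.length,
          (⟨l[i].1, (hlS _ (List.getElem_mem i.isLt)).1⟩ : S) * algebraMap R S (r i) :=
        Subtype.ext (by simp [hsum.symm])
      rw [hone]
      refine sum_mem fun i _ => Q.mul_mem_left _ ?_
      rw [← Ideal.mem_comap, hQP]
      exact hle (Ideal.subset_span ⟨i, rfl⟩)
    obtain ⟨c, hc⟩ := (Submodule.mem_span_range_iff_exists_fun R).1
      ((Ideal.eq_top_iff_one _).1 hI)
    refine ⟨∑ i : Fin l.length, c i • l[i].2,
      sum_mem fun i _ => S.smul_mem (hlS _ (List.getElem_mem i.isLt)).2 _, ?_⟩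
    simp_rw [map_sum, Algebra.smul_def, map_mul]
    rw [Finset.sum_comm, ← map_one (algebraMap R K), ← hc, map_sum]
    refine Finset.sum_congr rfl fun i _ => ?_
    rw [smul_eq_mul, map_mul, hr, Finset.mul_sum]
    refine Finset.sum_congr rfl fun q _ => ?_
    rw [IsScalarTower.algebraMap_apply R k K, AlgEquiv.commutes]
  -- points
  let ev : M → A' →ₐ[R] K := fun m => (Pi.evalAlgHom R (fun _ : M => K) m).comp A'.val
  let evB : M → B →ₐ[R] K := fun m => (Pi.evalAlgHom R (fun _ : M => K) m).comp B.val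
  have hev : ∀ m (F : A'), ev m F = (F : M → K) m := fun _ _ => rfl
  have hB_comul : ∀ F ∈ B, ∃ x : B ⊗[R] B,
      ∀ m n, productMap (evB m) (evB n) x = F (m + n) := by
    let C : Subalgebra R (M → K) :=
      { carrier := {F | ∃ x : B ⊗[R] B, ∀ m n, productMap (evB m) (evB n) x = F (m + n)}
        mul_mem' := fun {F F'} ⟨x, hx⟩ ⟨y, hy⟩ =>
          ⟨x * y, fun m n => by rw [map_mul, hx, hy]; rfl⟩
        add_mem' := fun {F F'} ⟨x, hx⟩ ⟨y, hy⟩ =>
          ⟨x + y, fun m n => by rw [map_add, hx, hy]; rfl⟩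
        algebraMap_mem' := fun r =>
          ⟨algebraMap R _ r, fun m n => by rw [AlgHom.commutes]; rfl⟩ }
    have hle : B ≤ C := Algebra.adjoin_le fun F hF => by
      rcases hF with hF | ⟨y, -, rfl⟩
      · obtain ⟨_, ⟨τ, rfl⟩, a, -, rfl⟩ := Set.mem_iUnion₂.1 hF
        obtain ⟨x, hx⟩ := hφ.comul a
        let P := (pull (ψ τ)).codRestrict B (hpullB τ)
        refine ⟨Algebra.TensorProduct.map P P x, fun m n => ?_⟩
        have hc : (productMap (evB m) (evB n)).comp (Algebra.TensorProduct.map P P) =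
            productMap (φ (ψ τ m)) (φ (ψ τ n)) :=
          Algebra.TensorProduct.ext' fun u v => by simp [P, evB, pull]
        refine (AlgHom.congr_fun hc x).trans ((hx _ _).trans ?_)
        rw [← map_add]
        rfl
      · exact ⟨⟨const y, hconstB y⟩ ⊗ₜ[R] (1 : B), fun m n => by simp [evB, const]⟩
    exact fun F hF => hle hF
  have hgalA : ∀ F ∈ A', ∀ σ m, F (act' σ m) = σ (F m) := fun F hF σ m => by
    conv_lhs => rw [← ((hA' F).1 hF).2 σ]
    rw [hstar, ← hact'_mul, inv_mul_cancel, hact'_one]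
  -- averaged co-multiplication
  have hdescend : ∀ x : B ⊗[R] B, ∃ z : A' ⊗[R] A', ∀ m n, productMap (ev m) (ev n) z =
      ∑ q : G, q.out θ * q.out
        (productMap (evB (act' q.out⁻¹ m)) (evB (act' q.out⁻¹ n)) x) := by
    intro x
    induction x with
    | zero => exact ⟨0, fun m n => by simp⟩
    | add x y hx hy =>
      obtain ⟨z, hz⟩ := hx
      obtain ⟨w, hw⟩ := hy
      exact ⟨z + w, fun m n => by simp [hz, hw, mul_add, Finset.sum_add_distrib]⟩
    | tmul u v =>
      obtain ⟨a, x₁, T₁, hx₁, hT₁, hd₁⟩ := hdecomp _ u.2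
      obtain ⟨b, x₂, T₂, hx₂, hT₂, hd₂⟩ := hdecomp _ v.2
      choose r hr using fun (i : Fin a) (j : Fin b) =>
        htrace _ (mul_mem hθS (mul_mem (hx₁ i) (hx₂ j)))
      refine ⟨∑ i, ∑ j, r i j • ((⟨T₁ i, hT₁ i⟩ : A') ⊗ₜ[R] (⟨T₂ j, hT₂ j⟩ : A')),
        fun m n => ?_⟩
      calc _ = ∑ i, ∑ j, ∑ q : G, q.out (θ * (x₁ i * x₂ j)) * (T₁ i m * T₂ j n) := by
            simp [map_sum, Algebra.smul_def, hr, hev, Finset.sum_mul]
        _ = ∑ q : G, ∑ i, ∑ j, q.out (θ * (x₁ i * x₂ j)) * (T₁ i m * T₂ j n) := by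
            exact (Finset.sum_congr rfl fun i _ => Finset.sum_comm).trans Finset.sum_comm
        _ = _ := by
            refine Finset.sum_congr rfl fun q _ => ?_
            simp only [productMap_apply_tmul, evB, AlgHom.comp_apply, Subalgebra.coe_val,
              Pi.evalAlgHom_apply, hd₁, hd₂, map_mul, map_sum]
            simp only [fun i => hgalA _ (hT₁ i) q.out⁻¹ m, fun j => hgalA _ (hT₂ j) q.out⁻¹ n,
              show ∀ z : K, q.out (q.out⁻¹ z) = z from fun z => q.out.apply_symm_apply z]
            rw [Finset.sum_mul_sum, Finset.mul_sum]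
            refine Finset.sum_congr rfl fun i _ => ?_
            rw [Finset.mul_sum]
            exact Finset.sum_congr rfl fun j _ => by ring
  refine IsPointFamily.hasModel (A := A') (φ := ev)
    ⟨fun m n hmn => hφ.injective (AlgHom.ext fun a => ?_),
      fun σ m => AlgHom.ext fun F => hgalA _ F.2 σ m, fun F => ?_, fun F => ?_, fun F => ?_⟩
  · obtain ⟨d, x, T, -, hT, hd⟩ := hdecomp _ (hpullB 1 a)
    have h1 : ∀ m, φ m a = ∑ i, x i * T i m := fun m => by
      rw [← hd]
      show φ m a = φ (ψ 1 m) a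
      rw [map_one]
      rfl
    rw [h1, h1]
    exact Finset.sum_congr rfl fun i _ =>
      congrArg (x i * ·) (AlgHom.congr_fun hmn ⟨T i, hT i⟩)
  · obtain ⟨x, hx⟩ := hB_comul _ ((hA' _).1 F.2).1
    obtain ⟨z, hz⟩ := hdescend x
    refine ⟨z, fun m n => ?_⟩
    simp only [hz, hx, ← hact'_add, hgalA _ F.2, ← Finset.sum_mul, hθ, hev,
      show ∀ (σ : K ≃ₐ[k] K) (z : K), σ (σ⁻¹ z) = z from fun σ z => σ.apply_symm_apply z, one_mul]
  · refine mem_range_of_fixed (k := k) ((Algebra.IsIntegral.isIntegral F).map (ev 0)) fun σ => ?_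
    have := hgalA _ F.2 σ 0
    rw [hact'_zero] at this
    exact this.symm
  · -- negation
    let neg : (M → K) →ₐ[R] (M → K) :=
      AlgHom.pi fun m => Pi.evalAlgHom R (fun _ : M => K) (-m)
    have hle : B ≤ B.comap neg := Algebra.adjoin_le fun F hF => by
      rcases hF with hF | ⟨y, -, rfl⟩
      · obtain ⟨_, ⟨τ, rfl⟩, a, -, rfl⟩ := Set.mem_iUnion₂.1 hF
        obtain ⟨b, hb⟩ := hφ.neg a
        have : neg (pull (ψ τ) a) = pull (ψ τ) b := funext fun m => by
          show φ (ψ τ (-m)) a = φ (ψ τ m) b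
          rw [map_neg, hb]
        show neg (pull (ψ τ) a) ∈ B
        rw [this]
        exact hpullB τ b
      · exact hconstB y
    refine ⟨⟨neg F, (hA' _).2 ⟨hle ((hA' _).1 F.2).1, fun σ => funext fun m => ?_⟩⟩, fun m => rfl⟩
    show σ ((F : M → K) (-act' σ⁻¹ m)) = (F : M → K) (-m)
    rw [← hact'_neg, hgalA _ F.2]
    exact σ.apply_symm_apply _

end FermatLib.Galois.FlatModel
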