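import Fermat.Agent.Mazur.GunitFiniteLevel
import Fermat.Agent.Mazur.LocalLemmas
import Fermat.Agent.EC.InertiaMinkowski
import Fermat.Agent.Basic.FrobeniusExists
import Mathlib.FieldTheory.Normal.Closure
import Mathlib.RingTheory.Valuation.ValuationSubring
import Mathlib.RingTheory.IntegralDomain
import Mathlib.LinearAlgebra.Lagrange

/-!
# Descent of lattices of functions at a place of `ℚ̄`

Tools to pass from a decomposition-stable lattice of `ℚ̄`-valued functions on a finite Galois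
module, spanned by inertia-invariant functions, to globally equivariant functions.
-/

set_option autoImplicit false

noncomputable section

open Polynomial
open scoped Pointwise

namespace FermatLib.Galois.LocalDescent

local notation "Qbar" => AlgebraicClosure ℚ
local notation "Γℚ" => (AlgebraicClosure ℚ ≃ₐ[ℚ] AlgebraicClosure ℚ)

variable {M : Type*} [MulAction Γℚ M]

/-- The twisted action on functions. -/
def twist (σ : Γℚ) (f : M → Qbar) : M → Qbar := fun m => σ (f (σ⁻¹ • m))

theorem twist_apply (σ : Γℚ) (f : M → Qbar) (m : M) : twist σ f m = σ (f (σ⁻¹ • m)) := rfl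

theorem twist_mul (σ τ : Γℚ) (f : M → Qbar) : twist (σ * τ) f = twist σ (twist τ f) := by
  funext m
  simp [twist_apply, mul_smul, AlgEquiv.mul_apply]

theorem twist_one (f : M → Qbar) : twist 1 f = f := by
  funext m
  simp [twist_apply]

theorem twist_add (σ : Γℚ) (f g : M → Qbar) : twist σ (f + g) = twist σ f + twist σ g := by
  funext m
  simp [twist_apply]

theorem twist_prod_mul (σ : Γℚ) (f g : M → Qbar) : twist σ (f * g) = twist σ f * twist σ g := by
  funext m
  simp [twist_apply]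

theorem twist_smul (σ : Γℚ) (c : Qbar) (f : M → Qbar) :
    twist σ (c • f) = σ c • twist σ f := by
  funext m
  simp [twist_apply]

theorem twist_sum {ι : Type*} (σ : Γℚ) (s : Finset ι) (f : ι → M → Qbar) :
    twist σ (∑ i ∈ s, f i) = ∑ i ∈ s, twist σ (f i) := by
  funext m
  simp [twist_apply, map_sum]

theorem twist_eq_self_iff (σ : Γℚ) (f : M → Qbar) :
    twist σ f = f ↔ ∀ m, f (σ • m) = σ (f m) := by
  constructor
  · intro h m
    conv_lhs => rw [← h, twist_apply, inv_smul_smul]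
  · intro h
    funext m
    rw [twist_apply, ← h, smul_inv_smul]

/-- **Lagrange trace.** If every element of `D` fixing `α` fixes `f`, and the differences of the
conjugates of `α` are units of `O`, then `f` is an `O`-combination of `D`-invariant functions. -/
theorem mem_span_fixed (D : Subgroup Γℚ) {O : Type*} [CommRing O] [Algebra O Qbar]
    (B : Submodule O (M → Qbar)) (hB : ∀ σ ∈ D, ∀ f ∈ B, twist σ f ∈ B)
    (α : Qbar) {f : M → Qbar} (hf : f ∈ B)
    (hfix : ∀ σ ∈ D, σ α = α → twist σ f = f)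
    (hint : ∀ σ ∈ D, σ α ∈ Set.range (algebraMap O Qbar))
    (hinv : ∀ σ ∈ D, σ α ≠ α → (α - σ α)⁻¹ ∈ Set.range (algebraMap O Qbar)) :
    f ∈ Submodule.span O {h | h ∈ B ∧ ∀ σ ∈ D, twist σ h = h} := by
  classical
  let Z : Set Qbar := {z | ∃ σ ∈ D, σ α = z}
  have hαint : IsIntegral ℚ α :=
    have : Algebra.IsAlgebraic ℚ Qbar := AlgebraicClosure.isAlgebraic ℚ
    (Algebra.IsAlgebraic.isAlgebraic α).isIntegral
  have hZ : Z.Finite := by
    refine Set.Finite.subset ((minpoly ℚ α).rootSet_finite Qbar) ?_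
    rintro _ ⟨σ, -, rfl⟩
    rw [mem_rootSet]
    exact ⟨minpoly.ne_zero hαint, by
      have := congrArg σ (minpoly.aeval ℚ α)
      rwa [map_zero, ← aeval_algHom_apply] at this⟩
  have : Fintype Z := hZ.fintype
  choose s hsD hs using fun z : Z => z.2
  let F : Z → M → Qbar := fun z => twist (s z) f
  have hF : ∀ (σ : Γℚ) (z : Z), σ ∈ D → σ α = z → twist σ f = F z := by
    intro σ z hσ hz
    have h1 : ((s z)⁻¹ * σ) α = α := by
      rw [AlgEquiv.mul_apply, hz, ← hs z]
      exact (s z).symm_apply_apply α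
    have h2 := congrArg (twist (s z)) (hfix _ (D.mul_mem (D.inv_mem (hsD z)) hσ) h1)
    rwa [← twist_mul, mul_inv_cancel_left] at h2
  let e : Z := ⟨α, 1, D.one_mem, rfl⟩
  have hFe : F e = f := by rw [← hF 1 e D.one_mem rfl, twist_one]
  -- the invariant combinations
  let h : ℕ → M → Qbar := fun j => ∑ z : Z, (z : Qbar) ^ j • F z
  have hBF : ∀ z, F z ∈ B := fun z => hB _ (hsD z) f hf
  have hmem : ∀ j, h j ∈ B := fun j => Submodule.sum_mem _ fun z _ => by
    obtain ⟨t, ht⟩ := hint _ (hsD z)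
    rw [← hs z, ← ht, ← map_pow, algebraMap_smul]
    exact B.smul_mem _ (hBF z)
  have hperm : ∀ τ ∈ D, ∀ j, twist τ (h j) = h j := by
    intro τ hτ j
    let π : Z ≃ Z :=
      { toFun := fun z => ⟨τ z, τ * s z, D.mul_mem hτ (hsD z), by
          rw [AlgEquiv.mul_apply, hs]⟩
        invFun := fun z => ⟨τ⁻¹ z, τ⁻¹ * s z, D.mul_mem (D.inv_mem hτ) (hsD z), by
          rw [AlgEquiv.mul_apply, hs]⟩
        left_inv := fun z => Subtype.ext (τ.symm_apply_apply _)
        right_inv := fun z => Subtype.ext (τ.apply_symm_apply _) }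
    rw [twist_sum]
    refine Fintype.sum_equiv π _ _ fun z => ?_
    rw [twist_smul, map_pow, ← twist_mul, hF (τ * s z) (π z) (D.mul_mem hτ (hsD z))
      (by rw [AlgEquiv.mul_apply, hs]; rfl)]
    rfl
  -- the Lagrange polynomial with coefficients in `O`
  have hP : ∀ t : Finset Z, (∀ z ∈ t, (z : Qbar) ≠ α) →
      ∃ P : O[X], aeval α P = 1 ∧ ∀ z ∈ t, aeval (z : Qbar) P = 0 := by
    intro t
    induction t using Finset.induction_on with
    | empty => exact fun _ => ⟨1, by simp⟩
    | insert z t hzt ih =>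
      intro hne
      obtain ⟨P, hP1, hP0⟩ := ih fun w hw => hne w (Finset.mem_insert_of_mem hw)
      obtain ⟨a, ha⟩ := hint _ (hsD z)
      obtain ⟨b, hb⟩ := hinv _ (hsD z) (by rw [hs]; exact hne z (Finset.mem_insert_self ..))
      rw [hs] at ha hb
      refine ⟨P * (C b * (X - C a)), ?_, ?_⟩
      · have : α - (z : Qbar) ≠ 0 :=
          sub_ne_zero.mpr (Ne.symm (hne z (Finset.mem_insert_self ..)))
        simp [hP1, ha, hb, this]
      · intro w hw
        rcases Finset.mem_insert.mp hw with rfl | hw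
        · simp [ha]
        · simp [hP0 w hw]
  obtain ⟨P, hP1, hP0⟩ := hP (Finset.univ.erase e) fun z hz hzα =>
    Finset.ne_of_mem_erase hz (Subtype.ext hzα)
  have key : f = P.sum fun j c => c • h j := by
    rw [Polynomial.sum_def]
    calc f = ∑ z : Z, aeval (z : Qbar) P • F z := by
          rw [Finset.sum_eq_single e (fun z _ hz => by
            rw [hP0 z (Finset.mem_erase.mpr ⟨hz, Finset.mem_univ z⟩), zero_smul])
            (by simp), hP1, one_smul, hFe]
      _ = _ := by
          simp only [aeval_eq_sum_range, h, Finset.smul_sum, Finset.sum_smul]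
          rw [Finset.sum_comm]
          refine (Finset.sum_subset (fun j hj => Finset.mem_range.mpr
            (Nat.lt_succ_of_le (le_natDegree_of_mem_supp j hj))) fun j _ hj => ?_).symm.trans ?_
          · simp [notMem_support_iff.mp hj]
          · refine Finset.sum_congr rfl fun j _ => Finset.sum_congr rfl fun z _ => ?_
            rw [smul_assoc]
  rw [key, Polynomial.sum_def]
  exact Submodule.sum_mem _ fun j _ =>
    Submodule.smul_mem _ _ (Submodule.subset_span ⟨hmem j, fun τ hτ => hperm τ hτ j⟩)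

section Place

variable (V : ValuationSubring Qbar)

theorem apply_mem_of_mem_decomposition {σ : Γℚ} (hσ : σ ∈ V.decompositionSubgroup ℚ) {x : Qbar}
    (hx : x ∈ V) : σ x ∈ V := by
  have h : σ • x ∈ σ • V := ValuationSubring.smul_mem_pointwise_smul σ x V hx
  rwa [show σ • V = V from hσ] at h

theorem apply_mem_nonunits {σ : Γℚ} (hσ : σ ∈ V.decompositionSubgroup ℚ) {x : Qbar}
    (hx : x ∈ V.nonunits) : σ x ∈ V.nonunits := by
  rw [ValuationSubring.mem_nonunits_iff_exists_mem_maximalIdeal] at hx ⊢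
  obtain ⟨hxV, hxm⟩ := hx
  refine ⟨apply_mem_of_mem_decomposition V hσ hxV, fun ⟨u, hu⟩ => hxm ?_⟩
  refine IsUnit.of_mul_eq_one (b := ⟨σ.symm (u⁻¹ : Vˣ),
    apply_mem_of_mem_decomposition V ((V.decompositionSubgroup ℚ).inv_mem hσ) (u⁻¹ : Vˣ).1.2⟩) ?_
  refine Subtype.ext (σ.injective ?_)
  show σ (x * σ.symm _) = σ 1
  rw [map_mul, AlgEquiv.apply_symm_apply, map_one, ← show ((u : V) : Qbar) = σ x from
    congrArg Subtype.val hu]
  exact congrArg Subtype.val u.mul_inv

theorem mem_decomposition_of_mem_inertia {σ : Γℚ} (hσ : σ ∈ V.inertiaSubgroupIn ℚ) :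
    σ ∈ V.decompositionSubgroup ℚ := by
  obtain ⟨τ, -, rfl⟩ := hσ
  exact τ.2

theorem inv_mem_of_notMem_nonunits {x : Qbar} (hx : x ∈ V) (hnu : x ∉ V.nonunits) :
    x⁻¹ ∈ V := by
  have hu : IsUnit (⟨x, hx⟩ : V) := by
    by_contra h
    exact hnu ((V.coe_mem_nonunits_iff (a := ⟨x, hx⟩)).mpr h)
  obtain ⟨u, hu⟩ := hu
  have hx' : ((u : V) : Qbar) = x := congrArg Subtype.val hu
  have : ((u⁻¹ : Vˣ) : V).1 = x⁻¹ := by
    refine eq_inv_of_mul_eq_one_left ?_
    rw [← hx']
    exact congrArg Subtype.val u.inv_mul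
  rw [← this]
  exact ((u⁻¹ : Vˣ) : V).2

theorem notMem_nonunits_of_inv_mem {x : Qbar} (hx : x ∈ V) (hx0 : x ≠ 0) (hinv : x⁻¹ ∈ V) :
    x ∉ V.nonunits := fun h =>
  (V.coe_mem_nonunits_iff (a := ⟨x, hx⟩)).mp h
    (IsUnit.of_mul_eq_one (b := ⟨x⁻¹, hinv⟩) (Subtype.ext (mul_inv_cancel₀ hx0)))

theorem sub_mem_nonunits' {x y : Qbar} (hx : x ∈ V.nonunits) (hy : y ∈ V.nonunits) :
    x - y ∈ V.nonunits := by
  rw [ValuationSubring.mem_nonunits_iff] at hx hy ⊢
  exact lt_of_le_of_lt (V.valuation.map_sub x y) (max_lt hx hy)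

variable {V} {p : ℕ}

/-- Over a finite level there is a root of unity of order prime to `p` whose stabiliser in the
decomposition group acts on the level through inertia. -/
theorem exists_unramified_generator (hp : p.Prime) (hV : V.LiesOverPrime p)
    (L : IntermediateField ℚ Qbar) [FiniteDimensional ℚ L] [IsGalois ℚ L] :
    ∃ ζ : Qbar,
      (∀ σ ∈ V.decompositionSubgroup ℚ, σ ζ ∈ V ∧ (σ ζ ≠ ζ → (ζ - σ ζ)⁻¹ ∈ V)) ∧
      ∀ σ ∈ V.decompositionSubgroup ℚ, σ ζ = ζ →
        ∃ τ ∈ V.inertiaSubgroupIn ℚ, ∀ x ∈ L, τ x = σ x := by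
  classical
  have : NumberField L := ⟨⟩
  let P := Mazur.levelPrime L V
  have hP0 : P ≠ ⊥ := Mazur.levelPrime_ne_bot hp hV
  have : P.IsMaximal := Ideal.IsPrime.isMaximal inferInstance hP0
  let k := NumberField.RingOfIntegers L ⧸ P
  let _ : Field k := Ideal.Quotient.field P
  have : Finite k := Ideal.finiteQuotientOfFreeOfNeBot _ hP0
  have : Fintype k := Fintype.ofFinite k
  obtain ⟨g, hg⟩ := IsCyclic.exists_generator (α := kˣ)
  obtain ⟨a, ha⟩ := Ideal.Quotient.mk_surjective (g : k)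
  set n := Fintype.card k - 1 with hn
  have hncard : Fintype.card k = n + 1 := by
    have := Fintype.card_pos (α := k); omega
  have hn0 : 0 < n := by
    have := Fintype.one_lt_card (α := k); omega
  have hpn : n.Coprime p := by
    rw [Nat.coprime_comm, hp.coprime_iff_not_dvd]
    rintro ⟨c, hc⟩
    have h1 : ((Fintype.card k : ℕ) : k) = 0 := Nat.cast_card_eq_zero k
    have hp' : ((p : ℕ) : k) = 0 := by
      rw [← map_natCast (Ideal.Quotient.mk P)]
      exact Ideal.Quotient.eq_zero_iff_mem.mpr (Mazur.natCast_mem_levelPrime hV)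
    rw [hncard, hc, Nat.cast_add, Nat.cast_mul, hp', zero_mul, zero_add, Nat.cast_one] at h1
    exact one_ne_zero h1
  -- roots of unity of order dividing `n`
  let S : Finset Qbar := (nthRoots n (1 : Qbar)).toFinset
  have hS : ∀ {z : Qbar}, z ∈ S ↔ z ^ n = 1 := by
    intro z; simp [S, mem_nthRoots hn0]
  have hzV : ∀ {z : Qbar}, z ^ n = 1 → z ∈ V := fun {z} hz =>
    EC.integral_mem_valuationSubring V (IsIntegral.of_pow hn0 (by rw [hz]; exact isIntegral_one))
  have hinj : ∀ {z w : Qbar}, z ^ n = 1 → w ^ n = 1 → z - w ∈ V.nonunits → z = w := by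
    intro z w hz hw hzw
    have hw0 : w ≠ 0 := fun h => by simp [h, zero_pow hn0.ne'] at hw
    have hwi : w⁻¹ ∈ V := hzV (by rw [inv_pow, hw, inv_one])
    have : z * w⁻¹ - 1 ∈ V.nonunits := by
      rw [show z * w⁻¹ - 1 = (z - w) * w⁻¹ by rw [sub_mul, mul_inv_cancel₀ hw0]]
      obtain ⟨h1, h2⟩ := V.mem_nonunits_iff_exists_mem_maximalIdeal.mp hzw
      exact V.mem_nonunits_iff_exists_mem_maximalIdeal.mpr
        ⟨mul_mem h1 hwi, Ideal.mul_mem_right (⟨w⁻¹, hwi⟩ : V) _ h2⟩
    have h1 := Mazur.eq_one_of_pow_eq_one_of_sub_one_mem hV hpn hn0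
      (by rw [mul_pow, hz, inv_pow, hw, inv_one, one_mul]) this
    rw [mul_inv_eq_one₀ hw0] at h1
    exact h1
  obtain ⟨ζ, hζn, hζ⟩ : ∃ ζ : Qbar, ζ ^ n = 1 ∧ ((a : L) : Qbar) - ζ ∈ V.nonunits := by
    have hprim : ∃ η : Qbar, IsPrimitiveRoot η n := by
      have : NeZero (n : Qbar) := ⟨Nat.cast_ne_zero.mpr hn0.ne'⟩
      exact HasEnoughRootsOfUnity.exists_primitiveRoot Qbar n
    obtain ⟨η, hη⟩ := hprim
    have hprod : ((a : L) : Qbar) ^ n - 1 = ∏ z ∈ nthRootsFinset n (1 : Qbar),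
        (((a : L) : Qbar) - z) := by
      have := congrArg (fun q : Qbar[X] => q.eval ((a : L) : Qbar))
        (X_pow_sub_one_eq_prod hn0 hη)
      simpa [eval_prod] using this
    have hmem : ((a : L) : Qbar) ^ n - 1 ∈ V.nonunits := by
      have : a ^ n - 1 ∈ P := by
        rw [← Ideal.Quotient.eq_zero_iff_mem, map_sub, map_pow, map_one, ha, hn,
          FiniteField.pow_card_sub_one_eq_one _ g.ne_zero, sub_self]
      have h2 := Mazur.mem_levelPrime_iff.mp this
      push_cast at h2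
      exact h2
    have haV : ((a : L) : Qbar) ∈ V := (Mazur.levelToPlace L V a).2
    have hzmem : ∀ z ∈ nthRootsFinset n (1 : Qbar), ((a : L) : Qbar) - z ∈ V := fun z hz =>
      sub_mem haV (hzV ((mem_nthRootsFinset hn0 (1 : Qbar)).mp hz))
    by_contra hnone
    push Not at hnone
    rw [hprod] at hmem
    have : ∀ t : Finset Qbar, t ⊆ nthRootsFinset n (1 : Qbar) →
        ∏ z ∈ t, (((a : L) : Qbar) - z) ∈ V ∧
          ∏ z ∈ t, (((a : L) : Qbar) - z) ∉ V.nonunits := by
      intro t ht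
      induction t using Finset.induction_on with
      | empty => exact ⟨by simp [V.one_mem], by simpa using Mazur.one_notMem_nonunits V⟩
      | insert z t hzt ih =>
        obtain ⟨h1, h2⟩ := ih fun w hw => ht (Finset.mem_insert_of_mem hw)
        have hz := ht (Finset.mem_insert_self z t)
        have h3 := hnone z ((mem_nthRootsFinset hn0 (1 : Qbar)).mp hz)
        rw [Finset.prod_insert hzt]
        refine ⟨mul_mem (hzmem z hz) h1, fun h => ?_⟩
        obtain ⟨_, hm⟩ := V.mem_nonunits_iff_exists_mem_maximalIdeal.mp h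
        rcases (IsLocalRing.maximalIdeal.isMaximal V).isPrime.mem_or_mem
          (show (⟨_, hzmem z hz⟩ : V) * ⟨_, h1⟩ ∈ _ from hm) with h' | h'
        · exact h3 (V.mem_nonunits_iff_exists_mem_maximalIdeal.mpr ⟨_, h'⟩)
        · exact h2 (V.mem_nonunits_iff_exists_mem_maximalIdeal.mpr ⟨_, h'⟩)
    exact (this _ subset_rfl).2 hmem
  refine ⟨ζ, fun σ hσ => ⟨apply_mem_of_mem_decomposition V hσ (hzV hζn), fun hne => ?_⟩, ?_⟩
  · have h1 : (σ ζ) ^ n = 1 := by rw [← map_pow, hζn, map_one]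
    exact inv_mem_of_notMem_nonunits V (sub_mem (hzV hζn) (hzV h1))
      fun h => hne (hinj hζn h1 h).symm
  intro σ hσ hσζ
  have hτ : ∀ b b' : NumberField.RingOfIntegers L,
      (b' : L) = σ.restrictNormal L (b : L) → b' - b ∈ P := by
    intro b b' hb
    have hb' : ((b' : L) : Qbar) = σ ((b : L) : Qbar) := by
      rw [hb]; exact AlgEquiv.restrictNormal_commutes σ L (b : L)
    rw [Mazur.mem_levelPrime_iff]
    push_cast
    rw [hb']
    by_cases hbP : b ∈ P
    · exact sub_mem_nonunits' V (apply_mem_nonunits V hσ (Mazur.mem_levelPrime_iff.mp hbP))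
        (Mazur.mem_levelPrime_iff.mp hbP)
    obtain ⟨i, hi⟩ : ∃ i : ℕ, (g : k) ^ i = Ideal.Quotient.mk P b := by
      have hb0 : Ideal.Quotient.mk P b ≠ 0 := fun h => hbP (Ideal.Quotient.eq_zero_iff_mem.mp h)
      obtain ⟨i, hi⟩ := mem_powers_iff_mem_zpowers.mpr (hg (Units.mk0 _ hb0))
      exact ⟨i, by rw [← Units.val_pow_eq_pow_val]; exact congrArg Units.val hi⟩
    have hbi : ((b : L) : Qbar) - ζ ^ i ∈ V.nonunits := by
      have h1 : a ^ i - b ∈ P := by
        rw [← Ideal.Quotient.eq, map_pow, ha, hi]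
      have h2 := Mazur.mem_levelPrime_iff.mp h1
      push_cast at h2
      have h3 : ((a : L) : Qbar) ^ i - ζ ^ i ∈ V.nonunits := by
        obtain ⟨c, hc⟩ := sub_dvd_pow_sub_pow
          (⟨_, (Mazur.levelToPlace L V a).2⟩ : V) (⟨ζ, hzV hζn⟩ : V) i
        obtain ⟨hm0, hm⟩ := V.mem_nonunits_iff_exists_mem_maximalIdeal.mp hζ
        refine (V.coe_mem_nonunits_iff
          (a := (⟨_, (Mazur.levelToPlace L V a).2⟩ : V) ^ i - ⟨ζ, hzV hζn⟩ ^ i)).mpr ?_
        rw [hc]
        exact Ideal.mul_mem_right c (IsLocalRing.maximalIdeal V) hm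
      have := sub_mem_nonunits' V h3 h2
      simpa using this
    have h4 := apply_mem_nonunits V hσ hbi
    rw [map_sub, map_pow, hσζ] at h4
    have := sub_mem_nonunits' V h4 hbi
    simpa using this
  obtain ⟨τ, hτI, hτx⟩ := EC.exists_inertia_lift_at L hp V hV P
    (fun c hc => Mazur.mem_levelPrime_iff.mp hc) (σ.restrictNormal L) hτ
  exact ⟨τ, hτI, fun x hx =>
    (hτx ⟨x, hx⟩).trans (AlgEquiv.restrictNormal_commutes σ L ⟨x, hx⟩)⟩

end Place

end FermatLib.Galois.LocalDescent
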