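import Fermat.Agent.Galois.LocalDescentBasic
import Fermat.Agent.Galois.FlatModelRat
import Mathlib.FieldTheory.PrimitiveElement
import Mathlib.RingTheory.Nakayama

/-!
# From functions at one place to global equivariant functions

A finitely generated lattice `B` of functions on a finite Galois module, stable under the
decomposition group of a place `V ∣ p` and spanned by inertia-invariant functions, is spanned over
`V` by globally equivariant functions.
-/

set_option autoImplicit false

noncomputable section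

open Polynomial
open scoped Pointwise

namespace FermatLib.Galois.LocalDescent

local notation "Qbar" => AlgebraicClosure ℚ
local notation "Γℚ" => (AlgebraicClosure ℚ ≃ₐ[ℚ] AlgebraicClosure ℚ)

variable {M : Type*} [MulAction Γℚ M]

/-- `M` is trivialised by a finite level. -/
def HasLevel (M : Type*) [MulAction Γℚ M] : Prop :=
  ∃ L : IntermediateField ℚ Qbar, FiniteDimensional ℚ L ∧
    ∀ σ : Γℚ, (∀ x ∈ L, σ x = x) → ∀ m : M, σ • m = m

theorem exists_galois_level (hM : HasLevel M) (s : Set Qbar) (hs : s.Finite) :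
    ∃ L : IntermediateField ℚ Qbar, FiniteDimensional ℚ L ∧ IsGalois ℚ L ∧ s ⊆ L ∧
      ∀ σ : Γℚ, (∀ x ∈ L, σ x = x) → ∀ m : M, σ • m = m := by
  obtain ⟨L, hL, hfix⟩ := hM
  have halg : Algebra.IsAlgebraic ℚ Qbar := AlgebraicClosure.isAlgebraic ℚ
  have : IsGalois ℚ Qbar := FlatModel.rat_algebraicClosure_isGalois
  let L₁ : IntermediateField ℚ Qbar := L ⊔ IntermediateField.adjoin ℚ s
  have : FiniteDimensional ℚ (IntermediateField.adjoin ℚ s) := by
    have := hs.to_subtype
    exact IntermediateField.finiteDimensional_adjoin fun x _ =>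
      (Algebra.IsAlgebraic.isAlgebraic x).isIntegral
  have : FiniteDimensional ℚ L₁ := IntermediateField.finiteDimensional_sup _ _
  have : Normal ℚ Qbar := inferInstance
  have : Normal ℚ (IntermediateField.normalClosure ℚ L₁ Qbar) := normalClosure.normal ℚ L₁ Qbar
  have : Algebra.IsSeparable ℚ (IntermediateField.normalClosure ℚ L₁ Qbar) := inferInstance
  refine ⟨IntermediateField.normalClosure ℚ L₁ Qbar, inferInstance, ⟨⟩, ?_,
    fun σ hσ => hfix σ fun x hx => ?_⟩
  · exact fun x hx => L₁.le_normalClosure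
      ((le_sup_right : IntermediateField.adjoin ℚ s ≤ L₁) (IntermediateField.subset_adjoin ℚ s hx))
  · exact hσ x (L₁.le_normalClosure ((le_sup_left : L ≤ L₁) hx))

theorem smul_eq_smul_of_agree {L : IntermediateField ℚ Qbar}
    (hL : ∀ σ : Γℚ, (∀ x ∈ L, σ x = x) → ∀ m : M, σ • m = m) {σ τ : Γℚ}
    (h : ∀ x ∈ L, τ x = σ x) (m : M) : τ • m = σ • m := by
  have := hL (σ⁻¹ * τ) (fun x hx => by
    rw [AlgEquiv.mul_apply, h x hx]; exact σ.symm_apply_apply x) m
  rw [mul_smul, inv_smul_eq_iff] at this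
  exact this

variable (V : ValuationSubring Qbar)

/-- A function fixed by inertia is a combination of functions fixed by decomposition. -/
theorem mem_span_decomposition_fixed {p : ℕ} (hp : p.Prime) (hV : V.LiesOverPrime p)
    (hM : HasLevel M) [Finite M] (B : Submodule V (M → Qbar))
    (hB : ∀ σ ∈ V.decompositionSubgroup ℚ, ∀ f ∈ B, twist σ f ∈ B) {f : M → Qbar} (hf : f ∈ B)
    (hI : ∀ τ ∈ V.inertiaSubgroupIn ℚ, twist τ f = f) :
    f ∈ Submodule.span V {h | h ∈ B ∧ ∀ σ ∈ V.decompositionSubgroup ℚ, twist σ h = h} := by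
  obtain ⟨L, _, _, hsL, hLM⟩ := exists_galois_level hM (Set.range f) (Set.finite_range f)
  obtain ⟨ζ, hζ, hgen⟩ := exists_unramified_generator hp hV L
  refine mem_span_fixed _ B hB ζ hf (fun σ hσ hσζ => ?_) (fun σ hσ => ⟨⟨_, (hζ σ hσ).1⟩, rfl⟩)
    fun σ hσ hne => ⟨⟨_, (hζ σ hσ).2 hne⟩, rfl⟩
  obtain ⟨τ, hτ, hτσ⟩ := hgen σ hσ hσζ
  rw [twist_eq_self_iff]
  intro m
  rw [← hτσ _ (hsL ⟨m, rfl⟩), ← smul_eq_smul_of_agree hLM hτσ m]
  exact (twist_eq_self_iff τ f).mp (hI τ hτ) m

/-- The globally equivariant functions span all functions. -/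
theorem span_equivariant_eq_top (hM : HasLevel M) [Finite M] :
    Submodule.span Qbar {h : M → Qbar | ∀ σ : Γℚ, twist σ h = h} = ⊤ := by
  classical
  obtain ⟨L, _, _, -, hLM⟩ := exists_galois_level hM ∅ Set.finite_empty
  obtain ⟨α, hα⟩ := Field.exists_primitive_element ℚ L
  have hLα : L = IntermediateField.adjoin ℚ {((α : L) : Qbar)} := by
    have h := IntermediateField.lift_adjoin_simple ℚ L α
    exact (IntermediateField.lift_top ℚ L).symm.trans ((congrArg _ hα.symm).trans h)
  refine eq_top_iff.mpr fun f _ => ?_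
  cases nonempty_fintype M
  rw [← Finset.univ_sum_single f]
  refine Submodule.sum_mem _ fun m _ => ?_
  rw [show (Pi.single m (f m) : M → Qbar) = f m • Pi.single m 1 by
    rw [← Pi.single_smul, smul_eq_mul, mul_one]]
  refine Submodule.smul_mem _ _ ?_
  have h := mem_span_fixed (⊤ : Subgroup Γℚ) (⊤ : Submodule Qbar (M → Qbar))
    (fun _ _ _ _ => Submodule.mem_top) ((α : L) : Qbar)
    (f := Pi.single m 1) Submodule.mem_top (fun σ _ hσ => ?_) (fun σ _ => ⟨_, rfl⟩)
    (fun σ _ _ => ⟨_, rfl⟩)
  · refine Submodule.span_mono ?_ h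
    exact fun g hg σ => hg.2 σ (Subgroup.mem_top σ)
  · have hfixL : ∀ x ∈ L, σ x = x := fun x hx => by
      have hle : L ≤ IntermediateField.fixedField (Subgroup.zpowers σ) := by
        rw [hLα, IntermediateField.adjoin_simple_le_iff, IntermediateField.mem_fixedField_iff]
        rintro g ⟨i, rfl⟩
        exact (Subgroup.zpowers_le (H := MulAction.stabilizer Γℚ ((α : L) : Qbar))).mpr hσ
          ⟨i, rfl⟩
      exact (IntermediateField.mem_fixedField_iff _ _).mp (hle hx) σ
        (Subgroup.mem_zpowers σ)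
    rw [twist_eq_self_iff]
    intro x
    rw [hLM σ hfixL x]
    rcases eq_or_ne x m with rfl | hx
    · simp
    · simp [Pi.single_eq_of_ne hx]

variable {V}

/-- Some `p`-power multiple of any algebraic number lies in the valuation ring. -/
theorem exists_pow_mul_mem {p : ℕ} (hp : p.Prime) (hV : V.LiesOverPrime p) (k : Qbar) :
    ∃ N : ℕ, (p : Qbar) ^ N * k ∈ V := by
  by_cases hk : k ∈ V
  · exact ⟨0, by simpa using hk⟩
  have hk0 : k ≠ 0 := fun h => hk (h ▸ zero_mem V)
  have hx : k⁻¹ ∈ V := (V.mem_or_inv_mem k).resolve_left hk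
  have halg : IsAlgebraic ℤ (⟨k⁻¹, hx⟩ : V) := by
    have hQ : IsAlgebraic ℚ k⁻¹ :=
      (AlgebraicClosure.isAlgebraic ℚ).isAlgebraic _
    have hZ : IsAlgebraic ℤ k⁻¹ := (IsFractionRing.isAlgebraic_iff ℤ ℚ Qbar).mpr hQ
    exact (isAlgebraic_algHom_iff (V.toSubring.subtype.toIntAlgHom)
      (fun a b h => Subtype.ext h)).mp hZ
  obtain ⟨r, hr0, c, hc⟩ := halg.exists_nonzero_dvd
    (mem_nonZeroDivisors_of_ne_zero fun h => inv_ne_zero hk0 (congrArg Subtype.val h))
  obtain ⟨N, u, hu, hru⟩ := Nat.exists_eq_pow_mul_and_not_dvd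
    (Int.natAbs_ne_zero.mpr hr0) p hp.ne_one
  have hcr : (c : Qbar) = (r : Qbar) * k := by
    have := congrArg (fun v : V => (v : Qbar)) hc
    simp only [algebraMap_int_eq, eq_intCast, MulMemClass.coe_mul] at this
    push_cast at this
    rw [this]
    field_simp
  have huV : ((u : Qbar))⁻¹ ∈ V :=
    inv_mem_of_notMem_nonunits V (natCast_mem V u)
      (Mazur.natCast_notMem_nonunits hV ((hp.coprime_iff_not_dvd.mpr hu).symm))
  have hu0 : (u : Qbar) ≠ 0 := Nat.cast_ne_zero.mpr fun h => hu (h ▸ dvd_zero p)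
  refine ⟨N, ?_⟩
  rcases Int.natAbs_eq r with h | h
  · have : (p : Qbar) ^ N * k = (c : Qbar) * (u : Qbar)⁻¹ := by
      rw [hcr, h, hru]; push_cast; field_simp
    rw [this]
    exact mul_mem c.2 huV
  · have : (p : Qbar) ^ N * k = -(c : Qbar) * (u : Qbar)⁻¹ := by
      rw [hcr, h, hru]; push_cast; field_simp
    rw [this]
    exact mul_mem (neg_mem c.2) huV

/-- Decomposition-fixed integral elements are `p`-adically approximated by integers. -/
theorem exists_int_approx {p : ℕ} (hp : p.Prime) (hV : V.LiesOverPrime p) {c : Qbar}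
    (hc : c ∈ V) (hfix : ∀ σ ∈ V.decompositionSubgroup ℚ, σ c = c) (N : ℕ) :
    ∃ r : ℤ, ∃ d : Qbar, d ∈ V ∧ c - r = (p : Qbar) ^ N * d ∧
      ∀ σ ∈ V.decompositionSubgroup ℚ, σ d = d := by
  induction N with
  | zero => exact ⟨0, c, hc, by simp, hfix⟩
  | succ N ih =>
    obtain ⟨r, d, hd, hrd, hdfix⟩ := ih
    obtain ⟨F, hF⟩ := Basic.exists_isFrobeniusAt hp V hV
    let κ := IsLocalRing.ResidueField V
    have : Fact p.Prime := ⟨hp⟩
    have hchar : CharP κ p := (CharP.charP_iff_prime_eq_zero hp).mpr (by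
      rw [← map_natCast (IsLocalRing.residue V), IsLocalRing.residue_eq_zero_iff]
      exact (V.coe_mem_nonunits_iff (a := (p : V))).mp (by push_cast; exact hV))
    set x : κ := IsLocalRing.residue V ⟨d, hd⟩ with hx
    have hxp : x ^ p = x := by
      rw [← hF.smul_residue_eq, hx, ← IsLocalRing.ResidueField.residue_smul]
      exact congrArg _ (Subtype.ext (hdfix F hF.mem_decompositionSubgroup))
    obtain ⟨i, hi⟩ : ∃ i : ZMod p, ZMod.castHom dvd_rfl κ i = x := by
      classical
      by_contra hnone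
      push Not at hnone
      let S : Finset κ := insert x (Finset.univ.image (ZMod.castHom dvd_rfl κ))
      have hSsub : S ⊆ (X ^ p - X : κ[X]).roots.toFinset := by
        intro y hy
        rw [Multiset.mem_toFinset, mem_roots (FiniteField.X_pow_card_sub_X_ne_zero κ hp.one_lt)]
        rcases Finset.mem_insert.mp hy with rfl | hy
        · simp [hxp]
        · obtain ⟨j, -, rfl⟩ := Finset.mem_image.mp hy
          rw [IsRoot, eval_sub, eval_pow, eval_X, ← map_pow, ZMod.pow_card, sub_self]
      have h1 := (Finset.card_le_card hSsub).trans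
        ((Multiset.toFinset_card_le _).trans (card_roots' _))
      rw [FiniteField.X_pow_card_sub_X_natDegree_eq κ hp.one_lt, Finset.card_insert_of_notMem
        (by simpa using fun j => hnone j), Finset.card_image_of_injective _
        (ZMod.castHom dvd_rfl κ).injective, Finset.card_univ, ZMod.card] at h1
      omega
    have hxi : d - (i.val : ℤ) ∈ V.nonunits := by
      have h1 : IsLocalRing.residue V (⟨d, hd⟩ - (i.val : V)) = 0 := by
        rw [map_sub, map_natCast, ← hx, ← hi, ← map_natCast (ZMod.castHom dvd_rfl κ),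
          ZMod.natCast_rightInverse i, sub_self]
      have := (V.coe_mem_nonunits_iff).mpr (IsLocalRing.residue_eq_zero_iff _ |>.mp h1)
      convert this using 1
      push_cast
      rfl
    have hfix' : ∀ σ ∈ V.decompositionSubgroup ℚ, σ (d - (i.val : ℤ)) = d - (i.val : ℤ) :=
      fun σ hσ => by rw [map_sub, hdfix σ hσ, map_intCast]
    obtain ⟨d', hd', hdd'⟩ : ∃ d' ∈ V, d - (i.val : ℤ) = (p : Qbar) * d' := by
      by_cases h0 : d - (i.val : ℤ) = 0
      · exact ⟨0, zero_mem V, by rw [h0, mul_zero]⟩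
      obtain ⟨m, hm0, hm, hmi⟩ := Mazur.exists_zpow_mul_unit_of_inertia_fixed hp hV h0
        fun σ hσ => hfix' σ (mem_decomposition_of_mem_inertia V hσ)
      have hp0 : (p : Qbar) ≠ 0 := Nat.cast_ne_zero.mpr hp.ne_zero
      set e := (d - (i.val : ℤ)) * (p : Qbar) ^ (-m) with he
      have hde : d - (i.val : ℤ) = e * (p : Qbar) ^ m := by
        rw [he, mul_assoc, ← zpow_add₀ hp0, neg_add_cancel, zpow_zero, mul_one]
      have hm1 : 1 ≤ m := by
        by_contra hlt
        obtain ⟨j, rfl⟩ : ∃ j : ℕ, m = -(j : ℤ) := ⟨(-m).toNat, by omega⟩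
        refine notMem_nonunits_of_inv_mem V ?_ h0 ?_ hxi
        · exact sub_mem hd (intCast_mem V _)
        · rw [hde, mul_inv, ← zpow_neg, neg_neg, zpow_natCast]
          exact mul_mem hmi (pow_mem (natCast_mem V p) j)
      obtain ⟨j, rfl⟩ : ∃ j : ℕ, m = (j : ℤ) + 1 := ⟨(m - 1).toNat, by omega⟩
      exact ⟨e * (p : Qbar) ^ j, mul_mem hm (pow_mem (natCast_mem V p) j), by
        rw [hde, zpow_add_one₀ hp0, zpow_natCast]; ring⟩
    refine ⟨r + (p : ℤ) ^ N * (i.val : ℤ), d', hd', ?_, fun σ hσ => ?_⟩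
    · push_cast at hdd' ⊢
      linear_combination hrd + (p : Qbar) ^ N * hdd'
    · have := hfix' σ hσ
      rw [hdd', map_mul, map_natCast] at this
      exact mul_left_cancel₀ (Nat.cast_ne_zero.mpr hp.ne_zero) this

omit [MulAction Γℚ M] in
/-- All functions lie in the `ℚ̄`-span of a separating algebra of functions. -/
theorem span_eq_top_of_separates [Finite M] (B : Subalgebra V (M → Qbar))
    (hsep : ∀ z w : M, (∀ f ∈ B, f z = f w) → z = w) :
    Submodule.span Qbar (B : Set (M → Qbar)) = ⊤ := by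
  classical
  cases nonempty_fintype M
  have hmul : ∀ g ∈ Submodule.span Qbar (B : Set (M → Qbar)), ∀ f ∈ B,
      g * f ∈ Submodule.span Qbar (B : Set (M → Qbar)) := by
    intro g hg f hf
    induction hg using Submodule.span_induction with
    | mem x hx => exact Submodule.subset_span (B.mul_mem hx hf)
    | zero => simp
    | add x y _ _ hx hy => rw [add_mul]; exact Submodule.add_mem _ hx hy
    | smul a x _ hx => rw [smul_mul_assoc]; exact Submodule.smul_mem _ a hx
  refine eq_top_iff.mpr fun φ _ => ?_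
  rw [← Finset.univ_sum_single φ]
  refine Submodule.sum_mem _ fun z _ => ?_
  have key : ∀ t : Finset M, z ∉ t → ∃ g ∈ Submodule.span Qbar (B : Set (M → Qbar)),
      g z = 1 ∧ ∀ w ∈ t, g w = 0 := by
    intro t
    induction t using Finset.induction_on with
    | empty => exact fun _ => ⟨1, Submodule.subset_span B.one_mem, rfl, by simp⟩
    | insert w t hwt ih =>
      intro hz
      obtain ⟨g, hg, hgz, hg0⟩ := ih fun h => hz (Finset.mem_insert_of_mem h)
      obtain ⟨f, hf, hne⟩ : ∃ f ∈ B, f z ≠ f w := by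
        by_contra hall
        push Not at hall
        exact hz (hsep z w hall ▸ Finset.mem_insert_self w t)
      refine ⟨(f z - f w)⁻¹ • (g * f - f w • g),
        Submodule.smul_mem _ _ (Submodule.sub_mem _ (hmul g hg f hf) (Submodule.smul_mem _ _ hg)),
        ?_, fun x hx => ?_⟩
      · simp [hgz, inv_mul_cancel₀ (sub_ne_zero.mpr hne)]
      · rcases Finset.mem_insert.mp hx with rfl | hx
        · simp [mul_comm]
        · simp [hg0 x hx]
  obtain ⟨g, hg, hgz, hg0⟩ := key (Finset.univ.erase z) (Finset.notMem_erase z _)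
  have : (Pi.single z (φ z) : M → Qbar) = φ z • g := by
    funext x
    rcases eq_or_ne x z with rfl | hx
    · simp [hgz]
    · simp [Pi.single_eq_of_ne hx, hg0 x (Finset.mem_erase.mpr ⟨hx, Finset.mem_univ x⟩)]
  rw [this]
  exact Submodule.smul_mem _ _ hg

/-- **Global spanning.** The lattice is spanned by its globally equivariant members. -/
theorem le_span_equivariant {p : ℕ} (hp : p.Prime) (hV : V.LiesOverPrime p)
    (hM : HasLevel M) [Finite M] (B : Subalgebra V (M → Qbar))
    (hfg : (Subalgebra.toSubmodule B).FG)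
    (hsep : ∀ z w : M, (∀ f ∈ B, f z = f w) → z = w)
    (hB : ∀ σ ∈ V.decompositionSubgroup ℚ, ∀ f ∈ B, twist σ f ∈ B)
    (hunr : Subalgebra.toSubmodule B ≤
      Submodule.span V {f | f ∈ B ∧ ∀ τ ∈ V.inertiaSubgroupIn ℚ, twist τ f = f}) :
    Subalgebra.toSubmodule B ≤
      Submodule.span V {h | h ∈ B ∧ ∀ σ : Γℚ, twist σ h = h} := by
  classical
  set H : Submodule V (M → Qbar) := Submodule.span V {h | h ∈ B ∧ ∀ σ : Γℚ, twist σ h = h}
  refine Submodule.le_of_le_smul_of_le_jacobson_bot (I := IsLocalRing.maximalIdeal V) hfg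
    (IsLocalRing.maximalIdeal_le_jacobson _) (hunr.trans (Submodule.span_le.mpr ?_))
  rintro f ⟨hf, hI⟩
  refine Submodule.span_le.mpr ?_
    (mem_span_decomposition_fixed V hp hV hM (Subalgebra.toSubmodule B) hB hf hI)
  rintro g ⟨hg, hD⟩
  -- an equivariant basis of all functions
  obtain ⟨s, hs, hspan, hind⟩ :=
    exists_linearIndependent Qbar {h : M → Qbar | ∀ σ : Γℚ, twist σ h = h}
  rw [span_equivariant_eq_top hM] at hspan
  have : Fintype s := (hind.setFinite).fintype
  let b : Module.Basis s Qbar (M → Qbar) :=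
    Module.Basis.mk hind (by rw [Subtype.range_coe, hspan])
  have hb : ∀ i, b i = (i : M → Qbar) := fun i => Module.Basis.mk_apply _ _ i
  -- some power of `p` multiplies each basis vector into `B`
  have hdenom : ∀ φ : M → Qbar, ∃ N : ℕ, (p : Qbar) ^ N • φ ∈ B := by
    intro φ
    have hφ : φ ∈ Submodule.span Qbar (B : Set (M → Qbar)) := by
      rw [span_eq_top_of_separates B hsep]; trivial
    have hup : ∀ {N N' : ℕ} {ψ : M → Qbar}, (p : Qbar) ^ N • ψ ∈ B → N ≤ N' →
        (p : Qbar) ^ N' • ψ ∈ B := by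
      intro N N' ψ h hle
      obtain ⟨j, rfl⟩ := Nat.exists_eq_add_of_le hle
      rw [pow_add, mul_comm, mul_smul]
      exact B.smul_mem h (⟨(p : Qbar) ^ j, pow_mem (natCast_mem V p) j⟩ : V)
    induction hφ using Submodule.span_induction with
    | mem x hx => exact ⟨0, by simpa using hx⟩
    | zero => exact ⟨0, by simp⟩
    | add x y _ _ hx hy =>
      obtain ⟨N, hN⟩ := hx
      obtain ⟨N', hN'⟩ := hy
      refine ⟨max N N', ?_⟩
      rw [smul_add]
      exact B.add_mem (hup hN (le_max_left _ _)) (hup hN' (le_max_right _ _))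
    | smul a x _ hx =>
      obtain ⟨N, hN⟩ := hx
      obtain ⟨N', hN'⟩ := exists_pow_mul_mem hp hV a
      refine ⟨N' + N, ?_⟩
      rw [smul_smul, show (p : Qbar) ^ (N' + N) * a = ((p : Qbar) ^ N' * a) * (p : Qbar) ^ N by
        ring, mul_smul]
      exact B.smul_mem hN (⟨_, hN'⟩ : V)
  choose N hN using fun i : s => hdenom (i : M → Qbar)
  choose S hS using fun i : s => exists_pow_mul_mem hp hV (b.repr g i * ((p : Qbar) ^ N i)⁻¹)
  have hcoef : ∀ σ ∈ V.decompositionSubgroup ℚ, ∀ i, σ (b.repr g i) = b.repr g i := by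
    intro σ hσ i
    have h1 : g = ∑ j, σ (b.repr g j) • b j := by
      conv_lhs => rw [← hD σ hσ, ← b.sum_repr g, twist_sum]
      refine Finset.sum_congr rfl fun j _ => ?_
      rw [twist_smul, hb, hs j.2 σ]
    conv_rhs => rw [h1, b.repr_sum_self]
  choose r d hd hrd hdfix using fun i : s => exists_int_approx hp hV (hS i)
    (fun σ hσ => by
      rw [map_mul, map_pow, map_natCast, map_mul, hcoef σ hσ, map_inv₀, map_pow, map_natCast])
    (S i + 1)
  have hp0 : (p : Qbar) ≠ 0 := Nat.cast_ne_zero.mpr hp.ne_zero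
  -- the approximation
  let h : M → Qbar := ∑ i, ((r i : Qbar) / (p : Qbar) ^ S i) • ((p : Qbar) ^ N i • b i)
  have hgh : g - h = ∑ i, ((p : Qbar) * d i) • ((p : Qbar) ^ N i • b i) := by
    conv_lhs => rw [← b.sum_repr g]
    rw [← Finset.sum_sub_distrib]
    refine Finset.sum_congr rfl fun i _ => ?_
    rw [smul_smul, smul_smul, ← sub_smul]
    congr 1
    have := hrd i
    field_simp at this ⊢
    linear_combination this
  have hdiff : g - h ∈ IsLocalRing.maximalIdeal V • Subalgebra.toSubmodule B := by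
    rw [hgh]
    refine Submodule.sum_mem _ fun i _ => ?_
    have hmem : (p : Qbar) ^ N i • b i ∈ Subalgebra.toSubmodule B := by rw [hb]; exact hN i
    have hpm : (⟨(p : Qbar) * d i, mul_mem (natCast_mem V p) (hd i)⟩ : V) ∈
        IsLocalRing.maximalIdeal V := by
      have h1 : (p : V) ∈ IsLocalRing.maximalIdeal V :=
        (V.coe_mem_nonunits_iff (a := (p : V))).mp (by push_cast; exact hV)
      have h2 := Ideal.mul_mem_right (⟨d i, hd i⟩ : V) _ h1
      convert h2 using 1
      exact Subtype.ext (by push_cast; rfl)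
    exact Submodule.smul_mem_smul (r := (⟨(p : Qbar) * d i,
      mul_mem (natCast_mem V p) (hd i)⟩ : V)) hpm hmem
  have hH : h ∈ H := by
    refine Submodule.subset_span ⟨?_, fun σ => ?_⟩
    · have h1 : g - h ∈ Subalgebra.toSubmodule B := Submodule.smul_le_right hdiff
      simpa using B.sub_mem hg h1
    · rw [twist_sum]
      refine Finset.sum_congr rfl fun i _ => ?_
      rw [twist_smul, twist_smul, map_div₀, map_pow, map_pow, map_natCast, map_intCast, hb,
        hs i.2 σ]
  have : g = h + (g - h) := (add_sub_cancel h g).symm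
  rw [SetLike.mem_coe, this]
  exact Submodule.add_mem_sup hH hdiff

end FermatLib.Galois.LocalDescent
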