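/-
The two geometric identities on the new torsion, unconditionally.
-/
import Fermat.Agent.Galois.NewformRepWiring
import Fermat.Agent.Igusa.SqFrobHeckeSwap
import Fermat.Agent.Igusa.MonoTopTop2

/-!
# Frobenius on the new torsion

The modular two-sheet datum exists, so `SqFrobeniusOnNewPart` and `FrobeniusHeckeOnNewPart` hold.
-/

set_option autoImplicit false
set_option linter.style.haveILetI false
set_option synthInstance.maxHeartbeats 400000

noncomputable section

open AlgebraicCurve ModularCurve FermatLib.Modular.Corr

namespace FermatLib.Igusa.Mono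

attribute [local instance] neZero_mul'

/-- The top property holds at every level. -/
theorem monoTopProperty : MonoTopProperty :=
  fun _ _ _ _ _ hqM _ hA _ => mono_top_exists hqM hA

/-- **`σ⁴ - (q² + 1) σ² + q² = 0` on the new torsion.** -/
theorem sqFrobeniusOnNewPart_holds : Galois.SqFrobeniusOnNewPart :=
  sqFrobeniusOnNewPart_of_top monoTopProperty

/-- **Frobenius is `q U_q` on the image of `σ² - 1` on the new torsion.** -/
theorem frobeniusHeckeOnNewPart_holds : Galois.FrobeniusHeckeOnNewPart :=
  frobeniusHeckeOnNewPart_of_sheets fun q M _ _ _ hqM A hA => by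
    haveI := monoResidue_charP (q := q) hA
    exact ⟨monoDatum hqM hA (mono_lift_exists hqM hA) (mono_top_exists hqM hA), rfl, rfl, rfl,
      fun _ => rfl⟩

end FermatLib.Igusa.Mono

end
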