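/-
The sign at a prime exactly dividing the level: trace of Frobenius `= a_q (q + 1)` for a point of
the full Hecke algebra which is new at `q`.
-/
import Fermat.Agent.Igusa.SqFrobHeckeSwap
import Fermat.Agent.Galois.NewformRepRoot
import Fermat.Agent.Galois.Ordinary.Level
import Fermat.Agent.Galois.TransferSpan
import Fermat.Agent.Galois.FrobeniusCharpoly

/-!
# New at `q`: the eigenvalue of `U q` is the sign of Frobenius

The identities `F y = q U_q y`, `(F² - q²) y = 0` for `y = F² x - x` on the new torsion pass to a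
residually irreducible representation with the same traces, where they force `u² = 1` and
`trace F = u (q + 1)`, `u` the value of `U_q`.
-/

set_option autoImplicit false
set_option linter.style.haveILetI false

noncomputable section

open ModularCurve CongruenceSubgroup Polynomial FermatLib.Modular AlgebraicCurve

namespace FermatLib.Galois

local notation "Qbar" => AlgebraicClosure ℚ
local notation "Γℚ" => (AlgebraicClosure ℚ ≃ₐ[ℚ] AlgebraicClosure ℚ)

/-- Any Hecke polynomial, `U q` included, killing `J₀(N)[p^k]` is deeply divisible by `p` on cusp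
forms. -/
theorem exists_level_faithful_full {N p : ℕ} [NeZero N] (h : Attach.KummerHeckeEquiv N p) (j : ℕ) :
    ∃ k : ℕ, ∀ t : HeckeAlg,
      (letI := heckeModuleBar N; ∀ x : JZero N, p ^ k • x = 0 → t • x = 0) →
      ∃ u : CuspForm.heckeAlgebra N 2 (∅ : Set ℕ), formsHeckeEval N t = (p ^ j : ℕ) • u := by
  let e := cuspidalHomsEquiv N ℤ ℤ
  let act : CuspForm.heckeAlgebra N 2 ∅ →ₗ[ℤ] Matrix (Fin (cuspRank N)) (Fin (cuspRank N)) ℤ :=
    ((LinearMap.toMatrix' (R := ℤ)).toAddMonoidHom.comp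
      (e.conj.toAddMonoidHom.comp (heckeCuspAct N ℤ ℤ).toAddMonoidHom)).toIntLinearMap
  have hact : Function.Injective act :=
    LinearMap.toMatrix'.injective.comp (e.conj.injective.comp (heckeCuspAct_injective N ℤ ℤ))
  obtain ⟨c, hc⟩ := Ideal.exists_pow_inf_eq_pow_smul (Ideal.span {(p : ℤ)}) (LinearMap.range act)
  refine ⟨j + c, fun t ht => ?_⟩
  obtain ⟨ψ, hψ⟩ := Attach.exists_kummer_zmod h (j + c)
  have hcomm := FermatLib.Modular.heckeOperatorsCommuteBar N
  let u := act (formsHeckeEval N t)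
  have htop : t ∈ awayHeckeAlg (∅ : Set ℕ) := by
    rw [awayHeckeAlg, show {ℓ : Nat.Primes | (ℓ : ℕ) ∉ (∅ : Set ℕ)} = Set.univ from
      Set.eq_univ_of_forall fun _ => Set.notMem_empty _, Set.image_univ, adjoin_range_heckeGen]
    exact Algebra.mem_top
  have hdiv : ∀ i k, (p : ℤ) ^ (j + c) ∣ u i k := by
    intro i k
    let cz : ℤ →+ ZMod (p ^ (j + c)) := Int.castAddHom _
    let φ : cuspidalHoms ℤ (Gamma0 N) ℤ := e.symm (Pi.single k 1)
    obtain ⟨x, hxφ⟩ := ψ.surjective ⟨cz.comp φ.1, φ.2.comp cz⟩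
    have h0 : heckeEvalBar hcomm t (x : JZero N) = 0 := by
      rw [← heckeModuleBar_smul_def hcomm]
      exact ht _ ((Attach.mem_torsion_iff_pow _ _).mp x.2)
    have h1 := Attach.kummer_heckeEvalBar hcomm ψ (fun ℓ _ => hψ ℓ) htop x 0 h0.symm
    rw [map_zero, ZeroMemClass.coe_zero, hxφ, heckeHomEval_comp_left] at h1
    have hu : u i k = heckeHomEval N ℤ ℤ t φ.1 (Additive.ofMul (cuspBasisElt N i)) := by
      show LinearMap.toMatrix' (e.conj (heckeCuspAct N ℤ ℤ (formsHeckeEval N t))) i k = _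
      rw [LinearMap.toMatrix'_apply, LinearEquiv.conj_apply_apply,
        RingHom.congr_fun Attach.formsHeckeEval_eq_heckeEvalForms t, heckeCuspAct_heckeEvalForms]
      congr
    have h2 := DFunLike.congr_fun h1 (Additive.ofMul (cuspBasisElt N i))
    rw [AddMonoidHom.zero_apply, AddMonoidHom.comp_apply] at h2
    rw [hu, ← Nat.cast_pow]
    exact (ZMod.intCast_zmod_eq_zero_iff_dvd _ _).mp h2.symm
  have hmem : u ∈ Ideal.span {(p : ℤ)} ^ (j + c) • (⊤ : Submodule ℤ _) := by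
    rw [Ideal.span_singleton_pow, Submodule.ideal_span_singleton_smul,
      Submodule.mem_smul_pointwise_iff_exists]
    choose d hd using hdiv
    refine ⟨Matrix.of d, Submodule.mem_top, Matrix.ext fun i k => ?_⟩
    rw [Matrix.smul_apply, smul_eq_mul, Matrix.of_apply, hd]
  have hinf : u ∈ Ideal.span {(p : ℤ)} ^ (j + c) • (⊤ : Submodule ℤ _) ⊓ LinearMap.range act :=
    ⟨hmem, _, rfl⟩
  rw [hc _ (Nat.le_add_left c j), Nat.add_sub_cancel, Ideal.span_singleton_pow,
    Submodule.ideal_span_singleton_smul, Submodule.mem_smul_pointwise_iff_exists] at hinf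
  obtain ⟨_, ⟨-, w, rfl⟩, hw⟩ := hinf
  refine ⟨w, hact (hw.symm.trans ?_)⟩
  rw [map_nsmul, ← natCast_zsmul, Nat.cast_pow]

section Algebra

variable {O V : Type*} [CommRing O] [IsDomain O] [AddCommGroup V] [Module O V]
  [Module.IsTorsionFree O V] [Nontrivial V]

/-- The two identities on a module where `F² = a F - q` force `a = u (q + 1)` and `u² = 1`. -/
theorem sign_of_relations (F : Module.End O V) (hF : Function.Injective F) {a u c π : O}
    (hπ : π ≠ 0) (hc : c * (c + 1) ≠ 0) (hquad : ∀ v, F (F v) = a • F v - c • v)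
    (h4 : ∀ v, π • (F (F (F (F v))) - (c * c + 1) • F (F v) + (c * c) • v) = 0)
    (h3 : ∀ v, π • (F (F (F v)) - F v - (c * u) • F (F v) + (c * u) • v) = 0)
    (hscal : ∀ s : O, s * s = 1 → ¬ ∀ v, F v = s • v) :
    u * u = 1 ∧ a = u * (c + 1) := by
  obtain ⟨v₀, hv₀⟩ := exists_ne (0 : V)
  have ha : a * a - (c + 1) * (c + 1) = 0 := by
    have h := (smul_eq_zero.1 (h4 v₀)).resolve_left hπ
    have e : F (F (F (F v₀))) - (c * c + 1) • F (F v₀) + (c * c) • v₀ =
        (a * a - (c + 1) * (c + 1)) • F (F v₀) := by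
      simp only [hquad, map_sub, map_smul]
      module
    rw [e] at h
    exact (smul_eq_zero.1 h).resolve_right fun h0 => hv₀ (hF (hF (by rw [h0, map_zero, map_zero])))
  obtain ⟨s, hs, hsa⟩ : ∃ s : O, s * s = 1 ∧ a = s * (c + 1) := by
    rcases mul_self_eq_mul_self_iff.1 (sub_eq_zero.1 ha) with h | h
    · exact ⟨1, one_mul 1, by rw [one_mul, h]⟩
    · exact ⟨-1, by ring, by rw [neg_one_mul, h]⟩
  subst hsa
  suffices hu : u = s by subst hu; exact ⟨hs, rfl⟩
  by_contra hne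
  have hB : c * (c + 1) * (u - s) ≠ 0 := mul_ne_zero hc (sub_ne_zero.2 hne)
  refine hscal s hs fun v => ?_
  have h := (smul_eq_zero.1 (h3 v)).resolve_left hπ
  have e : F (F (F v)) - F v - (c * u) • F (F v) + (c * u) • v =
      (c * (c + 1) * (u - s)) • (v - s • F v) := by
    simp only [hquad, map_sub, map_smul]
    match_scalars <;> first | ring1 | linear_combination (c + 1) * hs
  rw [e] at h
  have h' := sub_eq_zero.1 ((smul_eq_zero.1 h).resolve_left hB)
  conv_rhs => rw [h', smul_smul, hs, one_smul]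

end Algebra

/-- Invisible modulo all powers of the maximal ideal: zero. -/
theorem eq_zero_of_forall_mem_pow_smul {T V : Type*} [CommRing T] [IsLocalRing T]
    [IsNoetherianRing T] [AddCommGroup V] [Module T V] [Module.Finite T V] {v : V}
    (h : ∀ n : ℕ, v ∈ IsLocalRing.maximalIdeal T ^ n • (⊤ : Submodule T V)) : v = 0 := by
  rw [← Submodule.mem_bot T, ← Ideal.iInf_pow_smul_eq_bot_of_isLocalRing
    (IsLocalRing.maximalIdeal T) (IsLocalRing.maximalIdeal.isMaximal T).ne_top (M := V)]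
  exact Submodule.mem_iInf _ |>.2 h

section Torsion

variable {G J P : Type*} [Group G] [AddCommGroup J] [DistribMulAction G J] [CommRing P]
  [Module P J] [SMulCommClass G P J]

/-- The quartic identity with a scalar, as a combination of group elements. -/
theorem sum_quartic_eq_zero (σ : G) (t : P) (c : ℕ) (x : J)
    (h : σ • σ • σ • σ • t • x - (c * c + 1) • σ • σ • t • x + (c * c) • t • x = 0) :
    ∑ i, ![t, -(((c * c + 1 : ℕ) : P) * t), ((c * c : ℕ) : P) * t] i •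
      ![σ * σ * σ * σ, σ * σ, 1] i • x = 0 := by
  simp only [smul_comm σ t, mul_smul] at h
  simp only [Fin.sum_univ_three, Matrix.cons_val_zero, Matrix.cons_val_one, Matrix.cons_val_two,
    Matrix.tail_cons, Matrix.head_cons, neg_smul, mul_smul, one_smul, Nat.cast_smul_eq_nsmul]
  rw [← h]
  abel

/-- The cubic identity with a scalar, as a combination of group elements. -/
theorem sum_cubic_eq_zero (σ : G) (t U : P) (c : ℕ) (x : J)
    (h : σ • (σ • σ • t • x - t • x) = (c : ℤ) • U • (σ • σ • t • x - t • x)) :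
    ∑ i, ![t, -t, -((c : P) * U * t), (c : P) * U * t] i • ![σ * σ * σ, σ, σ * σ, 1] i • x = 0 := by
  rw [natCast_zsmul, smul_sub σ, smul_sub U, smul_sub c, ← Nat.cast_smul_eq_nsmul P c,
    ← Nat.cast_smul_eq_nsmul P c, ← sub_eq_zero] at h
  simp only [smul_comm σ t] at h
  simp only [Fin.sum_univ_four, Matrix.cons_val_zero, Matrix.cons_val_one, Matrix.cons_val_two,
    Matrix.cons_val_three, Matrix.tail_cons, Matrix.head_cons, neg_smul, mul_smul, one_smul]
  rw [← h]
  abel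

end Torsion

section Main

variable {q M : ℕ} [Fact q.Prime] [NeZero q] [NeZero M] [NeZero (q * M)]

/-- **New at `q`: `u = θ (U q)` satisfies `u² = 1` and `trace ρ (Frob q) = u (q + 1)`.** -/
theorem trace_eq_of_newPoint (hgeom : SqFrobeniusOnNewPart) (hgeom' : FrobeniusHeckeOnNewPart)
    (hqM : ¬ q ∣ M) {p : ℕ} (hp : p.Prime) (hqp : q ≠ p)
    (h37 : Attach.SpecializationInput (q * M) p)
    {O : Type} [CommRing O] [IsDomain O] [IsLocalRing O] [IsNoetherianRing O] [CharZero O]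
    (hpO : (p : O) ∈ IsLocalRing.maximalIdeal O) (ρ : GaloisRepAdic O)
    (hirr : ρ.residual.IsAbsolutelyIrreducible)
    {S : Finset ℕ} (hpS : p ∈ S) (hS : ∀ r : ℕ, r.Prime → r ∣ q * M → r ∈ S)
    (θ : CuspForm.heckeAlgebra (q * M) 2 (∅ : Set ℕ) →+* O)
    (hchar : ∀ (ℓ : ℕ) (hℓ : ℓ.Prime) (hℓN : ¬ ℓ ∣ q * M), ℓ ∉ S →
      ∀ B : ValuationSubring Qbar, B.LiesOverPrime ℓ → ∀ τ : Γℚ, B.IsFrobeniusAt τ ℓ →
        LinearMap.charpoly (ρ.ρ τ) = X ^ 2 -
          C (θ (CuspForm.heckeAlgebra.T hℓ hℓN (Set.notMem_empty ℓ))) * X + C ((ℓ : O)))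
    (t : HeckeAlg) (ht : t ∈ awayHeckeAlg {r : ℕ | r ∣ q * M}) (htM : formsHeckeEval M t = 0)
    (htθ : θ (formsHeckeEval (q * M) t) ≠ 0)
    {A : ValuationSubring Qbar} (hA : A.LiesOverPrime q) {σ : Γℚ} (hσ : A.IsFrobeniusAt σ q) :
    θ (CuspForm.heckeAlgebra.U (Fact.out : q.Prime) (dvd_mul_right q M) (Set.notMem_empty q)) *
        θ (CuspForm.heckeAlgebra.U (Fact.out : q.Prime) (dvd_mul_right q M) (Set.notMem_empty q))
        = 1 ∧
      ρ.trace σ =
        θ (CuspForm.heckeAlgebra.U (Fact.out : q.Prime) (dvd_mul_right q M) (Set.notMem_empty q)) *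
          ((q : O) + 1) := by
  classical
  have hq : q.Prime := Fact.out
  let instN := heckeModuleBar (q * M)
  have hK := FermatLib.Modular.kummerHeckeEquiv (q * M) p hp
  have hJ := Attach.torsionGaloisInputs_of_equiv hp hK h37
  have hSM : SMulCommClass Γℚ HeckeAlg (JZero (q * M)) :=
    ⟨fun g u x => hJ.galoisCommute g u x⟩
  have h₁ : M * 1 ∣ q * M := by simp
  have h₂ : M * q ∣ q * M := dvd_of_eq (mul_comm M q)
  let π : HeckeAlg →+* O := θ.comp (formsHeckeEval (q * M))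
  set U : HeckeAlg := heckeGen (⟨q, hq⟩ : Nat.Primes) with hUdef
  set u := θ (CuspForm.heckeAlgebra.U hq (dvd_mul_right q M) (Set.notMem_empty q))
  have hgen : ∀ (L : Nat.Primes), π (heckeGen L) = θ (formsHeckeGen (q * M) L) := fun L =>
    congrArg θ (formsHeckeEval_heckeGen (q * M) L)
  have hπU : π U = u :=
    (hgen ⟨q, hq⟩).trans (congrArg θ (dif_pos (dvd_mul_right q M)))
  let a : ℕ → HeckeAlg := fun ℓ => if h : ℓ.Prime then heckeGen (⟨ℓ, h⟩ : Nat.Primes) else 0
  have hπa : ∀ (ℓ : ℕ) (hℓ : ℓ.Prime) (hℓN : ¬ ℓ ∣ q * M),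
      π (a ℓ) = θ (CuspForm.heckeAlgebra.T hℓ hℓN (Set.notMem_empty ℓ)) := fun ℓ hℓ hℓN => by
    simp only [a, dif_pos hℓ]
    exact (hgen ⟨ℓ, hℓ⟩).trans (congrArg θ (dif_neg hℓN))
  have hSN : ∀ ℓ : ℕ, ℓ.Prime → ℓ ∉ S → ¬ ℓ ∣ q * M := fun ℓ hℓ hℓS h => hℓS (hS ℓ hℓ h)
  let b := Module.finBasisOfFinrankEq O ρ.V ρ.finrank_eq
  -- transfer
  have transfer : ∀ {ι : Type} [Fintype ι] (c : ι → HeckeAlg) (g : ι → Γℚ),
      (∀ (k : ℕ) (x : JZero (q * M)), p ^ k • x = 0 → ∑ i, c i • g i • x = 0) →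
      ∀ v : ρ.V, ∑ i, π (c i) • ρ.ρ (g i) v = 0 := by
    intro ι _ c g hcg v
    refine eq_zero_of_forall_mem_pow_smul (T := O) fun n => ?_
    obtain ⟨k, hk⟩ := exists_level_faithful_full hK n
    refine transfer_sum_mem_of_level (p := p) (k := k) ρ b π a hp hpS
      (fun ℓ hℓ hℓS B hB τ hτ => ?_) (fun ℓ hℓ hℓS B hB τ hτ x hx => ?_) ?_ ⟨n, le_rfl⟩
      (fun t' ht' => ?_) (span_range_repMatrix_eq_top ρ b hirr) c g (hcg k) v
    · rw [hπa ℓ hℓ (hSN ℓ hℓ hℓS)]
      exact hchar ℓ hℓ (hSN ℓ hℓ hℓS) hℓS B hB τ hτ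
    · have hℓNp : ¬ ℓ ∣ q * M * p := fun h => hℓS <| by
        rcases hℓ.dvd_mul.mp h with h | h
        · exact hS ℓ hℓ h
        · exact (Nat.prime_dvd_prime_iff_eq hℓ hp).mp h ▸ hpS
      have h := hJ.frobQuadratic ℓ hℓ hℓNp B hB τ hτ x ⟨k, hx⟩
      simpa only [a, dif_pos hℓ] using h
    · obtain ⟨L, hL, hfix⟩ := holdsNearOne_forall_mem (hJ.finite_torsion k).toFinset
        (fun x τ => τ • x = x) fun x _ => hJ.holdsNearOne x
      exact ⟨L, hL, fun τ hτ x hx => hfix τ hτ x ((hJ.finite_torsion k).mem_toFinset.mpr hx)⟩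
    · obtain ⟨w, hw⟩ := hk t' ht'
      show θ (formsHeckeEval _ t') ∈ _
      rw [hw, map_nsmul, nsmul_eq_mul, Nat.cast_pow]
      exact Ideal.mul_mem_right _ _ (Ideal.pow_mem_pow hpO n)
  -- the identities on the torsion
  have hkill : ∀ (k : ℕ) (x : JZero (q * M)), p ^ k • x = 0 →
      p ^ k • t • x = 0 ∧ MazurP.degPush 1 h₁ (t • x) = 0 ∧ MazurP.degPush q h₂ (t • x) = 0 := by
    intro k x hx
    have hKM := Attach.kummerHeckeIso_of_equiv (FermatLib.Modular.kummerHeckeEquiv M p hp)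
    exact ⟨by rw [← smul_comm t (p ^ k) x, hx, smul_zero],
      s35_map_kills hp (dvd_mul_left M q) hKM ⟨t, ht⟩ htM _
        (MazurP.degPush_one_hecke_smul h₁ ht) x k hx,
      s35_map_kills hp (dvd_mul_left M q) hKM ⟨t, ht⟩ htM _
        (MazurP.degPush_prime_hecke_smul hqM h₂ ht) x k hx⟩
  have hd : ∀ k : ℕ, 1 ≤ p ^ k ∧ ¬ q ∣ p ^ k := fun k =>
    ⟨Nat.one_le_iff_ne_zero.mpr (pow_ne_zero _ hp.ne_zero),
      fun hd => hqp ((Nat.prime_dvd_prime_iff_eq hq hp).mp (hq.dvd_of_dvd_pow hd))⟩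
  have hU : ∀ y : JZero (q * M), heckeOperatorBar (q * M) ⟨q, hq⟩ y = U • y := fun y => by
    rw [hUdef, heckeModuleBar_smul_def hJ.heckeCommute]
    exact (LinearMap.congr_fun (heckeEvalBar_heckeGen hJ.heckeCommute (⟨q, hq⟩ : Nat.Primes)) y).symm
  have id4 : ∀ v : ρ.V, π t • (ρ.ρ σ (ρ.ρ σ (ρ.ρ σ (ρ.ρ σ v))) -
      ((q : O) * q + 1) • ρ.ρ σ (ρ.ρ σ v) + ((q : O) * q) • v) = 0 := by
    intro v
    have h := transfer ![t, -(((q * q + 1 : ℕ) : HeckeAlg) * t), ((q * q : ℕ) : HeckeAlg) * t]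
      ![σ * σ * σ * σ, σ * σ, 1] (fun k x hx => by
        obtain ⟨hx', hx₁, hx₂⟩ := hkill k x hx
        exact sum_quartic_eq_zero σ t q x
          (hgeom q M hqM h₁ h₂ A hA σ hσ (p ^ k) (hd k).1 (hd k).2 _ hx' hx₁ hx₂)) v
    simp only [Fin.sum_univ_three, Matrix.cons_val_zero, Matrix.cons_val_one,
      Matrix.cons_val_two, Matrix.tail_cons, Matrix.head_cons, map_neg, map_mul, map_natCast,
      map_one, Module.End.mul_apply, Module.End.one_apply] at h
    rw [← h]
    push_cast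
    module
  have id3 : ∀ v : ρ.V, π t • (ρ.ρ σ (ρ.ρ σ (ρ.ρ σ v)) - ρ.ρ σ v -
      ((q : O) * u) • ρ.ρ σ (ρ.ρ σ v) + ((q : O) * u) • v) = 0 := by
    intro v
    have h := transfer ![t, -t, -((q : HeckeAlg) * U * t), (q : HeckeAlg) * U * t]
      ![σ * σ * σ, σ, σ * σ, 1] (fun k x hx => by
        obtain ⟨hx', hx₁, hx₂⟩ := hkill k x hx
        refine sum_cubic_eq_zero σ t U q x ?_
        rw [← hU]
        exact hgeom' q M hqM h₁ h₂ A hA σ hσ (p ^ k) (hd k).1 (hd k).2 _ hx' hx₁ hx₂) v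
    simp only [Fin.sum_univ_four, Matrix.cons_val_zero, Matrix.cons_val_one,
      Matrix.cons_val_two, Matrix.cons_val_three, Matrix.tail_cons, Matrix.head_cons, map_neg,
      map_mul, map_natCast, map_one, Module.End.mul_apply, Module.End.one_apply, hπU] at h
    rw [← h]
    module
  -- algebra
  have hdet : LinearMap.det (ρ.ρ σ) = (q : O) :=
    s35_det_frobenius_eq s35_frobeniusDense hp hpO ρ S
      (fun ℓ hℓ hℓS B hB τ hτ => s35_det_eq_of_charpoly ρ τ
        (hchar ℓ hℓ (hSN ℓ hℓ hℓS) hℓS B hB τ hτ)) hq hqp hA hσ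
  have hquad : ∀ v, ρ.ρ σ (ρ.ρ σ v) = ρ.trace σ • ρ.ρ σ v - (q : O) • v := fun v => by
    have h := LinearMap.congr_fun (LinearMap.aeval_self_charpoly (ρ.ρ σ)) v
    rw [adic_charpoly_eq, hdet] at h
    simp only [map_add, map_sub, map_mul, aeval_X, aeval_C, LinearMap.add_apply,
      LinearMap.sub_apply, pow_two, Module.End.mul_apply, Module.algebraMap_end_apply,
      LinearMap.zero_apply] at h
    rw [← sub_eq_zero, ← h]
    abel
  haveI : Nontrivial ρ.V := Module.nontrivial_of_finrank_pos (R := O) (by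
    rw [ρ.finrank_eq]; exact two_pos)
  refine sign_of_relations (ρ.ρ σ) (fun v w h => ?_) htθ ?_ hquad id4 id3 fun s hs hall => ?_
  · simpa [← Module.End.mul_apply, ← map_mul] using congrArg (ρ.ρ σ⁻¹) h
  · exact mul_ne_zero (Nat.cast_ne_zero.mpr hq.ne_zero)
      (by exact_mod_cast Nat.succ_ne_zero q)
  · rw [show ρ.ρ σ = s • (LinearMap.id : ρ.V →ₗ[O] ρ.V) from LinearMap.ext hall,
      LinearMap.det_smul, LinearMap.det_id, ρ.finrank_eq, pow_two, hs, one_mul, eq_comm,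
      Nat.cast_eq_one] at hdet
    exact hq.ne_one hdet

end Main

end FermatLib.Galois
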