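/-
The sign at a prime exactly dividing the level, old case: `u = θ (U q)` is a root of
`X² - trace ρ (Frob q) X + q` and is not `± q`.
-/
import Fermat.Agent.Galois.NewformRepExtend
import Fermat.Agent.Galois.ResidualAttached
import Fermat.Agent.Galois.FrobeniusCharpoly
import Fermat.Agent.Galois.RepAdic
import Fermat.Agent.Galois.TransferHecke
import Fermat.Agent.Modular.HeckeFinite
import Fermat.Agent.Modular.HeckeStrictBound
import Fermat.Agent.Modular.Newforms.CharacterLift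
import Fermat.Agent.Modular.Newforms.OldRoot

/-!
# Old at `q`: the eigenvalue of `U q` is a root of the characteristic polynomial of Frobenius

A point of the Hecke algebra of level `q M`, whose eigensystem factors through level `M`, is realised
by eigenforms `f`, `g` of levels `q M`, `M`; the Galois representation of `g` gives the trace.
-/

set_option autoImplicit false
set_option linter.style.haveILetI false

noncomputable section

open ModularCurve CongruenceSubgroup Polynomial IsLocalRing ModularFormClass FermatLib.Modular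

namespace FermatLib.Galois

local notation "Qbar" => AlgebraicClosure ℚ
local notation "Γℚ" => (AlgebraicClosure ℚ ≃ₐ[ℚ] AlgebraicClosure ℚ)

/-- The value of a good generator. -/
theorem formsHeckeEval_heckeGen_T (N : ℕ) [NeZero N] {ℓ : ℕ} (hℓ : ℓ.Prime) (hℓN : ¬ ℓ ∣ N) :
    formsHeckeEval N (heckeGen (⟨ℓ, hℓ⟩ : Nat.Primes)) =
      CuspForm.heckeAlgebra.T hℓ hℓN (Set.notMem_empty ℓ) :=
  (formsHeckeEval_heckeGen N ⟨ℓ, hℓ⟩).trans (dif_neg hℓN)

/-- A good generator is away from the level. -/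
theorem heckeGen_mem_awayHeckeAlg {S : Set ℕ} {ℓ : ℕ} (hℓ : ℓ.Prime) (hℓS : ℓ ∉ S) :
    heckeGen (⟨ℓ, hℓ⟩ : Nat.Primes) ∈ awayHeckeAlg S :=
  Algebra.subset_adjoin ⟨⟨ℓ, hℓ⟩, hℓS, rfl⟩

section Forms

variable {q M : ℕ} [NeZero M] [NeZero (q * M)]

/-- The eigensystem at level `M` below a character at level `q M` which factors through it. -/
theorem exists_lower_character
    (χ : CuspForm.heckeAlgebra (q * M) 2 (∅ : Set ℕ) →+* ℂ)
    (hold : ∀ t ∈ awayHeckeAlg {r : ℕ | r ∣ q * M}, formsHeckeEval M t = 0 →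
      χ (formsHeckeEval (q * M) t) = 0) :
    ∃ χM : CuspForm.heckeAlgebra M 2 (∅ : Set ℕ) →+* ℂ,
      ∀ (ℓ : ℕ) (hℓ : ℓ.Prime) (hℓN : ¬ ℓ ∣ q * M) (hℓM : ¬ ℓ ∣ M),
        χM (CuspForm.heckeAlgebra.T hℓ hℓM (Set.notMem_empty ℓ)) =
          χ (CuspForm.heckeAlgebra.T hℓ hℓN (Set.notMem_empty ℓ)) := by
  let W := awayHeckeAlg {r : ℕ | r ∣ q * M}
  let fM : W →+* CuspForm.heckeAlgebra M 2 (∅ : Set ℕ) :=
    (formsHeckeEval M).comp W.val.toRingHom
  let fN : W →+* ℂ := (χ.comp (formsHeckeEval (q * M))).comp W.val.toRingHom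
  have hker : RingHom.ker fM.rangeRestrict ≤ RingHom.ker fN := fun t ht => by
    rw [RingHom.mem_ker] at ht ⊢
    exact hold t t.2 (congrArg Subtype.val ht)
  let ψ : ↥fM.range →+* ℂ :=
    RingHom.liftOfSurjective fM.rangeRestrict fM.rangeRestrict_surjective ⟨fN, hker⟩
  have hψ : ∀ t, ψ (fM.rangeRestrict t) = fN t := fun t =>
    RingHom.liftOfRightInverse_comp_apply _ _ _ _ t
  have : Module.Finite ℤ ↥(CuspForm.heckeAlgebra M 2 (∅ : Set ℕ)) :=
    heckeAlgebra_moduleFinite M 2 ∅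
  have : Algebra.IsIntegral ↥fM.range ↥(CuspForm.heckeAlgebra M 2 (∅ : Set ℕ)) :=
    Algebra.IsIntegral.tower_top ℤ
  obtain ⟨χM, hχM⟩ := Newforms.exists_ringHom_extends (A := ↥fM.range)
    (B := ↥(CuspForm.heckeAlgebra M 2 (∅ : Set ℕ))) Subtype.val_injective ψ
  refine ⟨χM, fun ℓ hℓ hℓN hℓM => ?_⟩
  have h := hψ ⟨_, heckeGen_mem_awayHeckeAlg (S := {r : ℕ | r ∣ q * M}) hℓ hℓN⟩
  rw [← hχM] at h
  rw [← formsHeckeEval_heckeGen_T M hℓ hℓM, ← formsHeckeEval_heckeGen_T (q * M) hℓ hℓN]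
  exact h

/-- The equation at `q` of the two eigensystems, and `± (q + 1)` is excluded at level `M`. -/
theorem root_and_ne_of_lower (hq : q.Prime) (hqM : ¬ q ∣ M)
    (χ : CuspForm.heckeAlgebra (q * M) 2 (∅ : Set ℕ) →+* ℂ)
    (χM : CuspForm.heckeAlgebra M 2 (∅ : Set ℕ) →+* ℂ)
    (h : ∀ (ℓ : ℕ) (hℓ : ℓ.Prime) (hℓN : ¬ ℓ ∣ q * M) (hℓM : ¬ ℓ ∣ M),
      χM (CuspForm.heckeAlgebra.T hℓ hℓM (Set.notMem_empty ℓ)) =
        χ (CuspForm.heckeAlgebra.T hℓ hℓN (Set.notMem_empty ℓ))) :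
    χ (CuspForm.heckeAlgebra.U hq (dvd_mul_right q M) (Set.notMem_empty q)) ^ 2 -
        χM (CuspForm.heckeAlgebra.T hq hqM (Set.notMem_empty q)) *
          χ (CuspForm.heckeAlgebra.U hq (dvd_mul_right q M) (Set.notMem_empty q)) + q = 0 ∧
      ∀ s : ℤ, s ^ 2 = 1 →
        χ (CuspForm.heckeAlgebra.U hq (dvd_mul_right q M) (Set.notMem_empty q)) ≠
          (s : ℂ) * q := by
  obtain ⟨f, hf, -, hfT, hfU⟩ := Newforms.exists_normalizedEigenform_of_character χ
  obtain ⟨g, hg, hge, hgT, -⟩ := Newforms.exists_normalizedEigenform_of_character χM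
  have hroot := Newforms.qCoeff_root_of_lower hq hqM dvd_rfl hf hg fun ℓ hℓ hℓN => by
    rw [hgT ℓ hℓ fun hd => hℓN (hd.mul_left q), hfT ℓ hℓ hℓN, h ℓ hℓ hℓN]
  rw [hfU q hq (dvd_mul_right q M), hgT q hq hqM] at hroot
  refine ⟨hroot, fun s hs hu => ?_⟩
  rw [hu] at hroot
  have hsC : (s : ℂ) ^ 2 = 1 := by exact_mod_cast hs
  have hq0 : (q : ℂ) ≠ 0 := Nat.cast_ne_zero.mpr hq.ne_zero
  have hb : χM (CuspForm.heckeAlgebra.T hq hqM (Set.notMem_empty q)) = (s : ℂ) * ((q : ℂ) + 1) := by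
    refine mul_left_cancel₀ hq0 ?_
    linear_combination -(s : ℂ) * hroot +
      ((q : ℂ) ^ 2 * s - q * χM (CuspForm.heckeAlgebra.T hq hqM (Set.notMem_empty q))) * hsC
  have hg0 : g = 0 := Modular.eq_zero_of_heckeTLin_eq_sign_smul hq hqM hs (by
    rw [← CuspForm.heckeAlgebra.coe_T hq hqM (Set.notMem_empty q), hge, hb])
  have h1 : qCoeff ⇑g 1 = 1 := hg.qCoeff_one
  rw [hg0] at h1
  simp [qCoeff, UpperHalfPlane.qExpansion_zero] at h1

end Forms

section Main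

variable {q M : ℕ} [Fact q.Prime] [NeZero M] [NeZero (q * M)]

/-- **Old at `q`: `u = θ (U q)` is a root of `X² - trace ρ (Frob q) X + q`, and `u² ≠ q²`.** -/
theorem root_trace_of_oldPoint (hattach : PadicAttachment) (hqM : ¬ q ∣ M) {p : ℕ} [Fact p.Prime]
    (hqp : q ≠ p)
    {O : Type} [CommRing O] [IsDomain O] [IsDiscreteValuationRing O]
    [IsAdicComplete (maximalIdeal O) O] [Finite (ResidueField O)] [CharZero O]
    (hpO : (p : O) ∈ maximalIdeal O) (ρ : GaloisRepAdic O)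
    {S : Finset ℕ} (hpS : p ∈ S) (hS : ∀ r : ℕ, r.Prime → r ∣ q * M → r ∈ S)
    (θ : CuspForm.heckeAlgebra (q * M) 2 (∅ : Set ℕ) →+* O)
    (hchar : ∀ (ℓ : ℕ) (hℓ : ℓ.Prime) (hℓN : ¬ ℓ ∣ q * M), ℓ ∉ S →
      ∀ B : ValuationSubring Qbar, B.LiesOverPrime ℓ → ∀ τ : Γℚ, B.IsFrobeniusAt τ ℓ →
        LinearMap.charpoly (ρ.ρ τ) = X ^ 2 -
          C (θ (CuspForm.heckeAlgebra.T hℓ hℓN (Set.notMem_empty ℓ))) * X + C ((ℓ : O)))
    (hold : ∀ t ∈ awayHeckeAlg {r : ℕ | r ∣ q * M}, formsHeckeEval M t = 0 →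
      θ (formsHeckeEval (q * M) t) = 0)
    {A : ValuationSubring Qbar} (hA : A.LiesOverPrime q) {σ : Γℚ} (hσ : A.IsFrobeniusAt σ q) :
    θ (CuspForm.heckeAlgebra.U (Fact.out : q.Prime) (dvd_mul_right q M) (Set.notMem_empty q)) ^ 2
        ≠ (q : O) ^ 2 ∧
      θ (CuspForm.heckeAlgebra.U (Fact.out : q.Prime) (dvd_mul_right q M) (Set.notMem_empty q)) ^ 2 -
          ρ.trace σ *
            θ (CuspForm.heckeAlgebra.U (Fact.out : q.Prime) (dvd_mul_right q M)
              (Set.notMem_empty q)) + (q : O) = 0 := by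
  classical
  have hq : q.Prime := Fact.out
  set Uq := CuspForm.heckeAlgebra.U (N := q * M) (k := 2) (S := ∅) hq (dvd_mul_right q M)
    (Set.notMem_empty q) with hUq
  -- eigensystems over `ℂ`
  obtain ⟨-, χ, -, hker, -, -⟩ := Newforms.exists_eigenform_of_point θ
  have hkerθ : ∀ x, χ x = 0 ↔ θ x = 0 := fun x => by
    rw [← RingHom.mem_ker, hker, RingHom.mem_ker]
  obtain ⟨χM, hχM⟩ := exists_lower_character χ fun t ht htM =>
    (hkerθ _).2 (hold t ht htM)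
  obtain ⟨hroot, hne⟩ := root_and_ne_of_lower hq hqM χ χM hχM
  refine ⟨fun hsq => ?_, ?_⟩
  · obtain ⟨s, hs, hu⟩ : ∃ s : ℤ, s ^ 2 = 1 ∧ θ Uq = (s : O) * q := by
      rcases sq_eq_sq_iff_eq_or_eq_neg.1 hsq with h | h
      · exact ⟨1, one_pow 2, by rw [h, Int.cast_one, one_mul]⟩
      · exact ⟨-1, by norm_num, by rw [h, Int.cast_neg, Int.cast_one, neg_one_mul]⟩
    refine hne s hs (sub_eq_zero.1 ?_)
    have h0 : θ (Uq - (s : CuspForm.heckeAlgebra (q * M) 2 (∅ : Set ℕ)) * (q : _)) = 0 := by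
      rw [map_sub, map_mul, map_intCast, map_natCast, hu, sub_self]
    have h1 := (hkerθ _).2 h0
    rwa [map_sub, map_mul, map_intCast, map_natCast] at h1
  -- a common coefficient ring for the two eigensystems
  have : Module.Finite ℤ ↥(CuspForm.heckeAlgebra (q * M) 2 (∅ : Set ℕ)) :=
    heckeAlgebra_moduleFinite _ 2 ∅
  have : Module.Finite ℤ ↥(CuspForm.heckeAlgebra M 2 (∅ : Set ℕ)) :=
    heckeAlgebra_moduleFinite _ 2 ∅
  let R : Subalgebra ℤ ℂ := χ.toIntAlgHom.range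
  let RM : Subalgebra ℤ ℂ := χM.toIntAlgHom.range
  have : Module.Finite ℤ R :=
    Module.Finite.of_surjective χ.toIntAlgHom.rangeRestrict.toLinearMap
      χ.toIntAlgHom.rangeRestrict_surjective
  have : Module.Finite ℤ RM :=
    Module.Finite.of_surjective χM.toIntAlgHom.rangeRestrict.toLinearMap
      χM.toIntAlgHom.rangeRestrict_surjective
  have : Module.Finite ℤ ↥(R ⊔ RM) := Subalgebra.finite_sup R RM
  let π : CuspForm.heckeAlgebra (q * M) 2 (∅ : Set ℕ) →+* R :=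
    χ.toIntAlgHom.rangeRestrict.toRingHom
  have hπ : Function.Surjective π := χ.toIntAlgHom.rangeRestrict_surjective
  let ι : R →+* O := RingHom.liftOfSurjective π hπ ⟨θ, fun x hx => (hkerθ x).1
    (congrArg Subtype.val (RingHom.mem_ker.1 hx))⟩
  have hι : ∀ x, ι (π x) = θ x := fun x => RingHom.liftOfRightInverse_comp_apply _ _ _ _ x
  have hιinj : Function.Injective ι := (injective_iff_map_eq_zero ι).2 fun y hy => by
    obtain ⟨x, rfl⟩ := hπ y
    rw [hι] at hy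
    exact Subtype.ext ((hkerθ x).2 hy)
  obtain ⟨O₁, _, _, _, _, _, _, _, _, _, hinj₁, ι', hι'⟩ := s35_exists_extension
    (Subalgebra.inclusion (le_sup_left : R ≤ R ⊔ RM)).toRingHom
    (Subalgebra.inclusion_injective _) O ι hιinj
  let πM : CuspForm.heckeAlgebra M 2 (∅ : Set ℕ) →+* O₁ := ι'.comp
    ((Subalgebra.inclusion (le_sup_right : RM ≤ R ⊔ RM)).toRingHom.comp
      χM.toIntAlgHom.rangeRestrict.toRingHom)
  have hpO₁ : (p : O₁) ∈ maximalIdeal O₁ := by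
    rw [← map_natCast (algebraMap O O₁)]
    exact ((mem_maximalIdeal _).2 (map_mem_nonunits_iff (algebraMap O O₁) _ |>.2 hpO))
  have hSM : ∀ r : ℕ, r.Prime → r ∣ M → r ∈ S.erase q := fun r hr hd =>
    Finset.mem_erase.2 ⟨fun h => hqM (h ▸ hd), hS r hr (hd.mul_left q)⟩
  obtain ⟨O₂, _, _, _, _, _, _, _, _, _, hinj₂, ρ₂, hρ₂, -⟩ :=
    hattach p M (S.erase q) (Finset.mem_erase.2 ⟨hqp.symm, hpS⟩) hSM O₁ hpO₁
      (πM.comp (Subalgebra.inclusion
        (CuspForm.heckeAlgebra_mono (Set.empty_subset (↑(S.erase q) : Set ℕ)))).toRingHom)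
  let f : O →+* O₂ := (algebraMap O₁ O₂).comp (algebraMap O O₁)
  have hf : IsLocalHom f := RingHom.isLocalHom_comp _ _
  -- the two representations agree at almost all Frobenius elements
  have hT : ∀ (ℓ : ℕ) (hℓ : ℓ.Prime) (hℓN : ¬ ℓ ∣ q * M) (hℓM : ¬ ℓ ∣ M),
      πM (CuspForm.heckeAlgebra.T hℓ hℓM (Set.notMem_empty ℓ)) =
        algebraMap O O₁ (θ (CuspForm.heckeAlgebra.T hℓ hℓN (Set.notMem_empty ℓ))) := by
    intro ℓ hℓ hℓN hℓM
    rw [← hι, ← hι']
    exact congrArg ι' (Subtype.ext (hχM ℓ hℓ hℓN hℓM))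
  have hcp : ∀ g : Γℚ, LinearMap.charpoly (ρ₂.ρ g) =
      LinearMap.charpoly ((ρ.baseChangeAlong f hf).ρ g) := by
    refine adic_charpoly_eq_of_frobenius _ _ S fun ℓ hℓ hℓS B hB τ hτ => ?_
    have hℓN : ¬ ℓ ∣ q * M := fun h => hℓS (hS ℓ hℓ h)
    have hℓM : ¬ ℓ ∣ M := fun h => hℓN (h.mul_left q)
    rw [hρ₂ ℓ hℓ hℓM (fun h => hℓS (Finset.mem_of_mem_erase h)) B hB τ hτ]
    letI : Algebra O O₂ := f.toAlgebra
    show _ = LinearMap.charpoly ((ρ.ρ τ).baseChange O₂)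
    rw [LinearMap.charpoly_baseChange, hchar ℓ hℓ hℓN hℓS B hB τ hτ]
    have e : algebraMap O₁ O₂ (πM (CuspForm.heckeAlgebra.T hℓ hℓM (Set.notMem_empty ℓ))) =
        f (θ (CuspForm.heckeAlgebra.T hℓ hℓN (Set.notMem_empty ℓ))) :=
      congrArg (algebraMap O₁ O₂) (hT ℓ hℓ hℓN hℓM)
    simp only [Polynomial.map_add, Polynomial.map_sub, Polynomial.map_mul, Polynomial.map_pow,
      Polynomial.map_X, Polynomial.map_C, Polynomial.map_natCast, RingHom.algebraMap_toAlgebra, ← e,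
      map_natCast]
    rfl
  -- the trace at `q`
  have htr : f (ρ.trace σ) =
      algebraMap O₁ O₂ (πM (CuspForm.heckeAlgebra.T hq hqM (Set.notMem_empty q))) := by
    have h1 := adic_trace_eq_of_charpoly_eq (hcp σ)
    have h2 := congrArg (fun P : O₂[X] => P.coeff 1)
      ((adic_charpoly_eq ρ₂ σ).symm.trans (hρ₂ q hq hqM (Finset.notMem_erase q S) A hA σ hσ))
    simp at h2
    letI : Algebra O O₂ := f.toAlgebra
    have h3 : (ρ.baseChangeAlong f hf).trace σ = f (ρ.trace σ) :=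
      LinearMap.trace_baseChange (ρ.ρ σ) O₂
    rw [← h3, ← h1, h2]
    rfl
  have hfinj : Function.Injective f := hinj₂.comp hinj₁
  apply hfinj
  rw [map_zero, map_add, map_sub, map_pow, map_mul, map_natCast, htr]
  have e : f (θ Uq) = algebraMap O₁ O₂ (ι'
      ((Subalgebra.inclusion (le_sup_left : R ≤ R ⊔ RM)) (π Uq))) :=
    congrArg (algebraMap O₁ O₂) (by rw [← hι]; exact (hι' (π Uq)).symm)
  rw [e]
  have hz : (Subalgebra.inclusion (le_sup_left : R ≤ R ⊔ RM)) (π Uq) ^ 2 -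
      (Subalgebra.inclusion (le_sup_right : RM ≤ R ⊔ RM))
          (χM.toIntAlgHom.rangeRestrict (CuspForm.heckeAlgebra.T hq hqM (Set.notMem_empty q))) *
        (Subalgebra.inclusion (le_sup_left : R ≤ R ⊔ RM)) (π Uq) + (q : ↥(R ⊔ RM)) = 0 :=
    Subtype.ext hroot
  have key := congrArg ((algebraMap O₁ O₂).comp ι') hz
  rw [map_zero, map_add, map_sub, map_pow, map_mul, map_natCast] at key
  exact key

end Main

end FermatLib.Galois

end
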