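import Fermat.Agent.Galois.RepMatrix
import Mathlib.Tactic.LinearCombination

/-!
# Carayol's descent of a two-dimensional representation to the ring generated by its traces

Given `ρ : G →* M₂(B)`, a local subring `A` containing all traces in which `2` is a unit, an
involution `c` with `det (ρ c) = -1`, and residual absolute irreducibility read on traces, there
is a representation over `A` with the same traces and determinants.
-/

set_option autoImplicit false

open Matrix

namespace FermatLib.Galois

local notation "M₂" R:max => Matrix (Fin 2) (Fin 2) R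

section Corner

variable {B : Type*} [CommRing B] {e : M₂ B}

lemma corner_mul (he : e.det = 0) (X : M₂ B) : e * X * e = (e * X).trace • e := by
  rw [Matrix.det_fin_two] at he
  ext i j
  fin_cases i <;> fin_cases j <;>
    simp [Matrix.mul_apply, Fin.sum_univ_two, Matrix.trace_fin_two] <;> grind

lemma det_one_sub_of_trace_eq_one (ht : e.trace = 1) (he : e.det = 0) : (1 - e).det = 0 := by
  rw [Matrix.det_fin_two] at he ⊢
  rw [Matrix.trace_fin_two] at ht
  simp
  linear_combination he - ht

lemma idem_of_trace_eq_one (ht : e.trace = 1) (he : e.det = 0) : e * e = e := by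
  simpa [ht] using corner_mul he (1 : M₂ B)

/-- The entries of `X` in the frame of the idempotent `e`. -/
def cornerMat (e Y Z : M₂ B) (u : B) (X : M₂ B) : M₂ B :=
  !![(e * X).trace, (X * ((1 - e) * Z * e)).trace;
    u * (e * Y * (1 - e) * X).trace, ((1 - e) * X).trace]

lemma cornerMat_one (ht : e.trace = 1) (he : e.det = 0) (Y Z : M₂ B) (u : B) :
    cornerMat e Y Z u 1 = 1 := by
  have hee := idem_of_trace_eq_one ht he
  have h1 : e * (1 - e) = 0 := by rw [mul_sub, mul_one, hee, sub_self]
  have a : ((1 - e) * Z * e).trace = 0 := by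
    rw [Matrix.trace_mul_comm, ← mul_assoc, h1, zero_mul, Matrix.trace_zero]
  have b : (e * Y * (1 - e)).trace = 0 := by
    rw [Matrix.trace_mul_comm, ← mul_assoc, sub_mul, one_mul, hee, sub_self, zero_mul,
      Matrix.trace_zero]
  ext i j
  fin_cases i <;> fin_cases j <;> simp [cornerMat, a, b, ht, Matrix.trace_sub]
  norm_num

lemma cornerMat_mul (ht : e.trace = 1) (he : e.det = 0) {Y Z : M₂ B} {u : B}
    (hu : u * (e * Y * (1 - e) * Z).trace = 1) (X W : M₂ B) :
    cornerMat e Y Z u (X * W) = cornerMat e Y Z u X * cornerMat e Y Z u W := by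
  have hee := idem_of_trace_eq_one ht he
  have he' := det_one_sub_of_trace_eq_one ht he
  set e' := 1 - e with he'def
  have hsplit : X * W = X * e * W + X * e' * W := by rw [he'def]; noncomm_ring
  have hee' : e' * e' = e' := by
    rw [he'def, mul_sub, sub_mul, sub_mul, hee]; simp
  set q := e' * Z * e with hq
  set q' := e * Y * e' with hq'
  set a := (e * Y * e' * Z).trace with ha
  -- `q q' = a (1 - e)`
  have hqq : q * q' = a • e' := by
    calc q * q' = e' * (Z * e * Y) * e' := by
            rw [hq, hq']; simp only [mul_assoc]; rw [← mul_assoc e e, hee]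
      _ = (e' * (Z * e * Y)).trace • e' := corner_mul he' _
      _ = a • e' := by
            congr 1
            rw [ha, show e' * (Z * e * Y) = (e' * Z) * (e * Y) by simp only [mul_assoc],
              Matrix.trace_mul_comm]
            simp only [mul_assoc]
  -- lower left corners are multiples of `q`
  have hlow : ∀ R : M₂ B, e' * R * e = (u * (q' * R).trace) • q := by
    intro R
    have h1 : q' * R * e = (q' * R).trace • e := by
      have h2 : q' * R * e = e * (Y * e' * R) * e := by rw [hq']; simp only [mul_assoc]
      rw [h2, corner_mul he]; congr 2; rw [hq']; simp only [mul_assoc]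
    have h3 : a • (e' * R * e) = (q' * R).trace • q := by
      calc a • (e' * R * e) = q * q' * R * e := by
              rw [hqq, smul_mul_assoc, smul_mul_assoc]
        _ = q * (q' * R * e) := by simp only [mul_assoc]
        _ = (q' * R).trace • (q * e) := by rw [h1, mul_smul_comm]
        _ = (q' * R).trace • q := by rw [hq]; simp only [mul_assoc]; rw [hee]
    have := congrArg (u • ·) h3
    simpa [smul_smul, hu, mul_comm] using this
  -- the four entries
  have h00 : (e * (X * W)).trace =
      (e * X).trace * (e * W).trace + (X * q).trace * (u * (q' * W).trace) := by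
    rw [hsplit, mul_add, Matrix.trace_add]
    congr 1
    · rw [← mul_assoc, ← mul_assoc, corner_mul he, smul_mul_assoc, Matrix.trace_smul, smul_eq_mul]
    · calc (e * (X * e' * W)).trace = (X * (e' * W * e)).trace := by
              rw [Matrix.trace_mul_comm]; simp only [mul_assoc]
        _ = (u * (q' * W).trace) * (X * q).trace := by
              rw [hlow, mul_smul_comm, Matrix.trace_smul, smul_eq_mul]
        _ = _ := mul_comm _ _
  have h11 : (e' * (X * W)).trace =
      (u * (q' * X).trace) * (W * q).trace + (e' * X).trace * (e' * W).trace := by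
    rw [hsplit, mul_add, Matrix.trace_add]
    congr 1
    · calc (e' * (X * e * W)).trace = (e' * X * e * W).trace := by simp only [mul_assoc]
        _ = (u * (q' * X).trace) * (W * q).trace := by
              rw [hlow, smul_mul_assoc, Matrix.trace_smul, smul_eq_mul, Matrix.trace_mul_comm q]
    · rw [← mul_assoc, ← mul_assoc, corner_mul he', smul_mul_assoc, Matrix.trace_smul, smul_eq_mul]
  have h01 : (X * W * q).trace =
      (e * X).trace * (W * q).trace + (X * q).trace * (e' * W).trace := by
    rw [hsplit, add_mul, Matrix.trace_add]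
    congr 1
    · calc (X * e * W * q).trace = (X * e * W * q * e).trace := by
              rw [hq]; simp only [mul_assoc]; rw [hee]
        _ = (e * X * e * W * q).trace := by
              rw [Matrix.trace_mul_comm]; simp only [mul_assoc]
        _ = _ := by
              rw [corner_mul he, smul_mul_assoc, smul_mul_assoc, Matrix.trace_smul, smul_eq_mul]
              congr 1
              rw [mul_assoc e W q,
                Matrix.trace_mul_comm, hq]
              simp only [mul_assoc]
              rw [hee]
    · calc (X * e' * W * q).trace = (X * (e' * W * e' * (Z * e))).trace := by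
              rw [hq]; simp only [mul_assoc]
        _ = (e' * W).trace * (X * q).trace := by
              rw [corner_mul he', smul_mul_assoc, mul_smul_comm, Matrix.trace_smul, smul_eq_mul,
                hq]
              simp only [mul_assoc]
        _ = _ := mul_comm _ _
  have h10 : (q' * (X * W)).trace =
      (q' * X).trace * (e * W).trace + (e' * X).trace * (q' * W).trace := by
    rw [hsplit, mul_add, Matrix.trace_add]
    congr 1
    · calc (q' * (X * e * W)).trace = (e * (Y * e' * X) * e * W).trace := by
              rw [hq']; simp only [mul_assoc]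
        _ = _ := by
              rw [corner_mul he, smul_mul_assoc, Matrix.trace_smul, smul_eq_mul, hq']
              simp only [mul_assoc]
    · calc (q' * (X * e' * W)).trace = (e * Y * (e' * X * e') * W).trace := by
              rw [hq']; simp only [mul_assoc]
        _ = _ := by
              rw [corner_mul he', mul_smul_comm, smul_mul_assoc, Matrix.trace_smul, smul_eq_mul,
                hq']
  ext i j
  fin_cases i <;> fin_cases j <;>
    simp [cornerMat, Matrix.mul_apply, Fin.sum_univ_two, ← he'def, ← hq, ← hq', h00, h11, h01,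
      h10] <;> ring

end Corner

lemma mul_self_fin_two {R : Type*} [CommRing R] (X : M₂ R) :
    X * X = X.trace • X + (-X.det) • (1 : M₂ R) := by
  ext i j
  fin_cases i <;> fin_cases j <;>
    simp [Matrix.det_fin_two, Matrix.trace_fin_two, Matrix.mul_apply, Fin.sum_univ_two] <;> ring

lemma trace_map_eq {R S : Type*} [CommRing R] [CommRing S] (f : R →+* S) (X : M₂ R) :
    (X.map f).trace = f X.trace := by
  simp [Matrix.trace_fin_two]

section Descent

variable {G : Type*} [Monoid G] {A B : Type*} [CommRing A] [IsLocalRing A] [CommRing B]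

open IsLocalRing

/-- Carayol's descent in general: `ρ c` has eigenvalues `r₁, r₂ ∈ A` with `r₁ - r₂` a unit.  The
representation obtained over `A` has the given traces and is congruent to the identity modulo an
ideal at every `σ` which does not change traces modulo that ideal. -/
theorem exists_descent_of_split (f : A →+* B) (hf : Function.Injective f)
    (ρ : G →* M₂ B) (τ : G → A) (hτ : ∀ σ, f (τ σ) = (ρ σ).trace)
    {c : G} {r₁ r₂ : A} (hsum : (ρ c).trace = f (r₁ + r₂)) (hprod : (ρ c).det = f (r₁ * r₂))
    (hsep : IsUnit (r₁ - r₂)) (g : Fin 4 → G)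
    (hg : IsUnit (Matrix.of fun i j => τ (g i * g j)).det) :
    ∃ ρ₀ : G →* M₂ A, HasFullSpan ρ₀ ∧ (∀ σ, (ρ₀ σ).trace = τ σ) ∧
      (∀ σ, f (ρ₀ σ).det = (ρ σ).det) ∧
      ∀ (I : Ideal A) (σ : G), (∀ x, τ (x * σ) - τ x ∈ I) → ∀ i j, (ρ₀ σ - 1) i j ∈ I := by
  obtain ⟨v, hv⟩ := hsep.exists_left_inv
  have hv' : f v * (f r₁ - f r₂) = 1 := by rw [← map_sub, ← map_mul, hv, map_one]
  rw [map_add] at hsum
  rw [map_mul] at hprod
  set e : M₂ B := f v • (ρ c - f r₂ • 1) with he
  have het : e.trace = 1 := by
    rw [he, Matrix.trace_smul, Matrix.trace_sub, hsum, Matrix.trace_smul, Matrix.trace_one]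
    simp
    linear_combination hv'
  have hed : e.det = 0 := by
    rw [Matrix.trace_fin_two] at hsum
    rw [Matrix.det_fin_two] at hprod
    rw [he, Matrix.det_smul, Matrix.det_fin_two]
    simp
    linear_combination (f v ^ 2) * hprod - (f v ^ 2 * f r₂) * hsum
  let ε : G → A := fun σ => v * (τ (c * σ) - r₂ * τ σ)
  let ε' : G → A := fun σ => v * (r₁ * τ σ - τ (c * σ))
  have hε : ∀ σ, f (ε σ) = (e * ρ σ).trace := fun σ => by
    simp [ε, he, Matrix.trace_smul, sub_mul, Matrix.trace_sub, hτ, map_mul]
  have hε' : ∀ σ, f (ε' σ) = ((1 - e) * ρ σ).trace := fun σ => by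
    rw [sub_mul, one_mul, Matrix.trace_sub, ← hτ σ, ← hε σ, ← map_sub]
    congr 1
    simp only [ε, ε']
    linear_combination τ σ * hv
  have h1 : (1 - e) = f v • (f r₁ • 1 - ρ c) := by
    ext i j
    simp [he]
    linear_combination -(1 : M₂ B) i j * hv'
  -- traces of words `e x (1 - e) y`
  let μ : G → G → A := fun x y => v * (v *
    (r₁ * τ (c * x * y) - r₁ * r₂ * τ (x * y) - τ (c * x * c * y) + r₂ * τ (x * c * y)))
  have hμ : ∀ x y, f (μ x y) = (e * ρ x * (1 - e) * ρ y).trace := by
    intro x y
    rw [h1, he]
    simp only [μ, map_mul, map_sub, map_add, hτ, smul_mul_assoc, mul_smul_comm,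
      Matrix.trace_smul, smul_eq_mul, mul_add, sub_mul, mul_sub, one_mul, mul_one,
      Matrix.trace_sub]
    ring
  obtain ⟨y, z, hyz⟩ : ∃ y z, IsUnit (μ y z) := by
    by_contra hne
    push Not at hne
    have hμ0 : ∀ x y, residue A (μ x y) = 0 := fun x y =>
      (residue_eq_zero_iff _).mpr ((mem_maximalIdeal _).mpr (hne x y))
    have key : ∀ x y, τ (x * y) = ε x * ε y + ε' x * ε' y + (μ x y + μ y x) := by
      intro x y
      apply hf
      have he' := det_one_sub_of_trace_eq_one het hed
      have : ρ x * ρ y = (e + (1 - e)) * ρ x * (e + (1 - e)) * ρ y := by simp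
      simp only [map_add, map_mul, hτ, hε, hε', hμ]
      rw [this]
      simp only [add_mul, mul_add, Matrix.trace_add]
      simp only [corner_mul hed, corner_mul he', smul_mul_assoc, Matrix.trace_smul, smul_eq_mul]
      have : ((1 - e) * ρ x * e * ρ y).trace = (e * ρ y * (1 - e) * ρ x).trace := by
        rw [show (1 - e) * ρ x * e * ρ y = ((1 - e) * ρ x) * (e * ρ y) by simp only [mul_assoc],
          Matrix.trace_mul_comm]
        simp only [mul_assoc]
      rw [this]; ring
    let U : Matrix (Fin 4) (Fin 4) (ResidueField A) :=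
      Matrix.of fun i j => ![residue A (ε (g i)), residue A (ε' (g i)), 0, 0] j
    have hU : (Matrix.of fun i j => τ (g i * g j)).map (residue A) = U * Uᵀ := by
      ext i j
      simp [U, Matrix.mul_apply, Fin.sum_univ_four, key, hμ0]
    have hdetU : U.det = 0 := Matrix.det_eq_zero_of_column_eq_zero 2 fun i => by simp [U]
    have := hg.map (residue A)
    rw [RingHom.map_det, RingHom.mapMatrix_apply, hU, Matrix.det_mul, hdetU, zero_mul] at this
    exact not_isUnit_zero this
  obtain ⟨w, hw⟩ := hyz.exists_left_inv
  let α : G → M₂ A := fun σ => !![ε σ, v * (v *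
      (r₁ * τ (σ * z * c) - r₁ * r₂ * τ (σ * z) - τ (σ * c * z * c) + r₂ * τ (σ * c * z)));
    w * μ y σ, ε' σ]
  have hα : ∀ σ, (α σ).map f = cornerMat e (ρ y) (ρ z) (f w) (ρ σ) := by
    intro σ
    have h01 : f (v * (v * (r₁ * τ (σ * z * c) - r₁ * r₂ * τ (σ * z) - τ (σ * c * z * c) +
        r₂ * τ (σ * c * z)))) =
        (ρ σ * ((1 - e) * ρ z * e)).trace := by
      rw [h1, he]
      simp only [map_mul, map_sub, map_add, hτ, smul_mul_assoc, mul_smul_comm,
        Matrix.trace_smul, smul_eq_mul, mul_add, sub_mul, mul_sub, one_mul, mul_one,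
        Matrix.trace_sub, mul_assoc]
      ring
    ext i j
    fin_cases i <;> fin_cases j <;> simp only [Fin.zero_eta, Fin.mk_one, Matrix.map_apply]
    · simpa [α, cornerMat] using hε σ
    · simpa [α, cornerMat] using h01
    · simp [α, cornerMat, hμ]
    · simpa [α, cornerMat] using hε' σ
  have hu : f w * (e * ρ y * (1 - e) * ρ z).trace = 1 := by rw [← hμ, ← map_mul, hw, map_one]
  have hinjM : Function.Injective fun X : M₂ A => X.map f := Matrix.map_injective hf
  let ρ₀ : G →* M₂ A :=
    { toFun := α
      map_one' := hinjM (by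
        simp only [hα, map_one, cornerMat_one het hed, Matrix.map_one f f.map_zero f.map_one])
      map_mul' := fun s t => hinjM (by
        simp only [Matrix.map_mul, hα, map_mul, cornerMat_mul het hed hu]) }
  have htr : ∀ σ, (ρ₀ σ).trace = τ σ := fun σ => by
    show (α σ).trace = τ σ
    simp only [α, Matrix.trace_fin_two, Matrix.of_apply, Matrix.cons_val', Matrix.cons_val_zero,
      Matrix.cons_val_one, Matrix.empty_val', Matrix.cons_val_fin_one, ε, ε']
    linear_combination τ σ * hv
  refine ⟨ρ₀, ⟨g, ?_⟩, htr, fun σ => ?_, fun I σ hI => ?_⟩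
  · convert hg using 2
    ext i j
    simp [repGram, ← map_mul, htr]
  · -- both `ρ σ` and its image satisfy the two Cayley–Hamilton equations
    have hmap : ∀ t, (ρ₀ t).map f = cornerMat e (ρ y) (ρ z) (f w) (ρ t) := hα
    have hlin : ∀ (X Y : M₂ B) (a b : B),
        cornerMat e (ρ y) (ρ z) (f w) (a • X + b • Y) =
          a • cornerMat e (ρ y) (ρ z) (f w) X + b • cornerMat e (ρ y) (ρ z) (f w) Y := fun X Y a b => by
      ext i j
      fin_cases i <;> fin_cases j <;>
        simp [cornerMat, mul_add, add_mul, Matrix.trace_add, Matrix.trace_smul] <;> ring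
    have hsq := congrArg (cornerMat e (ρ y) (ρ z) (f w)) (mul_self_fin_two (ρ σ))
    rw [cornerMat_mul het hed hu, hlin, cornerMat_one het hed, ← hmap, mul_self_fin_two,
      trace_map_eq, htr, hτ] at hsq
    have h00 := congrFun (congrFun hsq 0) 0
    simp at h00
    rw [f.map_det]
    exact h00
  · -- multiplying `σ` on the right of a word does not change its trace modulo `I`
    have h1 : ρ₀ 1 = 1 := map_one ρ₀
    have hl : ∀ x x', τ (x * σ * x') - τ (x * x') ∈ I := by
      intro x x'
      have hcomm : ∀ a b, τ (a * b) = τ (b * a) := fun a b =>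
        hf (by rw [hτ, hτ, map_mul, map_mul, Matrix.trace_mul_comm])
      rw [hcomm (x * σ) x', hcomm x x', ← mul_assoc]
      exact hI _
    have hτ1 : τ σ - τ 1 ∈ I := by simpa using hI 1
    have hτc : τ (c * σ) - τ c ∈ I := hI c
    intro i j
    rw [← h1]
    show α σ i j - α 1 i j ∈ I
    fin_cases i <;> fin_cases j <;> simp only [α, ε, ε', μ, Fin.zero_eta, Fin.mk_one,
      Matrix.of_apply, Matrix.cons_val', Matrix.cons_val_zero, Matrix.cons_val_one,
      Matrix.empty_val', Matrix.cons_val_fin_one]
    · rw [← mul_sub]; apply I.mul_mem_left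
      convert I.sub_mem hτc (I.mul_mem_left r₂ hτ1) using 1
      simp; ring
    · rw [← mul_sub, ← mul_sub]; apply I.mul_mem_left; apply I.mul_mem_left
      have e1 := hl 1 z; have e2 := hl 1 (z * c); have e3 := hl 1 (c * z)
      have e4 := hl 1 (c * z * c)
      convert I.add_mem (I.sub_mem (I.sub_mem (I.mul_mem_left r₁ e2) (I.mul_mem_left (r₁ * r₂) e1))
        e4) (I.mul_mem_left r₂ e3) using 1
      simp [mul_assoc]; ring
    · rw [← mul_sub]; apply I.mul_mem_left; rw [← mul_sub, ← mul_sub]
      apply I.mul_mem_left; apply I.mul_mem_left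
      have e1 := hl y 1; have e2 := hl (c * y) 1; have e3 := hl (y * c) 1
      have e4 := hl (c * y * c) 1
      convert I.add_mem (I.sub_mem (I.sub_mem (I.mul_mem_left r₁ e2) (I.mul_mem_left (r₁ * r₂) e1))
        e4) (I.mul_mem_left r₂ e3) using 1
      simp [mul_assoc]; ring
    · rw [← mul_sub]; apply I.mul_mem_left
      convert I.sub_mem (I.mul_mem_left r₁ hτ1) hτc using 1
      simp; ring

end Descent

end FermatLib.Galois
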