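import Fermat.Agent.Galois.RepDescent
import Fermat.Agent.Galois.RepAdic

/-!
# Carayol's descent for Galois representations

A continuous trace function with values in a local ring comes from an adic representation.
-/

set_option autoImplicit false

open Matrix Module

namespace FermatLib.Galois

local notation "Γℚ" => (AlgebraicClosure ℚ ≃ₐ[ℚ] AlgebraicClosure ℚ)

/-- Carayol's descent, Galois version: `ρ c` has eigenvalues in `A` distinct mod the maximal
ideal (any residue characteristic). -/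
theorem exists_galoisRepAdic_descent_of_split {A : Type} [CommRing A] [IsLocalRing A] {B : Type*}
    [CommRing B] (f : A →+* B) (hf : Function.Injective f)
    (ρ : Γℚ →* Matrix (Fin 2) (Fin 2) B) (τ : Γℚ → A) (hτ : ∀ σ, f (τ σ) = (ρ σ).trace)
    {c : Γℚ} {r₁ r₂ : A} (hsum : (ρ c).trace = f (r₁ + r₂)) (hprod : (ρ c).det = f (r₁ * r₂))
    (hsep : IsUnit (r₁ - r₂)) (g : Fin 4 → Γℚ)
    (hg : IsUnit (Matrix.of fun i j => τ (g i * g j)).det)
    (hcont : ∀ n : ℕ, ∃ L : IntermediateField ℚ (AlgebraicClosure ℚ), FiniteDimensional ℚ L ∧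
      ∀ σ : Γℚ, (∀ x ∈ L, σ x = x) →
        ∀ x, τ (x * σ) - τ x ∈ IsLocalRing.maximalIdeal A ^ n) :
    ∃ R : GaloisRepAdic A, R.residual.IsAbsolutelyIrreducible ∧ (∀ σ, R.trace σ = τ σ) ∧
      ∀ σ, (LinearMap.charpoly (R.ρ σ)).map f = (ρ σ).charpoly := by
  obtain ⟨ρ₀, hfull, htr, hd, hI⟩ := exists_descent_of_split f hf ρ τ hτ hsum hprod hsep g hg
  let b := Pi.basisFun A (Fin 2)
  let D : Γℚ →* Module.End A (Fin 2 → A) :=
    (Matrix.toLinAlgEquiv b).toMonoidHom.comp ρ₀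
  have hD : ∀ σ, D σ = Matrix.toLinAlgEquiv b (ρ₀ σ) := fun σ => rfl
  let R : GaloisRepAdic A :=
    { V := Fin 2 → A
      finrank_eq := by simp
      ρ := D
      isAdicContinuous := fun n => by
        obtain ⟨L, hL, hc'⟩ := hcont n
        refine ⟨L, hL, fun σ hσ v => ?_⟩
        have hm := hI _ σ (hc' σ hσ)
        have hv : D σ v - v = (ρ₀ σ - 1) *ᵥ v := by
          rw [hD, Matrix.sub_mulVec, Matrix.one_mulVec]
          rfl
        rw [hv, pi_eq_sum_univ' ((ρ₀ σ - 1) *ᵥ v)]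
        refine Submodule.sum_mem _ fun i _ =>
          Submodule.smul_mem_smul ?_ Submodule.mem_top
        rw [Matrix.mulVec, dotProduct]
        exact Ideal.sum_mem _ fun j _ => Ideal.mul_mem_right _ _ (hm i j) }
  have hmat : ∀ σ, repMatrix b R.ρ σ = ρ₀ σ := fun σ => by
    show LinearMap.toMatrixAlgEquiv b (Matrix.toLinAlgEquiv b (ρ₀ σ)) = ρ₀ σ
    exact LinearMap.toMatrixAlgEquiv_toLinAlgEquiv b _
  have htrace : ∀ σ, R.trace σ = τ σ := fun σ => by
    rw [GaloisRepAdic.trace, ← trace_repMatrix b R.ρ σ, hmat, htr]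
  refine ⟨R, ?_, htrace, fun σ => ?_⟩
  · rw [← hasFullSpan_adicMat_iff]
    refine hfull.of_trace_eq fun σ => ?_
    rw [adicMat, trace_repMatrix, htr]
    exact (htrace σ).symm
  · haveI : Nontrivial B := hf.nontrivial
    rw [adic_charpoly_eq, Matrix.charpoly_fin_two, htrace, ← det_repMatrix b R.ρ σ, hmat]
    simp [hτ, hd]

/-- Carayol's descent, Galois version. -/
theorem exists_galoisRepAdic_descent {A : Type} [CommRing A] [IsLocalRing A] {B : Type*}
    [CommRing B] (f : A →+* B) (hf : Function.Injective f) (h2 : IsUnit (2 : A))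
    (ρ : Γℚ →* Matrix (Fin 2) (Fin 2) B) (τ : Γℚ → A) (hτ : ∀ σ, f (τ σ) = (ρ σ).trace)
    {c : Γℚ} (hc : c * c = 1) (hdet : (ρ c).det = -1) (g : Fin 4 → Γℚ)
    (hg : IsUnit (Matrix.of fun i j => τ (g i * g j)).det)
    (hcont : ∀ n : ℕ, ∃ L : IntermediateField ℚ (AlgebraicClosure ℚ), FiniteDimensional ℚ L ∧
      ∀ σ : Γℚ, (∀ x ∈ L, σ x = x) →
        ∀ x, τ (x * σ) - τ x ∈ IsLocalRing.maximalIdeal A ^ n) :
    ∃ R : GaloisRepAdic A, R.residual.IsAbsolutelyIrreducible ∧ (∀ σ, R.trace σ = τ σ) ∧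
      ∀ σ, (LinearMap.charpoly (R.ρ σ)).map f = (ρ σ).charpoly := by
  have hρc : ρ c * ρ c = 1 := by rw [← map_mul, hc, map_one]
  have htc : (ρ c).trace = 0 := by
    have h00 := congrFun (congrFun hρc 0) 0
    have h01 := congrFun (congrFun hρc 0) 1
    rw [Matrix.det_fin_two] at hdet
    simp [Matrix.mul_apply, Fin.sum_univ_two] at h00 h01
    rw [Matrix.trace_fin_two]
    linear_combination ρ c 0 0 * hdet - ρ c 1 1 * h00 + ρ c 1 0 * h01
  refine exists_galoisRepAdic_descent_of_split f hf ρ τ hτ (c := c) (r₁ := 1) (r₂ := -1) ?_ ?_ ?_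
    g hg hcont
  · simp [htc]
  · simp [hdet]
  · norm_num; exact h2

end FermatLib.Galois
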