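import Mathlib.LinearAlgebra.Matrix.NonsingularInverse
import Mathlib.LinearAlgebra.Matrix.Trace
import Mathlib.LinearAlgebra.Matrix.GeneralLinearGroup.Defs
import Mathlib.LinearAlgebra.Dimension.Constructions
import Mathlib.LinearAlgebra.Matrix.ToLinearEquiv
import Mathlib.LinearAlgebra.Matrix.Charpoly.Coeff
import Mathlib.LinearAlgebra.FiniteDimensional.Lemmas
import Mathlib.RingTheory.LocalRing.ResidueField.Basic
import Mathlib.RingTheory.OrzechProperty
import Mathlib.Algebra.Algebra.Subalgebra.Basic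
import Mathlib.Data.Fintype.EquivFin
import Mathlib.FieldTheory.IsAlgClosed.Basic
import Mathlib.Tactic.FieldSimp
import Mathlib.Tactic.NoncommRing
import Mathlib.Tactic.LinearCombination

/-!
# Two-dimensional matrix representations: full span, Schur, Carayol

For `ρ : G →* M₂(A)` we say that `ρ` has *full span* when some four values of `ρ` have a Gram
matrix for the trace form with unit determinant.  Over a field this is absolute irreducibility.
Over a local ring it can be tested on the residue field.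
-/

set_option autoImplicit false

open Matrix

namespace FermatLib.Galois

variable {G : Type*} [Monoid G] {A B : Type*} [CommRing A] [CommRing B]

local notation "M₂" R:max => Matrix (Fin 2) (Fin 2) R

/-- The Gram matrix, for the trace form, of four values of `ρ`. -/
def repGram (ρ : G →* M₂ A) (g : Fin 4 → G) : Matrix (Fin 4) (Fin 4) A :=
  Matrix.of fun i j => (ρ (g i) * ρ (g j)).trace

/-- Some four values of `ρ` form a basis of `M₂(A)`. -/
def HasFullSpan (ρ : G →* M₂ A) : Prop :=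
  ∃ g : Fin 4 → G, IsUnit (repGram ρ g).det

/-- Entrywise image of a matrix representation under a ring homomorphism. -/
def repMap (f : A →+* B) (ρ : G →* M₂ A) : G →* M₂ B :=
  (f.mapMatrix : M₂ A →+* M₂ B).toMonoidHom.comp ρ

@[simp] lemma repMap_apply (f : A →+* B) (ρ : G →* M₂ A) (σ : G) :
    repMap f ρ σ = (ρ σ).map f := rfl

lemma trace_repMap (f : A →+* B) (ρ : G →* M₂ A) (σ : G) :
    (repMap f ρ σ).trace = f (ρ σ).trace := by
  simp [Matrix.trace_fin_two]

lemma repGram_eq_of_trace_eq {ρ₁ ρ₂ : G →* M₂ A}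
    (h : ∀ σ, (ρ₁ σ).trace = (ρ₂ σ).trace) (g : Fin 4 → G) : repGram ρ₁ g = repGram ρ₂ g := by
  ext i j; simp [repGram, ← map_mul, h]

lemma HasFullSpan.of_trace_eq {ρ₁ ρ₂ : G →* M₂ A} (h₁ : HasFullSpan ρ₁)
    (h : ∀ σ, (ρ₁ σ).trace = (ρ₂ σ).trace) : HasFullSpan ρ₂ := by
  obtain ⟨g, hg⟩ := h₁
  exact ⟨g, repGram_eq_of_trace_eq h g ▸ hg⟩

lemma repGram_repMap (f : A →+* B) (ρ : G →* M₂ A) (g : Fin 4 → G) :
    repGram (repMap f ρ) g = (repGram ρ g).map f := by
  ext i j
  simp only [repGram, of_apply, map_apply, ← map_mul, trace_repMap]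

lemma HasFullSpan.repMap {ρ : G →* M₂ A} (h : HasFullSpan ρ) (f : A →+* B) :
    HasFullSpan (repMap f ρ) := by
  obtain ⟨g, hg⟩ := h
  refine ⟨g, ?_⟩
  rw [repGram_repMap]
  exact f.map_det (repGram ρ g) ▸ hg.map f

lemma HasFullSpan.of_repMap {ρ : G →* M₂ A} (f : A →+* B) [IsLocalHom f]
    (h : HasFullSpan (FermatLib.Galois.repMap f ρ)) : HasFullSpan ρ := by
  obtain ⟨g, hg⟩ := h
  rw [repGram_repMap] at hg
  refine ⟨g, isUnit_of_map_unit f _ ?_⟩
  exact (f.map_det (repGram ρ g)).symm ▸ hg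

/-- The coordinate map attached to four values of `ρ`. -/
def combMap (ρ : G →* M₂ A) (g : Fin 4 → G) : (Fin 4 → A) →ₗ[A] M₂ A :=
  ∑ i, (LinearMap.proj i).smulRight (ρ (g i))

lemma combMap_apply (ρ : G →* M₂ A) (g : Fin 4 → G) (c : Fin 4 → A) :
    combMap ρ g c = ∑ i, c i • ρ (g i) := by
  simp [combMap]

/-- Traces against four values of `ρ`. -/
def traceMap (ρ : G →* M₂ A) (g : Fin 4 → G) : M₂ A →ₗ[A] (Fin 4 → A) :=
  LinearMap.pi fun j => (Matrix.traceLinearMap (Fin 2) A A).comp (LinearMap.mulRight A (ρ (g j)))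

lemma traceMap_apply (ρ : G →* M₂ A) (g : Fin 4 → G) (X : M₂ A) (j : Fin 4) :
    traceMap ρ g X j = (X * ρ (g j)).trace := rfl

lemma traceMap_combMap (ρ : G →* M₂ A) (g : Fin 4 → G) (c : Fin 4 → A) :
    traceMap ρ g (combMap ρ g c) = c ᵥ* repGram ρ g := by
  funext j
  simp [traceMap_apply, combMap_apply, Finset.sum_mul, Matrix.trace_sum, vecMul, dotProduct,
    repGram]

lemma bijective_combMap {ρ : G →* M₂ A} {g : Fin 4 → G} (hg : IsUnit (repGram ρ g).det) :
    Function.Bijective (combMap ρ g) ∧ Function.Injective (traceMap ρ g) := by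
  have hG : IsUnit (repGram ρ g) := (Matrix.isUnit_iff_isUnit_det _).mpr hg
  have hinj : Function.Injective (combMap ρ g) := fun c d h => by
    have := congrArg (traceMap ρ g) h
    rw [traceMap_combMap, traceMap_combMap] at this
    exact Matrix.vecMul_injective_of_isUnit hG this
  have hsurj : Function.Surjective (traceMap ρ g) := fun y => by
    obtain ⟨c, hc⟩ := Matrix.vecMul_surjective_iff_isUnit.mpr hG y
    exact ⟨combMap ρ g c, (traceMap_combMap ρ g c).trans hc⟩
  let e : M₂ A ≃ₗ[A] (Fin 4 → A) :=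
    ((Matrix.stdBasis A (Fin 2) (Fin 2)).reindex (finProdFinEquiv (m := 2) (n := 2))).equivFun
  have htinj : Function.Injective (traceMap ρ g) := by
    have h := OrzechProperty.injective_of_surjective_endomorphism
      ((traceMap ρ g).comp (e.symm : (Fin 4 → A) →ₗ[A] M₂ A))
      (hsurj.comp e.symm.surjective)
    intro X Y hXY
    apply e.injective
    apply h
    simpa using hXY
  refine ⟨⟨hinj, fun X => ?_⟩, htinj⟩
  obtain ⟨c, hc⟩ := Matrix.vecMul_surjective_iff_isUnit.mpr hG (traceMap ρ g X)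
  exact ⟨c, htinj ((traceMap_combMap ρ g c).trans hc)⟩

lemma HasFullSpan.trace_ext {ρ : G →* M₂ A} (h : HasFullSpan ρ) {X Y : M₂ A}
    (hXY : ∀ σ, (X * ρ σ).trace = (Y * ρ σ).trace) : X = Y := by
  obtain ⟨g, hg⟩ := h
  exact (bijective_combMap hg).2 (funext fun j => hXY (g j))

lemma HasFullSpan.span_range_eq_top {ρ : G →* M₂ A} (h : HasFullSpan ρ) :
    Submodule.span A (Set.range ρ) = ⊤ := by
  obtain ⟨g, hg⟩ := h
  rw [eq_top_iff]
  rintro X -
  obtain ⟨c, rfl⟩ := (bijective_combMap hg).1.2 X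
  rw [combMap_apply]
  exact Submodule.sum_mem _ fun i _ =>
    Submodule.smul_mem _ _ (Submodule.subset_span ⟨g i, rfl⟩)

lemma HasFullSpan.commute_all {ρ : G →* M₂ A} (h : HasFullSpan ρ) {P : M₂ A}
    (hP : ∀ σ, P * ρ σ = ρ σ * P) (X : M₂ A) : P * X = X * P := by
  have hX : X ∈ Submodule.span A (Set.range ρ) := h.span_range_eq_top ▸ Submodule.mem_top
  induction hX using Submodule.span_induction with
  | mem x hx => obtain ⟨σ, rfl⟩ := hx; exact hP σ
  | zero => simp
  | add x y _ _ hx hy => rw [mul_add, add_mul, hx, hy]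
  | smul a x _ hx => rw [mul_smul_comm, smul_mul_assoc, hx]

/-- Schur's lemma: only scalars commute with a representation of full span. -/
lemma HasFullSpan.eq_scalar_of_commute {ρ : G →* M₂ A} (h : HasFullSpan ρ) {P : M₂ A}
    (hP : ∀ σ, P * ρ σ = ρ σ * P) : P = Matrix.scalar (Fin 2) (P 0 0) := by
  have h01 := h.commute_all hP !![0, 1; 0, 0]
  have a := congrFun (congrFun h01 0) 0
  have b := congrFun (congrFun h01 0) 1
  have h10 := h.commute_all hP !![0, 0; 1, 0]
  have c := congrFun (congrFun h10 0) 0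
  simp [Matrix.mul_apply, Fin.sum_univ_two] at a b c
  ext i j
  fin_cases i <;> fin_cases j <;> simp [a, b, c]

section Conjugation

variable [IsLocalRing A]

open IsLocalRing

/-- Carayol's lemma for traces: over a local ring two representations with equal traces are
conjugate as soon as one of them has full span. -/
theorem exists_conj_of_trace_eq {ρ₁ ρ₂ : G →* M₂ A} (h₁ : HasFullSpan ρ₁)
    (h : ∀ σ, (ρ₁ σ).trace = (ρ₂ σ).trace) :
    ∃ P : GL (Fin 2) A, ∀ σ, ρ₂ σ = (P : M₂ A) * ρ₁ σ * ((P⁻¹ : GL (Fin 2) A) : M₂ A) := by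
  obtain ⟨g, hg₁⟩ := h₁
  have hg₂ : IsUnit (repGram ρ₂ g).det := repGram_eq_of_trace_eq h g ▸ hg₁
  obtain ⟨hb₁, ht₁⟩ := bijective_combMap hg₁
  obtain ⟨hb₂, ht₂⟩ := bijective_combMap hg₂
  let e₁ := LinearEquiv.ofBijective _ hb₁
  let e₂ := LinearEquiv.ofBijective _ hb₂
  let Φ : M₂ A ≃ₗ[A] M₂ A := e₁.symm.trans e₂
  have hΦρ : ∀ σ, Φ (ρ₁ σ) = ρ₂ σ := by
    intro σ
    set c := e₁.symm (ρ₁ σ) with hcdef
    have hc : combMap ρ₁ g c = ρ₁ σ := e₁.apply_symm_apply (ρ₁ σ)
    show combMap ρ₂ g c = ρ₂ σ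
    apply ht₂
    rw [traceMap_combMap, ← repGram_eq_of_trace_eq h g, ← traceMap_combMap, hc]
    funext j
    simp only [traceMap_apply, ← map_mul, h]
  have hspan : ∀ X : M₂ A, X ∈ Submodule.span A (Set.range ρ₁) := fun X => by
    rw [HasFullSpan.span_range_eq_top ⟨g, hg₁⟩]; exact Submodule.mem_top
  have hmulρ : ∀ σ X, Φ (X * ρ₁ σ) = Φ X * ρ₂ σ := by
    intro σ X
    induction hspan X using Submodule.span_induction with
    | mem x hx =>
      obtain ⟨τ, rfl⟩ := hx
      rw [← map_mul, hΦρ, hΦρ, ← map_mul]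
    | zero => simp
    | add x y _ _ hx hy => rw [add_mul, map_add, map_add, hx, hy, add_mul]
    | smul a x _ hx => rw [smul_mul_assoc, map_smul, map_smul, hx, smul_mul_assoc]
  have hmul : ∀ X Y, Φ (X * Y) = Φ X * Φ Y := by
    intro X Y
    induction hspan Y using Submodule.span_induction with
    | mem y hy => obtain ⟨τ, rfl⟩ := hy; rw [hΦρ]; exact hmulρ τ X
    | zero => simp
    | add x y _ _ hx hy => rw [mul_add, map_add, map_add, hx, hy, mul_add]
    | smul a x _ hx => rw [mul_smul_comm, map_smul, map_smul, hx, mul_smul_comm]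
  -- a vector `w` moved by the idempotent `Φ e₁₁`
  set E : M₂ A := Φ !![1, 0; 0, 0] with hE
  have hEunit : ∃ i j, IsUnit (E i j) := by
    by_contra hne
    push Not at hne
    have hY : ∀ i j, residue A (E i j) = 0 := fun i j =>
      (residue_eq_zero_iff _).mpr ((mem_maximalIdeal _).mpr (hne i j))
    set μ := maximalIdeal A
    have hX : ∀ i j, (Φ.symm E) i j ∈ μ := by
      intro i j
      have hsum : E = ∑ a, ∑ b, E a b • Matrix.single a b (1 : A) := by
        conv_lhs => rw [matrix_eq_sum_single E]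
        simp [smul_single]
      rw [hsum, map_sum]
      simp only [map_sum, Matrix.sum_apply, map_smul, Matrix.smul_apply, smul_eq_mul]
      exact Submodule.sum_mem _ fun a _ => Submodule.sum_mem _ fun b _ =>
        Ideal.mul_mem_right _ _ ((mem_maximalIdeal _).mpr (hne a b))
    have := hX 0 0
    rw [hE, LinearEquiv.symm_apply_apply] at this
    exact (mem_maximalIdeal _).mp this (by simp)
  obtain ⟨i₀, j₀, hu⟩ := hEunit
  set w : Fin 2 → A := Pi.single j₀ 1
  let M : (Fin 2 → A) → M₂ A := fun x => !![x 0, 0; x 1, 0]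
  let F : (Fin 2 → A) →ₗ[A] (Fin 2 → A) :=
    { toFun := fun x => Φ (M x) *ᵥ w
      map_add' := fun x y => by
        rw [← Matrix.add_mulVec, ← map_add]; congr 2
        ext i j; fin_cases i <;> fin_cases j <;> simp [M]
      map_smul' := fun a x => by
        rw [RingHom.id_apply, ← Matrix.smul_mulVec, ← map_smul]; congr 2
        ext i j; fin_cases i <;> fin_cases j <;> simp [M] }
  have hequiv : ∀ (Z : M₂ A) x, F (Z *ᵥ x) = Φ Z *ᵥ F x := by
    intro Z x
    show Φ (M (Z *ᵥ x)) *ᵥ w = Φ Z *ᵥ (Φ (M x) *ᵥ w)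
    rw [Matrix.mulVec_mulVec, ← hmul]
    congr 2
    ext i j; fin_cases i <;> fin_cases j <;> simp [M, Matrix.mulVec, dotProduct, Matrix.mul_apply]
  set P : M₂ A := LinearMap.toMatrix' F
  have hP : ∀ Z, P * Z = Φ Z * P := by
    intro Z
    apply Matrix.ext_of_mulVec_single
    intro j
    rw [← Matrix.mulVec_mulVec, ← Matrix.mulVec_mulVec, LinearMap.toMatrix'_mulVec,
      LinearMap.toMatrix'_mulVec, hequiv]
  have hPu : IsUnit P := by
    -- the reduction of `P` has trivial kernel
    rw [Matrix.isUnit_iff_isUnit_det]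
    by_contra hdet
    let r := residue A
    have hd0 : (P.map r).det = 0 := by
      rw [← RingHom.mapMatrix_apply, ← RingHom.map_det]
      exact (residue_eq_zero_iff _).mpr ((mem_maximalIdeal _).mpr hdet)
    obtain ⟨v, hv0, hv⟩ := (Matrix.exists_mulVec_eq_zero_iff).mpr hd0
    have hker : ∀ Z : M₂ A, (P.map r) *ᵥ ((Z.map r) *ᵥ v) = 0 := by
      intro Z
      rw [Matrix.mulVec_mulVec, ← Matrix.map_mul, hP, Matrix.map_mul, ← Matrix.mulVec_mulVec, hv,
        Matrix.mulVec_zero]
    obtain ⟨k, hk⟩ := Function.ne_iff.mp hv0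
    have hcol : ∀ i l, r (P i l) = 0 := by
      intro i l
      have := congrFun (hker (Matrix.single l k 1)) i
      simp only [Pi.zero_apply] at this
      fin_cases l <;> fin_cases k <;>
        simp [Matrix.mulVec, dotProduct, Fin.sum_univ_two, Matrix.single] at this hk ⊢ <;>
        exact this.resolve_right hk
    have h0 : P *ᵥ Pi.single 0 1 = Φ !![1, 0; 0, 0] *ᵥ w := by
      rw [LinearMap.toMatrix'_mulVec]
      show Φ (M _) *ᵥ w = _
      congr 2
    have := congrFun h0 i₀
    simp [w] at this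
    have h' := hcol i₀ 0
    rw [this] at h'
    exact (mem_maximalIdeal _).mp ((residue_eq_zero_iff _).mp h') hu
  refine ⟨hPu.unit, fun σ => ?_⟩
  rw [IsUnit.unit_spec, hP, hΦρ, mul_assoc]
  exact (by rw [hPu.mul_val_inv, mul_one] : ρ₂ σ * (P * _) = ρ₂ σ).symm

end Conjugation

end FermatLib.Galois
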