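import Mathlib
import Fermat.Agent.Galois.TransferHecke
import Fermat.Agent.Modular.HeckeAction
import Fermat.Prelude.Def_CuspForm_HeckeEvalForms

/-!
# Faithfulness of the Hecke action on torsion from a Kummer embedding

If the cuspidal homomorphisms `Γ₀(N) → A_k`, `A_k` cyclic of order `p^k`, embed into `J₀(N)`
compatibly with the operators `T ℓ`, `ℓ ∤ N`, then Hecke polynomials killing deep `p`-power torsion
are deeply divisible by `p` on cusp forms.
-/

set_option autoImplicit false

open ModularCurve CuspForm CongruenceSubgroup FermatLib.Modular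

namespace FermatLib.Galois

variable (N : ℕ) [NeZero N]

variable {N}

/-- An integral cuspidal homomorphism is determined by its expansion in the dual basis. -/
theorem cuspidalHom_int_eq_sum (φ : cuspidalHoms ℤ (Gamma0 N) ℤ) :
    φ = ∑ i, φ.1 (Additive.ofMul (cuspBasisElt N i)) •
      (⟨cuspDualBasis N i, isCuspidalHom_cuspDualBasis N i⟩ : cuspidalHoms ℤ (Gamma0 N) ℤ) := by
  refine Subtype.ext (AddMonoidHom.ext fun g => ?_)
  rw [φ.2.eq_sum g, AddSubmonoidClass.coe_finsetSum, AddMonoidHom.finsetSum_apply]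
  refine Finset.sum_congr rfl fun i _ => ?_
  change cuspDualBasis N i g • φ.1 _ = φ.1 _ • cuspDualBasis N i g
  rw [smul_eq_mul, smul_eq_mul, mul_comm]

/-- Integral cuspidal homomorphisms form a finite `ℤ`-module. -/
theorem moduleFinite_cuspidalHoms_int : Module.Finite ℤ (cuspidalHoms ℤ (Gamma0 N) ℤ) :=
  Module.Finite.of_surjective
    (Fintype.linearCombination ℤ (fun i => (⟨cuspDualBasis N i,
      isCuspidalHom_cuspDualBasis N i⟩ : cuspidalHoms ℤ (Gamma0 N) ℤ)))
    fun φ => ⟨fun i => φ.1 (Additive.ofMul (cuspBasisElt N i)),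
      (Fintype.linearCombination_apply ℤ _ _).trans (cuspidalHom_int_eq_sum φ).symm⟩

omit [NeZero N] in
/-- An integral cuspidal homomorphism with values divisible by `n` is divisible by `n`. -/
theorem exists_eq_nsmul_of_forall_dvd {n : ℕ} (hn : n ≠ 0) (φ : cuspidalHoms ℤ (Gamma0 N) ℤ)
    (h : ∀ g, (n : ℤ) ∣ φ.1 g) : ∃ ψ : cuspidalHoms ℤ (Gamma0 N) ℤ, φ = n • ψ := by
  choose q hq using h
  have hn' : (n : ℤ) ≠ 0 := Nat.cast_ne_zero.mpr hn
  refine ⟨⟨{ toFun := q
             map_zero' := mul_left_cancel₀ hn' (by rw [← hq, map_zero, mul_zero])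
             map_add' := fun x y => mul_left_cancel₀ hn'
               (by rw [mul_add, ← hq, ← hq, ← hq, map_add]) },
    fun γ hγ => mul_left_cancel₀ hn' (by
      show (n : ℤ) * q (Additive.ofMul γ) = (n : ℤ) * 0
      rw [← hq, φ.2 γ hγ, mul_zero])⟩, Subtype.ext (AddMonoidHom.ext fun g => ?_)⟩
  rw [Submodule.coe_smul_of_tower, AddMonoidHom.nsmul_apply, nsmul_eq_mul]
  exact hq g

end FermatLib.Galois
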