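import Fermat.Agent.Galois.TransferFaithful
import Fermat.Agent.Modular.CorrFacts

/-!
# The inputs of the transfer from specialisations and Kummer embeddings
-/

set_option autoImplicit false

open ModularCurve AlgebraicCurve

namespace FermatLib.Galois

local notation "Qbar" => AlgebraicClosure ℚ
local notation "Γℚ" => (AlgebraicClosure ℚ ≃ₐ[ℚ] AlgebraicClosure ℚ)

variable {K L : Type*} [Field K] [Field L] [Algebra K L] {N p : ℕ} {J : Type*} [AddCommGroup J]
  [Module HeckeAlg J] [DistribMulAction (L ≃ₐ[K] L) J] [SMulCommClass (L ≃ₐ[K] L) HeckeAlg J]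

omit [SMulCommClass (L ≃ₐ[K] L) HeckeAlg J] in
theorem pow_nsmul_galois_smul_eq_zero {n : ℕ} (σ : L ≃ₐ[K] L) {x : J} (hx : p ^ n • x = 0) :
    p ^ n • σ • x = 0 := by
  have h := map_nsmul (DistribSMul.toAddMonoidHom J σ) (p ^ n) x
  rw [hx, map_zero] at h
  exact h.symm

/-- A specialisation gives the Eichler–Shimura relation on `p`-power torsion. -/
theorem frobeniusQuadratic_of_specializationExists
    (h : SpecializationExists (K := K) (L := L) N p J) :
    FrobeniusQuadratic (K := K) (L := L) N p J := by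
  intro ℓ hℓ hℓN A hA σ hσ x hx
  obtain ⟨J', _, _, sp, F, hsp, hrel⟩ := h ℓ hℓ hℓN A hA
  obtain ⟨n, hn⟩ := hx
  refine hsp.injective_torsion _ ⟨n, ?_⟩ ?_
  · have h1 := pow_nsmul_galois_smul_eq_zero σ hn
    have h2 : ∀ t : HeckeAlg, p ^ n • t • (σ • x) = 0 := fun t => by
      rw [smul_comm (p ^ n) t, h1, smul_zero]
    rw [nsmul_add, nsmul_sub, pow_nsmul_galois_smul_eq_zero σ h1, h2,
      smul_comm (p ^ n) ℓ, hn, smul_zero, sub_zero, add_zero]
  · rw [map_add, map_sub, hsp.hecke_comm, hsp.frobenius_comm σ hσ, hsp.frobenius_comm σ hσ,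
      map_nsmul]
    exact hrel (sp x)

end FermatLib.Galois
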